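/-
M2b / S24, task G2: principal divisors have degree zero.

For a function field of one variable `F / K` (prelude `AlgebraicCurve.Place`, `Divisor`):

* `zeroDivisor K F b`, `degree_zeroDivisor` : for a Dedekind domain `B` with fraction field `F`, the
  zeros of `b ∈ B` at the places containing `B` form a divisor of degree `dim_K B/(b)`;
* `finrank_quotient_span_algebraMap` : `dim_K B/(a) = rank_A B * dim_K A/(a)` for `B` free over `A`;
* `exists_divisor_of_isIntegralClosure` : abstract form (`A` a PID, `B` its integral closure);
* `exists_zeroDivisor`, `exists_poleDivisor`, `exists_fiberDivisor` : for `h` transcendental with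
  `F / K(h)` finite separable, the zeros of `h` (resp. poles of `h`, zeros of `h - c`) form a divisor
  of degree `[F : K(h)]`;
* `exists_principalDivisor`, `hasPrincipalDivisors` : `deg div(h) = 0`;
* `finite_residueField` : residue fields are finite over `K`;
* `finiteDimensional_adjoin_simple_of_transcendental` : `F` is finite over `K(f)` for every
  transcendental `f`.
-/
import Mathlib
import Fermat.Prelude.Def_AlgebraicCurve_DivisorClassGroup
import Fermat.Prelude.Def_AlgebraicCurve_Repartitions
import Fermat.Agent.S24.PlaceDict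
import Fermat.Agent.M2.TameDifferent
import Fermat.Agent.M2.IdealDegree

namespace Fermat.Agent.S24

open AlgebraicCurve IsDedekindDomain IsDedekindDomain.HeightOneSpectrum UniqueFactorizationMonoid
open Polynomial IntermediateField

set_option linter.unusedSectionVars false

section place

variable {K F : Type*} [Field K] [Field F] [Algebra K F]

theorem mem_iff_ord_nonneg (v : Place K F) {f : F} (hf : f ≠ 0) :
    f ∈ v.toValuationSubring ↔ 0 ≤ v.ord f := by
  constructor
  · intro h
    have := (v.adicValuation_le_one_iff (f := f)).mp (v.adicValuation_le_one_of_mem h)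
    exact this.resolve_left hf
  · intro h
    obtain ⟨π, hπ⟩ := IsDiscreteValuationRing.exists_irreducible v.toValuationSubring
    obtain ⟨u, hu⟩ := v.exists_unit_mul_zpow hf hπ
    rw [hu, show v.ord f = (((v.ord f).toNat : ℕ) : ℤ) from (Int.toNat_of_nonneg h).symm,
      zpow_natCast]
    exact mul_mem (u : v.toValuationSubring).2 (pow_mem (π : v.toValuationSubring).2 _)

theorem ord_neg_of_not_mem (v : Place K F) {f : F} (hf : f ∉ v.toValuationSubring) :
    v.ord f < 0 := by
  have hf0 : f ≠ 0 := by
    rintro rfl
    exact hf (zero_mem _)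
  by_contra h
  exact hf ((mem_iff_ord_nonneg v hf0).mpr (not_lt.mp h))

end place

section dedekind

variable {K F : Type*} [Field K] [Field F] [Algebra K F]
variable {B : Type*} [CommRing B] [IsDedekindDomain B] [Algebra B F] [IsFractionRing B F]
  [Algebra K B] [IsScalarTower K B F]

/-- The order of `b ∈ B` at the place attached to `w` is the multiplicity of `w` in `(b)`. -/
theorem ord_algebraMap_eq_count (w : HeightOneSpectrum B) {b : B} (hb : b ≠ 0) :
    (Place.ofHeightOneSpectrum (K := K) (F := F) w).ord (algebraMap B F b) =
      ((normalizedFactors (Ideal.span {b})).count w.asIdeal : ℤ) := by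
  rw [ord_ofHeightOneSpectrum, valuation_of_algebraMap,
    Fermat.Agent.M2.TameDifferent.intValuation_eq_exp_neg_count w hb, WithZero.log_exp, neg_neg]

theorem finite_support_ord (b : B) :
    (Function.support fun w : HeightOneSpectrum B =>
      (Place.ofHeightOneSpectrum (K := K) (F := F) w).ord (algebraMap B F b)).Finite := by
  rcases eq_or_ne b 0 with rfl | hb
  · simp [Function.support]
  have hI : Ideal.span {b} ≠ 0 := by
    rw [Ne, Ideal.zero_eq_bot, Ideal.span_singleton_eq_bot]; exact hb
  refine (Ideal.finite_factors hI).subset ?_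
  intro w hw
  simp only [Function.mem_support, ne_eq] at hw
  rw [ord_algebraMap_eq_count (K := K) (F := F) w hb] at hw
  have hmem : w.asIdeal ∈ normalizedFactors (Ideal.span {b}) := by
    by_contra h
    exact hw (by rw [Multiset.count_eq_zero_of_notMem h]; rfl)
  exact dvd_of_mem_normalizedFactors hmem

variable (K F) in
/-- The order function of `b` on the primes of `B`, as a finitely supported function. -/
noncomputable def ordFinsupp (b : B) : HeightOneSpectrum B →₀ ℤ :=
  Finsupp.ofSupportFinite
    (fun w => (Place.ofHeightOneSpectrum (K := K) (F := F) w).ord (algebraMap B F b))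
    (finite_support_ord (K := K) (F := F) b)

theorem ordFinsupp_apply (b : B) (w : HeightOneSpectrum B) :
    ordFinsupp K F b w = (Place.ofHeightOneSpectrum (K := K) (F := F) w).ord (algebraMap B F b) :=
  rfl

variable (K F) in
/-- The divisor of zeros of `b ∈ B` at the places containing `B`. -/
noncomputable def zeroDivisor (b : B) : Divisor K F :=
  Finsupp.mapDomain (Place.ofHeightOneSpectrum (K := K) (F := F)) (ordFinsupp K F b)

theorem zeroDivisor_ofHeightOneSpectrum (b : B) (w : HeightOneSpectrum B) :
    zeroDivisor K F b (Place.ofHeightOneSpectrum w) =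
      (Place.ofHeightOneSpectrum (K := K) (F := F) w).ord (algebraMap B F b) := by
  rw [zeroDivisor, Finsupp.mapDomain_apply ofHeightOneSpectrum_injective, ordFinsupp_apply]

theorem zeroDivisor_of_mem (b : B) (v : Place K F)
    (hv : ∀ r : B, algebraMap B F r ∈ v.toValuationSubring) :
    zeroDivisor K F b v = v.ord (algebraMap B F b) := by
  obtain ⟨w, rfl⟩ := (mem_range_ofHeightOneSpectrum_iff v).mpr hv
  exact zeroDivisor_ofHeightOneSpectrum b w

theorem zeroDivisor_of_not_mem (b : B) (v : Place K F)
    (hv : ¬ ∀ r : B, algebraMap B F r ∈ v.toValuationSubring) :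
    zeroDivisor K F b v = 0 := by
  rw [zeroDivisor]
  apply Finsupp.mapDomain_of_notMem_range
  intro h
  exact hv ((mem_range_ofHeightOneSpectrum_iff v).mp h)

theorem degree_mapDomain_ofHeightOneSpectrum (E : HeightOneSpectrum B →₀ ℤ) :
    Divisor.degree (Finsupp.mapDomain (Place.ofHeightOneSpectrum (K := K) (F := F)) E) =
      ∑ w ∈ E.support, E w * (Module.finrank K (B ⧸ w.asIdeal) : ℤ) := by
  rw [Finsupp.mapDomain, Finsupp.sum, map_sum]
  refine Finset.sum_congr rfl fun w _ => ?_
  rw [Divisor.degree_single, deg_ofHeightOneSpectrum]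

theorem support_ordFinsupp_image {b : B} (hb : b ≠ 0) :
    (ordFinsupp K F b).support.image (fun w : HeightOneSpectrum B => w.asIdeal) =
      (normalizedFactors (Ideal.span {b})).toFinset := by
  classical
  ext Q
  simp only [Finset.mem_image, Finsupp.mem_support_iff, Multiset.mem_toFinset]
  constructor
  · rintro ⟨w, hw, rfl⟩
    rw [ordFinsupp_apply, ord_algebraMap_eq_count w hb] at hw
    by_contra h
    exact hw (by rw [Multiset.count_eq_zero_of_notMem h]; rfl)
  · intro hQ
    have hprime : Prime Q := prime_of_normalized_factor Q hQ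
    refine ⟨⟨Q, Ideal.isPrime_of_prime hprime, hprime.ne_zero⟩, ?_, rfl⟩
    rw [ordFinsupp_apply, ord_algebraMap_eq_count _ hb]
    simp only [ne_eq, Nat.cast_eq_zero, Multiset.count_eq_zero, not_not]
    exact hQ

/-- The degree of the divisor of zeros of `b` is `dim_K B/(b)`. -/
theorem degree_zeroDivisor
    (hfin : ∀ Q : Ideal B, Q.IsMaximal → Q ≠ ⊥ → Module.Finite K (B ⧸ Q)) {b : B} (hb : b ≠ 0) :
    Divisor.degree (zeroDivisor K F b) = (Module.finrank K (B ⧸ Ideal.span {b}) : ℤ) := by
  classical
  have hI : Ideal.span {b} ≠ ⊥ := by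
    rw [Ne, Ideal.span_singleton_eq_bot]; exact hb
  obtain ⟨-, hr⟩ :=
    Fermat.Agent.M2.IdealDegree.finrank_quotient_eq_sum_normalizedFactors K hfin hI
  rw [hr, zeroDivisor, degree_mapDomain_ofHeightOneSpectrum, Finset.sum_multiset_map_count,
    ← support_ordFinsupp_image (K := K) (F := F) hb,
    Finset.sum_image (fun w _ w' _ h => HeightOneSpectrum.ext h)]
  push_cast
  refine Finset.sum_congr rfl fun w _ => ?_
  rw [ordFinsupp_apply, ord_algebraMap_eq_count w hb]
  simp

end dedekind

section free

variable {K A B : Type*} [Field K] [CommRing A] [Nontrivial A] [CommRing B] [Algebra A B] [Algebra K A]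
  [Algebra K B] [IsScalarTower K A B] [Module.Free A B] [Module.Finite A B]

/-- `dim_K B/(a) = rank_A B * dim_K A/(a)` for a free `A`-algebra `B` of finite rank. -/
theorem finrank_quotient_span_algebraMap (a : A) [Module.Finite K (A ⧸ Ideal.span {a})] :
    Module.finrank K (B ⧸ Ideal.span {algebraMap A B a}) =
      Module.finrank A B * Module.finrank K (A ⧸ Ideal.span {a}) := by
  classical
  let ι := Module.Free.ChooseBasisIndex A B
  let b : Module.Basis ι A B := Module.Free.chooseBasis A B
  let I : Ideal A := Ideal.span {a}
  let φ : B →ₗ[K] (ι → A ⧸ I) :=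
    ((Ideal.Quotient.mkₐ K I).toLinearMap.compLeft ι).comp
      (b.equivFun.restrictScalars K).toLinearMap
  have hφ_apply : ∀ x i, φ x i = Ideal.Quotient.mk I (b.repr x i) := fun x i => rfl
  have hφ : Function.Surjective φ := by
    intro y
    choose c hc using fun i => Ideal.Quotient.mk_surjective (y i)
    refine ⟨b.equivFun.symm c, ?_⟩
    ext i
    rw [hφ_apply, ← hc i]
    congr 1
    have := b.equivFun.apply_symm_apply c
    exact congrFun this i
  have hker : (Ideal.span {algebraMap A B a}).restrictScalars K = LinearMap.ker φ := by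
    ext x
    simp only [Submodule.restrictScalars_mem, LinearMap.mem_ker]
    rw [Ideal.mem_span_singleton']
    constructor
    · rintro ⟨y, rfl⟩
      ext i
      rw [hφ_apply, Pi.zero_apply, Ideal.Quotient.eq_zero_iff_mem, mul_comm, ← Algebra.smul_def,
        map_smul, Finsupp.smul_apply, smul_eq_mul]
      exact Ideal.mul_mem_right _ _ (Ideal.mem_span_singleton_self a)
    · intro hx
      have hmem : ∀ i, b.repr x i ∈ I := fun i => by
        have := congrFun hx i
        rwa [hφ_apply, Pi.zero_apply, Ideal.Quotient.eq_zero_iff_mem] at this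
      choose c hc using fun i => Ideal.mem_span_singleton'.mp (hmem i)
      refine ⟨b.equivFun.symm c, ?_⟩
      apply b.equivFun.injective
      ext i
      rw [mul_comm, ← Algebra.smul_def, map_smul, LinearEquiv.apply_symm_apply, Pi.smul_apply,
        smul_eq_mul, mul_comm, hc i]
      rfl
  let e : (B ⧸ Ideal.span {algebraMap A B a}) ≃ₗ[K] (ι → A ⧸ I) :=
    (Submodule.Quotient.restrictScalarsEquiv K (Ideal.span {algebraMap A B a})).symm ≪≫ₗ
      (Submodule.quotEquivOfEq _ _ hker) ≪≫ₗ φ.quotKerEquivOfSurjective hφ
  rw [e.finrank_eq, Module.finrank_pi_fintype, Finset.sum_const, Finset.card_univ, smul_eq_mul,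
    Module.finrank_eq_card_chooseBasisIndex A B]

end free

section integralClosure

theorem finite_quotient_of_finite {K A B : Type*} [Field K] [CommRing A] [Nontrivial A] [CommRing B] [IsDomain B]
    [Algebra A B] [Algebra K A] [Algebra K B] [IsScalarTower K A B] [Module.Finite A B]
    (hfinA : ∀ p : Ideal A, p ≠ ⊥ → Module.Finite K (A ⧸ p))
    (Q : Ideal B) (hQ0 : Q ≠ ⊥) : Module.Finite K (B ⧸ Q) := by
  have : Algebra.IsIntegral A B := Algebra.IsIntegral.of_finite A B
  have hp0 : Q.under A ≠ ⊥ := mt Ideal.eq_bot_of_comap_eq_bot hQ0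
  have := hfinA (Q.under A) hp0
  have : Module.Finite (A ⧸ Q.under A) (B ⧸ Q) := Module.Finite.of_restrictScalars_finite A _ _
  exact Module.Finite.trans (A ⧸ Q.under A) (B ⧸ Q)

variable {K F : Type*} [Field K] [Field F] [Algebra K F]
variable {A B L : Type*} [CommRing A] [IsDomain A] [IsPrincipalIdealRing A] [CommRing B]
  [IsDomain B] [Field L] [Algebra A L] [IsFractionRing A L] [Algebra A B] [Algebra B F]
  [Algebra A F] [Algebra L F] [IsScalarTower A B F] [IsScalarTower A L F] [IsIntegralClosure B A F]
  [FiniteDimensional L F] [Algebra.IsSeparable L F]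
  [Algebra K A] [Algebra K B] [IsScalarTower K A B] [IsScalarTower K B F]

/-- Abstract form of "the zeros of `a` have total degree `[F : L] * dim_K A/(a)`": `A` is a PID
with fraction field `L`, `B` its integral closure in the finite separable extension `F`. -/
theorem exists_divisor_of_isIntegralClosure
    (hfinA : ∀ p : Ideal A, p ≠ ⊥ → Module.Finite K (A ⧸ p)) {a : A} (ha : a ≠ 0) :
    ∃ Z : Divisor K F,
      (∀ v : Place K F, (∀ b : B, algebraMap B F b ∈ v.toValuationSubring) →
        Z v = v.ord (algebraMap A F a)) ∧
      (∀ v : Place K F, (¬ ∀ b : B, algebraMap B F b ∈ v.toValuationSubring) → Z v = 0) ∧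
      Divisor.degree Z =
        (Module.finrank L F : ℤ) * (Module.finrank K (A ⧸ Ideal.span {a}) : ℤ) := by
  have : IsDedekindDomain B := IsIntegralClosure.isDedekindDomain A L F B
  have : Module.Finite A B := IsIntegralClosure.finite A L F B
  have : IsFractionRing B F := IsIntegralClosure.isFractionRing_of_finite_extension A L F B
  have hinjF : Function.Injective (algebraMap A F) := by
    rw [IsScalarTower.algebraMap_eq A L F]
    exact (algebraMap L F).injective.comp (IsFractionRing.injective A L)
  have : Module.IsTorsionFree A F := Module.isTorsionFree_iff_algebraMap_injective.mpr hinjF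
  have : Module.Free A B := IsIntegralClosure.module_free A L F B
  have hrank : Module.finrank A B = Module.finrank L F := IsIntegralClosure.rank A L F B
  have hinj : Function.Injective (algebraMap A B) := by
    rw [IsScalarTower.algebraMap_eq A B F] at hinjF
    exact Function.Injective.of_comp hinjF
  have hb : algebraMap A B a ≠ 0 := fun h => ha (hinj (by rw [h, map_zero]))
  have hspan : Ideal.span {a} ≠ ⊥ := by
    rw [Ne, Ideal.span_singleton_eq_bot]; exact ha
  have := hfinA _ hspan
  refine ⟨zeroDivisor K F (algebraMap A B a), fun v hv => ?_, fun v hv => ?_, ?_⟩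
  · rw [zeroDivisor_of_mem _ v hv, ← IsScalarTower.algebraMap_apply]
  · exact zeroDivisor_of_not_mem _ v hv
  · rw [degree_zeroDivisor (fun Q _ hQ0 => finite_quotient_of_finite hfinA Q hQ0) hb,
      finrank_quotient_span_algebraMap, hrank]
    push_cast
    rfl

include L in
/-- Residue fields of places containing `B` are finite over `K`. -/
theorem finite_residueField_of_isIntegralClosure
    (hfinA : ∀ p : Ideal A, p ≠ ⊥ → Module.Finite K (A ⧸ p)) (v : Place K F)
    (hv : ∀ b : B, algebraMap B F b ∈ v.toValuationSubring) :
    Module.Finite K v.ResidueField := by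
  have : IsDedekindDomain B := IsIntegralClosure.isDedekindDomain A L F B
  have : Module.Finite A B := IsIntegralClosure.finite A L F B
  have : IsFractionRing B F := IsIntegralClosure.isFractionRing_of_finite_extension A L F B
  obtain ⟨w, rfl⟩ := (mem_range_ofHeightOneSpectrum_iff v).mpr hv
  have := finite_quotient_of_finite hfinA w.asIdeal w.ne_bot
  exact Module.Finite.equiv (residueFieldEquiv (K := K) (F := F) w).toLinearEquiv

end integralClosure


section adjoin

variable {K F : Type*} [Field K] [Field F] [Algebra K F] {h : F}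

theorem isPrincipalIdealRing_adjoin (htr : Transcendental K h) :
    IsPrincipalIdealRing (Algebra.adjoin K {h}) :=
  IsPrincipalIdealRing.of_surjective (Polynomial.algEquivOfTranscendental K h htr).toRingEquiv
    (Polynomial.algEquivOfTranscendental K h htr).surjective

theorem finite_quotient_polynomial {p : Ideal K[X]} (hp : p ≠ ⊥) : Module.Finite K (K[X] ⧸ p) := by
  obtain ⟨f, rfl⟩ := (IsPrincipalIdealRing.principal p).principal
  have hf : f ≠ 0 := by
    rintro rfl
    apply hp
    simp
  exact (AdjoinRoot.powerBasis hf).finite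

theorem finite_quotient_adjoin (htr : Transcendental K h) {p : Ideal (Algebra.adjoin K {h})}
    (hp : p ≠ ⊥) : Module.Finite K (Algebra.adjoin K {h} ⧸ p) := by
  set e := Polynomial.algEquivOfTranscendental K h htr
  have hq : p.comap (e : K[X] →+* Algebra.adjoin K {h}) ≠ ⊥ := by
    intro h0
    apply hp
    rw [eq_bot_iff]
    intro x hx
    obtain ⟨y, rfl⟩ := e.surjective x
    have : y ∈ p.comap (e : K[X] →+* Algebra.adjoin K {h}) := hx
    rw [h0, Ideal.mem_bot] at this
    rw [this, map_zero]
    exact Ideal.zero_mem _
  have := finite_quotient_polynomial hq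
  have hmap : p = (p.comap (e : K[X] →+* Algebra.adjoin K {h})).map
      (e : K[X] →+* Algebra.adjoin K {h}) :=
    (Ideal.map_comap_of_surjective _ e.surjective p).symm
  exact Module.Finite.equiv (Ideal.quotientEquivAlg _ _ e hmap).toLinearEquiv

/-- The generator `h` as an element of `K[h]`. -/
def gen (K : Type*) {F : Type*} [Field K] [Field F] [Algebra K F] (h : F) : Algebra.adjoin K {h} :=
  ⟨h, Algebra.self_mem_adjoin_singleton K h⟩

theorem finrank_quotient_span_gen (htr : Transcendental K h) :
    Module.finrank K (Algebra.adjoin K {h} ⧸ Ideal.span {gen K h}) = 1 := by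
  set e := Polynomial.algEquivOfTranscendental K h htr
  have hmap : Ideal.span {gen K h} = (Ideal.span {(X - C (0 : K) : K[X])}).map
      (e : K[X] →+* Algebra.adjoin K {h}) := by
    rw [Ideal.map_span, Set.image_singleton]
    congr 2
    simp [e, gen]
  have e1 : (K[X] ⧸ Ideal.span {(X - C (0 : K) : K[X])}) ≃ₐ[K] K :=
    Polynomial.quotientSpanXSubCAlgEquiv (0 : K)
  have e2 := Ideal.quotientEquivAlg _ _ e hmap
  rw [← e2.toLinearEquiv.finrank_eq, e1.toLinearEquiv.finrank_eq, Module.finrank_self]

theorem gen_ne_zero (htr : Transcendental K h) : gen K h ≠ 0 := by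
  intro h0
  have : h = 0 := congrArg Subtype.val h0
  rw [this] at htr
  exact htr (isAlgebraic_zero)

end adjoin


section main

open IntermediateField.algebraAdjoinAdjoin

variable {K F : Type*} [Field K] [Field F] [Algebra K F]

/-- **Divisor of zeros.** For `h` transcendental over `K` with `F / K(h)` finite separable, the
zeros of `h` form a divisor of degree `[F : K(h)]`. -/
theorem exists_zeroDivisor {h : F} (htr : Transcendental K h) [FiniteDimensional K⟮h⟯ F]
    [Algebra.IsSeparable K⟮h⟯ F] :
    ∃ Z : Divisor K F, (∀ v : Place K F, Z v = max (v.ord h) 0) ∧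
      Divisor.degree Z = (Module.finrank K⟮h⟯ F : ℤ) := by
  have := isPrincipalIdealRing_adjoin htr
  have : IsScalarTower (Algebra.adjoin K {h}) (integralClosure (Algebra.adjoin K {h}) F) F :=
    Subalgebra.isScalarTower_mid _
  obtain ⟨Z, h1, h2, h3⟩ := exists_divisor_of_isIntegralClosure (K := K) (F := F)
    (A := Algebra.adjoin K {h}) (B := integralClosure (Algebra.adjoin K {h}) F) (L := K⟮h⟯)
    (fun p hp => finite_quotient_adjoin htr hp) (gen_ne_zero htr)
  refine ⟨Z, fun v => ?_, ?_⟩
  · by_cases hv : h ∈ v.toValuationSubring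
    · rw [h1 v (integralClosure_adjoin_le v hv)]
      have h0 : h ≠ 0 := fun h0 => htr (h0 ▸ isAlgebraic_zero)
      have : 0 ≤ v.ord h := (mem_iff_ord_nonneg v h0).mp hv
      show v.ord h = _
      rw [max_eq_left this]
    · have hB : ¬ ∀ b : integralClosure (Algebra.adjoin K {h}) F,
          algebraMap _ F b ∈ v.toValuationSubring := fun hb =>
        hv (hb ⟨h, isIntegral_algebraMap (x := gen K h)⟩)
      rw [h2 v hB, max_eq_right (ord_neg_of_not_mem v hv).le]
  · rw [h3, finrank_quotient_span_gen htr]
    simp

/-! ### Changing the generator of `K(h)` -/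

theorem adjoin_simple_inv (h : F) : K⟮h⁻¹⟯ = K⟮h⟯ := by
  apply le_antisymm
  · rw [IntermediateField.adjoin_simple_le_iff]
    exact inv_mem (IntermediateField.mem_adjoin_simple_self K h)
  · rw [IntermediateField.adjoin_simple_le_iff]
    have := inv_mem (IntermediateField.mem_adjoin_simple_self K h⁻¹)
    rwa [inv_inv] at this

theorem adjoin_simple_sub_algebraMap (h : F) (c : K) : K⟮h - algebraMap K F c⟯ = K⟮h⟯ := by
  apply le_antisymm
  · rw [IntermediateField.adjoin_simple_le_iff]
    exact sub_mem (IntermediateField.mem_adjoin_simple_self K h) (IntermediateField.algebraMap_mem _ c)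
  · rw [IntermediateField.adjoin_simple_le_iff]
    have := add_mem (IntermediateField.mem_adjoin_simple_self K (h - algebraMap K F c))
      (IntermediateField.algebraMap_mem K⟮h - algebraMap K F c⟯ c)
    rwa [sub_add_cancel] at this

theorem finiteDimensional_of_eq {E E' : IntermediateField K F} (h : E = E')
    [FiniteDimensional E F] : FiniteDimensional E' F := by
  subst h; infer_instance

theorem isSeparable_of_eq {E E' : IntermediateField K F} (h : E = E')
    [Algebra.IsSeparable E F] : Algebra.IsSeparable E' F := by
  subst h; infer_instance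

theorem finrank_of_eq {E E' : IntermediateField K F} (h : E = E') :
    Module.finrank E F = Module.finrank E' F := by
  subst h; rfl

theorem transcendental_inv {h : F} (htr : Transcendental K h) : Transcendental K h⁻¹ := by
  intro halg
  exact htr (by simpa using halg.inv)

theorem transcendental_sub_algebraMap {h : F} (htr : Transcendental K h) (c : K) :
    Transcendental K (h - algebraMap K F c) := by
  intro halg
  apply htr
  have := halg.add (isAlgebraic_algebraMap (R := K) (A := F) c)
  rwa [sub_add_cancel] at this

/-- **Divisor of poles.** -/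
theorem exists_poleDivisor {h : F} (htr : Transcendental K h) [FiniteDimensional K⟮h⟯ F]
    [Algebra.IsSeparable K⟮h⟯ F] :
    ∃ Z : Divisor K F, (∀ v : Place K F, Z v = max (-v.ord h) 0) ∧
      Divisor.degree Z = (Module.finrank K⟮h⟯ F : ℤ) := by
  have := finiteDimensional_of_eq (adjoin_simple_inv (K := K) h).symm
  have := isSeparable_of_eq (adjoin_simple_inv (K := K) h).symm
  obtain ⟨Z, h1, h2⟩ := exists_zeroDivisor (transcendental_inv htr)
  refine ⟨Z, fun v => ?_, ?_⟩
  · rw [h1 v, v.ord_inv]
  · rw [h2, finrank_of_eq (adjoin_simple_inv (K := K) h)]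

/-- **Fibre divisor.** The divisor of zeros of `h - c` has degree `[F : K(h)]`. -/
theorem exists_fiberDivisor {h : F} (htr : Transcendental K h) [FiniteDimensional K⟮h⟯ F]
    [Algebra.IsSeparable K⟮h⟯ F] (c : K) :
    ∃ Z : Divisor K F, (∀ v : Place K F, Z v = max (v.ord (h - algebraMap K F c)) 0) ∧
      Divisor.degree Z = (Module.finrank K⟮h⟯ F : ℤ) := by
  have := finiteDimensional_of_eq (adjoin_simple_sub_algebraMap (K := K) h c).symm
  have := isSeparable_of_eq (adjoin_simple_sub_algebraMap (K := K) h c).symm
  obtain ⟨Z, h1, h2⟩ := exists_zeroDivisor (transcendental_sub_algebraMap htr c)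
  exact ⟨Z, h1, by rw [h2, finrank_of_eq (adjoin_simple_sub_algebraMap (K := K) h c)]⟩

/-- **Principal divisors have degree zero** (transcendental case). -/
theorem exists_principalDivisor {h : F} (htr : Transcendental K h) [FiniteDimensional K⟮h⟯ F]
    [Algebra.IsSeparable K⟮h⟯ F] :
    ∃ D : Divisor K F, (∀ v : Place K F, D v = v.ord h) ∧ Divisor.degree D = 0 := by
  obtain ⟨Z, hZ1, hZ2⟩ := exists_zeroDivisor htr
  obtain ⟨P, hP1, hP2⟩ := exists_poleDivisor htr
  refine ⟨Z - P, fun v => ?_, ?_⟩
  · rw [Finsupp.sub_apply, hZ1 v, hP1 v]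
    rcases le_total 0 (v.ord h) with h0 | h0
    · rw [max_eq_left h0, max_eq_right (by omega)]; ring
    · rw [max_eq_right h0, max_eq_left (by omega)]; ring
  · rw [map_sub, hZ2, hP2, sub_self]

/-! ### Finite residue fields -/

theorem finite_residueField_of_mem {h : F} (htr : Transcendental K h) [FiniteDimensional K⟮h⟯ F]
    [Algebra.IsSeparable K⟮h⟯ F] (v : Place K F) (hv : h ∈ v.toValuationSubring) :
    Module.Finite K v.ResidueField := by
  have := isPrincipalIdealRing_adjoin htr
  have : IsScalarTower (Algebra.adjoin K {h}) (integralClosure (Algebra.adjoin K {h}) F) F :=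
    Subalgebra.isScalarTower_mid _
  exact finite_residueField_of_isIntegralClosure (K := K) (F := F)
    (A := Algebra.adjoin K {h}) (B := integralClosure (Algebra.adjoin K {h}) F) (L := K⟮h⟯)
    (fun p hp => finite_quotient_adjoin htr hp) v (integralClosure_adjoin_le v hv)

/-- All residue fields of a function field of one variable are finite over the constants. -/
theorem finite_residueField {h : F} (htr : Transcendental K h) [FiniteDimensional K⟮h⟯ F]
    [Algebra.IsSeparable K⟮h⟯ F] (v : Place K F) : Module.Finite K v.ResidueField := by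
  rcases v.toValuationSubring.mem_or_inv_mem h with hv | hv
  · exact finite_residueField_of_mem htr v hv
  · have := finiteDimensional_of_eq (adjoin_simple_inv (K := K) h).symm
    have := isSeparable_of_eq (adjoin_simple_inv (K := K) h).symm
    exact finite_residueField_of_mem (transcendental_inv htr) v hv

end main

section trdeg

open IntermediateField.algebraAdjoinAdjoin

variable {K F : Type*} [Field K] [Field F] [Algebra K F]

/-- In a function field of one variable, `F` is finite over `K(f)` for every transcendental `f`. -/
theorem finiteDimensional_adjoin_simple_of_transcendental (x : F) [FiniteDimensional K⟮x⟯ F]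
    {f : F} (hf : Transcendental K f) : FiniteDimensional K⟮f⟯ F := by
  have h1 : Algebra.IsAlgebraic K⟮x⟯ F := Algebra.IsAlgebraic.of_finite _ _
  have h2 : Algebra.IsAlgebraic (Algebra.adjoin K ({x} : Set F)) F :=
    (IsFractionRing.comap_isAlgebraic_iff (A := Algebra.adjoin K ({x} : Set F)) (K := K⟮x⟯)).mpr h1
  have h3 : Algebra.trdeg K F ≤ 1 := by
    have := Algebra.IsAlgebraic.trdeg_le_cardinalMk K ({x} : Set F)
    simpa using this
  have h4 : AlgebraicIndependent K (fun _ : PUnit => f) :=
    algebraicIndependent_unique_type_iff.mpr hf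
  have h5 : IsTranscendenceBasis K (fun _ : PUnit => f) :=
    h4.isTranscendenceBasis_of_trdeg_le_of_finite (by simpa using h3)
  have h6 : Algebra.IsAlgebraic K⟮f⟯ F := by
    have := h5.isAlgebraic_field
    rwa [Set.range_const] at this
  have h7 : Algebra.EssFiniteType K K⟮x⟯ :=
    IntermediateField.essFiniteType_iff.mpr (IntermediateField.fg_adjoin_of_finite (Set.finite_singleton x))
  have h8 : Algebra.EssFiniteType K F := Algebra.EssFiniteType.comp K K⟮x⟯ F
  have h9 : Algebra.EssFiniteType K⟮f⟯ F := Algebra.EssFiniteType.of_comp K K⟮f⟯ F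
  exact Algebra.finite_of_essFiniteType_of_isAlgebraic

end trdeg


section principal

variable {K F : Type*} [Field K] [Field F] [Algebra K F]

theorem ord_eq_zero_of_isAlgebraic (v : Place K F) {f : F} (hf : IsAlgebraic K f) :
    v.ord f = 0 := by
  rcases eq_or_ne f 0 with rfl | hf0
  · simp
  have h1 : f ∈ v.toValuationSubring :=
    mem_of_isIntegral_of_forall_mem (A := K) v v.algebraMap_mem' hf.isIntegral
  have h2 : f⁻¹ ∈ v.toValuationSubring :=
    mem_of_isIntegral_of_forall_mem (A := K) v v.algebraMap_mem' hf.inv.isIntegral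
  have h3 := (mem_iff_ord_nonneg v hf0).mp h1
  have h4 := (mem_iff_ord_nonneg v (inv_ne_zero hf0)).mp h2
  rw [v.ord_inv] at h4
  omega

/-- **Principal divisors have degree zero**: a function field of one variable over a field of
characteristic zero has principal divisors in the sense of the prelude. -/
theorem hasPrincipalDivisors [CharZero K] (x : F) [FiniteDimensional K⟮x⟯ F] :
    HasPrincipalDivisors K F := by
  refine ⟨fun f hf0 => ?_⟩
  by_cases hf : IsAlgebraic K f
  · exact ⟨0, fun v => by rw [ord_eq_zero_of_isAlgebraic v hf]; rfl, map_zero _⟩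
  · have := finiteDimensional_adjoin_simple_of_transcendental x hf
    exact exists_principalDivisor hf

/-- All residue fields are finite over `K` (characteristic zero form). -/
theorem finite_residueField' [CharZero K] (x : F) (hx : Transcendental K x)
    [FiniteDimensional K⟮x⟯ F] (v : Place K F) : Module.Finite K v.ResidueField :=
  finite_residueField hx v

end principal

end Fermat.Agent.S24
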