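/-
M2b / S24, task G1: dictionary between places of a function field (prelude `AlgebraicCurve.Place`)
and primes of a Dedekind domain `R` with fraction field `F`.

* `ofHeightOneSpectrum_injective`, `mem_range_ofHeightOneSpectrum_iff`, `placeEquiv` :
  primes of `R` ↔ places of `F` containing `R`;
* `ord_ofHeightOneSpectrum` : the prelude order function is the adic order;
* `residueFieldEquiv`, `deg_ofHeightOneSpectrum` : residue field of the place is `R ⧸ w`;
* `mem_of_isIntegral_of_forall_mem`, `integralClosure_adjoin_le`, `mem_or_inv_mem_maximalIdeal` :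
  a place where `h` is integral contains the integral closure of `K[h]`; otherwise `h⁻¹` is in
  the maximal ideal.
-/
import Mathlib
import Fermat.Prelude.Def_AlgebraicCurve_DivisorClassGroup

namespace Fermat.Agent.S24

open AlgebraicCurve IsDedekindDomain IsDedekindDomain.HeightOneSpectrum

set_option linter.unusedSectionVars false

section dedekind

variable {K F : Type*} [Field K] [Field F] [Algebra K F]
variable {R : Type*} [CommRing R] [IsDedekindDomain R] [Algebra R F] [IsFractionRing R F]
  [Algebra K R] [IsScalarTower K R F]

/-! ### Primes of `R` and places containing `R` -/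

theorem ofHeightOneSpectrum_injective :
    Function.Injective (Place.ofHeightOneSpectrum (K := K) (F := F) (R := R)) := by
  intro w w' h
  have h' := congrArg Place.toValuationSubring h
  simp only [Place.ofHeightOneSpectrum_toValuationSubring] at h'
  exact HeightOneSpectrum.eq_of_valuation_isEquiv_valuation
    ((Valuation.isEquiv_iff_valuationSubring _ _).mpr h')

/-- Every element of `R` is integral at the place attached to a prime of `R`. -/
theorem algebraMap_mem_ofHeightOneSpectrum (w : HeightOneSpectrum R) (r : R) :
    algebraMap R F r ∈ (Place.ofHeightOneSpectrum (K := K) (F := F) w).toValuationSubring := by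
  rw [Place.ofHeightOneSpectrum_toValuationSubring, Valuation.mem_valuationSubring_iff]
  exact w.valuation_le_one r

/-- The centre on `R` of a place containing `R`. -/
def center (v : Place K F) (hR : ∀ r : R, algebraMap R F r ∈ v.toValuationSubring) : Ideal R :=
  (IsLocalRing.maximalIdeal v.toValuationSubring).comap
    ((algebraMap R F).codRestrict v.toValuationSubring.toSubring hR)

theorem mem_center_iff (v : Place K F) (hR : ∀ r : R, algebraMap R F r ∈ v.toValuationSubring)
    (r : R) : r ∈ center v hR ↔
      (⟨algebraMap R F r, hR r⟩ : v.toValuationSubring) ∈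
        IsLocalRing.maximalIdeal v.toValuationSubring := Iff.rfl

instance center_isPrime (v : Place K F)
    (hR : ∀ r : R, algebraMap R F r ∈ v.toValuationSubring) : (center v hR).IsPrime :=
  Ideal.comap_isPrime _ _

theorem inv_mem_of_not_mem_center (v : Place K F)
    (hR : ∀ r : R, algebraMap R F r ∈ v.toValuationSubring) {s : R} (hsc : s ∉ center v hR) :
    (algebraMap R F s)⁻¹ ∈ v.toValuationSubring := by
  rw [mem_center_iff, IsLocalRing.mem_maximalIdeal, mem_nonunits_iff, not_not] at hsc
  obtain ⟨u, hu⟩ := hsc
  have h1 : ((u⁻¹ : (v.toValuationSubring)ˣ) : v.toValuationSubring) *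
      (⟨algebraMap R F s, hR s⟩ : v.toValuationSubring) = 1 := by
    rw [← hu]; simp
  have h2 : (((u⁻¹ : (v.toValuationSubring)ˣ) : v.toValuationSubring) : F) *
      algebraMap R F s = 1 := by
    have := congrArg (Subtype.val) h1
    simpa using this
  have : (algebraMap R F s)⁻¹ =
      (((u⁻¹ : (v.toValuationSubring)ˣ) : v.toValuationSubring) : F) :=
    (eq_inv_of_mul_eq_one_left h2).symm
  rw [this]
  exact Subtype.mem _

theorem center_ne_bot (v : Place K F)
    (hR : ∀ r : R, algebraMap R F r ∈ v.toValuationSubring) : center v hR ≠ ⊥ := by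
  intro h
  apply v.ne_top'
  rw [eq_top_iff]
  intro x _
  obtain ⟨a, s, hs, rfl⟩ := IsFractionRing.div_surjective (A := R) x
  have hs0 : s ≠ 0 := nonZeroDivisors.ne_zero hs
  have hsc : s ∉ center v hR := by rw [h]; simpa using hs0
  rw [div_eq_mul_inv]
  exact mul_mem (hR a) (inv_mem_of_not_mem_center v hR hsc)

/-- The prime of `R` attached to a place containing `R`. -/
def centerSpec (v : Place K F) (hR : ∀ r : R, algebraMap R F r ∈ v.toValuationSubring) :
    HeightOneSpectrum R :=
  ⟨center v hR, center_isPrime v hR, center_ne_bot v hR⟩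

theorem ofHeightOneSpectrum_centerSpec (v : Place K F)
    (hR : ∀ r : R, algebraMap R F r ∈ v.toValuationSubring) :
    Place.ofHeightOneSpectrum (K := K) (F := F) (centerSpec v hR) = v := by
  apply Place.ext
  rw [Place.ofHeightOneSpectrum_toValuationSubring,
    ← valuationSubringAtPrime_eq_valuationSubring]
  apply ValuationSubring.eq_of_le_of_ne_top _ _ v.ne_top'
  rintro x ⟨a, s, hs, rfl⟩
  have hsc : s ∉ center v hR := hs
  exact mul_mem (hR a) (inv_mem_of_not_mem_center v hR hsc)

/-- The places containing `R` are exactly the places attached to primes of `R`. -/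
theorem mem_range_ofHeightOneSpectrum_iff (v : Place K F) :
    v ∈ Set.range (Place.ofHeightOneSpectrum (K := K) (F := F) (R := R)) ↔
      ∀ r : R, algebraMap R F r ∈ v.toValuationSubring := by
  constructor
  · rintro ⟨w, rfl⟩ r
    exact algebraMap_mem_ofHeightOneSpectrum w r
  · intro hR
    exact ⟨centerSpec v hR, ofHeightOneSpectrum_centerSpec v hR⟩

theorem centerSpec_ofHeightOneSpectrum (w : HeightOneSpectrum R) :
    centerSpec (Place.ofHeightOneSpectrum (K := K) (F := F) w)
      (algebraMap_mem_ofHeightOneSpectrum w) = w :=
  ofHeightOneSpectrum_injective (K := K) (F := F) (ofHeightOneSpectrum_centerSpec _ _)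

/-- The bijection between primes of `R` and places of `F` containing `R`. -/
noncomputable def placeEquiv :
    HeightOneSpectrum R ≃ {v : Place K F // ∀ r : R, algebraMap R F r ∈ v.toValuationSubring} where
  toFun w := ⟨Place.ofHeightOneSpectrum w, algebraMap_mem_ofHeightOneSpectrum w⟩
  invFun v := centerSpec v.1 v.2
  left_inv w := centerSpec_ofHeightOneSpectrum w
  right_inv v := Subtype.ext (ofHeightOneSpectrum_centerSpec v.1 v.2)


/-! ### The order function -/

theorem mem_ofHeightOneSpectrum_iff (w : HeightOneSpectrum R) (x : F) :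
    x ∈ (Place.ofHeightOneSpectrum (K := K) (F := F) w).toValuationSubring ↔
      w.valuation F x ≤ 1 :=
  Valuation.mem_valuationSubring_iff _ _

theorem mem_maximalIdeal_ofHeightOneSpectrum_iff (w : HeightOneSpectrum R)
    (x : (Place.ofHeightOneSpectrum (K := K) (F := F) w).toValuationSubring) :
    x ∈ IsLocalRing.maximalIdeal (Place.ofHeightOneSpectrum (K := K) (F := F) w).toValuationSubring ↔
      w.valuation F (x : F) < 1 := by
  rw [ValuationSubring.valuation_lt_one_iff]
  exact ((Valuation.isEquiv_valuation_valuationSubring (w.valuation F)).lt_one_iff_lt_one).symm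

theorem lt_one_iff_le_exp_neg_one (γ : WithZero (Multiplicative ℤ)) :
    γ < 1 ↔ γ ≤ WithZero.exp (-1 : ℤ) := by
  rw [← WithZero.lt_mul_exp_iff_le (by simp : WithZero.exp (-1 : ℤ) ≠ 0), ← WithZero.exp_add]
  simp

/-- An element of `R` which is a uniformizer for `w` is irreducible in the valuation subring. -/
theorem irreducible_uniformizer (w : HeightOneSpectrum R) {π : R}
    (hπ : w.intValuation π = WithZero.exp (-1 : ℤ)) :
    Irreducible (⟨algebraMap R F π, algebraMap_mem_ofHeightOneSpectrum w π⟩ :
      (Place.ofHeightOneSpectrum (K := K) (F := F) w).toValuationSubring) := by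
  rw [IsDiscreteValuationRing.irreducible_iff_uniformizer]
  have hπF : w.valuation F (algebraMap R F π) = WithZero.exp (-1 : ℤ) := by
    rw [valuation_of_algebraMap, hπ]
  have hπ0 : algebraMap R F π ≠ 0 := by
    intro h
    rw [h, map_zero] at hπF
    exact WithZero.exp_ne_zero hπF.symm
  ext x
  rw [mem_maximalIdeal_ofHeightOneSpectrum_iff, Ideal.mem_span_singleton', lt_one_iff_le_exp_neg_one]
  constructor
  · intro hx
    have hmem : (x : F) / algebraMap R F π ∈
        (Place.ofHeightOneSpectrum (K := K) (F := F) w).toValuationSubring := by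
      rw [mem_ofHeightOneSpectrum_iff, map_div₀, hπF, div_le_iff₀ (by simp)]
      simpa using hx
    refine ⟨⟨_, hmem⟩, ?_⟩
    ext
    simp only [MulMemClass.coe_mul]
    field_simp
  · rintro ⟨a, rfl⟩
    simp only [MulMemClass.coe_mul, map_mul, hπF]
    have ha : w.valuation F (a : F) ≤ 1 := (mem_ofHeightOneSpectrum_iff (K := K) w _).mp a.2
    calc w.valuation F (a : F) * WithZero.exp (-1 : ℤ) ≤ 1 * WithZero.exp (-1 : ℤ) := by gcongr
      _ = WithZero.exp (-1 : ℤ) := one_mul _

theorem valuation_unit_eq_one (w : HeightOneSpectrum R)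
    (u : ((Place.ofHeightOneSpectrum (K := K) (F := F) w).toValuationSubring)ˣ) :
    w.valuation F ((u : (Place.ofHeightOneSpectrum (K := K) (F := F) w).toValuationSubring) : F)
      = 1 := by
  have h1 := (mem_ofHeightOneSpectrum_iff (K := K) w _).mp
    (u : (Place.ofHeightOneSpectrum (K := K) (F := F) w).toValuationSubring).2
  have h2 := (mem_ofHeightOneSpectrum_iff (K := K) w _).mp
    ((u⁻¹ : _ˣ) : (Place.ofHeightOneSpectrum (K := K) (F := F) w).toValuationSubring).2
  have hmul : w.valuation F ((u : (Place.ofHeightOneSpectrum (K := K) (F := F) w).toValuationSubring) : F) *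
      w.valuation F (((u⁻¹ : _ˣ) : (Place.ofHeightOneSpectrum (K := K) (F := F) w).toValuationSubring) : F) = 1 := by
    rw [← map_mul, ← MulMemClass.coe_mul, ← Units.val_mul, mul_inv_cancel]
    simp
  by_contra hne
  have hlt : w.valuation F ((u : (Place.ofHeightOneSpectrum (K := K) (F := F) w).toValuationSubring) : F) < 1 :=
    lt_of_le_of_ne h1 hne
  have : (1 : WithZero (Multiplicative ℤ)) < 1 := by
    calc (1 : WithZero (Multiplicative ℤ)) = _ := hmul.symm
      _ ≤ w.valuation F ((u : (Place.ofHeightOneSpectrum (K := K) (F := F) w).toValuationSubring) : F) * 1 := by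
          gcongr
      _ = _ := mul_one _
      _ < 1 := hlt
  exact lt_irrefl _ this

/-- The prelude order function at the place attached to `w` is the `w`-adic order. -/
theorem ord_ofHeightOneSpectrum (w : HeightOneSpectrum R) (f : F) :
    (Place.ofHeightOneSpectrum (K := K) (F := F) w).ord f = -(WithZero.log (w.valuation F f)) := by
  rcases eq_or_ne f 0 with rfl | hf
  · simp
  obtain ⟨π, hπ⟩ := w.intValuation_exists_uniformizer
  have hirr := irreducible_uniformizer (K := K) (F := F) w hπ
  obtain ⟨u, hu⟩ := (Place.ofHeightOneSpectrum (K := K) (F := F) w).exists_unit_mul_zpow hf hirr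
  set n := (Place.ofHeightOneSpectrum (K := K) (F := F) w).ord f with hn
  have hπF : w.valuation F (algebraMap R F π) = WithZero.exp (-1 : ℤ) := by
    rw [valuation_of_algebraMap, hπ]
  have : w.valuation F f = WithZero.exp (-n) := by
    conv_lhs => rw [hu]
    rw [map_mul, valuation_unit_eq_one, one_mul, map_zpow₀]
    simp only [hπF]
    rw [← WithZero.exp_zsmul]
    simp
  rw [this, WithZero.log_exp, neg_neg]


/-! ### The residue field -/

/-- The inclusion of `R` into the valuation subring of the place attached to `w`, as a
`K`-algebra homomorphism. -/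
noncomputable def toValuationSubringHom (w : HeightOneSpectrum R) :
    R →ₐ[K] (Place.ofHeightOneSpectrum (K := K) (F := F) w).toValuationSubring where
  __ := (algebraMap R F).codRestrict
    (Place.ofHeightOneSpectrum (K := K) (F := F) w).toValuationSubring.toSubring
    (algebraMap_mem_ofHeightOneSpectrum w)
  commutes' a := by
    apply Subtype.ext
    show algebraMap R F (algebraMap K R a) = algebraMap K F a
    rw [← IsScalarTower.algebraMap_apply]

@[simp]
theorem coe_toValuationSubringHom (w : HeightOneSpectrum R) (r : R) :
    ((toValuationSubringHom (K := K) (F := F) w r :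
      (Place.ofHeightOneSpectrum (K := K) (F := F) w).toValuationSubring) : F) = algebraMap R F r :=
  rfl

/-- The map from `R` to the residue field of the place attached to `w`. -/
noncomputable def toResidueHom (w : HeightOneSpectrum R) :
    R →ₐ[K] (Place.ofHeightOneSpectrum (K := K) (F := F) w).ResidueField :=
  (IsScalarTower.toAlgHom K (Place.ofHeightOneSpectrum (K := K) (F := F) w).toValuationSubring
    (Place.ofHeightOneSpectrum (K := K) (F := F) w).ResidueField).comp (toValuationSubringHom w)

theorem toResidueHom_apply (w : HeightOneSpectrum R) (r : R) :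
    toResidueHom (K := K) (F := F) w r =
      IsLocalRing.residue _ (toValuationSubringHom (K := K) (F := F) w r) := rfl

theorem ker_toResidueHom (w : HeightOneSpectrum R) :
    RingHom.ker (toResidueHom (K := K) (F := F) w) = w.asIdeal := by
  ext r
  rw [RingHom.mem_ker, toResidueHom_apply, IsLocalRing.residue_eq_zero_iff,
    mem_maximalIdeal_ofHeightOneSpectrum_iff, coe_toValuationSubringHom, valuation_of_algebraMap,
    intValuation_lt_one_iff_mem]

theorem toResidueHom_surjective (w : HeightOneSpectrum R) :
    Function.Surjective (toResidueHom (K := K) (F := F) w) := by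
  intro y
  obtain ⟨x, rfl⟩ := IsLocalRing.residue_surjective y
  have hx : w.valuation F (x : F) ≤ 1 := (mem_ofHeightOneSpectrum_iff (K := K) w _).mp x.2
  obtain ⟨n, d, hnd⟩ := exists_primeCompl_mul_eq_of_integer w (x : F) hx
  have hmax : w.asIdeal.IsMaximal := w.isMaximal
  have hd : (d : R) ∉ w.asIdeal := d.2
  obtain ⟨d', i, hi, hdi⟩ := hmax.exists_inv hd
  refine ⟨n * d', ?_⟩
  rw [toResidueHom_apply, ← sub_eq_zero, ← map_sub, IsLocalRing.residue_eq_zero_iff]
  have hiM : toValuationSubringHom (K := K) (F := F) w i ∈
      IsLocalRing.maximalIdeal (Place.ofHeightOneSpectrum (K := K) (F := F) w).toValuationSubring := by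
    rw [mem_maximalIdeal_ofHeightOneSpectrum_iff, coe_toValuationSubringHom, valuation_of_algebraMap,
      intValuation_lt_one_iff_mem]
    exact hi
  have : toValuationSubringHom (K := K) (F := F) w (n * d') - x =
      - (x * toValuationSubringHom (K := K) (F := F) w i) := by
    apply Subtype.ext
    simp only [AddSubgroupClass.coe_sub, coe_toValuationSubringHom, map_mul, NegMemClass.coe_neg,
      MulMemClass.coe_mul]
    have h1 : algebraMap R F d' * algebraMap R F d + algebraMap R F i = 1 := by
      rw [← map_mul, ← map_add, hdi, map_one]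
    rw [← hnd]
    linear_combination (x : F) * h1
  rw [this]
  exact neg_mem (Ideal.mul_mem_left _ _ hiM)

/-- The residue field of the place attached to `w` is `R ⧸ w`. -/
noncomputable def residueFieldEquiv (w : HeightOneSpectrum R) :
    (R ⧸ w.asIdeal) ≃ₐ[K] (Place.ofHeightOneSpectrum (K := K) (F := F) w).ResidueField :=
  (Ideal.quotientEquivAlgOfEq K (ker_toResidueHom (K := K) (F := F) w).symm).trans
    (Ideal.quotientKerAlgEquivOfSurjective (toResidueHom_surjective (K := K) (F := F) w))

theorem deg_ofHeightOneSpectrum (w : HeightOneSpectrum R) :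
    (Place.ofHeightOneSpectrum (K := K) (F := F) w).deg = Module.finrank K (R ⧸ w.asIdeal) :=
  ((residueFieldEquiv (K := K) (F := F) w).toLinearEquiv.finrank_eq).symm


end dedekind

/-! ### Integral closures -/

section integral

variable {K F : Type*} [Field K] [Field F] [Algebra K F]

/-- A valuation ring containing (the image of) `A` contains every element integral over `A`. -/
theorem mem_of_isIntegral_of_forall_mem {A : Type*} [CommRing A] [Algebra A F] (v : Place K F)
    (hA : ∀ a : A, algebraMap A F a ∈ v.toValuationSubring) {x : F} (hx : IsIntegral A x) :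
    x ∈ v.toValuationSubring := by
  obtain ⟨p, hp, hpx⟩ := hx
  let ι : A →+* v.toValuationSubring :=
    (algebraMap A F).codRestrict v.toValuationSubring.toSubring hA
  have hint : IsIntegral v.toValuationSubring x := by
    refine ⟨p.map ι, hp.map ι, ?_⟩
    rw [Polynomial.eval₂_map]
    exact hpx
  obtain ⟨y, hy⟩ := IsIntegrallyClosed.isIntegral_iff.mp hint
  rw [← hy]
  exact y.2

/-- The valuation subring of a place, as a `K`-subalgebra of `F`. -/
def placeSubalgebra (v : Place K F) : Subalgebra K F where
  __ := v.toValuationSubring.toSubring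
  algebraMap_mem' := v.algebraMap_mem'

@[simp]
theorem mem_placeSubalgebra (v : Place K F) (x : F) :
    x ∈ placeSubalgebra v ↔ x ∈ v.toValuationSubring := Iff.rfl

theorem adjoin_le_placeSubalgebra (v : Place K F) {h : F} (hh : h ∈ v.toValuationSubring) :
    Algebra.adjoin K {h} ≤ placeSubalgebra v :=
  Algebra.adjoin_le (Set.singleton_subset_iff.mpr hh)

/-- If `h` is integral at `v` then so is the integral closure of `K[h]` in `F`. -/
theorem integralClosure_adjoin_le (v : Place K F) {h : F} (hh : h ∈ v.toValuationSubring)
    (b : integralClosure (Algebra.adjoin K {h}) F) : (b : F) ∈ v.toValuationSubring := by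
  apply mem_of_isIntegral_of_forall_mem v _ b.2
  intro a
  exact adjoin_le_placeSubalgebra v hh a.2

theorem mem_or_inv_mem_maximalIdeal (v : Place K F) (h : F) :
    h ∈ v.toValuationSubring ∨
      ∃ hm : h⁻¹ ∈ v.toValuationSubring,
        (⟨h⁻¹, hm⟩ : v.toValuationSubring) ∈ IsLocalRing.maximalIdeal v.toValuationSubring := by
  by_cases hh : h ∈ v.toValuationSubring
  · exact Or.inl hh
  · right
    have hm : h⁻¹ ∈ v.toValuationSubring :=
      (v.toValuationSubring.mem_or_inv_mem h).resolve_left hh
    refine ⟨hm, ?_⟩
    rw [IsLocalRing.mem_maximalIdeal, mem_nonunits_iff]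
    rintro ⟨u, hu⟩
    apply hh
    have h1 : ((u⁻¹ : (v.toValuationSubring)ˣ) : v.toValuationSubring) *
        (⟨h⁻¹, hm⟩ : v.toValuationSubring) = 1 := by
      rw [← hu]; simp
    have h2 : (((u⁻¹ : (v.toValuationSubring)ˣ) : v.toValuationSubring) : F) * h⁻¹ = 1 := by
      have := congrArg (Subtype.val) h1
      simpa using this
    have h0 : h ≠ 0 := by
      rintro rfl
      exact hh (zero_mem _)
    have : h = (((u⁻¹ : (v.toValuationSubring)ˣ) : v.toValuationSubring) : F) := by
      field_simp at h2
      exact h2.symm
    rw [this]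
    exact Subtype.mem _


end integral

end Fermat.Agent.S24
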