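import Mathlib
import Fermat.Prelude.Def_AlgebraicCurve_Repartitions
import Fermat.Agent.S24.PlaceDict
import Fermat.Agent.M2.Oinf

/-!
# S24 / B5: counting places over a point of the `x`-line

Pure algebra.  For a function field `F / K` (in the prelude's `Place` language) we identify

* places `v` with `x - c ∈ m_v` with the primes over `(X - c)` of an integral closure of `K[X]`;
* places `v` with `x⁻¹ ∈ m_v` with the primes over the maximal ideal of an integral closure of the
  valuation ring at infinity `Oinf K` of `K(X)`;

and we transport such counts along isomorphisms of function fields.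

"`h` vanishes at `v`" is always written `h ∈ v.toValuationSubring.nonunits`.

Namespace `Fermat.Agent.S24.CountsC`.
-/

set_option autoImplicit false

namespace Fermat.Agent.S24.CountsC

open AlgebraicCurve IsDedekindDomain

section Bridges

variable {K F : Type*} [Field K] [Field F] [Algebra K F] (v : Place K F)

/-- `h ∈ m_v` in terms of the normalised valuation of the place. -/
theorem mem_nonunits_iff_adicValuation_lt_one (h : F) :
    h ∈ v.toValuationSubring.nonunits ↔ v.adicValuation h < 1 := by
  constructor
  · intro hh
    have hmem : h ∈ v.toValuationSubring := v.toValuationSubring.nonunits_subset hh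
    have h1 : (⟨h, hmem⟩ : v.toValuationSubring) ∈ IsLocalRing.maximalIdeal v.toValuationSubring :=
      (ValuationSubring.coe_mem_nonunits_iff (A := v.toValuationSubring)
        (a := ⟨h, hmem⟩)).mp hh
    have h2 := v.adicValuation_coe ⟨h, hmem⟩
    rw [show ((⟨h, hmem⟩ : v.toValuationSubring) : F) = h from rfl] at h2
    rw [h2, HeightOneSpectrum.intValuation_lt_one_iff_mem, Place.heightOneSpectrum_asIdeal]
    exact h1
  · intro hh
    by_cases hmem : h ∈ v.toValuationSubring
    · have h2 := v.adicValuation_coe ⟨h, hmem⟩
      rw [show ((⟨h, hmem⟩ : v.toValuationSubring) : F) = h from rfl] at h2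
      rw [h2, HeightOneSpectrum.intValuation_lt_one_iff_mem, Place.heightOneSpectrum_asIdeal] at hh
      exact (ValuationSubring.coe_mem_nonunits_iff (A := v.toValuationSubring)
        (a := ⟨h, hmem⟩)).mpr hh
    · exfalso
      have hinv : h⁻¹ ∈ v.toValuationSubring :=
        (v.toValuationSubring.mem_or_inv_mem h).resolve_left hmem
      have h0 : h ≠ 0 := fun h0 => hmem (h0 ▸ v.toValuationSubring.zero_mem)
      have h3 : v.adicValuation h⁻¹ ≤ 1 := v.adicValuation_le_one_of_mem hinv
      rw [map_inv₀] at h3
      have hpos : v.adicValuation h ≠ 0 := v.adicValuation_ne_zero h0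
      have : 1 ≤ v.adicValuation h := by
        by_contra hlt
        rw [not_le] at hlt
        have := (one_lt_inv₀ (zero_lt_iff.mpr hpos)).mpr hlt
        exact absurd h3 (not_le.mpr this)
      exact absurd hh (not_lt.mpr this)

/-- `h ∈ m_v` in terms of `ord`. -/
theorem mem_nonunits_iff_ord_pos {h : F} (h0 : h ≠ 0) :
    h ∈ v.toValuationSubring.nonunits ↔ 0 < v.ord h := by
  rw [mem_nonunits_iff_adicValuation_lt_one, v.adicValuation_eq_exp_neg_ord h0,
    ← WithZero.exp_zero, WithZero.exp_lt_exp]
  omega

theorem zero_mem_nonunits : (0 : F) ∈ v.toValuationSubring.nonunits := by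
  rw [mem_nonunits_iff_adicValuation_lt_one]; simp

/-- `O_v · m_v ⊆ m_v`. -/
theorem mul_mem_nonunits {a h : F} (ha : a ∈ v.toValuationSubring)
    (hh : h ∈ v.toValuationSubring.nonunits) : a * h ∈ v.toValuationSubring.nonunits := by
  rw [mem_nonunits_iff_adicValuation_lt_one] at hh ⊢
  rw [map_mul]
  calc v.adicValuation a * v.adicValuation h ≤ 1 * v.adicValuation h := by
        gcongr
        exact v.adicValuation_le_one_of_mem ha
    _ = v.adicValuation h := one_mul _
    _ < 1 := hh

end Bridges

section General

variable {K F : Type*} [Field K] [Field F] [Algebra K F]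
variable {R : Type*} [CommRing R] [IsDedekindDomain R] [Algebra R F] [IsFractionRing R F]
  [Algebra K R] [IsScalarTower K R F]
variable {A : Type*} [CommRing A] [Algebra A R] [Algebra A F] [IsScalarTower A R F]

/-- Vanishing at the place attached to a prime `w` of `R`. -/
theorem mem_nonunits_ofHeightOneSpectrum_iff (w : HeightOneSpectrum R) (h : F) :
    h ∈ (Place.ofHeightOneSpectrum (K := K) (F := F) w).toValuationSubring.nonunits ↔
      w.valuation F h < 1 := by
  constructor
  · intro hh
    have hmem := (Place.ofHeightOneSpectrum (K := K) (F := F) w).toValuationSubring.nonunits_subset hh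
    have h1 := (ValuationSubring.coe_mem_nonunits_iff
      (A := (Place.ofHeightOneSpectrum (K := K) (F := F) w).toValuationSubring)
      (a := ⟨h, hmem⟩)).mp hh
    exact (mem_maximalIdeal_ofHeightOneSpectrum_iff (K := K) (F := F) w ⟨h, hmem⟩).mp h1
  · intro hh
    have hmem : h ∈ (Place.ofHeightOneSpectrum (K := K) (F := F) w).toValuationSubring :=
      (mem_ofHeightOneSpectrum_iff (K := K) (F := F) w h).mpr hh.le
    have h1 := (mem_maximalIdeal_ofHeightOneSpectrum_iff (K := K) (F := F) w ⟨h, hmem⟩).mpr hh
    exact (ValuationSubring.coe_mem_nonunits_iff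
      (A := (Place.ofHeightOneSpectrum (K := K) (F := F) w).toValuationSubring)
      (a := ⟨h, hmem⟩)).mpr h1

theorem algebraMap_mem_nonunits_ofHeightOneSpectrum_iff (w : HeightOneSpectrum R) (r : R) :
    algebraMap R F r ∈
        (Place.ofHeightOneSpectrum (K := K) (F := F) w).toValuationSubring.nonunits ↔
      r ∈ w.asIdeal := by
  rw [mem_nonunits_ofHeightOneSpectrum_iff, HeightOneSpectrum.valuation_of_algebraMap,
    HeightOneSpectrum.intValuation_lt_one_iff_mem]

/-- The condition singling out the places over the maximal ideal `p` of `A`. -/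
def IsOver (p : Ideal A) (v : Place K F) : Prop :=
  (∀ a : A, algebraMap A F a ∈ v.toValuationSubring) ∧
    ∀ a ∈ p, algebraMap A F a ∈ v.toValuationSubring.nonunits

omit [IsDedekindDomain R] [IsFractionRing R F] [Algebra K R] [IsScalarTower K R F] in
/-- A place containing `A` contains `R` when `R` is integral over `A`. -/
theorem forall_mem_of_isIntegral [Algebra.IsIntegral A R] (v : Place K F)
    (hA : ∀ a : A, algebraMap A F a ∈ v.toValuationSubring) (r : R) :
    algebraMap R F r ∈ v.toValuationSubring := by
  apply mem_of_isIntegral_of_forall_mem v hA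
  exact (Algebra.IsIntegral.isIntegral (R := A) r).map (IsScalarTower.toAlgHom A R F)

variable (K F R) in
/-- **Primes over `p` ↔ places over `p`.** -/
noncomputable def primesOverEquiv [Algebra.IsIntegral A R]
    (hinj : Function.Injective (algebraMap A R)) (p : Ideal A) [p.IsMaximal] (hp : p ≠ ⊥) :
    ↥(p.primesOver R) ≃ {v : Place K F // IsOver (A := A) p v} where
  toFun P :=
    have hP : P.1.IsPrime := P.2.1
    have hne : P.1 ≠ ⊥ := by
      intro h0
      have hlo : P.1.LiesOver p := P.2.2
      have h1 : p = P.1.under A := hlo.over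
      rw [h0] at h1
      apply hp
      rw [h1]
      ext a
      simp only [Ideal.under_def, Ideal.mem_comap, Ideal.mem_bot]
      exact ⟨fun h => hinj (by rw [h, map_zero]), fun h => by rw [h, map_zero]⟩
    ⟨Place.ofHeightOneSpectrum (K := K) (F := F) ⟨P.1, hP, hne⟩, by
      constructor
      · intro a
        rw [IsScalarTower.algebraMap_apply A R F]
        exact algebraMap_mem_ofHeightOneSpectrum _ _
      · intro a ha
        rw [IsScalarTower.algebraMap_apply A R F,
          algebraMap_mem_nonunits_ofHeightOneSpectrum_iff]
        have hlo : P.1.LiesOver p := P.2.2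
        have h1 : p = P.1.under A := hlo.over
        rw [h1] at ha
        exact ha⟩
  invFun v :=
    let w := centerSpec (R := R) v.1 (forall_mem_of_isIntegral v.1 v.2.1)
    ⟨w.asIdeal, w.isPrime, ⟨by
      have hle : p ≤ w.asIdeal.under A := by
        intro a ha
        rw [Ideal.under_def, Ideal.mem_comap]
        have := v.2.2 a ha
        rw [IsScalarTower.algebraMap_apply A R F] at this
        have h2 := ofHeightOneSpectrum_centerSpec (R := R) v.1 (forall_mem_of_isIntegral v.1 v.2.1)
        rw [← h2] at this
        exact (algebraMap_mem_nonunits_ofHeightOneSpectrum_iff (K := K) (F := F) w _).mp this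
      have hne : w.asIdeal.under A ≠ ⊤ := by
        have : (w.asIdeal.under A).IsPrime := Ideal.comap_isPrime _ _
        exact this.ne_top
      exact (Ideal.IsMaximal.eq_of_le inferInstance hne hle)⟩⟩
  left_inv P := by
    apply Subtype.ext
    simp only
    have := centerSpec_ofHeightOneSpectrum (K := K) (F := F) (R := R)
      ⟨P.1, P.2.1, by
        intro h0
        have hlo : P.1.LiesOver p := P.2.2
        have h1 : p = P.1.under A := hlo.over
        rw [h0] at h1
        apply hp
        rw [h1]
        ext a
        simp only [Ideal.under_def, Ideal.mem_comap, Ideal.mem_bot]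
        exact ⟨fun h => hinj (by rw [h, map_zero]), fun h => by rw [h, map_zero]⟩⟩
    exact congrArg HeightOneSpectrum.asIdeal this
  right_inv v := by
    apply Subtype.ext
    exact ofHeightOneSpectrum_centerSpec (R := R) v.1 (forall_mem_of_isIntegral v.1 v.2.1)

theorem card_primesOver_eq [Algebra.IsIntegral A R]
    (hinj : Function.Injective (algebraMap A R)) (p : Ideal A) [p.IsMaximal] (hp : p ≠ ⊥) :
    Nat.card ↥(p.primesOver R) = Nat.card {v : Place K F // IsOver (A := A) p v} :=
  Nat.card_congr (primesOverEquiv K F R hinj p hp)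

end General

section Finite

open Polynomial

variable {K F : Type*} [Field K] [Field F] [Algebra K F]
  [Algebra K[X] F] [IsScalarTower K K[X] F]

/-- If `x ∈ O_v` then `K[x] ⊆ O_v`. -/
theorem algebraMap_poly_mem (v : Place K F)
    (hx : algebraMap K[X] F X ∈ v.toValuationSubring) (a : K[X]) :
    algebraMap K[X] F a ∈ v.toValuationSubring := by
  induction a using Polynomial.induction_on' with
  | add p q hp hq => rw [map_add]; exact v.toValuationSubring.add_mem _ _ hp hq
  | monomial n c =>
    rw [← Polynomial.C_mul_X_pow_eq_monomial, map_mul, map_pow]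
    refine v.toValuationSubring.mul_mem _ _ ?_ (pow_mem hx n)
    have : algebraMap K[X] F (C c) = algebraMap K F c := by
      rw [← Polynomial.algebraMap_eq, ← IsScalarTower.algebraMap_apply]
    rw [this]
    exact v.algebraMap_mem' c

/-- For `A = K[X]` and `p = (X - c)`: `v` is over `p` iff `x - c ∈ m_v`. -/
theorem isOver_span_X_sub_C_iff (c : K) (v : Place K F) :
    IsOver (A := K[X]) (Ideal.span {X - C c}) v ↔
      algebraMap K[X] F X - algebraMap K F c ∈ v.toValuationSubring.nonunits := by
  have hC : algebraMap K[X] F (C c) = algebraMap K F c := by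
    rw [← Polynomial.algebraMap_eq, ← IsScalarTower.algebraMap_apply]
  constructor
  · rintro ⟨-, h2⟩
    have := h2 (X - C c) (Ideal.subset_span rfl)
    rwa [map_sub, hC] at this
  · intro h
    have hx : algebraMap K[X] F X ∈ v.toValuationSubring := by
      have h1 := v.toValuationSubring.nonunits_subset h
      have h2 := v.toValuationSubring.add_mem _ _ h1 (v.algebraMap_mem' c)
      simpa using h2
    refine ⟨algebraMap_poly_mem v hx, ?_⟩
    intro a ha
    obtain ⟨b, rfl⟩ := Ideal.mem_span_singleton'.mp ha
    rw [map_mul, map_sub, hC]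
    exact mul_mem_nonunits v (algebraMap_poly_mem v hx b) h

variable {R : Type*} [CommRing R] [IsDedekindDomain R] [Algebra R F] [IsFractionRing R F]
  [Algebra K R] [IsScalarTower K R F] [Algebra K[X] R] [IsScalarTower K[X] R F]

/-- **Finite places**: the number of primes of `R` (an integral extension of `K[X]` with fraction
field `F`, e.g. `integralClosure K[X] F`) over `(X - c)` is the number of places of `F` at which
`x - c` vanishes. -/
theorem card_primesOver_span_X_sub_C [Algebra.IsIntegral K[X] R]
    (hinj : Function.Injective (algebraMap K[X] R)) (c : K) :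
    Nat.card ↥((Ideal.span {X - C c} : Ideal K[X]).primesOver R) =
      Nat.card {v : Place K F //
        algebraMap K[X] F X - algebraMap K F c ∈ v.toValuationSubring.nonunits} := by
  have hmax : (Ideal.span {X - C c} : Ideal K[X]).IsMaximal :=
    PrincipalIdealRing.isMaximal_of_irreducible (Polynomial.irreducible_X_sub_C c)
  have hne : (Ideal.span {X - C c} : Ideal K[X]) ≠ ⊥ := by
    rw [Ne, Ideal.span_singleton_eq_bot]
    exact Polynomial.X_sub_C_ne_zero c
  rw [card_primesOver_eq (K := K) (F := F) (R := R) hinj _ hne]
  exact Nat.card_congr (Equiv.subtypeEquivRight (isOver_span_X_sub_C_iff c))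

end Finite

section Infinite

open Polynomial Fermat.Agent.M2

variable {K F : Type*} [Field K] [Field F] [Algebra K F]

theorem mem_iff_adicValuation_le_one (v : Place K F) (h : F) :
    h ∈ v.toValuationSubring ↔ v.adicValuation h ≤ 1 := by
  constructor
  · exact v.adicValuation_le_one_of_mem
  · intro hle
    by_contra hmem
    have hinv : h⁻¹ ∈ v.toValuationSubring :=
      (v.toValuationSubring.mem_or_inv_mem h).resolve_left hmem
    have h0 : h ≠ 0 := fun h0 => hmem (h0 ▸ v.toValuationSubring.zero_mem)
    -- `h⁻¹` is a non-unit of `O_v`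
    have hnu : h⁻¹ ∈ v.toValuationSubring.nonunits := by
      rw [v.toValuationSubring.mem_nonunits_iff, map_inv₀]
      have h1 : 1 < v.toValuationSubring.valuation h := by
        rw [← not_le, v.toValuationSubring.valuation_le_one_iff]; exact hmem
      exact inv_lt_one_of_one_lt₀ h1
    rw [mem_nonunits_iff_adicValuation_lt_one, map_inv₀] at hnu
    have hpos : 0 < v.adicValuation h := zero_lt_iff.mpr (v.adicValuation_ne_zero h0)
    have : 1 < v.adicValuation h := (inv_lt_one₀ hpos).mp hnu
    exact absurd hle (not_le.mpr this)

theorem adicValuation_algebraMap_const (v : Place K F) {c : K} (hc : c ≠ 0) :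
    v.adicValuation (algebraMap K F c) = 1 := by
  apply le_antisymm (v.adicValuation_algebraMap_le_one c)
  have h1 := v.adicValuation_algebraMap_le_one c⁻¹
  rw [map_inv₀, map_inv₀] at h1
  have hpos : 0 < v.adicValuation (algebraMap K F c) :=
    zero_lt_iff.mpr (v.adicValuation_ne_zero (by simpa using hc))
  exact (inv_le_one₀ hpos).mp h1

/-- Upper bound: `v(p(x)) ≤ v(x) ^ deg p` when `v(x) ≥ 1`. -/
theorem adicValuation_aeval_le (v : Place K F) {x : F} (hx : 1 ≤ v.adicValuation x) (p : K[X]) :
    v.adicValuation (aeval x p) ≤ v.adicValuation x ^ p.natDegree := by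
  rw [Polynomial.aeval_eq_sum_range]
  refine Valuation.map_sum_le _ fun i hi => ?_
  rw [Algebra.smul_def, map_mul, map_pow]
  have hi' : i ≤ p.natDegree := by
    rw [Finset.mem_range] at hi; omega
  calc v.adicValuation (algebraMap K F (p.coeff i)) * v.adicValuation x ^ i
      ≤ 1 * v.adicValuation x ^ p.natDegree := by
        gcongr
        exact v.adicValuation_algebraMap_le_one _
    _ = _ := one_mul _

/-- Leading term dominates: `v(p(x)) = v(x) ^ deg p` when `v(x) > 1`. -/
theorem adicValuation_aeval_eq (v : Place K F) {x : F} (hx : 1 < v.adicValuation x) {p : K[X]}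
    (hp : p ≠ 0) : v.adicValuation (aeval x p) = v.adicValuation x ^ p.natDegree := by
  have hlead : v.adicValuation (aeval x (monomial p.natDegree p.leadingCoeff)) =
      v.adicValuation x ^ p.natDegree := by
    rw [Polynomial.aeval_monomial, map_mul, map_pow,
      adicValuation_algebraMap_const v (Polynomial.leadingCoeff_ne_zero.mpr hp), one_mul]
  have hdecomp : aeval x p = aeval x (monomial p.natDegree p.leadingCoeff) + aeval x p.eraseLead := by
    rw [← map_add, add_comm, Polynomial.eraseLead_add_monomial_natDegree_leadingCoeff]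
  rw [hdecomp]
  by_cases he : p.eraseLead = 0
  · rw [he, map_zero, add_zero, hlead]
  · rw [Valuation.map_add_eq_of_lt_left, hlead]
    rw [hlead]
    have hlt : p.eraseLead.natDegree < p.natDegree := by
      rcases Polynomial.eraseLead_natDegree_lt_or_eraseLead_eq_zero p with h | h
      · exact h
      · exact absurd h he
    calc v.adicValuation (aeval x p.eraseLead)
        ≤ v.adicValuation x ^ p.eraseLead.natDegree := adicValuation_aeval_le v hx.le _
      _ < v.adicValuation x ^ p.natDegree := pow_lt_pow_right₀ hx hlt

variable [Algebra (RatFunc K) F] [IsScalarTower K (RatFunc K) F]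

/-- The image of `X` in `F`. -/
local notation "xF" => algebraMap (RatFunc K) F (RatFunc.X : RatFunc K)

theorem algebraMap_algebraMap_eq_aeval (p : K[X]) :
    algebraMap (RatFunc K) F (algebraMap K[X] (RatFunc K) p) = aeval xF p := by
  have h1 : algebraMap K[X] (RatFunc K) p = aeval (RatFunc.X : RatFunc K) p := by
    rw [← RatFunc.algebraMap_X, Polynomial.aeval_algebraMap_apply, Polynomial.aeval_X_left_apply]
  rw [h1, Polynomial.aeval_algebraMap_apply]

/-- If `x⁻¹ ∈ m_v` then the valuation ring at infinity of `K(X)` maps into `O_v`. -/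
theorem algebraMap_mem_of_mem_Oinf (v : Place K F)
    (hx : xF⁻¹ ∈ v.toValuationSubring.nonunits) {f : RatFunc K} (hf : f ∈ Oinf K) :
    algebraMap (RatFunc K) F f ∈ v.toValuationSubring := by
  by_cases hf0 : f = 0
  · rw [hf0, map_zero]; exact v.toValuationSubring.zero_mem
  have hx0 : xF ≠ 0 := by
    intro h0
    have := (map_eq_zero_iff _ (FaithfulSMul.algebraMap_injective (RatFunc K) F)).mp h0
    exact RatFunc.X_ne_zero this
  have hx1 : 1 < v.adicValuation xF := by
    rw [mem_nonunits_iff_adicValuation_lt_one, map_inv₀] at hx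
    exact (inv_lt_one₀ (zero_lt_iff.mpr (v.adicValuation_ne_zero hx0))).mp hx
  have hdeg : f.intDegree ≤ 0 := by
    rcases mem_Oinf_iff.mp hf with h | h
    · exact absurd h hf0
    · exact h
  have hnum0 : f.num ≠ 0 := fun h => hf0 (RatFunc.num_eq_zero_iff.mp h)
  have hden0 : f.denom ≠ 0 := RatFunc.denom_ne_zero f
  have hfe : f = algebraMap K[X] (RatFunc K) f.num / algebraMap K[X] (RatFunc K) f.denom :=
    (RatFunc.num_div_denom f).symm
  rw [mem_iff_adicValuation_le_one, hfe, map_div₀, map_div₀, algebraMap_algebraMap_eq_aeval,
    algebraMap_algebraMap_eq_aeval, adicValuation_aeval_eq v hx1 hnum0,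
    adicValuation_aeval_eq v hx1 hden0]
  have hle : f.num.natDegree ≤ f.denom.natDegree := by
    have : f.intDegree = (f.num.natDegree : ℤ) - f.denom.natDegree := rfl
    omega
  have hpos : 0 < v.adicValuation xF ^ f.denom.natDegree :=
    pow_pos (lt_trans zero_lt_one hx1) _
  rw [div_le_one₀ hpos]
  exact pow_le_pow_right₀ hx1.le hle

variable [Algebra (Oinf K) F]

/-- For `A = Oinf K` and `p` its maximal ideal: `v` is over `p` iff `x⁻¹ ∈ m_v`.  The hypothesis
`hcoe` says that the algebra structure of `F` over `Oinf K` is the restriction of the one over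
`K(X)` (true by `rfl` for the standard instances). -/
theorem isOver_maximalIdeal_Oinf_iff
    (hcoe : ∀ a : Oinf K, algebraMap (Oinf K) F a = algebraMap (RatFunc K) F (a : RatFunc K))
    (v : Place K F) :
    IsOver (A := Oinf K) (IsLocalRing.maximalIdeal (Oinf K)) v ↔
      xF⁻¹ ∈ v.toValuationSubring.nonunits := by
  have hpi : algebraMap (Oinf K) F (piInf K) = xF⁻¹ := by
    rw [hcoe, coe_piInf, map_inv₀]
  constructor
  · rintro ⟨-, h2⟩
    have hmem : piInf K ∈ IsLocalRing.maximalIdeal (Oinf K) := by
      rw [maximalIdeal_Oinf_eq]; exact Ideal.subset_span rfl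
    have := h2 (piInf K) hmem
    rwa [hpi] at this
  · intro h
    have h1 : ∀ a : Oinf K, algebraMap (Oinf K) F a ∈ v.toValuationSubring := by
      intro a
      rw [hcoe]
      exact algebraMap_mem_of_mem_Oinf v h a.2
    refine ⟨h1, ?_⟩
    intro a ha
    rw [maximalIdeal_Oinf_eq] at ha
    obtain ⟨b, rfl⟩ := Ideal.mem_span_singleton'.mp ha
    rw [map_mul, hpi]
    exact mul_mem_nonunits v (h1 b) h

variable {R : Type*} [CommRing R] [IsDedekindDomain R] [Algebra R F] [IsFractionRing R F]
  [Algebra K R] [IsScalarTower K R F] [Algebra (Oinf K) R] [IsScalarTower (Oinf K) R F]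

/-- **Places at infinity**: the number of primes of `R` (an integral extension of `Oinf K` with
fraction field `F`, e.g. `integralClosure (Oinf K) F`) over the maximal ideal of `Oinf K` is the
number of places of `F` at which `x⁻¹` vanishes. -/
theorem card_primesOver_maximalIdeal_Oinf [Algebra.IsIntegral (Oinf K) R]
    (hinj : Function.Injective (algebraMap (Oinf K) R))
    (hcoe : ∀ a : Oinf K, algebraMap (Oinf K) F a = algebraMap (RatFunc K) F (a : RatFunc K)) :
    Nat.card ↥((IsLocalRing.maximalIdeal (Oinf K)).primesOver R) =
      Nat.card {v : Place K F // xF⁻¹ ∈ v.toValuationSubring.nonunits} := by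
  have hne : IsLocalRing.maximalIdeal (Oinf K) ≠ ⊥ := by
    intro h0
    have hmem : piInf K ∈ IsLocalRing.maximalIdeal (Oinf K) := by
      rw [maximalIdeal_Oinf_eq]; exact Ideal.subset_span rfl
    rw [h0, Ideal.mem_bot] at hmem
    exact piInf_ne_zero hmem
  rw [card_primesOver_eq (K := K) (F := F) (R := R) hinj _ hne]
  exact Nat.card_congr (Equiv.subtypeEquivRight (isOver_maximalIdeal_Oinf_iff hcoe))

end Infinite

section Transport

variable {K F F' : Type*} [Field K] [Field F] [Field F'] [Algebra K F] [Algebra K F']

theorem mem_nonunits_iff_inv_not_mem (A : ValuationSubring F) {x : F} (hx : x ≠ 0) :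
    x ∈ A.nonunits ↔ x⁻¹ ∉ A := by
  rw [A.mem_nonunits_iff, ← A.valuation_le_one_iff, map_inv₀, not_le]
  have hv : 0 < A.valuation x := zero_lt_iff.mpr ((A.valuation.ne_zero_iff).mpr hx)
  exact ⟨fun h => (one_lt_inv₀ hv).mpr h, fun h => (one_lt_inv₀ hv).mp h⟩

/-- Transport of a place along an isomorphism of function fields. -/
noncomputable def mapPlace (e : F ≃ₐ[K] F') (v : Place K F) : Place K F' where
  toValuationSubring := v.toValuationSubring.comap (e.symm : F' →+* F)
  algebraMap_mem' a := by
    rw [ValuationSubring.mem_comap]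
    have : (e.symm : F' →+* F) (algebraMap K F' a) = algebraMap K F a := e.symm.commutes a
    rw [this]
    exact v.algebraMap_mem' a
  ne_top' := by
    intro h
    apply v.ne_top'
    refine SetLike.ext fun x => ⟨fun _ => ValuationSubring.mem_top x, fun _ => ?_⟩
    have : e x ∈ v.toValuationSubring.comap (e.symm : F' →+* F) := by
      rw [h]; exact ValuationSubring.mem_top _
    rw [ValuationSubring.mem_comap] at this
    have h2 : (e.symm : F' →+* F) (e x) = x := e.symm_apply_apply x
    rwa [h2] at this
  isPrincipalIdealRing' := by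
    let f : v.toValuationSubring →+* (v.toValuationSubring.comap (e.symm : F' →+* F)) :=
      { toFun := fun x => ⟨e (x : F), by
          rw [ValuationSubring.mem_comap]
          have h2 : (e.symm : F' →+* F) (e (x : F)) = x := e.symm_apply_apply _
          rw [h2]; exact x.2⟩
        map_one' := Subtype.ext (map_one e)
        map_mul' := fun x y => Subtype.ext (map_mul e _ _)
        map_zero' := Subtype.ext (map_zero e)
        map_add' := fun x y => Subtype.ext (map_add e _ _) }
    have hf : Function.Surjective f := by
      rintro ⟨y, hy⟩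
      rw [ValuationSubring.mem_comap] at hy
      exact ⟨⟨e.symm y, hy⟩, Subtype.ext (e.apply_symm_apply y)⟩
    exact IsPrincipalIdealRing.of_surjective f hf

theorem mem_mapPlace_iff (e : F ≃ₐ[K] F') (v : Place K F) (y : F') :
    y ∈ (mapPlace e v).toValuationSubring ↔ e.symm y ∈ v.toValuationSubring := Iff.rfl

theorem apply_mem_mapPlace_iff (e : F ≃ₐ[K] F') (v : Place K F) (x : F) :
    e x ∈ (mapPlace e v).toValuationSubring ↔ x ∈ v.toValuationSubring := by
  rw [mem_mapPlace_iff, e.symm_apply_apply]

theorem mapPlace_mapPlace_symm (e : F ≃ₐ[K] F') (v : Place K F') :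
    mapPlace e (mapPlace e.symm v) = v := by
  apply Place.ext
  ext y
  rw [mem_mapPlace_iff, mem_mapPlace_iff]
  simp

theorem mapPlace_symm_mapPlace (e : F ≃ₐ[K] F') (v : Place K F) :
    mapPlace e.symm (mapPlace e v) = v := by
  apply Place.ext
  ext y
  rw [mem_mapPlace_iff, mem_mapPlace_iff]
  simp

/-- Places of isomorphic function fields correspond. -/
noncomputable def placeCongr (e : F ≃ₐ[K] F') : Place K F ≃ Place K F' where
  toFun := mapPlace e
  invFun := mapPlace e.symm
  left_inv := mapPlace_symm_mapPlace e
  right_inv := mapPlace_mapPlace_symm e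

theorem apply_mem_nonunits_mapPlace_iff (e : F ≃ₐ[K] F') (v : Place K F) (x : F) :
    e x ∈ (mapPlace e v).toValuationSubring.nonunits ↔ x ∈ v.toValuationSubring.nonunits := by
  by_cases hx : x = 0
  · subst hx
    rw [map_zero]
    exact ⟨fun _ => zero_mem_nonunits v, fun _ => zero_mem_nonunits _⟩
  have hex : e x ≠ 0 := by simpa using hx
  rw [mem_nonunits_iff_inv_not_mem _ hex, mem_nonunits_iff_inv_not_mem _ hx, ← map_inv₀,
    apply_mem_mapPlace_iff]

/-- **Transport of counts**: the number of places at which `h` vanishes is invariant under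
isomorphisms of function fields. -/
theorem card_nonunits_congr (e : F ≃ₐ[K] F') (h : F) :
    Nat.card {v : Place K F // h ∈ v.toValuationSubring.nonunits} =
      Nat.card {v : Place K F' // e h ∈ v.toValuationSubring.nonunits} :=
  Nat.card_congr ((placeCongr e).subtypeEquiv fun v =>
    (apply_mem_nonunits_mapPlace_iff e v h).symm)

end Transport

end Fermat.Agent.S24.CountsC
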