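import Fermat.Agent.S24.FieldIsoFinal
import Fermat.Agent.S24.CountsC
import Fermat.Agent.M2.DictInf

/-!
# M2b / S24, B5 glue: the place counts on `F_ℂ = ℂ(j(q^d) : d ∣ N)`

We combine the dictionary counts (M2 III.e: `Dict.card_primesOver_*`, `DictInf.card_primesOver_inf`,
`Dict.finrank_K`) on `K_an = WHField (Γ₀(N))`, helper2's place/prime bridges (`CountsC`) and the
`q`-expansion isomorphism `fieldEquiv N : K_an ≃ₐ[ℂ] F_ℂ` (B4).
-/

set_option autoImplicit false

namespace Fermat.Agent.S24.CountsFC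

noncomputable section

open UpperHalfPlane ModularForm MatrixGroups Polynomial CongruenceSubgroup ModularCurve
open AlgebraicCurve
open Fermat.Agent.M2 Fermat.Agent.S24.FieldIso

variable (N : ℕ) [NeZero N]

local notation "Kan" => WHField (Gamma0 N)

/-! ### Finite places of `K_an` -/

omit [NeZero N] in
lemma algebraMap_X_eq_jM : algebraMap ℂ[X] Kan (X : ℂ[X]) = jM N := by
  rw [algebraMap_poly_eq_aeval_jM, Polynomial.aeval_X]

/-- Places of `K_an` over `j = c` vs primes of the integral closure of `ℂ[j]`. -/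
theorem card_places_Kan_sub (c : ℂ) :
    Nat.card {v : Place ℂ Kan // jM N - algebraMap ℂ Kan c ∈ v.toValuationSubring.nonunits} =
      Nat.card ((Ideal.span {X - C c} : Ideal ℂ[X]).primesOver (integralClosure ℂ[X] Kan)) := by
  have hinj : Function.Injective (algebraMap ℂ[X] (integralClosure ℂ[X] Kan)) := by
    intro a b hab
    apply algebraMap_poly_WHField_injective (Gamma0 N)
    have := congrArg (algebraMap (integralClosure ℂ[X] Kan) Kan) hab
    rwa [← IsScalarTower.algebraMap_apply, ← IsScalarTower.algebraMap_apply] at this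
  have h := CountsC.card_primesOver_span_X_sub_C (K := ℂ) (F := Kan)
    (R := integralClosure ℂ[X] Kan) hinj c
  rw [h, algebraMap_X_eq_jM]

/-! ### Places of `K_an` at infinity -/

instance instIsScalarTowerOinfKan : IsScalarTower ℂ (DW.Oinf ℂ) Kan :=
  IsScalarTower.of_algebraMap_eq fun c => by
    rw [CuspSqueeze.algebraMap_Oinf_apply, DW.coe_algebraMap_Oinf, ← RatFunc.algebraMap_eq_C,
      ← IsScalarTower.algebraMap_apply]

/-- Places of `K_an` over `j = ∞` vs primes of the integral closure of `Oinf`. -/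
theorem card_places_Kan_inv :
    Nat.card {v : Place ℂ Kan // (jM N)⁻¹ ∈ v.toValuationSubring.nonunits} =
      Nat.card ((IsLocalRing.maximalIdeal (DW.Oinf ℂ)).primesOver
        (integralClosure (DW.Oinf ℂ) Kan)) := by
  have hinj : Function.Injective
      (algebraMap (DW.Oinf ℂ) (integralClosure (DW.Oinf ℂ) Kan)) := by
    intro a b hab
    have := congrArg (algebraMap (integralClosure (DW.Oinf ℂ) Kan) Kan) hab
    rw [← IsScalarTower.algebraMap_apply, ← IsScalarTower.algebraMap_apply,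
      CuspSqueeze.algebraMap_Oinf_apply, CuspSqueeze.algebraMap_Oinf_apply] at this
    exact Subtype.ext ((algebraMap (RatFunc ℂ) Kan).injective this)
  have h := @CountsC.card_primesOver_maximalIdeal_Oinf ℂ Kan _ _ _ _ _
    (inferInstanceAs (Algebra (DW.Oinf ℂ) Kan)) (integralClosure (DW.Oinf ℂ) Kan) _ _ _ _ _ _
    (inferInstanceAs (Algebra (DW.Oinf ℂ) (integralClosure (DW.Oinf ℂ) Kan)))
    (inferInstanceAs (IsScalarTower (DW.Oinf ℂ) (integralClosure (DW.Oinf ℂ) Kan) Kan))
    (inferInstanceAs (Algebra.IsIntegral (DW.Oinf ℂ) (integralClosure (DW.Oinf ℂ) Kan)))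
    hinj (fun a => rfl)
  rw [← algebraMap_ratFunc_X]
  exact h.symm

/-! ### Transport to `F_ℂ` -/

theorem card_places_FC_sub (c : ℂ) :
    Nat.card {v : Place ℂ (FC N) //
        xC N - algebraMap ℂ (FC N) c ∈ v.toValuationSubring.nonunits} =
      Nat.card ((Ideal.span {X - C c} : Ideal ℂ[X]).primesOver (integralClosure ℂ[X] Kan)) := by
  rw [← card_places_Kan_sub, CountsC.card_nonunits_congr (fieldEquiv N), map_sub, fieldEquiv_jM',
    AlgEquiv.commutes]

theorem card_places_FC_inv :
    Nat.card {v : Place ℂ (FC N) // (xC N)⁻¹ ∈ v.toValuationSubring.nonunits} =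
      Nat.card ((IsLocalRing.maximalIdeal (DW.Oinf ℂ)).primesOver
        (integralClosure (DW.Oinf ℂ) Kan)) := by
  rw [← card_places_Kan_inv, CountsC.card_nonunits_congr (fieldEquiv N), map_inv₀, fieldEquiv_jM']

/-! ### The counts on `F_ℂ` -/

/-- Generic fibres have `ψ(N)` points. -/
theorem card_places_FC_of_ne {c : ℂ} (h0 : c ≠ 0) (h1 : c ≠ 1728) :
    Nat.card {v : Place ℂ (FC N) //
        xC N - algebraMap ℂ (FC N) c ∈ v.toValuationSubring.nonunits} = dedekindPsi N := by
  rw [card_places_FC_sub, Dict.card_primesOver_of_ne N h0 h1]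

/-- The fibre over `j = 0`. -/
theorem card_places_FC_zero :
    Nat.card {v : Place ℂ (FC N) //
        xC N - algebraMap ℂ (FC N) 0 ∈ v.toValuationSubring.nonunits} =
      P1.orbitCount N (ModularGroup.S * ModularGroup.T) := by
  rw [card_places_FC_sub, Dict.card_primesOver_zero]

/-- The fibre over `j = 1728`. -/
theorem card_places_FC_1728 :
    Nat.card {v : Place ℂ (FC N) //
        xC N - algebraMap ℂ (FC N) 1728 ∈ v.toValuationSubring.nonunits} =
      P1.orbitCount N ModularGroup.S := by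
  rw [card_places_FC_sub, Dict.card_primesOver_1728]

/-- The fibre over `j = ∞` (the cusps). -/
theorem card_places_FC_inf :
    Nat.card {v : Place ℂ (FC N) // (xC N)⁻¹ ∈ v.toValuationSubring.nonunits} =
      P1.orbitCount N ModularGroup.T := by
  rw [card_places_FC_inv, DictInf.card_primesOver_inf]

/-! ### The degree -/

/-- `ℂ(X) → F_ℂ`, `X ↦ j(q)`. -/
def ratToFC : RatFunc ℂ →ₐ[ℂ] FC N :=
  (fieldEquiv N).toAlgHom.comp (IsScalarTower.toAlgHom ℂ (RatFunc ℂ) Kan)

lemma ratToFC_apply (r : RatFunc ℂ) :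
    ratToFC N r = fieldEquiv N (algebraMap (RatFunc ℂ) Kan r) := rfl

lemma ratToFC_X : ratToFC N RatFunc.X = xC N := by
  rw [ratToFC_apply, algebraMap_ratFunc_X, fieldEquiv_jM']

lemma fieldRange_ratToFC : (ratToFC N).fieldRange = IntermediateField.adjoin ℂ {xC N} := by
  rw [AlgHom.fieldRange_eq_map, ← RatFunc.adjoin_X, IntermediateField.adjoin_map,
    Set.image_singleton, ratToFC_X]

/-- `ℂ(X) ≃ ℂ(j(q)) ⊆ F_ℂ`. -/
def ratEquiv : RatFunc ℂ ≃ₐ[ℂ] ↥(IntermediateField.adjoin ℂ {xC N}) :=
  (AlgEquiv.ofInjectiveField (ratToFC N)).trans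
    (IntermediateField.equivOfEq (fieldRange_ratToFC N))

lemma coe_ratEquiv (r : RatFunc ℂ) : ((ratEquiv N r : IntermediateField.adjoin ℂ {xC N}) : FC N) =
    ratToFC N r := rfl

/-- `[F_ℂ : ℂ(j(q))] = ψ(N)`. -/
theorem finrank_FC :
    Module.finrank ↥(IntermediateField.adjoin ℂ {xC N}) (FC N) = dedekindPsi N := by
  rw [← Dict.finrank_K N]
  symm
  refine Algebra.finrank_eq_of_equiv_equiv (ratEquiv N).toRingEquiv (fieldEquiv N).toRingEquiv ?_
  ext r
  rfl

/-- `F_ℂ` is finite over `ℂ(j(q))`. -/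
theorem finiteDimensional_FC :
    FiniteDimensional ↥(IntermediateField.adjoin ℂ {xC N}) (FC N) := by
  apply FiniteDimensional.of_finrank_pos
  rw [finrank_FC]
  exact P1.dedekindPsi_pos N (NeZero.ne N)

/-! ### `ord`-forms (the `zeroCard` shape of the interface) -/

theorem transcendental_xC : Transcendental ℂ (xC N) := by
  rw [← ratToFC_X, Transcendental, isAlgebraic_algHom_iff (ratToFC N) (ratToFC N).injective]
  exact RatFunc.transcendental_X

lemma xC_sub_ne_zero (c : ℂ) : xC N - algebraMap ℂ (FC N) c ≠ 0 := by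
  intro h
  apply transcendental_xC N
  rw [sub_eq_zero] at h
  rw [h]
  exact isAlgebraic_algebraMap c

lemma xC_inv_ne_zero : (xC N)⁻¹ ≠ 0 := by
  have := xC_sub_ne_zero N 0
  rw [map_zero, sub_zero] at this
  exact inv_ne_zero this

theorem card_ord_pos_FC_sub (c : ℂ) :
    Nat.card {v : Place ℂ (FC N) // 0 < v.ord (xC N - algebraMap ℂ (FC N) c)} =
      Nat.card {v : Place ℂ (FC N) //
        xC N - algebraMap ℂ (FC N) c ∈ v.toValuationSubring.nonunits} :=
  Nat.card_congr (Equiv.subtypeEquivRight fun v =>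
    (CountsC.mem_nonunits_iff_ord_pos v (xC_sub_ne_zero N c)).symm)

theorem card_ord_pos_FC_inv :
    Nat.card {v : Place ℂ (FC N) // 0 < v.ord (xC N)⁻¹} =
      Nat.card {v : Place ℂ (FC N) // (xC N)⁻¹ ∈ v.toValuationSubring.nonunits} :=
  Nat.card_congr (Equiv.subtypeEquivRight fun v =>
    (CountsC.mem_nonunits_iff_ord_pos v (xC_inv_ne_zero N)).symm)

theorem zeroCard_FC_of_ne {c : ℂ} (h0 : c ≠ 0) (h1 : c ≠ 1728) :
    Nat.card {v : Place ℂ (FC N) // 0 < v.ord (xC N - algebraMap ℂ (FC N) c)} =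
      dedekindPsi N := by
  rw [card_ord_pos_FC_sub, card_places_FC_of_ne N h0 h1]

theorem zeroCard_FC_zero :
    Nat.card {v : Place ℂ (FC N) // 0 < v.ord (xC N - algebraMap ℂ (FC N) 0)} =
      P1.orbitCount N (ModularGroup.S * ModularGroup.T) := by
  rw [card_ord_pos_FC_sub, card_places_FC_zero]

theorem zeroCard_FC_1728 :
    Nat.card {v : Place ℂ (FC N) // 0 < v.ord (xC N - algebraMap ℂ (FC N) 1728)} =
      P1.orbitCount N ModularGroup.S := by
  rw [card_ord_pos_FC_sub, card_places_FC_1728]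

theorem zeroCard_FC_inf :
    Nat.card {v : Place ℂ (FC N) // 0 < v.ord (xC N)⁻¹} = P1.orbitCount N ModularGroup.T := by
  rw [card_ord_pos_FC_inv, card_places_FC_inf]

end

end Fermat.Agent.S24.CountsFC
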