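import Fermat.Agent.M2.GaloisSetup
import Fermat.Agent.M2.JN
import Fermat.Prelude.Def_ModularCurve_ArithmeticGalois
import Fermat.Prelude.Def_ModularCurve_JqCoeff
import Fermat.Prelude.Def_ModularCurve_X0ModL

/-!
# M2b / S24, B4 : the field of modular functions of level `Γ₀(N)` is `ℂ(j, j_N)` and is
isomorphic (via `q`-expansion) to the base change `F_ℂ` of the prelude's arithmetic function field
-/

set_option autoImplicit false

namespace Fermat.Agent.S24.FieldIso

open UpperHalfPlane ModularForm MatrixGroups Polynomial CongruenceSubgroup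
open Fermat.Agent.M2

section Galois

variable (N : ℕ) [NeZero N]

/-- `j_N = j(N z)` as an element of the big field `WHField (Gamma N)`. -/
noncomputable def jNL : WHField (Gamma N) :=
  algebraMap (WH (Gamma0 N)) (WHField (Gamma N)) (JN.jNWH N)

/-- `j_N = j(N z)` as an element of `WHField (Gamma0 N)`. -/
noncomputable def jNM : WHField (Gamma0 N) :=
  algebraMap (WH (Gamma0 N)) (WHField (Gamma0 N)) (JN.jNWH N)

lemma algebraMap_jNM : algebraMap (WHField (Gamma0 N)) (WHField (Gamma N)) (jNM N) = jNL N := by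
  rw [jNM, jNL, ← IsScalarTower.algebraMap_apply]

/-- The fixing subgroup of `j_N` is (the image of) `Γ₀(N)`. -/
theorem fixingSubgroup_adjoin_jNL :
    fixingSubgroup (Geff (Gamma N))
      ((IntermediateField.adjoin (RatFunc ℂ) {jNL N} : IntermediateField (RatFunc ℂ) (WHField (Gamma N))) :
        Set (WHField (Gamma N))) = Heff (Gamma0 N) (Gamma N) := by
  apply le_antisymm
  · intro g hg
    obtain ⟨σ, rfl⟩ := piG_surjective (Gamma N) g
    have h1 : piG (Gamma N) σ • jNL N = jNL N :=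
      hg ⟨jNL N, IntermediateField.subset_adjoin _ _ (Set.mem_singleton _)⟩
    rw [jNL, IsScalarTower.algebraMap_apply (WH (Gamma0 N)) (WH (Gamma N)) (WHField (Gamma N)),
      ← algebraMap.smul'] at h1
    have h2 := IsFractionRing.injective (WH (Gamma N)) (WHField (Gamma N)) h1
    rw [piG_smul] at h2
    have h3 : σ⁻¹ ∈ Gamma0 N := by
      apply JN.mem_Gamma0_of_jN_invariant
      intro z
      have := congrArg (fun f : WH (Gamma N) => (f : ℍ → ℂ) z) h2
      simp only [WH.smul_apply] at this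
      exact this
    exact ⟨σ, by simpa using (Gamma0 N).inv_mem h3, rfl⟩
  · rw [← IsGaloisGroup.le_fixedPoints_iff_le_fixingSubgroup, IntermediateField.adjoin_le_iff]
    rintro x rfl
    have h := IsGaloisGroup.fixedPoints_eq_range_algebraMap (Geff (Gamma N)) (RatFunc ℂ)
      (WHField (Gamma N)) (Heff (Gamma0 N) (Gamma N)) (WHField (Gamma0 N))
    rw [h]
    exact ⟨jNM N, algebraMap_jNM N⟩

/-- The image of `WHField (Gamma0 N)` in `WHField (Gamma N)` is `ℂ(j)(j_N)`. -/
theorem range_algebraMap_eq_adjoin_jNL :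
    Set.range (algebraMap (WHField (Gamma0 N)) (WHField (Gamma N))) =
      ((IntermediateField.adjoin (RatFunc ℂ) {jNL N} :
        IntermediateField (RatFunc ℂ) (WHField (Gamma N))) : Set (WHField (Gamma N))) := by
  have h1 := IsGaloisGroup.fixedPoints_eq_range_algebraMap (Geff (Gamma N)) (RatFunc ℂ)
      (WHField (Gamma N)) (Heff (Gamma0 N) (Gamma N)) (WHField (Gamma0 N))
  have h2 := IsGaloisGroup.fixedPoints_fixingSubgroup (Geff (Gamma N)) (RatFunc ℂ)
      (WHField (Gamma N)) (IntermediateField.adjoin (RatFunc ℂ) {jNL N})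
  rw [fixingSubgroup_adjoin_jNL] at h2
  rw [← h1, h2]

/-- `WHField (Gamma0 N) = ℂ(j)(j_N)`. -/
theorem adjoin_ratFunc_jNM_eq_top :
    (IntermediateField.adjoin (RatFunc ℂ) {jNM N} :
      IntermediateField (RatFunc ℂ) (WHField (Gamma0 N))) = ⊤ := by
  rw [eq_top_iff]
  intro x _
  have hx : algebraMap (WHField (Gamma0 N)) (WHField (Gamma N)) x ∈
      ((IntermediateField.adjoin (RatFunc ℂ) {jNL N} :
        IntermediateField (RatFunc ℂ) (WHField (Gamma N))) : Set (WHField (Gamma N))) := by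
    rw [← range_algebraMap_eq_adjoin_jNL]
    exact ⟨x, rfl⟩
  have hmap : (IntermediateField.adjoin (RatFunc ℂ) {jNM N}).map
      (IsScalarTower.toAlgHom (RatFunc ℂ) (WHField (Gamma0 N)) (WHField (Gamma N))) =
      IntermediateField.adjoin (RatFunc ℂ) {jNL N} := by
    rw [IntermediateField.adjoin_map, Set.image_singleton]
    congr 2
    exact algebraMap_jNM N
  rw [SetLike.mem_coe, ← hmap] at hx
  obtain ⟨y, hy, hyx⟩ := hx
  have : y = x := (algebraMap (WHField (Gamma0 N)) (WHField (Gamma N))).injective hyx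
  rw [← this]
  exact hy

/-- `j` as an element of `WHField (Gamma0 N)`. -/
noncomputable def jM : WHField (Gamma0 N) :=
  algebraMap (WH (Gamma0 N)) (WHField (Gamma0 N)) (jWH (Gamma0 N))

omit [NeZero N] in
lemma algebraMap_poly_eq_aeval_jM (P : ℂ[X]) :
    algebraMap ℂ[X] (WHField (Gamma0 N)) P = Polynomial.aeval (jM N) P := by
  rw [IsScalarTower.algebraMap_apply ℂ[X] (WH (Gamma0 N)) (WHField (Gamma0 N)), algebraMap_polyWH,
    jM, Polynomial.aeval_algebraMap_apply]

/-- `WHField (Gamma0 N) = ℂ(j, j_N)`. -/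
theorem adjoin_jM_jNM_eq_top :
    (IntermediateField.adjoin ℂ {jM N, jNM N} : IntermediateField ℂ (WHField (Gamma0 N))) = ⊤ := by
  set E : IntermediateField ℂ (WHField (Gamma0 N)) := IntermediateField.adjoin ℂ {jM N, jNM N}
    with hE
  have hj : jM N ∈ E := IntermediateField.subset_adjoin _ _ (Set.mem_insert _ _)
  have hjN : jNM N ∈ E := IntermediateField.subset_adjoin _ _ (Set.mem_insert_of_mem _ rfl)
  have hpoly : ∀ P : ℂ[X], algebraMap ℂ[X] (WHField (Gamma0 N)) P ∈ E := by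
    intro P
    rw [algebraMap_poly_eq_aeval_jM]
    have h1 : Algebra.adjoin ℂ {jM N} ≤ E.toSubalgebra :=
      Algebra.adjoin_le (Set.singleton_subset_iff.mpr hj)
    exact h1 (Polynomial.aeval_mem_adjoin_singleton ℂ (jM N))
  have hrat : ∀ r : RatFunc ℂ, algebraMap (RatFunc ℂ) (WHField (Gamma0 N)) r ∈ E := by
    intro r
    obtain ⟨a, b, hb, rfl⟩ := IsFractionRing.div_surjective (A := ℂ[X]) r
    rw [map_div₀, ← IsScalarTower.algebraMap_apply ℂ[X] (RatFunc ℂ) (WHField (Gamma0 N)),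
      ← IsScalarTower.algebraMap_apply ℂ[X] (RatFunc ℂ) (WHField (Gamma0 N))]
    exact div_mem (hpoly a) (hpoly b)
  rw [eq_top_iff]
  intro x _
  have hx : x ∈ (IntermediateField.adjoin (RatFunc ℂ) {jNM N} :
      IntermediateField (RatFunc ℂ) (WHField (Gamma0 N))) := by
    rw [adjoin_ratFunc_jNM_eq_top]; trivial
  have hle : (IntermediateField.adjoin (RatFunc ℂ) {jNM N} :
      IntermediateField (RatFunc ℂ) (WHField (Gamma0 N))).toSubfield ≤ E.toSubfield := by
    rw [IntermediateField.adjoin_toSubfield, Subfield.closure_le]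
    rintro y (⟨r, rfl⟩ | hy)
    · exact hrat r
    · rw [Set.mem_singleton_iff] at hy
      rw [hy]; exact hjN
  exact hle hx

end Galois

section BaseChange

open ModularCurve

/-- `Γ₀(N) ≤ Γ₀(d)` for `d ∣ N`. -/
lemma Gamma0_le_Gamma0_of_dvd {d N : ℕ} (hd : d ∣ N) : Gamma0 N ≤ Gamma0 d := by
  intro A hA
  rw [Gamma0_mem] at hA ⊢
  rw [ZMod.intCast_zmod_eq_zero_iff_dvd] at hA ⊢
  exact (Int.natCast_dvd_natCast.mpr hd).trans hA

/-- The base change to `ℂ` of the full arithmetic function field: `F_ℂ = ℂ(j(q^d) : d ∣ N)`. -/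
noncomputable abbrev FC (N : ℕ) : IntermediateField ℂ (LaurentSeries ℂ) :=
  laurentBaseChange ℂ (modularFunctionFieldFull N)

lemma coeffEmb_jq : coeffEmb ℂ jq = jqModC ℂ := by
  rw [← jqModC_rat]
  exact coeffMap_jqModC (algebraMap ℚ ℂ)

lemma coeffEmb_qExpand_jq (d : ℕ) [NeZero d] :
    coeffEmb ℂ (qExpand ℚ d jq) = qExpand ℂ d (jqModC ℂ) := by
  rw [coeffEmb, coeffMap_qExpand, ← coeffEmb, coeffEmb_jq]

lemma jqModC_mem_FC (N : ℕ) : jqModC ℂ ∈ FC N := by
  rw [← coeffEmb_jq]
  apply coeffEmb_mem_laurentBaseChange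
  have h := jqd_mem_full N (one_dvd N)
  rwa [qExpand_one_apply] at h

lemma qExpand_jqModC_mem_FC (N : ℕ) {d : ℕ} [NeZero d] (hd : d ∣ N) :
    qExpand ℂ d (jqModC ℂ) ∈ FC N := by
  rw [← coeffEmb_qExpand_jq]
  exact coeffEmb_mem_laurentBaseChange ℂ (jqd_mem_full N hd)

/-- To show `F_ℂ ≤ E` it suffices to show that `E` contains all `j(q^d)`, `d ∣ N`. -/
lemma FC_le_of_forall_mem (N : ℕ) (E : IntermediateField ℂ (LaurentSeries ℂ))
    (hE : ∀ (d : ℕ) [NeZero d], d ∣ N → qExpand ℂ d (jqModC ℂ) ∈ E) : FC N ≤ E := by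
  rw [FC, laurentBaseChange, IntermediateField.adjoin_le_iff]
  rintro _ ⟨x, hx, rfl⟩
  have hle : (modularFunctionFieldFull N).toSubfield ≤ E.toSubfield.comap (coeffEmb ℂ) := by
    rw [modularFunctionFieldFull, IntermediateField.adjoin_toSubfield, Subfield.closure_le]
    rintro y (⟨r, rfl⟩ | ⟨d, hne, hd, rfl⟩)
    · rw [SetLike.mem_coe, Subfield.mem_comap]
      have : coeffEmb ℂ (algebraMap ℚ (LaurentSeries ℚ) r) =
          algebraMap ℂ (LaurentSeries ℂ) (algebraMap ℚ ℂ r) := by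
        rw [algebraMap_laurentSeries_eq_single, algebraMap_laurentSeries_eq_single, coeffEmb,
          coeffMap_single]
      rw [this]
      exact E.algebraMap_mem _
    · rw [SetLike.mem_coe, Subfield.mem_comap, coeffEmb_qExpand_jq]
      exact hE d hd
  exact hle hx

section General

variable {L L' : Type*} [Field L] [Field L'] [Algebra ℚ L] [Algebra ℚ L'] (ι : L →+* L')
  (F₀ : IntermediateField ℚ (LaurentSeries ℚ))

lemma coeffMap_coeffEmb' (x : LaurentSeries ℚ) : coeffMap ι (coeffEmb L x) = coeffEmb L' x := by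
  rw [coeffEmb, coeffMap_coeffMap, coeffEmb]
  exact coeffMap_congr (RingHom.ext_rat _ _) x

omit [Algebra ℚ L] [Algebra ℚ L'] in
lemma coeffMap_algebraMap' (c : L) :
    coeffMap ι (algebraMap L (LaurentSeries L) c) = algebraMap L' (LaurentSeries L') (ι c) := by
  rw [algebraMap_laurentSeries_eq_single, algebraMap_laurentSeries_eq_single, coeffMap_single]

/-- Coefficientwise base change maps `laurentBaseChange L F₀` into `laurentBaseChange L' F₀`. -/
lemma coeffMap_mem_laurentBaseChange' {x : LaurentSeries L} (hx : x ∈ laurentBaseChange L F₀) :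
    coeffMap ι x ∈ laurentBaseChange L' F₀ := by
  rw [mem_laurentBaseChange_iff] at hx
  induction hx using Subfield.closure_induction with
  | mem y hy =>
      rcases hy with ⟨a, rfl⟩ | ⟨z, hz, rfl⟩
      · rw [coeffMap_algebraMap']
        exact (laurentBaseChange L' F₀).algebraMap_mem _
      · rw [coeffMap_coeffEmb']
        exact coeffEmb_mem_laurentBaseChange L' hz
  | one => simp
  | add x y _ _ hx hy => simpa using add_mem hx hy
  | neg x _ hx => simpa using neg_mem hx
  | inv x _ hx => simpa using inv_mem hx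
  | mul x y _ _ hx hy => simpa using mul_mem hx hy

/-- `L'(ι(F_L)) = F_{L'}` inside `L'((q))`. -/
theorem adjoin_coeffMap_image_laurentBaseChange :
    IntermediateField.adjoin L' (⇑(coeffMap ι) '' (laurentBaseChange L F₀ : Set (LaurentSeries L))) =
      laurentBaseChange L' F₀ := by
  apply le_antisymm
  · rw [IntermediateField.adjoin_le_iff]
    rintro _ ⟨x, hx, rfl⟩
    exact coeffMap_mem_laurentBaseChange' ι F₀ hx
  · rw [laurentBaseChange, IntermediateField.adjoin_le_iff]
    rintro _ ⟨x, hx, rfl⟩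
    rw [← coeffMap_coeffEmb' ι]
    exact IntermediateField.subset_adjoin _ _ ⟨_, coeffEmb_mem_laurentBaseChange L hx, rfl⟩

end General

/-- For any embedding `ι : Q̄ → ℂ`: `ℂ(ι(F)) = F_ℂ` where `F = modularFunctionFieldBar N`. -/
theorem adjoin_coeffMap_image_modularFunctionFieldBar (N : ℕ) (ι : AlgebraicClosure ℚ →+* ℂ) :
    IntermediateField.adjoin ℂ (⇑(coeffMap ι) ''
      (modularFunctionFieldBar N : Set (LaurentSeries (AlgebraicClosure ℚ)))) = FC N :=
  adjoin_coeffMap_image_laurentBaseChange ι _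

lemma coeffMap_coeffEmb_jq (ι : AlgebraicClosure ℚ →+* ℂ) :
    coeffMap ι (coeffEmb (AlgebraicClosure ℚ) jq) = jqModC ℂ := by
  rw [coeffMap_coeffEmb', coeffEmb_jq]

/-- The comparison map `φ : F = modularFunctionFieldBar N → F_ℂ` induced by an embedding
`ι : Q̄ → ℂ` (coefficientwise). -/
noncomputable def barToC (N : ℕ) (ι : AlgebraicClosure ℚ →+* ℂ) :
    ↥(modularFunctionFieldBar N) →+* ↥(FC N) where
  toFun x := ⟨coeffMap ι (x : LaurentSeries (AlgebraicClosure ℚ)),
    coeffMap_mem_laurentBaseChange' ι _ x.2⟩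
  map_one' := Subtype.ext (map_one _)
  map_mul' _ _ := Subtype.ext (map_mul _ _ _)
  map_zero' := Subtype.ext (map_zero _)
  map_add' _ _ := Subtype.ext (map_add _ _ _)

lemma coe_barToC (N : ℕ) (ι : AlgebraicClosure ℚ →+* ℂ) (x : modularFunctionFieldBar N) :
    ((barToC N ι x : FC N) : LaurentSeries ℂ) =
      coeffMap ι (x : LaurentSeries (AlgebraicClosure ℚ)) := rfl

lemma barToC_algebraMap (N : ℕ) (ι : AlgebraicClosure ℚ →+* ℂ) (c : AlgebraicClosure ℚ) :
    barToC N ι (algebraMap (AlgebraicClosure ℚ) (modularFunctionFieldBar N) c) =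
      algebraMap ℂ (FC N) (ι c) :=
  Subtype.ext (coeffMap_algebraMap' ι c)

/-- `φ(j(q)) = j(q)`. -/
lemma barToC_jq (N : ℕ) (ι : AlgebraicClosure ℚ →+* ℂ)
    (h : coeffEmb (AlgebraicClosure ℚ) jq ∈ modularFunctionFieldBar N) :
    barToC N ι ⟨coeffEmb (AlgebraicClosure ℚ) jq, h⟩ = ⟨jqModC ℂ, jqModC_mem_FC N⟩ :=
  Subtype.ext (coeffMap_coeffEmb_jq ι)

/-- `F_ℂ = ℂ(φ(F))`. -/
theorem adjoin_range_barToC (N : ℕ) (ι : AlgebraicClosure ℚ →+* ℂ) :
    IntermediateField.adjoin ℂ (Set.range (barToC N ι)) = ⊤ := by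
  apply IntermediateField.map_injective (FC N).val
  rw [IntermediateField.adjoin_map, ← AlgHom.fieldRange_eq_map, IntermediateField.fieldRange_val,
    ← Set.range_comp]
  have : Set.range (⇑(FC N).val ∘ ⇑(barToC N ι)) = ⇑(coeffMap ι) ''
      (modularFunctionFieldBar N : Set (LaurentSeries (AlgebraicClosure ℚ))) := by
    ext y
    constructor
    · rintro ⟨x, rfl⟩
      exact ⟨x, x.2, rfl⟩
    · rintro ⟨x, hx, rfl⟩
      exact ⟨⟨x, hx⟩, rfl⟩
  rw [this]
  exact adjoin_coeffMap_image_modularFunctionFieldBar N ι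

end BaseChange

section QExp

open ModularCurve

variable (N : ℕ) [NeZero N]
variable (qexp : WH (Gamma0 N) →ₐ[ℂ] LaurentSeries ℂ) (hinj : Function.Injective qexp)

/-- The extension of the `q`-expansion map to the field of modular functions. -/
noncomputable def qexpK : WHField (Gamma0 N) →ₐ[ℂ] LaurentSeries ℂ :=
  IsFractionRing.liftAlgHom (K := WHField (Gamma0 N)) (g := qexp) hinj

omit [NeZero N] in
lemma qexpK_algebraMap (f : WH (Gamma0 N)) :
    qexpK N qexp hinj (algebraMap (WH (Gamma0 N)) (WHField (Gamma0 N)) f) = qexp f := by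
  rw [qexpK, IsFractionRing.liftAlgHom_apply, IsFractionRing.lift_algebraMap]
  rfl

variable (hj : qexp (jWH (Gamma0 N)) = jqModC ℂ)
  (hjd : ∀ (d : ℕ) [NeZero d], d ∣ N → ∀ h : JN.jN d ∈ WH (Gamma0 N),
    qexp ⟨JN.jN d, h⟩ = qExpand ℂ d (jqModC ℂ))

omit [NeZero N] in
include hj in
lemma qexpK_jM : qexpK N qexp hinj (jM N) = jqModC ℂ := by
  rw [jM, qexpK_algebraMap, hj]

include hjd in
lemma qexpK_jNM : qexpK N qexp hinj (jNM N) = jqNModC ℂ N := by
  rw [jNM, qexpK_algebraMap, jqNModC]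
  exact hjd N dvd_rfl (JN.jN_mem_WH N)

include hj hjd in
/-- The range of `q`-expansion on `WHField (Gamma0 N)` is `ℂ(j(q), j(q^N))`. -/
theorem fieldRange_qexpK_eq_modularFunctionFieldC :
    (qexpK N qexp hinj).fieldRange = modularFunctionFieldC ℂ N := by
  rw [AlgHom.fieldRange_eq_map, ← adjoin_jM_jNM_eq_top, IntermediateField.adjoin_map,
    Set.image_pair, qexpK_jM N qexp hinj hj, qexpK_jNM N qexp hinj hjd, modularFunctionFieldC]

include hj hjd in
/-- The range of `q`-expansion on `WHField (Gamma0 N)` is `F_ℂ = ℂ(j(q^d) : d ∣ N)`. -/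
theorem fieldRange_qexpK : (qexpK N qexp hinj).fieldRange = FC N := by
  apply le_antisymm
  · rw [fieldRange_qexpK_eq_modularFunctionFieldC N qexp hinj hj hjd, modularFunctionFieldC,
      IntermediateField.adjoin_le_iff]
    rintro x (rfl | rfl)
    · exact jqModC_mem_FC N
    · exact qExpand_jqModC_mem_FC N dvd_rfl
  · apply FC_le_of_forall_mem
    intro d _ hd
    have h : JN.jN d ∈ WH (Gamma0 N) := WH_le (Gamma0_le_Gamma0_of_dvd hd) (JN.jN_mem_WH d)
    rw [← hjd d hd h, ← qexpK_algebraMap N qexp hinj]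
    exact ⟨_, rfl⟩

/-- **B4**: `q`-expansion identifies the field of modular functions of level `Γ₀(N)` with
`F_ℂ = ℂ(j(q^d) : d ∣ N) ⊆ ℂ((q))`. -/
noncomputable def qexpEquiv : WHField (Gamma0 N) ≃ₐ[ℂ] ↥(FC N) :=
  (AlgEquiv.ofInjectiveField (qexpK N qexp hinj)).trans
    (IntermediateField.equivOfEq (fieldRange_qexpK N qexp hinj hj hjd))

lemma coe_qexpEquiv (x : WHField (Gamma0 N)) :
    ((qexpEquiv N qexp hinj hj hjd x : FC N) : LaurentSeries ℂ) = qexpK N qexp hinj x := rfl

lemma qexpEquiv_jM :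
    qexpEquiv N qexp hinj hj hjd (jM N) = ⟨jqModC ℂ, jqModC_mem_FC N⟩ :=
  Subtype.ext (by rw [coe_qexpEquiv, qexpK_jM N qexp hinj hj])

lemma qexpEquiv_jNM :
    qexpEquiv N qexp hinj hj hjd (jNM N) = ⟨qExpand ℂ N (jqModC ℂ), qExpand_jqModC_mem_FC N dvd_rfl⟩ :=
  Subtype.ext (by rw [coe_qexpEquiv, qexpK_jNM N qexp hinj hjd, jqNModC])

lemma qexpEquiv_algebraMap_poly (P : ℂ[X]) :
    qexpEquiv N qexp hinj hj hjd (algebraMap ℂ[X] (WHField (Gamma0 N)) P) =
      Polynomial.aeval (⟨jqModC ℂ, jqModC_mem_FC N⟩ : FC N) P := by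
  rw [algebraMap_poly_eq_aeval_jM, ← Polynomial.aeval_algHom_apply, qexpEquiv_jM]

end QExp

end Fermat.Agent.S24.FieldIso
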