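import Fermat.Agent.S24.QExpScale

/-!
# M2b / S24 / B3 : the `q`-expansion `WH (Γ₀(N)) →ₐ[ℂ] LaurentSeries ℂ`

* `qexpOf Γ hT : WH Γ →ₐ[ℂ] LaurentSeries ℂ` for any `Γ ≤ SL(2,ℤ)` containing `T`; injective;
* `qexp N := qexpOf (Gamma0 N) _`;
* `qexp_jWH : qexp N (jWH (Gamma0 N)) = ModularCurve.jqModC ℂ`;
* `qexp_jN : qexp N ⟨JN.jN d, _⟩ = ModularCurve.qExpand ℂ d (ModularCurve.jqModC ℂ)`.
-/

set_option autoImplicit false

namespace Fermat.Agent.S24.QExp

open UpperHalfPlane ModularForm CongruenceSubgroup MatrixGroups Filter Function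
open Fermat.Agent.M2
open scoped Manifold Topology

local notation "Δ" => ModularForm.discriminant
local notation "ofPS" => HahnSeries.ofPowerSeries ℤ ℂ

/-! ### The `q`-expansion of `j` -/

lemma isMer_jInv : IsMer jInv := IsMer.of_isWH (Γ := ⊤) (Subgroup.mem_top _) (isWH_jInv ⊤)

lemma jInv_mul_discriminant_eq : jInv * (Δ : ℍ → ℂ) = (E₄ : ℍ → ℂ) ^ 3 := by
  funext z
  simp only [Pi.mul_apply, Pi.pow_apply]
  exact jInv_mul_discriminant z

theorem qexpFun_jInv : qexpFun jInv = ModularCurve.jqModC ℂ := by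
  have hE : IsHol ((E₄ : ℍ → ℂ) ^ 3) := (IsHol.ofModularForm E₄).pow 3
  have h1 := qexpFun_mul_ofPS isMer_jInv IsHol.discriminant
    (by rw [jInv_mul_discriminant_eq]; exact hE)
  rw [jInv_mul_discriminant_eq, (IsHol.ofModularForm E₄).qExpansion_pow, qExpansion_E₄,
    qExpansion_discriminant] at h1
  have hD : ofPS (PowerSeries.X *
      PowerSeries.map (Int.castRingHom ℂ) ModularCurve.dedekindEtaUnit) ≠ 0 := by
    have := qD_ne_zero
    rwa [qD, qExpansion_discriminant] at this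
  apply mul_right_cancel₀ hD
  rw [h1, ModularCurve.jqModC, ModularCurve.jNum]
  rw [map_mul (ofPS), HahnSeries.ofPowerSeries_X]
  have e1 : (HahnSeries.single (-1 : ℤ) (1 : ℂ)) * HahnSeries.single (1 : ℤ) (1 : ℂ) = 1 := by
    rw [HahnSeries.single_mul_single]
    simp
  have e2 : PowerSeries.map (Int.castRingHom ℂ)
      (ModularCurve.eisenstein4 ^ 3 * ModularCurve.dedekindEtaUnitInv) *
      PowerSeries.map (Int.castRingHom ℂ) ModularCurve.dedekindEtaUnit =
      PowerSeries.map (Int.castRingHom ℂ) ModularCurve.eisenstein4 ^ 3 := by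
    rw [← map_mul, mul_assoc, mul_comm ModularCurve.dedekindEtaUnitInv,
      ModularCurve.dedekindEtaUnit_mul_inv, mul_one, map_pow]
  calc ofPS (PowerSeries.map (Int.castRingHom ℂ) ModularCurve.eisenstein4 ^ 3)
      = (HahnSeries.single (-1 : ℤ) (1 : ℂ) * HahnSeries.single (1 : ℤ) (1 : ℂ)) *
          ofPS (PowerSeries.map (Int.castRingHom ℂ)
            (ModularCurve.eisenstein4 ^ 3 * ModularCurve.dedekindEtaUnitInv) *
          PowerSeries.map (Int.castRingHom ℂ) ModularCurve.dedekindEtaUnit) := by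
        rw [e1, one_mul, e2]
    _ = _ := by
        rw [map_mul (ofPS)]
        ring

/-! ### The algebra homomorphism -/

section AlgHom

variable (Γ : Subgroup SL(2, ℤ)) (hT : ModularGroup.T ∈ Γ)

lemma isMer_coe {Γ : Subgroup SL(2, ℤ)} (hT : ModularGroup.T ∈ Γ) (f : WH Γ) :
    IsMer (f : ℍ → ℂ) := IsMer.of_isWH hT f.2

/-- The `q`-expansion at `i∞` on `WH Γ`, for `T ∈ Γ`. -/
noncomputable def qexpOf : WH Γ →ₐ[ℂ] LaurentSeries ℂ where
  toFun f := qexpFun (f : ℍ → ℂ)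
  map_one' := by
    show qexpFun (fun _ : ℍ => (1 : ℂ)) = 1
    rw [qexpFun_const, map_one]
  map_mul' f g := qexpFun_mul (isMer_coe hT f) (isMer_coe hT g) (isMer_coe hT (f * g))
  map_zero' := by
    show qexpFun (fun _ : ℍ => (0 : ℂ)) = 0
    rw [qexpFun_const, map_zero]
  map_add' f g := qexpFun_add (isMer_coe hT f) (isMer_coe hT g) (isMer_coe hT (f + g))
  commutes' c := by
    show qexpFun (fun _ : ℍ => c) = algebraMap ℂ (LaurentSeries ℂ) c
    have h1 : algebraMap ℂ (PowerSeries ℂ) c = PowerSeries.C c := by simp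
    rw [qexpFun_const, HahnSeries.algebraMap_apply', h1, HahnSeries.ofPowerSeries_C]

lemma qexpOf_apply (f : WH Γ) : qexpOf Γ hT f = qexpFun (f : ℍ → ℂ) := rfl

theorem qexpOf_injective : Function.Injective (qexpOf Γ hT) := by
  rw [injective_iff_map_eq_zero]
  intro f hf
  exact Subtype.ext (eq_zero_of_qexpFun_eq_zero (isMer_coe hT f) hf)

theorem qexpOf_jWH : qexpOf Γ hT (jWH Γ) = ModularCurve.jqModC ℂ := qexpFun_jInv

end AlgHom

/-! ### Level `Γ₀(N)` -/

variable (N : ℕ)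

lemma T_mem_Gamma0 : ModularGroup.T ∈ Gamma0 N := by
  rw [Gamma0_mem]
  simp [ModularGroup.T]

/-- `Γ₀(N) ≤ Γ₀(d)` for `d ∣ N`. -/
theorem Gamma0_le_of_dvd {d : ℕ} (hd : d ∣ N) : Gamma0 N ≤ Gamma0 d := by
  intro γ hγ
  rw [Gamma0_mem, ZMod.intCast_zmod_eq_zero_iff_dvd] at hγ ⊢
  exact (Int.natCast_dvd_natCast.mpr hd).trans hγ

/-- `j(d z) ∈ WH(Γ₀(N))` for `d ∣ N`. -/
theorem jN_mem_WH_of_dvd (d : ℕ) [NeZero d] (hd : d ∣ N) : JN.jN d ∈ WH (Gamma0 N) :=
  WH_le (Gamma0_le_of_dvd N hd) (JN.jN_mem_WH d)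

/-- The `q`-expansion at `i∞` as a `ℂ`-algebra hom into Laurent series. -/
noncomputable def qexp : WH (Gamma0 N) →ₐ[ℂ] LaurentSeries ℂ := qexpOf (Gamma0 N) (T_mem_Gamma0 N)

lemma qexp_apply (f : WH (Gamma0 N)) : qexp N f = qexpFun (f : ℍ → ℂ) := rfl

theorem qexp_injective : Function.Injective (qexp N) := qexpOf_injective _ _

theorem qexp_jWH : qexp N (jWH (Gamma0 N)) = ModularCurve.jqModC ℂ := qexpFun_jInv

set_option linter.unusedVariables false in
theorem qexp_jN (d : ℕ) [NeZero d] (hd : d ∣ N) (h : JN.jN d ∈ WH (Gamma0 N)) :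
    qexp N ⟨JN.jN d, h⟩ = ModularCurve.qExpand ℂ d (ModularCurve.jqModC ℂ) := by
  rw [qexp_apply, ← qexpFun_jInv]
  exact qexpFun_comp_scaleH d isMer_jInv (IsMer.of_isWH (T_mem_Gamma0 N) h)

theorem qexp_jNWH [NeZero N] : qexp N (JN.jNWH N) = ModularCurve.jqNModC ℂ N :=
  qexp_jN N N dvd_rfl _

end Fermat.Agent.S24.QExp
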