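import Fermat.Agent.S24.FFBasics
import Fermat.Agent.S24.FieldIso
import Fermat.Agent.S24.QExp

/-!
# M2b / S24, task B8 (final): the modular equation over `ℂ` and finiteness of `F / Q̄(j)`

`ModularEquationOver ℂ N` (every `j(q^d)`, `d ∣ N`, is algebraic over `ℂ(j(q))`) follows from the
`q`-expansion homomorphism of B3 and the finiteness of `WHField (Gamma0 N)` over `ℂ(j)`.
Combined with `FFBasics` this gives the unconditional finiteness of `modularFunctionFieldBar N`
over `Q̄(j(q))`.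
-/

set_option autoImplicit false

noncomputable section

namespace Fermat.Agent.S24.FFBasics

open UpperHalfPlane ModularForm MatrixGroups Polynomial CongruenceSubgroup
open Fermat.Agent.M2 ModularCurve IntermediateField

section FromQExp

variable (N : ℕ) [NeZero N]
variable (qexp : WH (Gamma0 N) →ₐ[ℂ] LaurentSeries ℂ) (hinj : Function.Injective qexp)
  (hj : qexp (jWH (Gamma0 N)) = jqModC ℂ)
  (hjd : ∀ (d : ℕ) [NeZero d], d ∣ N → ∀ h : JN.jN d ∈ WH (Gamma0 N),
    qexp ⟨JN.jN d, h⟩ = qExpand ℂ d (jqModC ℂ))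

include hinj hj hjd in
/-- The modular equation over `ℂ`, from the B3 interface (`q`-expansion homomorphism). -/
theorem modularEquationOver_of_qexp : ModularEquationOver ℂ N := by
  intro d _ hdN
  have hmem : JN.jN d ∈ WH (Gamma0 N) :=
    WH_le (FieldIso.Gamma0_le_Gamma0_of_dvd hdN) (JN.jN_mem_WH d)
  haveI : FiniteDimensional (RatFunc ℂ) (WHField (Gamma0 N)) :=
    finiteDimensional_WHField (Gamma0 N) (Gamma N)
  have h1 : IsAlgebraic (RatFunc ℂ)
      (algebraMap (WH (Gamma0 N)) (WHField (Gamma0 N)) ⟨JN.jN d, hmem⟩) :=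
    Algebra.IsAlgebraic.isAlgebraic _
  haveI : Algebra.IsAlgebraic ℂ[X] (RatFunc ℂ) :=
    IsLocalization.isAlgebraic _ (nonZeroDivisors ℂ[X])
  have h2 : IsAlgebraic ℂ[X]
      (algebraMap (WH (Gamma0 N)) (WHField (Gamma0 N)) ⟨JN.jN d, hmem⟩) :=
    h1.restrictScalars ℂ[X]
  -- transport along `q`-expansion
  have htr : Transcendental ℂ (AdjoinSimple.gen ℂ (jqModC ℂ)) := fun halg =>
    transcendental_jqModC ℂ
      ((isAlgebraic_algHom_iff (ℂ⟮jqModC ℂ⟯).val (ℂ⟮jqModC ℂ⟯).val.injective).mpr halg)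
  have hf : Function.Injective
      ((Polynomial.aeval (AdjoinSimple.gen ℂ (jqModC ℂ)) : ℂ[X] →ₐ[ℂ] ℂ⟮jqModC ℂ⟯) :
        ℂ[X] →+* ℂ⟮jqModC ℂ⟯) := by
    have := transcendental_iff_injective.mp htr
    exact this
  have hcomp : RingHom.comp (algebraMap ℂ⟮jqModC ℂ⟯ (LaurentSeries ℂ))
      ((Polynomial.aeval (AdjoinSimple.gen ℂ (jqModC ℂ)) : ℂ[X] →ₐ[ℂ] ℂ⟮jqModC ℂ⟯) :
        ℂ[X] →+* ℂ⟮jqModC ℂ⟯)
      = RingHom.comp ((FieldIso.qexpK N qexp hinj : WHField (Gamma0 N) →ₐ[ℂ] _) :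
          WHField (Gamma0 N) →+* LaurentSeries ℂ) (algebraMap ℂ[X] (WHField (Gamma0 N))) := by
    refine RingHom.ext fun P => ?_
    simp only [RingHom.comp_apply, RingHom.coe_coe]
    rw [FieldIso.algebraMap_poly_eq_aeval_jM, ← Polynomial.aeval_algebraMap_apply,
      AdjoinSimple.algebraMap_gen,
      ← Polynomial.aeval_algHom_apply (FieldIso.qexpK N qexp hinj) (FieldIso.jM N) P,
      FieldIso.qexpK_jM N qexp hinj hj]
  have h3 := h2.ringHom_of_comp_eq
    ((Polynomial.aeval (AdjoinSimple.gen ℂ (jqModC ℂ)) : ℂ[X] →ₐ[ℂ] ℂ⟮jqModC ℂ⟯) :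
      ℂ[X] →+* ℂ⟮jqModC ℂ⟯)
    ((FieldIso.qexpK N qexp hinj : WHField (Gamma0 N) →ₐ[ℂ] _) :
          WHField (Gamma0 N) →+* LaurentSeries ℂ) hf hcomp
  have h4 : ((FieldIso.qexpK N qexp hinj : WHField (Gamma0 N) →ₐ[ℂ] _) :
      WHField (Gamma0 N) →+* LaurentSeries ℂ)
      (algebraMap (WH (Gamma0 N)) (WHField (Gamma0 N)) ⟨JN.jN d, hmem⟩) =
      qExpand ℂ d (jqModC ℂ) := by
    rw [RingHom.coe_coe, FieldIso.qexpK_algebraMap, hjd d hdN hmem]
  rwa [h4] at h3

end FromQExp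

section Final

variable (N : ℕ) [NeZero N]

/-- **The modular equation over `ℂ`**: `j(q^d)` is algebraic over `ℂ(j(q))` for `d ∣ N`. -/
theorem modularEquationOver_complex : ModularEquationOver ℂ N :=
  modularEquationOver_of_qexp N (QExp.qexp N) (QExp.qexp_injective N) (QExp.qexp_jWH N)
    (fun d inst hd h => @QExp.qexp_jN N d inst hd h)

/-- **B8 (d), unconditional**: `modularFunctionFieldBar N` is finite over `Q̄(j(q))`. -/
theorem finiteDimensional_xj'
    (h : coeffEmb (AlgebraicClosure ℚ) jq ∈ modularFunctionFieldBar N) :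
    FiniteDimensional
      (IntermediateField.adjoin (AlgebraicClosure ℚ)
        {(⟨coeffEmb (AlgebraicClosure ℚ) jq, h⟩ : modularFunctionFieldBar N)})
      (modularFunctionFieldBar N) :=
  finiteDimensional_xj N (modularEquationOver_complex N) h

end Final

end Fermat.Agent.S24.FFBasics
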