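import Mathlib
import Fermat.Prelude.Def_ModularCurve_ArithmeticGalois
import Fermat.Prelude.Def_ModularCurve_JqCoeff
import Fermat.Prelude.Thm_ModularCurve_coeffMap_qExpand
import Fermat.Prelude.Thm_ModularCurve_coeff_jqModC_pow_self
import Fermat.Prelude.Thm_ModularCurve_coeff_jqModC_pow_of_lt

/-!
# M2b / S24, task B8: basic facts on the function field `modularFunctionFieldBar N`

* coefficientwise base change `K((q)) → L((q))` preserves linear and algebraic independence;
* descent of algebraicity along it;
* generators of `laurentBaseChange`, transcendence of `j(q)`, finiteness of `F / K(j(q))`.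
-/

set_option autoImplicit false

noncomputable section

namespace Fermat.Agent.S24.FFBasics

open ModularCurve IntermediateField

section LinearDisjoint

variable {K L : Type*} [Field K] [Field L] [Algebra K L]

/-- Coefficients of a constant multiple (constants via the algebra map of `K((q))`). -/
theorem coeff_algebraMap_mul (c : K) (x : LaurentSeries K) (n : ℤ) :
    (algebraMap K (LaurentSeries K) c * x).coeff n = c * x.coeff n := by
  rw [algebraMap_laurentSeries_eq_single, HahnSeries.coeff_single_zero_mul]

/-- Linear independence in `K((q))` for the module structure induced by the algebra structure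
(which is not reducibly equal to the Hahn series module structure), in explicit form. -/
theorem linearIndependent_algebra_iff {ι : Type*} (f : ι → LaurentSeries K) :
    @LinearIndependent ι K (LaurentSeries K) f _ _ Algebra.toModule ↔
      ∀ (s : Finset ι) (g : ι → K),
        ∑ i ∈ s, algebraMap K (LaurentSeries K) (g i) * f i = 0 → ∀ i ∈ s, g i = 0 := by
  rw [@linearIndependent_iff' ι K (LaurentSeries K) _ _ Algebra.toModule f]
  simp only [Algebra.smul_def]

/-- Coefficientwise base change keeps `K`-linearly independent families `L`-linearly
independent (module structures: the ones induced by the algebra structures). -/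
theorem linearIndependent_coeffMap {ι : Type*} (f : ι → LaurentSeries K)
    (hf : @LinearIndependent ι K (LaurentSeries K) f _ _ Algebra.toModule) :
    @LinearIndependent ι L (LaurentSeries L)
      (fun i => coeffMap (algebraMap K L) (f i)) _ _ Algebra.toModule := by
  classical
  rw [linearIndependent_algebra_iff] at hf ⊢
  intro s g hg i hi
  set b := Module.Basis.ofVectorSpace K L with hb
  -- coefficientwise identity
  have hcoef : ∀ n : ℤ, ∑ j ∈ s, g j * algebraMap K L ((f j).coeff n) = 0 := by
    intro n
    have := congrArg (fun x : LaurentSeries L => x.coeff n) hg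
    simp only [HahnSeries.coeff_sum, HahnSeries.coeff_zero] at this
    rw [← this]
    refine Finset.sum_congr rfl fun j _ => ?_
    rw [coeff_algebraMap_mul, coeffMap_coeff]
  -- for each basis index β, the K-combination vanishes
  have hβ : ∀ β, ∑ j ∈ s, algebraMap K (LaurentSeries K) (b.repr (g j) β) * f j = 0 := by
    intro β
    ext n
    have h1 := congrArg (fun x : L => b.repr x β) (hcoef n)
    simp only [map_sum, Finsupp.coe_finsetSum, Finset.sum_apply, map_zero,
      Finsupp.coe_zero, Pi.zero_apply] at h1
    rw [HahnSeries.coeff_sum, HahnSeries.coeff_zero, ← h1]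
    refine Finset.sum_congr rfl fun j _ => ?_
    have : g j * algebraMap K L ((f j).coeff n) = ((f j).coeff n) • g j := by
      rw [Algebra.smul_def, mul_comm]
    rw [this, map_smul, Finsupp.smul_apply, smul_eq_mul, coeff_algebraMap_mul,
      mul_comm ((f j).coeff n)]
  have hz : ∀ β, b.repr (g i) β = 0 := fun β =>
    hf s (fun j => b.repr (g j) β) (hβ β) i hi
  have : b.repr (g i) = 0 := Finsupp.ext hz
  exact (b.repr.map_eq_zero_iff).mp this

end LinearDisjoint


section AlgInd

/-- Algebraic independence is linear independence of the monomials. -/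
theorem algebraicIndependent_iff_linearIndependent_monomials
    {R A ι : Type*} [CommRing R] [CommRing A] [Algebra R A] (x : ι → A) :
    AlgebraicIndependent R x ↔
      LinearIndependent R (fun m : ι →₀ ℕ => m.prod fun i k => x i ^ k) := by
  set b := MvPolynomial.basisMonomials ι R with hb
  have hfam : (fun m : ι →₀ ℕ => m.prod fun i k => x i ^ k) =
      (MvPolynomial.aeval x : MvPolynomial ι R →ₐ[R] A).toLinearMap ∘ b := by
    funext m
    simp [hb, MvPolynomial.aeval_monomial]
  rw [algebraicIndependent_iff_injective_aeval, hfam,
    linearIndependent_iff_injective_finsuppLinearCombination]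
  have h2 : ⇑(Finsupp.linearCombination R
      ((MvPolynomial.aeval x : MvPolynomial ι R →ₐ[R] A).toLinearMap ∘ b)) =
      (MvPolynomial.aeval x : MvPolynomial ι R →ₐ[R] A) ∘ b.repr.symm := by
    funext l
    rw [Function.comp_apply, ← Finsupp.apply_linearCombination, Module.Basis.repr_symm_apply]
    rfl
  rw [h2]
  exact (Function.Injective.of_comp_iff' _ b.repr.symm.bijective).symm

variable {K L : Type*} [Field K] [Field L] [Algebra K L]

/-- Coefficientwise base change keeps algebraically independent families algebraically
independent. -/
theorem algebraicIndependent_coeffMap {ι : Type*} (v : ι → LaurentSeries K)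
    (hv : AlgebraicIndependent K v) :
    AlgebraicIndependent L (fun i => coeffMap (algebraMap K L) (v i)) := by
  rw [algebraicIndependent_iff_linearIndependent_monomials] at hv ⊢
  have h := linearIndependent_coeffMap (K := K) (L := L)
    (fun m : ι →₀ ℕ => m.prod fun i k => v i ^ k) hv
  simp only [Finsupp.prod, map_prod, map_pow] at h
  exact h

/-- The two-element family `(y, x)` indexed by `Option Unit`. -/
def optFam {A : Type*} (x y : A) : Option Unit → A := fun o => o.elim y (fun _ : Unit => x)

@[simp] theorem optFam_none {A : Type*} (x y : A) : optFam x y none = y := rfl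
@[simp] theorem optFam_some {A : Type*} (x y : A) (u : Unit) : optFam x y (some u) = x := rfl

theorem comp_optFam {A B : Type*} (g : A → B) (x y : A) :
    g ∘ optFam x y = optFam (g x) (g y) := by
  funext o; cases o <;> rfl

theorem range_const_unit {A : Type*} (x : A) : (Set.range fun _ : Unit => x) = {x} := by
  ext z; simp [eq_comm]

open scoped IntermediateField.algebraAdjoinAdjoin in
/-- For `x` transcendental over a field `k`, `y` is algebraic over `k(x)` iff `(y, x)` is
algebraically dependent over `k`. -/
theorem isAlgebraic_adjoin_simple_iff {k A : Type*} [Field k] [Field A] [Algebra k A] (x y : A)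
    (hx : Transcendental k x) :
    IsAlgebraic k⟮x⟯ y ↔ ¬ AlgebraicIndependent k (optFam x y) := by
  have hxi : AlgebraicIndependent k (fun _ : Unit => x) :=
    algebraicIndependent_unique_type_iff.mpr hx
  have key : AlgebraicIndependent k (optFam x y) ↔
      Transcendental (Algebra.adjoin k {x}) y := by
    have := hxi.option_iff_transcendental y
    rw [range_const_unit] at this
    exact this
  rw [key, Transcendental, not_not]
  constructor
  · intro h
    exact h.restrictScalars (Algebra.adjoin k {x})
  · intro h
    exact h.extendScalars (S := k⟮x⟯)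
      (FaithfulSMul.algebraMap_injective (Algebra.adjoin k {x}) k⟮x⟯)

/-- Algebraic dependence descends along coefficientwise base change. -/
theorem not_algebraicIndependent_of_coeffMap (x y : LaurentSeries K)
    (h : ¬ AlgebraicIndependent L
      (optFam (coeffMap (algebraMap K L) x) (coeffMap (algebraMap K L) y))) :
    ¬ AlgebraicIndependent K (optFam x y) := by
  intro hind
  apply h
  have := algebraicIndependent_coeffMap (L := L) _ hind
  have hfam : (fun o => coeffMap (algebraMap K L) (optFam x y o)) =
      optFam (coeffMap (algebraMap K L) x) (coeffMap (algebraMap K L) y) := by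
    funext o; cases o <;> rfl
  rwa [hfam] at this

/-- Transcendence is preserved by coefficientwise base change. -/
theorem transcendental_coeffMap (x : LaurentSeries K) (hx : Transcendental K x) :
    Transcendental L (coeffMap (algebraMap K L) x) := by
  have hxi : AlgebraicIndependent K (fun _ : Unit => x) :=
    algebraicIndependent_unique_type_iff.mpr hx
  have := algebraicIndependent_coeffMap (L := L) _ hxi
  exact algebraicIndependent_unique_type_iff.mp this

/-- Descent of algebraicity along coefficientwise base change: if `x` is transcendental over `K`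
and the base change of `y` is algebraic over `L(x_L)`, then `y` is algebraic over `K(x)`. -/
theorem isAlgebraic_adjoin_simple_of_coeffMap (x y : LaurentSeries K) (hx : Transcendental K x)
    (h : IsAlgebraic L⟮coeffMap (algebraMap K L) x⟯ (coeffMap (algebraMap K L) y)) :
    IsAlgebraic K⟮x⟯ y := by
  rw [isAlgebraic_adjoin_simple_iff _ _ hx]
  rw [isAlgebraic_adjoin_simple_iff _ _ (transcendental_coeffMap x hx)] at h
  exact not_algebraicIndependent_of_coeffMap x y h

/-- The same, for elements of an intermediate field `F` of `K((q)) / K`, with `K(x)` formed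
inside `F`. -/
theorem isAlgebraic_adjoin_simple_of_coeffMap' (F : IntermediateField K (LaurentSeries K))
    (x y : F) (hx : Transcendental K (x : LaurentSeries K))
    (h : IsAlgebraic L⟮coeffMap (algebraMap K L) (x : LaurentSeries K)⟯
      (coeffMap (algebraMap K L) (y : LaurentSeries K))) :
    IsAlgebraic K⟮x⟯ y := by
  have hxF : Transcendental K x := fun halg =>
    hx ((isAlgebraic_algHom_iff F.val F.val.injective).mpr halg)
  rw [isAlgebraic_adjoin_simple_iff _ _ hxF]
  rw [isAlgebraic_adjoin_simple_iff _ _ (transcendental_coeffMap _ hx)] at h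
  have hE := not_algebraicIndependent_of_coeffMap _ _ h
  intro hind
  apply hE
  have := hind.map' (f := F.val) F.val.injective
  rwa [comp_optFam] at this

end AlgInd

section Transcendence

variable (K : Type*) [Field K]

/-- `j(q)` is transcendental over any field of coefficients (it has a pole). -/
theorem transcendental_jqModC : Transcendental K (jqModC K) := by
  rw [transcendental_iff]
  intro p hp
  by_contra hne
  have hlead : p.leadingCoeff ≠ 0 := Polynomial.leadingCoeff_ne_zero.mpr hne
  apply hlead
  have hcoef := congrArg (fun x : LaurentSeries K => x.coeff (-(p.natDegree : ℤ))) hp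
  simp only [HahnSeries.coeff_zero] at hcoef
  rw [Polynomial.aeval_eq_sum_range, HahnSeries.coeff_sum] at hcoef
  rw [Finset.sum_eq_single_of_mem p.natDegree (Finset.self_mem_range_succ _)] at hcoef
  · rw [Algebra.smul_def, coeff_algebraMap_mul, coeff_jqModC_pow_self, mul_one] at hcoef
    exact hcoef
  · intro i hi hne'
    rw [Algebra.smul_def, coeff_algebraMap_mul, coeff_jqModC_pow_of_lt, mul_zero]
    have : i < p.natDegree := lt_of_le_of_ne (Finset.mem_range_succ_iff.mp hi) hne'
    omega

end Transcendence

section Generators

variable (K : Type*) [Field K] [Algebra ℚ K]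

theorem coeffEmb_jq : coeffEmb K jq = jqModC K := by
  show coeffMap (algebraMap ℚ K) (jqModC ℚ) = jqModC K
  exact map_jqModC (algebraMap ℚ K)

theorem coeffEmb_qExpand_jq (d : ℕ) [NeZero d] :
    coeffEmb K (qExpand ℚ d jq) = qExpand K d (jqModC K) := by
  rw [coeffEmb, coeffMap_qExpand, ← coeffEmb, coeffEmb_jq]

/-- The set of generators `j(q^d)`, `d ∣ N`, with coefficients in `K`. -/
def genSet (N : ℕ) : Set (LaurentSeries K) :=
  {x | ∃ (d : ℕ) (_ : NeZero d), d ∣ N ∧ x = qExpand K d (jqModC K)}

theorem coeffEmb_image_divisorExpansions (N : ℕ) :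
    ⇑(coeffEmb K) '' divisorExpansions N = genSet K N := by
  ext x
  constructor
  · rintro ⟨y, ⟨d, hd, hdN, rfl⟩, rfl⟩
    exact ⟨d, hd, hdN, coeffEmb_qExpand_jq K d⟩
  · rintro ⟨d, hd, hdN, rfl⟩
    exact ⟨qExpand ℚ d jq, ⟨d, hd, hdN, rfl⟩, coeffEmb_qExpand_jq K d⟩

omit [Algebra ℚ K] in
theorem finite_genSet (N : ℕ) [NeZero N] : (genSet K N).Finite := by
  classical
  refine Set.Finite.subset
    (Set.Finite.image (fun d : ℕ => if h : d = 0 then (0 : LaurentSeries K)
      else @qExpand K _ d ⟨h⟩ (jqModC K)) (N.divisors : Set ℕ).toFinite) ?_
  rintro x ⟨d, hd, hdN, rfl⟩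
  refine ⟨d, ?_, ?_⟩
  · simpa using ⟨hdN, NeZero.ne N⟩
  · simp only [dif_neg (NeZero.ne d)]

/-- Base change of a field generated by `S` is generated by the image of `S`. -/
theorem laurentBaseChange_adjoin (S : Set (LaurentSeries ℚ)) :
    laurentBaseChange K (IntermediateField.adjoin ℚ S) =
      IntermediateField.adjoin K (⇑(coeffEmb K) '' S) := by
  apply le_antisymm
  · rw [laurentBaseChange, IntermediateField.adjoin_le_iff]
    rintro _ ⟨x, hx, rfl⟩
    induction hx using IntermediateField.adjoin_induction with
    | mem y hy => exact IntermediateField.subset_adjoin K _ ⟨y, hy, rfl⟩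
    | algebraMap c =>
      have : coeffEmb K (algebraMap ℚ (LaurentSeries ℚ) c) =
          algebraMap K (LaurentSeries K) (algebraMap ℚ K c) := by
        rw [algebraMap_laurentSeries_eq_single, algebraMap_laurentSeries_eq_single, coeffEmb,
          coeffMap_single]
      rw [this]
      exact IntermediateField.algebraMap_mem _ _
    | add x y _ _ hx hy => rw [map_add]; exact add_mem hx hy
    | inv x _ hx => rw [map_inv₀]; exact inv_mem hx
    | mul x y _ _ hx hy => rw [map_mul]; exact mul_mem hx hy
  · exact IntermediateField.adjoin.mono K _ _
      (Set.image_mono (IntermediateField.subset_adjoin ℚ S))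

/-- `F = K(j(q^d) : d ∣ N)`. -/
theorem laurentBaseChange_full (N : ℕ) :
    laurentBaseChange K (modularFunctionFieldFull N) =
      IntermediateField.adjoin K (genSet K N) := by
  rw [modularFunctionFieldFull, laurentBaseChange_adjoin, coeffEmb_image_divisorExpansions]

theorem genSet_subset (N : ℕ) :
    genSet K N ⊆ (laurentBaseChange K (modularFunctionFieldFull N) : Set (LaurentSeries K)) := by
  rw [laurentBaseChange_full]
  exact IntermediateField.subset_adjoin K _

theorem jqModC_mem_laurentBaseChange (N : ℕ) [NeZero N] :
    jqModC K ∈ laurentBaseChange K (modularFunctionFieldFull N) := by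
  apply genSet_subset K N
  exact ⟨1, inferInstance, one_dvd N, (qExpand_one_apply _).symm⟩

end Generators

section Finiteness

variable {K : Type*} [Field K] [Algebra ℚ K]

/-- The analytic input, over a big field `L` (to be applied with `L = ℂ`): the modular
equation, `j(q^d)` is algebraic over `L(j(q))`. -/
def ModularEquationOver (L : Type*) [Field L] (N : ℕ) : Prop :=
  ∀ (d : ℕ) [NeZero d], d ∣ N → IsAlgebraic L⟮jqModC L⟯ (qExpand L d (jqModC L))

variable {L : Type*} [Field L] [Algebra K L]

/-- Each generator of `F = K(j(q^d) : d ∣ N)` is algebraic over `K(x)`, `x = j(q)`. -/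
theorem isAlgebraic_of_mem_genSet (N : ℕ) (hL : ModularEquationOver L N)
    (x y : laurentBaseChange K (modularFunctionFieldFull N))
    (hx : (x : LaurentSeries K) = jqModC K) (hy : (y : LaurentSeries K) ∈ genSet K N) :
    IsAlgebraic K⟮x⟯ y := by
  obtain ⟨d, hd, hdN, hyd⟩ := hy
  refine isAlgebraic_adjoin_simple_of_coeffMap' (L := L) _ x y ?_ ?_
  · rw [hx]; exact transcendental_jqModC K
  · have h1 : coeffMap (algebraMap K L) (jqModC K) = jqModC L := map_jqModC (algebraMap K L)
    rw [hx, hyd, coeffMap_qExpand, h1]
    exact hL d hdN

/-- `F / K(x)` is finite, `x = j(q)`. -/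
theorem finiteDimensional_of_modularEquationOver (N : ℕ) [NeZero N]
    (hL : ModularEquationOver L N)
    (x : laurentBaseChange K (modularFunctionFieldFull N))
    (hx : (x : LaurentSeries K) = jqModC K) :
    FiniteDimensional K⟮x⟯ (laurentBaseChange K (modularFunctionFieldFull N)) := by
  have hfin : (Subtype.val ⁻¹' genSet K N :
      Set (laurentBaseChange K (modularFunctionFieldFull N))).Finite :=
    (finite_genSet K N).preimage (Set.injOn_of_injective Subtype.val_injective)
  haveI : Finite (Subtype.val ⁻¹' genSet K N :
      Set (laurentBaseChange K (modularFunctionFieldFull N))) := hfin.to_subtype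
  have h1 : IntermediateField.adjoin K (Subtype.val ⁻¹' genSet K N :
      Set (laurentBaseChange K (modularFunctionFieldFull N))) = ⊤ := by
    apply IntermediateField.lift_injective
    rw [IntermediateField.lift_adjoin, IntermediateField.lift_top,
      Set.image_preimage_eq_of_subset]
    · exact (laurentBaseChange_full K N).symm
    · intro g hg
      exact ⟨⟨g, genSet_subset K N hg⟩, rfl⟩
  have h2 : IntermediateField.adjoin K⟮x⟯ (Subtype.val ⁻¹' genSet K N :
      Set (laurentBaseChange K (modularFunctionFieldFull N))) = ⊤ := by
    rw [← IntermediateField.restrictScalars_eq_top_iff (K := K), eq_top_iff, ← h1,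
      IntermediateField.adjoin_le_iff]
    intro y hy
    exact IntermediateField.subset_adjoin K⟮x⟯ _ hy
  have h3 : FiniteDimensional K⟮x⟯ (IntermediateField.adjoin K⟮x⟯ (Subtype.val ⁻¹' genSet K N :
      Set (laurentBaseChange K (modularFunctionFieldFull N)))) :=
    IntermediateField.finiteDimensional_adjoin fun y hy =>
      (isAlgebraic_of_mem_genSet (L := L) N hL x y hx hy).isIntegral
  rw [h2] at h3
  exact (IntermediateField.topEquiv (F := K⟮x⟯)
    (E := laurentBaseChange K (modularFunctionFieldFull N))).toLinearEquiv.finiteDimensional

end Finiteness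

section QbarForm

/-- Version with a bare ring homomorphism `K →+* L` instead of an algebra structure. -/
theorem finiteDimensional_of_ringHom {K L : Type*} [Field K] [Algebra ℚ K] [Field L]
    (ι : K →+* L) (N : ℕ) [NeZero N] (hL : ModularEquationOver L N)
    (x : laurentBaseChange K (modularFunctionFieldFull N))
    (hx : (x : LaurentSeries K) = jqModC K) :
    FiniteDimensional K⟮x⟯ (laurentBaseChange K (modularFunctionFieldFull N)) := by
  letI : Algebra K L := ι.toAlgebra
  exact finiteDimensional_of_modularEquationOver (L := L) N hL x hx

variable (N : ℕ) [NeZero N]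

omit [NeZero N] in
/-- **B8 (b)**: `x = j(q)` is transcendental over `Q̄` (as an element of the function field). -/
theorem transcendental_xj (h : coeffEmb (AlgebraicClosure ℚ) jq ∈ modularFunctionFieldBar N) :
    Transcendental (AlgebraicClosure ℚ)
      (⟨coeffEmb (AlgebraicClosure ℚ) jq, h⟩ : modularFunctionFieldBar N) := by
  intro halg
  have h2 : IsAlgebraic (AlgebraicClosure ℚ) (coeffEmb (AlgebraicClosure ℚ) jq) :=
    (isAlgebraic_algHom_iff (modularFunctionFieldBar N).val
      (modularFunctionFieldBar N).val.injective).mpr halg
  rw [coeffEmb_jq] at h2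
  exact transcendental_jqModC _ h2

/-- **B8 (d)**: `F / Q̄(x)` is finite, given the modular equation over `ℂ`. -/
theorem finiteDimensional_xj (hC : ModularEquationOver ℂ N)
    (h : coeffEmb (AlgebraicClosure ℚ) jq ∈ modularFunctionFieldBar N) :
    FiniteDimensional
      (IntermediateField.adjoin (AlgebraicClosure ℚ)
        {(⟨coeffEmb (AlgebraicClosure ℚ) jq, h⟩ : modularFunctionFieldBar N)})
      (modularFunctionFieldBar N) := by
  haveI : Algebra.IsAlgebraic ℚ (AlgebraicClosure ℚ) := AlgebraicClosure.isAlgebraic ℚ
  exact finiteDimensional_of_ringHom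
    ((IsAlgClosed.lift (R := ℚ) (S := AlgebraicClosure ℚ) (M := ℂ)).toRingHom) N hC _
    (coeffEmb_jq _)

end QbarForm

end Fermat.Agent.S24.FFBasics
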