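/-
M2b / S24, task B2 (helper1), part 1: abstract transfer of primes along a linearly disjoint
extension of the constant field.  `B` Dedekind with fraction field `F ⊇ K`, `φ : F → F'` linearly
disjoint from `L ⊇ K`, `B_L = L[φ B]`, `B' ⊇ B_L` integral: over a maximal ideal of `B` with residue
field `K` there is exactly one prime of `B'`.
-/
import Mathlib

set_option autoImplicit false
set_option linter.unusedSectionVars false
set_option linter.style.haveILetI false

namespace Fermat.Agent.S24.Transfer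

section LinDisj

variable {K L F F' : Type*} [Field K] [Field L] [Field F] [Field F']
  [Algebra K L] [Algebra K F] [Algebra L F'] [Algebra K F'] [IsScalarTower K L F']

/-- `φ : F → F'` is linearly disjoint from `L` over `K`: `K`-linearly independent subsets of `F`
are mapped to `L`-linearly independent families. -/
def LinDisj (L : Type*) [Field L] [Algebra K L] [Algebra L F'] [IsScalarTower K L F']
    (φ : F →ₐ[K] F') : Prop :=
  ∀ s : Set F, LinearIndepOn K id s → LinearIndepOn L φ s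

variable {φ : F →ₐ[K] F'}

/-- Key consequence of linear disjointness: membership in a `K`-subspace can be tested after
extending scalars. -/
theorem LinDisj.mem_of_mem_span (hφ : LinDisj L φ) (S : Submodule K F) (y : F)
    (hy : φ y ∈ Submodule.span L (φ '' (S : Set F))) : y ∈ S := by
  by_contra hyS
  obtain ⟨b, hbS, hbspan, hbind⟩ := exists_linearIndependent K (S : Set F)
  rw [Submodule.span_eq] at hbspan
  have hyb : y ∉ Submodule.span K b := by rw [hbspan]; exact hyS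
  have hyb' : y ∉ b := fun h => hyb (Submodule.subset_span h)
  have h1 : LinearIndepOn K id (insert y b) := LinearIndepOn.id_insert hbind hyb
  have h2 := hφ _ h1
  rw [linearIndepOn_insert hyb'] at h2
  apply h2.2
  have h3 : Submodule.span L (φ '' (S : Set F)) ≤ Submodule.span L (φ '' b) := by
    rw [Submodule.span_le]
    rintro _ ⟨s, hs, rfl⟩
    have hs' : s ∈ Submodule.span K b := by rw [hbspan]; exact hs
    have h4 : φ s ∈ Submodule.span K (φ '' b) := by
      have := Submodule.mem_map_of_mem (f := φ.toLinearMap) hs'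
      rwa [Submodule.map_span] at this
    exact Submodule.span_le_restrictScalars K L _ h4
  exact h3 hy

/-- Indexed form of linear disjointness. -/
theorem LinDisj.linearIndependent (hφ : LinDisj L φ) {ι : Type*} {u : ι → F}
    (hu : LinearIndependent K u) : LinearIndependent L (fun i => φ (u i)) := by
  have h1 : LinearIndepOn K id (Set.range u) := hu.linearIndepOn_id
  have h2 := hφ _ h1
  have hinj : Function.Injective u := hu.injective
  let e : ι → Set.range u := fun i => ⟨u i, i, rfl⟩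
  have he : Function.Injective e := fun i j h => hinj (congrArg Subtype.val h)
  exact h2.comp e he

/-- Linear disjointness from the indexed form. -/
theorem LinDisj.of_forall
    (h : ∀ (s : Set F), LinearIndependent K ((↑) : s → F) →
      LinearIndependent L (fun x : s => φ (x : F))) : LinDisj L φ :=
  fun s hs => h s hs

end LinDisj

section Ring

variable {K L F F' : Type*} [Field K] [Field L] [Field F] [Field F']
  [Algebra K L] [Algebra K F] [Algebra L F'] [Algebra K F'] [IsScalarTower K L F']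
  (φ : F →ₐ[K] F')
  (B : Type*) [CommRing B] [Algebra K B] [Algebra B F] [IsScalarTower K B F]

/-- `B → F → F'`. -/
noncomputable def psi : B →ₐ[K] F' := φ.comp (IsScalarTower.toAlgHom K B F)

theorem psi_apply (b : B) : psi φ B b = φ (algebraMap B F b) := rfl

variable (L) in
/-- The `L`-subalgebra of `F'` generated by the image of `B`. -/
noncomputable def BL : Subalgebra L F' := Algebra.adjoin L (Set.range (psi φ B))

theorem psi_mem_BL (b : B) : psi φ B b ∈ BL L φ B := Algebra.subset_adjoin ⟨b, rfl⟩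

variable (L) in
/-- `B → B_L`. -/
noncomputable def psiL : B →+* BL L φ B :=
  (psi φ B).toRingHom.codRestrict (BL L φ B).toSubring (psi_mem_BL φ B)

theorem coe_psiL (b : B) : ((psiL L φ B b : BL L φ B) : F') = psi φ B b := rfl

theorem BL_toSubmodule :
    Subalgebra.toSubmodule (BL L φ B) = Submodule.span L (Set.range (psi φ B)) := by
  rw [BL, Algebra.adjoin_eq_span]
  congr 1
  have : (Set.range (psi φ B)) = ((MonoidHom.mrange (psi φ B : B →* F') : Submonoid F') : Set F') := by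
    ext; simp
  rw [this, Submonoid.closure_eq]

theorem mem_BL_iff (z : F') : z ∈ BL L φ B ↔ z ∈ Submodule.span L (Set.range (psi φ B)) := by
  rw [← BL_toSubmodule, Subalgebra.mem_toSubmodule]

variable {B}

/-- The extension of an ideal of `B` to `B_L`. -/
noncomputable def pL (𝔭 : Ideal B) : Ideal (BL L φ B) := Ideal.map (psiL L φ B) 𝔭

theorem psiL_mem_pL {𝔭 : Ideal B} {p : B} (hp : p ∈ 𝔭) : psiL L φ B p ∈ pL (L := L) φ 𝔭 :=
  Ideal.mem_map_of_mem _ hp

theorem coe_mem_span_of_mem_pL (𝔭 : Ideal B) (z : BL L φ B) (hz : z ∈ pL φ 𝔭) :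
    (z : F') ∈ Submodule.span L (psi φ B '' (𝔭 : Set B)) := by
  unfold pL Ideal.map at hz
  induction hz using Submodule.span_induction with
  | mem x hx =>
    obtain ⟨p, hp, rfl⟩ := hx
    exact Submodule.subset_span ⟨p, hp, rfl⟩
  | zero => simp
  | add x y _ _ hx hy => simpa using add_mem hx hy
  | smul a x _ hx =>
    have ha : (a : F') ∈ Submodule.span L (Set.range (psi φ B)) := (mem_BL_iff φ B _).1 a.2
    have h1 : (a : F') * (x : F') ∈
        Submodule.span L (Set.range (psi φ B)) * Submodule.span L (psi φ B '' (𝔭 : Set B)) :=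
      Submodule.mul_mem_mul ha hx
    rw [Submodule.span_mul_span] at h1
    refine Submodule.span_mono ?_ h1
    rintro _ ⟨_, ⟨b, rfl⟩, _, ⟨p, hp, rfl⟩, rfl⟩
    exact ⟨b * p, 𝔭.mul_mem_left b hp, by simp⟩

theorem mem_of_psiL_mem_pL [FaithfulSMul B F] (hφ : LinDisj L φ) (𝔭 : Ideal B) (b : B)
    (h : psiL L φ B b ∈ pL φ 𝔭) : b ∈ 𝔭 := by
  have h1 := coe_mem_span_of_mem_pL φ 𝔭 _ h
  rw [coe_psiL, psi_apply] at h1
  let S : Submodule K F :=
    (𝔭.restrictScalars K).map (IsScalarTower.toAlgHom K B F).toLinearMap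
  have hS : φ '' (S : Set F) = psi φ B '' (𝔭 : Set B) := by
    ext z
    constructor
    · rintro ⟨_, ⟨p, hp, rfl⟩, rfl⟩
      exact ⟨p, hp, rfl⟩
    · rintro ⟨p, hp, rfl⟩
      exact ⟨algebraMap B F p, ⟨p, hp, rfl⟩, rfl⟩
  rw [← hS] at h1
  obtain ⟨p, hp, hpb⟩ := hφ.mem_of_mem_span S _ h1
  have : p = b := FaithfulSMul.algebraMap_injective B F hpb
  exact this ▸ hp

theorem one_notMem_pL [FaithfulSMul B F] (hφ : LinDisj L φ) (𝔭 : Ideal B) (h𝔭 : 𝔭 ≠ ⊤) :
    (1 : BL L φ B) ∉ pL φ 𝔭 := by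
  intro h
  apply h𝔭
  rw [Ideal.eq_top_iff_one]
  apply mem_of_psiL_mem_pL φ hφ 𝔭 1
  rwa [map_one]

theorem exists_sub_mem_pL (𝔭 : Ideal B)
    (hres : ∀ b : B, ∃ c : K, b - algebraMap K B c ∈ 𝔭) (a : BL L φ B) :
    ∃ l : L, a - algebraMap L (BL L φ B) l ∈ pL φ 𝔭 := by
  obtain ⟨a, ha⟩ := a
  unfold BL at ha
  induction ha using Algebra.adjoin_induction with
  | mem x hx =>
    obtain ⟨b, rfl⟩ := hx
    obtain ⟨c, hc⟩ := hres b
    refine ⟨algebraMap K L c, ?_⟩
    have : (⟨psi φ B b, Algebra.subset_adjoin ⟨b, rfl⟩⟩ : BL L φ B) -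
        algebraMap L (BL L φ B) (algebraMap K L c) = psiL L φ B (b - algebraMap K B c) := by
      apply Subtype.ext
      rw [coe_psiL, map_sub, AlgHom.commutes, IsScalarTower.algebraMap_apply K L F']
      rfl
    rw [this]
    exact psiL_mem_pL φ hc
  | algebraMap r =>
    refine ⟨r, ?_⟩
    have : (⟨algebraMap L F' r, Subalgebra.algebraMap_mem _ r⟩ : BL L φ B) =
        algebraMap L (BL L φ B) r := rfl
    rw [this, sub_self]
    exact zero_mem _
  | add x y hx hy ihx ihy =>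
    obtain ⟨l1, h1⟩ := ihx
    obtain ⟨l2, h2⟩ := ihy
    refine ⟨l1 + l2, ?_⟩
    have : (⟨x + y, add_mem hx hy⟩ : BL L φ B) - algebraMap L (BL L φ B) (l1 + l2) =
        ((⟨x, hx⟩ : BL L φ B) - algebraMap L _ l1) + ((⟨y, hy⟩ : BL L φ B) - algebraMap L _ l2) := by
      rw [map_add]
      apply Subtype.ext
      push_cast
      ring
    rw [this]
    exact add_mem h1 h2
  | mul x y hx hy ihx ihy =>
    obtain ⟨l1, h1⟩ := ihx
    obtain ⟨l2, h2⟩ := ihy
    refine ⟨l1 * l2, ?_⟩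
    have : (⟨x * y, mul_mem hx hy⟩ : BL L φ B) - algebraMap L (BL L φ B) (l1 * l2) =
        (⟨x, hx⟩ : BL L φ B) * ((⟨y, hy⟩ : BL L φ B) - algebraMap L _ l2) +
          algebraMap L _ l2 * ((⟨x, hx⟩ : BL L φ B) - algebraMap L _ l1) := by
      rw [map_mul]
      apply Subtype.ext
      push_cast
      ring
    rw [this]
    exact add_mem (Ideal.mul_mem_left _ _ h2) (Ideal.mul_mem_left _ _ h1)

theorem pL_isMaximal [FaithfulSMul B F] (hφ : LinDisj L φ) (𝔭 : Ideal B) (h𝔭 : 𝔭 ≠ ⊤)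
    (hres : ∀ b : B, ∃ c : K, b - algebraMap K B c ∈ 𝔭) : (pL (L := L) φ 𝔭).IsMaximal := by
  rw [Ideal.isMaximal_iff]
  refine ⟨one_notMem_pL φ hφ 𝔭 h𝔭, fun J a hJ ha haJ => ?_⟩
  obtain ⟨l, hl⟩ := exists_sub_mem_pL φ 𝔭 hres a
  have hl0 : l ≠ 0 := by
    rintro rfl
    rw [map_zero, sub_zero] at hl
    exact ha hl
  have h1 : algebraMap L (BL L φ B) l ∈ J := by
    have : algebraMap L (BL L φ B) l = a - (a - algebraMap L (BL L φ B) l) := by ring
    rw [this]
    exact sub_mem haJ (hJ hl)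
  have h2 : (1 : BL L φ B) = algebraMap L (BL L φ B) l⁻¹ * algebraMap L (BL L φ B) l := by
    rw [← map_mul, inv_mul_cancel₀ hl0, map_one]
  rw [h2]
  exact Ideal.mul_mem_left _ _ h1

/-! ### Noetherianity and fraction field of `B_L` -/

theorem BL_fg [Algebra.FiniteType K B] : (BL L φ B).FG := by
  classical
  obtain ⟨t, ht⟩ := (Algebra.FiniteType.out : (⊤ : Subalgebra K B).FG)
  have h1 : BL L φ B = Algebra.adjoin L ((t.image (psi φ B) : Finset F') : Set F') := by
    apply le_antisymm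
    · unfold BL
      apply Algebra.adjoin_le
      rintro _ ⟨b, rfl⟩
      have hb : b ∈ Algebra.adjoin K (t : Set B) := by rw [ht]; trivial
      have h2 : psi φ B b ∈ Algebra.adjoin K (psi φ B '' (t : Set B)) := by
        rw [← AlgHom.map_adjoin]
        exact ⟨b, hb, rfl⟩
      have h3 : Algebra.adjoin K (psi φ B '' (t : Set B)) ≤
          (Algebra.adjoin L (psi φ B '' (t : Set B))).restrictScalars K := by
        apply Algebra.adjoin_le
        intro x hx
        exact Algebra.subset_adjoin hx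
      rw [Finset.coe_image]
      exact h3 h2
    · apply Algebra.adjoin_mono
      rw [Finset.coe_image]
      rintro _ ⟨b, _, rfl⟩
      exact ⟨b, rfl⟩
  rw [h1]
  exact Subalgebra.fg_adjoin_finset _

theorem isNoetherianRing_BL [Algebra.FiniteType K B] : IsNoetherianRing (BL L φ B) :=
  isNoetherianRing_of_fg (BL_fg φ)

theorem psi_injective [FaithfulSMul B F] : Function.Injective (psi φ B) :=
  φ.injective.comp (FaithfulSMul.algebraMap_injective B F)

theorem exists_mul_psi_eq [IsDomain B] [IsFractionRing B F] (r : F')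
    (hr : r ∈ Algebra.adjoin L (Set.range φ)) :
    ∃ (a : BL L φ B) (d : B), d ≠ 0 ∧ r * psi φ B d = a := by
  induction hr using Algebra.adjoin_induction with
  | mem x hx =>
    obtain ⟨f, rfl⟩ := hx
    obtain ⟨b, d, hd, rfl⟩ := IsFractionRing.div_surjective B f
    refine ⟨psiL L φ B b, d, nonZeroDivisors.ne_zero hd, ?_⟩
    rw [coe_psiL, psi_apply, psi_apply, ← map_mul,
      div_mul_cancel₀ _ (by
        simpa using nonZeroDivisors.ne_zero hd : algebraMap B F d ≠ 0)]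
  | algebraMap l =>
    exact ⟨algebraMap L _ l, 1, one_ne_zero, by simp⟩
  | add x y _ _ ihx ihy =>
    obtain ⟨a1, d1, hd1, h1⟩ := ihx
    obtain ⟨a2, d2, hd2, h2⟩ := ihy
    refine ⟨a1 * psiL L φ B d2 + a2 * psiL L φ B d1, d1 * d2, mul_ne_zero hd1 hd2, ?_⟩
    push_cast
    rw [← h1, ← h2, coe_psiL, coe_psiL, map_mul]
    ring
  | mul x y _ _ ihx ihy =>
    obtain ⟨a1, d1, hd1, h1⟩ := ihx
    obtain ⟨a2, d2, hd2, h2⟩ := ihy
    refine ⟨a1 * a2, d1 * d2, mul_ne_zero hd1 hd2, ?_⟩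
    push_cast
    rw [← h1, ← h2, map_mul]
    ring

theorem isFractionRing_BL [IsDomain B] [IsFractionRing B F]
    (hgen : IntermediateField.adjoin L (Set.range φ) = ⊤) : IsFractionRing (BL L φ B) F' := by
  apply IsFractionRing.of_field
  intro z
  have hz : z ∈ IntermediateField.adjoin L (Set.range φ) := by rw [hgen]; trivial
  rw [IntermediateField.mem_adjoin_iff_div] at hz
  obtain ⟨r, hr, s, hs, rfl⟩ := hz
  obtain ⟨a1, d1, hd1, h1⟩ := exists_mul_psi_eq (B := B) φ r hr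
  obtain ⟨a2, d2, hd2, h2⟩ := exists_mul_psi_eq (B := B) φ s hs
  have hinj := psi_injective (B := B) φ
  have hd1' : psi φ B d1 ≠ 0 := (map_ne_zero_iff _ hinj).2 hd1
  have hd2' : psi φ B d2 ≠ 0 := (map_ne_zero_iff _ hinj).2 hd2
  refine ⟨a1 * psiL L φ B d2, a2 * psiL L φ B d1, ?_⟩
  show r / s = ((a1 * psiL L φ B d2 : BL L φ B) : F') / ((a2 * psiL L φ B d1 : BL L φ B) : F')
  push_cast
  rw [← h1, ← h2, coe_psiL, coe_psiL]
  by_cases hs0 : s = 0
  · simp [hs0]
  · field_simp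

/-! ### Local normality of `B_L` at `𝔭_L` -/

theorem exists_uniformizer {B : Type*} [CommRing B] [IsDedekindDomain B] (𝔭 : Ideal B)
    [𝔭.IsPrime] (h0 : 𝔭 ≠ ⊥) :
    ∃ π ∈ 𝔭, π ≠ 0 ∧ ∃ s, s ∉ 𝔭 ∧ ∀ p ∈ 𝔭, π ∣ s * p := by
  have hlt := Ideal.pow_succ_lt_pow h0 1
  obtain ⟨π, hπ1, hπ2⟩ := SetLike.exists_of_lt hlt
  rw [pow_one] at hπ1
  have hπ0 : π ≠ 0 := fun h => hπ2 (h ▸ zero_mem _)
  have hle : Ideal.span {π} ≤ 𝔭 := (Ideal.span_singleton_le_iff_mem _).2 hπ1
  obtain ⟨I, hI⟩ := Ideal.dvd_iff_le.2 hle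
  have hI𝔭 : ¬ I ≤ 𝔭 := by
    intro h
    apply hπ2
    have : Ideal.span {π} ≤ 𝔭 ^ (1 + 1) := by
      rw [hI, pow_succ, pow_one]; exact Ideal.mul_mono_right h
    exact this (Ideal.mem_span_singleton_self π)
  obtain ⟨s, hsI, hs𝔭⟩ := SetLike.not_le_iff_exists.1 hI𝔭
  refine ⟨π, hπ1, hπ0, s, hs𝔭, fun p hp => ?_⟩
  have : s * p ∈ Ideal.span {π} := by rw [hI, mul_comm s p]; exact Ideal.mul_mem_mul hp hsI
  exact Ideal.mem_span_singleton.1 this

open IsLocalRing in
/-- Elements of `F'` integral over `B_L` have denominators prime to `𝔭_L`. -/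
theorem exists_mul_mem_BL [IsDedekindDomain B] [IsFractionRing B F] [Algebra.FiniteType K B]
    (hφ : LinDisj L φ) (hgen : IntermediateField.adjoin L (Set.range φ) = ⊤)
    (𝔭 : Ideal B) (h𝔭 : 𝔭.IsMaximal) (h0 : 𝔭 ≠ ⊥)
    (hres : ∀ b : B, ∃ c : K, b - algebraMap K B c ∈ 𝔭)
    (y : F') (hy : IsIntegral (BL L φ B) y) :
    ∃ s : BL L φ B, s ∉ pL φ 𝔭 ∧ ∃ a : BL L φ B, (s : F') * y = a := by
  haveI := isNoetherianRing_BL (L := L) φ (B := B)
  haveI := isFractionRing_BL (L := L) (B := B) φ hgen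
  haveI hmax := pL_isMaximal (L := L) φ hφ 𝔭 h𝔭.ne_top hres
  haveI : (pL (L := L) φ 𝔭).IsPrime := hmax.isPrime
  haveI : 𝔭.IsPrime := h𝔭.isPrime
  let S := (pL (L := L) φ 𝔭).primeCompl
  have hS : S ≤ nonZeroDivisors (BL L φ B) := Ideal.primeCompl_le_nonZeroDivisors _
  let R := Localization.subalgebra.ofField F' S hS
  haveI : IsLocalization.AtPrime R (pL (L := L) φ 𝔭) :=
    Localization.subalgebra.isLocalization_ofField F' S hS
  haveI : IsLocalRing R := IsLocalization.AtPrime.isLocalRing R (pL (L := L) φ 𝔭)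
  haveI : IsNoetherianRing R := IsLocalization.isNoetherianRing S R inferInstance
  obtain ⟨π, hπ, hπ0, s0, hs0, hdiv⟩ := exists_uniformizer 𝔭 h0
  let g : B →+* R := (algebraMap (BL L φ B) R).comp (psiL L φ B)
  have hg : ∀ b : B, ((g b : R) : F') = psi φ B b := fun b => rfl
  have hmaxR : maximalIdeal R = Ideal.span {g π} := by
    rw [← IsLocalization.AtPrime.map_eq_maximalIdeal (pL (L := L) φ 𝔭) R]
    unfold pL
    rw [Ideal.map_map]
    apply le_antisymm
    · rw [Ideal.map_le_iff_le_comap]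
      intro p hp
      rw [Ideal.mem_comap]
      obtain ⟨c, hc⟩ := hdiv p hp
      have hunit : IsUnit (g s0) :=
        IsLocalization.map_units R (⟨psiL L φ B s0, fun h => hs0 (mem_of_psiL_mem_pL φ hφ 𝔭 s0 h)⟩ : S)
      obtain ⟨u, hu⟩ := hunit
      have h3 : g s0 * g p = g π * g c := by rw [← map_mul, hc, map_mul]
      have h4 : (g : B →+* R) p = g π * (g c * (↑u⁻¹ : R)) := by
        have : (↑u⁻¹ : R) * (g s0 * g p) = g p := by
          rw [← mul_assoc, ← hu, Units.inv_mul, one_mul]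
        rw [← this, h3]
        ring
      show (g : B →+* R) p ∈ _
      rw [h4]
      exact Ideal.mul_mem_right _ _ (Ideal.mem_span_singleton_self _)
    · rw [Ideal.span_singleton_le_iff_mem]
      exact Ideal.mem_map_of_mem _ hπ
  have hprinc : (maximalIdeal R).IsPrincipal := ⟨⟨_, hmaxR⟩⟩
  have hgπ : g π ≠ 0 := by
    intro h
    have h5 : ((g π : R) : F') = 0 := by rw [h]; rfl
    rw [hg] at h5
    exact hπ0 ((map_eq_zero_iff _ (psi_injective (B := B) φ)).1 h5)
  have hnf : ¬ IsField R := by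
    rw [IsLocalRing.isField_iff_maximalIdeal_eq, hmaxR]
    intro h
    exact hgπ (Ideal.span_singleton_eq_bot.1 h)
  have h43 : (maximalIdeal R).IsPrincipal ↔
      (IsIntegrallyClosed R ∧ ∃! P : Ideal R, P ≠ ⊥ ∧ P.IsPrime) :=
    (IsDiscreteValuationRing.TFAE R hnf).out 4 3
  have hic : IsIntegrallyClosed R := (h43.mp hprinc).1
  have hyR : IsIntegral R y := hy.tower_top
  obtain ⟨r, hr⟩ := (IsIntegrallyClosed.isIntegral_iff (R := R) (K := F')).1 hyR
  obtain ⟨a, s, hs, hrs⟩ := r.2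
  refine ⟨s, hs, a, ?_⟩
  rw [← hr]
  have hs0' : (s : F') ≠ 0 := by
    intro h
    apply hs
    have : s = 0 := Subtype.ext h
    rw [this]
    exact zero_mem _
  show (s : F') * (r : F') = a
  rw [hrs]
  show (s : F') * ((a : F') * (s : F')⁻¹) = a
  field_simp

/-! ### Primes of an integral extension `B'` of `B_L` over `𝔭` -/

section Primes

variable (B' : Subalgebra L F') (hle : BL L φ B ≤ B')

/-- `B → B'`. -/
noncomputable def psi' : B →+* B' :=
  (psi φ B).toRingHom.codRestrict B'.toSubring (fun b => hle (psi_mem_BL φ B b))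

theorem coe_psi' (b : B) : ((psi' φ B' hle b : B') : F') = psi φ B b := rfl

theorem inclusion_psiL (b : B) : Subalgebra.inclusion hle (psiL L φ B b) = psi' φ B' hle b := rfl

theorem comap_inclusion_eq_pL [FaithfulSMul B F] (hφ : LinDisj L φ) (𝔭 : Ideal B)
    (h𝔭 : 𝔭 ≠ ⊤) (hres : ∀ b : B, ∃ c : K, b - algebraMap K B c ∈ 𝔭)
    (𝔓 : Ideal B') (h𝔓 : 𝔓.IsPrime) (h : 𝔓.comap (psi' φ B' hle) = 𝔭) :
    𝔓.comap (Subalgebra.inclusion hle : BL L φ B →+* B') = pL φ 𝔭 := by
  have hmax := pL_isMaximal (L := L) φ hφ 𝔭 h𝔭 hres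
  symm
  apply hmax.eq_of_le (Ideal.comap_ne_top _ h𝔓.ne_top)
  unfold pL
  rw [Ideal.map_le_iff_le_comap]
  intro p hp
  rw [Ideal.mem_comap, Ideal.mem_comap]
  have : p ∈ 𝔓.comap (psi' φ B' hle) := h ▸ hp
  exact this

theorem le_of_comap_eq [IsDedekindDomain B] [IsFractionRing B F] [Algebra.FiniteType K B]
    (hφ : LinDisj L φ) (hgen : IntermediateField.adjoin L (Set.range φ) = ⊤)
    (hint : ∀ y ∈ B', IsIntegral (BL L φ B) y)
    (𝔭 : Ideal B) (h𝔭 : 𝔭.IsMaximal) (h0 : 𝔭 ≠ ⊥)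
    (hres : ∀ b : B, ∃ c : K, b - algebraMap K B c ∈ 𝔭)
    (𝔓₁ 𝔓₂ : Ideal B') (h₁ : 𝔓₁.IsPrime) (h₂ : 𝔓₂.IsPrime)
    (hc₁ : 𝔓₁.comap (psi' φ B' hle) = 𝔭) (hc₂ : 𝔓₂.comap (psi' φ B' hle) = 𝔭) : 𝔓₁ ≤ 𝔓₂ := by
  have e₁ := comap_inclusion_eq_pL φ B' hle hφ 𝔭 h𝔭.ne_top hres 𝔓₁ h₁ hc₁
  have e₂ := comap_inclusion_eq_pL φ B' hle hφ 𝔭 h𝔭.ne_top hres 𝔓₂ h₂ hc₂
  intro y hy
  obtain ⟨s, hs, a, hsa⟩ := exists_mul_mem_BL φ hφ hgen 𝔭 h𝔭 h0 hres (y : F') (hint y y.2)
  have h3 : Subalgebra.inclusion hle s * y = Subalgebra.inclusion hle a := Subtype.ext hsa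
  have h4 : a ∈ pL φ 𝔭 := by
    rw [← e₁, Ideal.mem_comap]
    show Subalgebra.inclusion hle a ∈ 𝔓₁
    rw [← h3]
    exact Ideal.mul_mem_left _ _ hy
  have h5 : Subalgebra.inclusion hle s * y ∈ 𝔓₂ := by
    rw [h3]
    have : a ∈ 𝔓₂.comap (Subalgebra.inclusion hle : BL L φ B →+* B') := e₂ ▸ h4
    exact this
  rcases h₂.mem_or_mem h5 with h6 | h6
  · exfalso
    apply hs
    rw [← e₂]
    exact h6
  · exact h6

theorem exists_prime_comap_eq [IsDomain B] [FaithfulSMul B F]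
    (hφ : LinDisj L φ)
    (hint : ∀ y ∈ B', IsIntegral (BL L φ B) y)
    (𝔭 : Ideal B) (h𝔭 : 𝔭 ≠ ⊤)
    (hres : ∀ b : B, ∃ c : K, b - algebraMap K B c ∈ 𝔭) :
    ∃ 𝔓 : Ideal B', 𝔓.IsMaximal ∧ 𝔓.comap (psi' φ B' hle) = 𝔭 := by
  letI : Algebra (BL L φ B) B' := (Subalgebra.inclusion hle).toRingHom.toAlgebra
  haveI : IsScalarTower (BL L φ B) B' F' := IsScalarTower.of_algebraMap_eq (fun x => rfl)
  have hinj : Function.Injective (algebraMap B' F') := Subtype.val_injective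
  haveI : Algebra.IsIntegral (BL L φ B) B' :=
    ⟨fun y => (isIntegral_algebraMap_iff hinj).1 (hint y y.2)⟩
  haveI hmax := pL_isMaximal (L := L) φ hφ 𝔭 h𝔭 hres
  have hker : RingHom.ker (algebraMap (BL L φ B) B') ≤ pL φ 𝔭 := by
    have : RingHom.ker (algebraMap (BL L φ B) B') = ⊥ := by
      rw [RingHom.ker_eq_bot_iff_eq_zero]
      intro x hx
      exact (Subalgebra.inclusion_injective hle) (by rw [map_zero]; exact hx)
    rw [this]
    exact bot_le
  obtain ⟨𝔓, h𝔓max, h𝔓⟩ := Ideal.exists_ideal_over_maximal_of_isIntegral (pL (L := L) φ 𝔭) hker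
  refine ⟨𝔓, h𝔓max, ?_⟩
  ext b
  rw [Ideal.mem_comap]
  constructor
  · intro hb
    apply mem_of_psiL_mem_pL φ hφ 𝔭 b
    rw [← h𝔓, Ideal.mem_comap]
    exact hb
  · intro hb
    have : psiL L φ B b ∈ 𝔓.comap (algebraMap (BL L φ B) B') := by
      rw [h𝔓]; exact psiL_mem_pL φ hb
    exact this

/-- **Transfer of primes.** Over a maximal ideal `𝔭` of `B` with residue field `K` there is
exactly one prime of `B'`. -/
theorem existsUnique_prime_comap_eq [IsDedekindDomain B] [IsFractionRing B F]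
    [Algebra.FiniteType K B]
    (hφ : LinDisj L φ) (hgen : IntermediateField.adjoin L (Set.range φ) = ⊤)
    (hint : ∀ y ∈ B', IsIntegral (BL L φ B) y)
    (𝔭 : Ideal B) (h𝔭 : 𝔭.IsMaximal) (h0 : 𝔭 ≠ ⊥)
    (hres : ∀ b : B, ∃ c : K, b - algebraMap K B c ∈ 𝔭) :
    ∃! 𝔓 : Ideal B', 𝔓.IsPrime ∧ 𝔓.comap (psi' φ B' hle) = 𝔭 := by
  obtain ⟨𝔓, h𝔓max, h𝔓⟩ := exists_prime_comap_eq φ B' hle hφ hint 𝔭 h𝔭.ne_top hres
  refine ⟨𝔓, ⟨h𝔓max.isPrime, h𝔓⟩, fun 𝔔 ⟨h𝔔p, h𝔔⟩ => ?_⟩
  apply le_antisymm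
  · exact le_of_comap_eq φ B' hle hφ hgen hint 𝔭 h𝔭 h0 hres 𝔔 𝔓 h𝔔p h𝔓max.isPrime h𝔔 h𝔓
  · exact le_of_comap_eq φ B' hle hφ hgen hint 𝔭 h𝔭 h0 hres 𝔓 𝔔 h𝔓max.isPrime h𝔔p h𝔓 h𝔔

end Primes

end Ring

end Fermat.Agent.S24.Transfer
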