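import Mathlib
import Fermat.Agent.S24.FieldIso
import Fermat.Agent.S24.FFBasics
import Fermat.Agent.S24.Transfer

/-!
# S24 / B2 glue: the comparison map `Q̄(j(q^d)) → ℂ(j(q^d))` as a linearly disjoint algebra map

For an embedding `ι : Q̄ →+* ℂ` we regard `ℂ` and `F_ℂ = FC N` as `Q̄`-algebras through `ι` and
package helper23's `barToC N ι` as a `Q̄`-algebra homomorphism
`φ : modularFunctionFieldBar N →ₐ[Q̄] FC N` which is

* linearly disjoint from `ℂ` over `Q̄` (`Transfer.LinDisj ℂ φ`, from `LaurentDisjoint`);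
* generating: `ℂ(φ F) = F_ℂ`;
* `φ (j(q)) = j(q)`.

The algebra structures depending on `ι` are NOT global instances: use
`letI := BarToC.algQC ι; letI := BarToC.algQFC N ι; haveI := BarToC.isScalarTower N ι`.

Namespace `Fermat.Agent.S24.BarToC`.
-/

set_option autoImplicit false
set_option linter.style.haveILetI false

namespace Fermat.Agent.S24.BarToC

open ModularCurve Fermat.Agent.S24.FieldIso

/-- `Q̄`. -/
local notation "Qb" => AlgebraicClosure ℚ

/-- Some embedding `Q̄ → ℂ`. -/
noncomputable def iota : Qb →+* ℂ :=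
  letI : Algebra ℚ Qb := AlgebraicClosure.instAlgebra ℚ
  haveI := AlgebraicClosure.isAlgebraic ℚ
  (IsAlgClosed.lift (R := ℚ) (S := Qb) (M := ℂ)).toRingHom

/-- `ℂ` as a `Q̄`-algebra through `ι`. -/
@[reducible] noncomputable def algQC (ι : Qb →+* ℂ) : Algebra Qb ℂ := ι.toAlgebra

/-- `F_ℂ` as a `Q̄`-algebra through `ι`. -/
@[reducible] noncomputable def algQFC (N : ℕ) (ι : Qb →+* ℂ) : Algebra Qb ↥(FC N) :=
  ((algebraMap ℂ ↥(FC N)).comp ι).toAlgebra

theorem isScalarTower (N : ℕ) (ι : Qb →+* ℂ) :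
    letI := algQC ι
    letI := algQFC N ι
    IsScalarTower Qb ℂ ↥(FC N) :=
  letI := algQC ι
  letI := algQFC N ι
  IsScalarTower.of_algebraMap_eq fun _ => rfl

/-- helper23's `barToC N ι` as a `Q̄`-algebra homomorphism. -/
noncomputable def phi (N : ℕ) (ι : Qb →+* ℂ) :
    letI := algQFC N ι
    ↥(modularFunctionFieldBar N) →ₐ[Qb] ↥(FC N) :=
  letI := algQFC N ι
  { barToC N ι with
    commutes' := fun c => barToC_algebraMap N ι c }

theorem phi_apply (N : ℕ) (ι : Qb →+* ℂ) (x : ↥(modularFunctionFieldBar N)) :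
    letI := algQFC N ι
    phi N ι x = barToC N ι x := rfl

theorem coe_phi (N : ℕ) (ι : Qb →+* ℂ) (x : ↥(modularFunctionFieldBar N)) :
    letI := algQFC N ι
    ((phi N ι x : ↥(FC N)) : LaurentSeries ℂ) = coeffMap ι (x : LaurentSeries Qb) := rfl

/-- `ℂ(φ F) = F_ℂ`. -/
theorem adjoin_range_phi (N : ℕ) (ι : Qb →+* ℂ) :
    letI := algQFC N ι
    IntermediateField.adjoin ℂ (Set.range (phi N ι)) = ⊤ :=
  adjoin_range_barToC N ι

/-- `φ (j(q)) = j(q)`. -/
theorem phi_jq (N : ℕ) (ι : Qb →+* ℂ) (h : coeffEmb Qb jq ∈ modularFunctionFieldBar N) :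
    letI := algQFC N ι
    phi N ι ⟨coeffEmb Qb jq, h⟩ = ⟨jqModC ℂ, jqModC_mem_FC N⟩ :=
  barToC_jq N ι h

/-- **Linear disjointness** of `φ` and `ℂ` over `Q̄`. -/
theorem linDisj (N : ℕ) (ι : Qb →+* ℂ) :
    letI := algQC ι
    letI := algQFC N ι
    haveI := isScalarTower N ι
    Transfer.LinDisj ℂ (phi N ι) := by
  letI := algQC ι
  letI := algQFC N ι
  haveI := isScalarTower N ι
  apply Transfer.LinDisj.of_forall
  intro s hs
  -- the family pushed to `Q̄((q))` is independent for the algebra-module structure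
  have h1 : @LinearIndependent s Qb (LaurentSeries Qb)
      (fun x : s => ((x : ↥(modularFunctionFieldBar N)) : LaurentSeries Qb)) _ _
      Algebra.toModule := by
    rw [FFBasics.linearIndependent_algebra_iff]
    intro t g hg i hi
    refine (linearIndependent_iff'.mp hs) t g ?_ i hi
    apply Subtype.ext
    rw [ZeroMemClass.coe_zero, ← hg, AddSubmonoidClass.coe_finsetSum]
    refine Finset.sum_congr rfl fun j _ => ?_
    rw [Algebra.smul_def, MulMemClass.coe_mul]
    rfl
  have h2 := FFBasics.linearIndependent_coeffMap (K := Qb) (L := ℂ) _ h1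
  rw [FFBasics.linearIndependent_algebra_iff] at h2
  rw [linearIndependent_iff']
  intro t g hg i hi
  refine h2 t g ?_ i hi
  have hg' := congrArg (Subtype.val) hg
  rw [ZeroMemClass.coe_zero, AddSubmonoidClass.coe_finsetSum] at hg'
  rw [← hg']
  refine Finset.sum_congr rfl fun j _ => ?_
  rw [Algebra.smul_def, MulMemClass.coe_mul]
  rfl

end Fermat.Agent.S24.BarToC
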