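/-
M2b / S24, task G4, ALTERNATIVE proof (helper21; the main G4 files are helper7's LocalExpansion / LocalDeriv /
PlaceDeriv): local behaviour of derivations at a place via a boundedness bootstrap.

Abstract core: a `K`-derivation `δ` of a valued field `F` with `δ t = 1` (`t` a uniformizer), residue
field `K`, which is bounded on the valuation ring (e.g. because the valuation ring is a localisation
of a finitely generated `K`-algebra), maps the valuation ring into itself.
-/
import Mathlib
import Fermat.Prelude.Def_ModularCurve_CanonicalDivisor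
import Fermat.Agent.S24.PlaceDict

set_option autoImplicit false

namespace Fermat.Agent.S24.DerivBound

open WithZero

section abstractCore

variable {K F : Type*} [Field K] [Field F] [Algebra K F]
  (val : Valuation F ℤᵐ⁰) (δ : Derivation K F F) (t : F)

theorem lt_one_iff_le_exp_neg_one (γ : ℤᵐ⁰) : γ < 1 ↔ γ ≤ exp (-1 : ℤ) := by
  rcases eq_or_ne γ 0 with rfl | hγ
  · simp
  · rw [← exp_log hγ, ← exp_zero, exp_lt_exp, exp_le_exp]
    omega

/-- One bootstrap step: a bound `exp (m+1)` for `δ` on the valuation ring improves to `exp m`. -/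
theorem deriv_bound_step (ht : val t = exp (-1 : ℤ)) (hδt : δ t = 1)
    (hres : ∀ u : F, val u ≤ 1 → ∃ c : K, val (u - algebraMap K F c) < 1)
    (m : ℕ) (hM : ∀ u : F, val u ≤ 1 → val (δ u) ≤ exp ((m : ℤ) + 1)) :
    ∀ u : F, val u ≤ 1 → val (δ u) ≤ exp (m : ℤ) := by
  intro u hu
  obtain ⟨c, hc⟩ := hres u hu
  have ht0 : t ≠ 0 := by
    intro h
    rw [h, map_zero] at ht
    exact exp_ne_zero ht.symm
  set u' : F := (u - algebraMap K F c) / t with hu'
  have hu'1 : val u' ≤ 1 := by
    rw [hu', map_div₀, ht]
    rw [lt_one_iff_le_exp_neg_one] at hc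
    exact div_le_one_of_le₀ hc zero_le
  have hdecomp : u = algebraMap K F c + t * u' := by
    rw [hu']; field_simp; ring
  have hδu : δ u = t * δ u' + u' := by
    conv_lhs => rw [hdecomp]
    rw [map_add, Derivation.map_algebraMap, zero_add, Derivation.leibniz, hδt]
    simp [smul_eq_mul]
  rw [hδu]
  refine (val.map_add _ _).trans (max_le ?_ ?_)
  · rw [map_mul, ht]
    calc exp (-1 : ℤ) * val (δ u') ≤ exp (-1 : ℤ) * exp ((m : ℤ) + 1) :=
          mul_le_mul_right (hM u' hu'1) _
      _ = exp (m : ℤ) := by rw [← exp_add]; congr 1; ring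
  · exact hu'1.trans (by rw [← exp_zero, exp_le_exp]; positivity)

/-- **Bootstrap.** If `δ` is bounded on the valuation ring, it maps the valuation ring into itself. -/
theorem deriv_le_one_of_bounded (ht : val t = exp (-1 : ℤ)) (hδt : δ t = 1)
    (hres : ∀ u : F, val u ≤ 1 → ∃ c : K, val (u - algebraMap K F c) < 1)
    (M : ℕ) (hM : ∀ u : F, val u ≤ 1 → val (δ u) ≤ exp (M : ℤ)) :
    ∀ u : F, val u ≤ 1 → val (δ u) ≤ 1 := by
  induction M with
  | zero => simpa using hM
  | succ m ih =>
    apply ih
    apply deriv_bound_step val δ t ht hδt hres m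
    simpa using hM

/-- On a finitely generated subalgebra contained in the valuation ring, `δ` is bounded. -/
theorem deriv_bounded_on_adjoin (hK : ∀ c : K, val (algebraMap K F c) ≤ 1)
    (S : Finset F) (hS : ∀ w ∈ S, val w ≤ 1) :
    ∃ M : ℕ, ∀ a ∈ Algebra.adjoin K (S : Set F), val a ≤ 1 ∧ val (δ a) ≤ exp (M : ℤ) := by
  refine ⟨S.sup fun w => (log (val (δ w))).toNat, ?_⟩
  set M : ℕ := S.sup fun w => (log (val (δ w))).toNat with hMdef
  have hone : (1 : ℤᵐ⁰) ≤ exp (M : ℤ) := by
    rw [← exp_zero, exp_le_exp]; positivity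
  intro a ha
  induction ha using Algebra.adjoin_induction with
  | mem w hw =>
    refine ⟨hS w hw, ?_⟩
    rcases eq_or_ne (val (δ w)) 0 with h0 | h0
    · rw [h0]; exact zero_le
    · rw [← exp_log h0, exp_le_exp]
      have h1 : (log (val (δ w))).toNat ≤ M :=
        Finset.le_sup (f := fun w => (log (val (δ w))).toNat) hw
      have h2 := Int.self_le_toNat (log (val (δ w)))
      omega
  | algebraMap c =>
    refine ⟨hK c, ?_⟩
    rw [Derivation.map_algebraMap, map_zero]; exact zero_le
  | add a b _ _ iha ihb =>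
    refine ⟨(val.map_add _ _).trans (max_le iha.1 ihb.1), ?_⟩
    rw [map_add]
    exact (val.map_add _ _).trans (max_le iha.2 ihb.2)
  | mul a b _ _ iha ihb =>
    refine ⟨by rw [map_mul]; exact mul_le_one' iha.1 ihb.1, ?_⟩
    rw [Derivation.leibniz]
    refine (val.map_add _ _).trans (max_le ?_ ?_)
    · rw [smul_eq_mul, map_mul]
      calc val a * val (δ b) ≤ 1 * exp (M : ℤ) := mul_le_mul' iha.1 ihb.2
        _ = exp (M : ℤ) := one_mul _
    · rw [smul_eq_mul, map_mul]
      calc val b * val (δ a) ≤ 1 * exp (M : ℤ) := mul_le_mul' ihb.1 iha.2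
        _ = exp (M : ℤ) := one_mul _

/-- If the valuation ring is a localisation of a finitely generated subalgebra, `δ` is bounded on
it. -/
theorem deriv_bounded_of_localization (hK : ∀ c : K, val (algebraMap K F c) ≤ 1)
    (S : Finset F) (hS : ∀ w ∈ S, val w ≤ 1)
    (hloc : ∀ u : F, val u ≤ 1 → ∃ a ∈ Algebra.adjoin K (S : Set F),
      ∃ s ∈ Algebra.adjoin K (S : Set F), val s = 1 ∧ u * s = a) :
    ∃ M : ℕ, ∀ u : F, val u ≤ 1 → val (δ u) ≤ exp (M : ℤ) := by
  obtain ⟨M, hM⟩ := deriv_bounded_on_adjoin val δ hK S hS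
  refine ⟨M, fun u hu => ?_⟩
  obtain ⟨a, ha, s, hs, hs1, hus⟩ := hloc u hu
  have hs0 : s ≠ 0 := by
    intro h; rw [h, map_zero] at hs1; exact zero_ne_one hs1
  -- `δ a = u δ s + s δ u`
  have hδ : δ u = (δ a - u * δ s) / s := by
    have h1 : δ a = u • δ s + s • δ u := by rw [← hus, Derivation.leibniz]
    rw [h1]; simp only [smul_eq_mul]; field_simp; ring
  rw [hδ, map_div₀, hs1, div_one]
  refine (val.map_sub _ _).trans (max_le (hM a ha).2 ?_)
  rw [map_mul]
  calc val u * val (δ s) ≤ 1 * exp (M : ℤ) := mul_le_mul' hu (hM s hs).2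
    _ = exp (M : ℤ) := one_mul _

/-- **Integrality of the derivation** on the valuation ring. -/
theorem deriv_le_one (ht : val t = exp (-1 : ℤ)) (hδt : δ t = 1)
    (hK : ∀ c : K, val (algebraMap K F c) ≤ 1)
    (hres : ∀ u : F, val u ≤ 1 → ∃ c : K, val (u - algebraMap K F c) < 1)
    (S : Finset F) (hS : ∀ w ∈ S, val w ≤ 1)
    (hloc : ∀ u : F, val u ≤ 1 → ∃ a ∈ Algebra.adjoin K (S : Set F),
      ∃ s ∈ Algebra.adjoin K (S : Set F), val s = 1 ∧ u * s = a) :
    ∀ u : F, val u ≤ 1 → val (δ u) ≤ 1 := by
  obtain ⟨M, hM⟩ := deriv_bounded_of_localization val δ hK S hS hloc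
  exact deriv_le_one_of_bounded val δ t ht hδt hres M hM

/-- **Order of a derivative.** If `δ` preserves the valuation ring, `δ t = 1`, and `f` has valuation
`exp (-n)` with `n ≠ 0` in `K`, then `δ f` has valuation `exp (-(n - 1))`. -/
theorem val_deriv_eq (ht : val t = exp (-1 : ℤ)) (hδt : δ t = 1)
    (hK1 : ∀ c : K, c ≠ 0 → val (algebraMap K F c) = 1)
    (hint : ∀ u : F, val u ≤ 1 → val (δ u) ≤ 1)
    {f : F} (n : ℤ) (hf : val f = exp (-n)) (hn : (n : K) ≠ 0) :
    val (δ f) = exp (-(n - 1)) := by
  have ht0 : t ≠ 0 := by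
    intro h
    rw [h, map_zero] at ht
    exact exp_ne_zero ht.symm
  have htn : val (t ^ n) = exp (-n) := by
    rw [map_zpow₀, ht, ← exp_zsmul]; congr 1; simp
  set u : F := f / t ^ n with hu
  have hu1 : val u = 1 := by
    rw [hu, map_div₀, hf, htn, div_self exp_ne_zero]
  have hfu : f = u * t ^ n := by
    rw [hu]; field_simp
  have hδf : δ f = t ^ (n - 1) * (algebraMap K F (n : K) * u + t * δ u) := by
    conv_lhs => rw [hfu]
    rw [Derivation.leibniz, Derivation.leibniz_zpow, hδt]
    simp only [smul_eq_mul, mul_one, zsmul_eq_mul]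
    have h1 : t ^ n = t ^ (n - 1) * t := by
      rw [← zpow_add_one₀ ht0]; congr 1; ring
    rw [h1, map_intCast]; ring
  have h2 : val (algebraMap K F (n : K) * u) = 1 := by
    rw [map_mul, hK1 _ hn, hu1, one_mul]
  have h3 : val (t * δ u) < 1 := by
    rw [map_mul, ht]
    calc exp (-1 : ℤ) * val (δ u) ≤ exp (-1 : ℤ) * 1 := mul_le_mul_right (hint u hu1.le) _
      _ < 1 := by rw [mul_one, ← exp_zero, exp_lt_exp]; omega
  rw [hδf, map_mul, Valuation.map_add_eq_of_lt_left _ (by rw [h2]; exact h3), h2, mul_one,
    map_zpow₀, ht, ← exp_zsmul]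
  congr 1; simp

end abstractCore

/-! ### Places of a function field -/

section place

open AlgebraicCurve KaehlerDifferential IsDedekindDomain

variable {K F : Type*} [Field K] [Field F] [Algebra K F] (v : Place K F)

/-- The prelude's `dCoord` is `D π` for an irreducible element `π` of the valuation ring. -/
theorem exists_irreducible_dCoord :
    ∃ π : v.toValuationSubring, Irreducible π ∧ v.dCoord = D K F (π : F) :=
  ⟨_, (IsDiscreteValuationRing.exists_irreducible v.toValuationSubring).choose_spec, rfl⟩

theorem adicValuation_le_one_of_mem {x : F} (hx : x ∈ v.toValuationSubring) :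
    v.adicValuation x ≤ 1 := by
  have := v.adicValuation_coe ⟨x, hx⟩
  rw [this]
  exact HeightOneSpectrum.intValuation_le_one _ _

theorem adicValuation_lt_one_of_mem_maximalIdeal {x : v.toValuationSubring}
    (hx : x ∈ IsLocalRing.maximalIdeal v.toValuationSubring) : v.adicValuation (x : F) < 1 := by
  rw [v.adicValuation_coe, HeightOneSpectrum.intValuation_lt_one_iff_mem]
  exact hx

theorem mem_iff_adicValuation_le_one {x : F} :
    x ∈ v.toValuationSubring ↔ v.adicValuation x ≤ 1 := by
  refine ⟨adicValuation_le_one_of_mem v, fun h => ?_⟩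
  by_contra hx
  have hx0 : x ≠ 0 := fun h0 => hx (h0 ▸ v.toValuationSubring.zero_mem)
  have hxi : x⁻¹ ∈ v.toValuationSubring := (v.toValuationSubring.mem_or_inv_mem x).resolve_left hx
  have hnu : ¬ IsUnit (⟨x⁻¹, hxi⟩ : v.toValuationSubring) := by
    intro hu
    obtain ⟨w, hw⟩ := hu.exists_left_inv
    have hw' : (w : F) * x⁻¹ = 1 := by
      have := congrArg Subtype.val hw
      simpa using this
    have : (w : F) = x := by
      field_simp at hw'
      exact hw'
    exact hx (this ▸ w.2)
  have hlt : v.adicValuation x⁻¹ < 1 :=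
    adicValuation_lt_one_of_mem_maximalIdeal v (x := ⟨x⁻¹, hxi⟩)
      ((IsLocalRing.mem_maximalIdeal _).mpr hnu)
  rw [map_inv₀] at hlt
  have h1 : 1 < v.adicValuation x := by
    rwa [inv_lt_one₀ ((Valuation.pos_iff _).mpr hx0)] at hlt
  exact absurd h (not_le.mpr h1)

theorem adicValuation_algebraMap_le_one (c : K) : v.adicValuation (algebraMap K F c) ≤ 1 :=
  adicValuation_le_one_of_mem v (v.algebraMap_mem' c)

theorem adicValuation_algebraMap_eq_one {c : K} (hc : c ≠ 0) :
    v.adicValuation (algebraMap K F c) = 1 := by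
  refine le_antisymm (adicValuation_algebraMap_le_one v c) ?_
  have h := adicValuation_algebraMap_le_one v c⁻¹
  rw [map_inv₀, map_inv₀] at h
  have hpos : 0 < v.adicValuation (algebraMap K F c) :=
    (Valuation.pos_iff _).mpr (by simpa using hc)
  rwa [inv_le_one₀ hpos] at h

theorem adicValuation_eq_exp_neg_ord {f : F} (hf : f ≠ 0) :
    v.adicValuation f = exp (-(v.ord f)) := by
  rw [Place.ord, neg_neg, exp_log (v.adicValuation_ne_zero hf)]

theorem ord_eq_of_adicValuation_eq {f : F} {n : ℤ} (h : v.adicValuation f = exp (-n)) :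
    v.ord f = n := by
  rw [Place.ord, h, log_exp, neg_neg]

variable [v.DCoordGenerates] [Nontrivial Ω[F⁄K]]

/-- The coefficient of a differential with respect to `dCoord`, as a linear map. -/
noncomputable def coeffLin : Ω[F⁄K] →ₗ[F] F where
  toFun := v.differentialCoeff
  map_add' ω₁ ω₂ := v.differentialCoeff_unique (by
    rw [add_smul, v.differentialCoeff_smul_dCoord, v.differentialCoeff_smul_dCoord])
  map_smul' c ω := by
    simp only [RingHom.id_apply, smul_eq_mul]
    exact v.differentialCoeff_smul c ω

/-- The derivation `d/dt` of `F` attached to the place `v` (`t` = the prelude's uniformizer). -/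
noncomputable def der : Derivation K F F := (coeffLin v).compDer (D K F)

theorem der_apply (f : F) : der v f = v.differentialCoeff (D K F f) := rfl

theorem ordDifferential_D (f : F) : v.ordDifferential (D K F f) = v.ord (der v f) := rfl

/-- Hypothesis: the residue field of `v` is `K`. -/
def ResidueIsBase : Prop :=
  ∀ u : F, u ∈ v.toValuationSubring → ∃ c : K, v.adicValuation (u - algebraMap K F c) < 1

/-- Hypothesis: the valuation ring of `v` is a localisation of a finitely generated `K`-algebra. -/
def LocFG : Prop :=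
  ∃ S : Finset F, (∀ w ∈ S, w ∈ v.toValuationSubring) ∧
    ∀ u : F, u ∈ v.toValuationSubring → ∃ a ∈ Algebra.adjoin K (S : Set F),
      ∃ s ∈ Algebra.adjoin K (S : Set F), v.adicValuation s = 1 ∧ u * s = a

variable {v}

/-- **G4 (1): integrality.** `u ∈ O_v ⇒ du/dt ∈ O_v`. -/
theorem der_mem (hres : ResidueIsBase v) (hfin : LocFG v) {u : F}
    (hu : u ∈ v.toValuationSubring) : der v u ∈ v.toValuationSubring := by
  obtain ⟨π, hπ, hd⟩ := exists_irreducible_dCoord v
  obtain ⟨S, hS, hloc⟩ := hfin
  have hδt : der v (π : F) = 1 := by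
    rw [der_apply, ← hd]; exact v.differentialCoeff_dCoord
  rw [mem_iff_adicValuation_le_one v]
  refine deriv_le_one v.adicValuation (der v) (π : F) (v.adicValuation_coe_irreducible hπ) hδt
    (adicValuation_algebraMap_le_one v) ?_ S (fun w hw => adicValuation_le_one_of_mem v (hS w hw))
    ?_ u (adicValuation_le_one_of_mem v hu)
  · intro u hu
    exact hres u ((mem_iff_adicValuation_le_one v).mpr hu)
  · intro u hu
    exact hloc u ((mem_iff_adicValuation_le_one v).mpr hu)

theorem differentialCoeff_D_mem (hres : ResidueIsBase v) (hfin : LocFG v) {u : F}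
    (hu : u ∈ v.toValuationSubring) : v.differentialCoeff (D K F u) ∈ v.toValuationSubring :=
  der_mem hres hfin hu

/-- **G4 (2): order of `D f`.** If `ord_v f = n ≠ 0` (characteristic zero) then
`ordDifferential_v (D f) = n - 1`. -/
theorem ordDifferential_D_eq [CharZero K] (hres : ResidueIsBase v) (hfin : LocFG v) {f : F}
    (hf : f ≠ 0) (hn : v.ord f ≠ 0) : v.ordDifferential (D K F f) = v.ord f - 1 := by
  obtain ⟨π, hπ, hd⟩ := exists_irreducible_dCoord v
  have hδt : der v (π : F) = 1 := by
    rw [der_apply, ← hd]; exact v.differentialCoeff_dCoord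
  have hint : ∀ u : F, v.adicValuation u ≤ 1 → v.adicValuation (der v u) ≤ 1 := fun u hu =>
    adicValuation_le_one_of_mem v (der_mem hres hfin ((mem_iff_adicValuation_le_one v).mpr hu))
  have key := val_deriv_eq v.adicValuation (der v) (π : F) (v.adicValuation_coe_irreducible hπ) hδt
    (fun c hc => adicValuation_algebraMap_eq_one v hc) hint (v.ord f)
    (adicValuation_eq_exp_neg_ord v hf) (by exact_mod_cast hn)
  rw [ordDifferential_D]
  exact ord_eq_of_adicValuation_eq v key

/-- **G4 (2a): zeros.** If `x - c` vanishes to order `e > 0` at `v` then `D x` has order `e - 1`. -/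
theorem ordDifferential_D_of_ord_sub [CharZero K] (hres : ResidueIsBase v) (hfin : LocFG v)
    {x : F} {c : K} {e : ℤ} (he : 0 < e) (h : v.ord (x - algebraMap K F c) = e) :
    v.ordDifferential (D K F x) = e - 1 := by
  have hne : x - algebraMap K F c ≠ 0 := by
    intro h0; rw [h0, Place.ord_zero] at h; omega
  have := ordDifferential_D_eq hres hfin hne (by rw [h]; omega)
  rw [map_sub, Derivation.map_algebraMap, sub_zero, h] at this
  exact this

/-- **G4 (2b): poles.** If `x` has a pole of order `e > 0` at `v` then `D x` has order `-e - 1`. -/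
theorem ordDifferential_D_of_pole [CharZero K] (hres : ResidueIsBase v) (hfin : LocFG v)
    {x : F} {e : ℤ} (he : 0 < e) (h : v.ord x = -e) :
    v.ordDifferential (D K F x) = -e - 1 := by
  have hne : x ≠ 0 := by
    intro h0; rw [h0, Place.ord_zero] at h; omega
  have := ordDifferential_D_eq hres hfin hne (by rw [h]; omega)
  rw [h] at this
  exact this

/-- **G4 (3): independence of the uniformizer.** -/
theorem ordDifferential_D_uniformizer [CharZero K] (hres : ResidueIsBase v) (hfin : LocFG v)
    {t : F} (ht : v.ord t = 1) : v.ordDifferential (D K F t) = 0 := by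
  have hne : t ≠ 0 := by
    intro h0; rw [h0, Place.ord_zero] at ht; omega
  have := ordDifferential_D_eq hres hfin hne (by rw [ht]; omega)
  rw [ht] at this
  simpa using this

end place

/-! ### Discharging the two hypotheses -/

section discharge

open AlgebraicCurve KaehlerDifferential IsDedekindDomain

variable {K F : Type*} [Field K] [Field F] [Algebra K F] (v : Place K F)

/-- Over an algebraically closed constant field, a place with finite residue field has residue
field `K`. -/
theorem residueIsBase_of_isAlgClosed [IsAlgClosed K] [hfr : v.FiniteResidue] :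
    ResidueIsBase v := by
  intro u hu
  have : Module.Finite K v.ResidueField := hfr.finite
  have hsurj : Function.Surjective (algebraMap K v.ResidueField) :=
    (IsAlgClosed.algebraMap_bijective_of_isIntegral (k := K) (K := v.ResidueField)).2
  obtain ⟨c, hc⟩ := hsurj (IsLocalRing.residue v.toValuationSubring ⟨u, hu⟩)
  refine ⟨c, ?_⟩
  have hmem : (⟨u, hu⟩ - algebraMap K v.toValuationSubring c : v.toValuationSubring) ∈
      IsLocalRing.maximalIdeal v.toValuationSubring := by
    rw [← IsLocalRing.residue_eq_zero_iff, map_sub, ← hc, sub_eq_zero]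
    rfl
  have := adicValuation_lt_one_of_mem_maximalIdeal v hmem
  simpa using this

variable {R : Type*} [CommRing R] [IsDedekindDomain R] [Algebra R F] [IsFractionRing R F]
  [Algebra K R] [IsScalarTower K R F]

/-- If `O_v` contains a Dedekind domain `R` with fraction field `F` which is a finitely generated
`K`-algebra, then `O_v` is a localisation of a finitely generated `K`-algebra. -/
theorem locFG_of_dedekind [Algebra.FiniteType K R]
    (hR : ∀ r : R, algebraMap R F r ∈ v.toValuationSubring) : LocFG v := by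
  classical
  obtain ⟨S₀, hS₀⟩ := (Algebra.FiniteType.out : (⊤ : Subalgebra K R).FG)
  set φ : R →ₐ[K] F := IsScalarTower.toAlgHom K R F with hφ
  have hadj : Algebra.adjoin K ((S₀.image φ : Finset F) : Set F) = φ.range := by
    rw [Finset.coe_image, ← AlgHom.map_adjoin, hS₀, Algebra.map_top]
  refine ⟨S₀.image φ, ?_, ?_⟩
  · intro w hw
    obtain ⟨r, -, rfl⟩ := Finset.mem_image.mp hw
    exact hR r
  · intro u hu
    rw [hadj]
    set w := centerSpec v hR with hw
    have huw : w.valuation F u ≤ 1 := by
      have h1 := ofHeightOneSpectrum_centerSpec v hR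
      rw [← h1] at hu
      exact (mem_ofHeightOneSpectrum_iff _ _).mp hu
    obtain ⟨n, d, hnd⟩ := w.exists_primeCompl_mul_eq_of_integer u huw
    refine ⟨algebraMap R F n, ⟨n, rfl⟩, algebraMap R F d, ⟨d, rfl⟩, ?_, hnd⟩
    have hdc : (d : R) ∉ center v hR := d.2
    have h1 : v.adicValuation (algebraMap R F d) ≤ 1 := adicValuation_le_one_of_mem v (hR d)
    have h2 : v.adicValuation (algebraMap R F d)⁻¹ ≤ 1 :=
      adicValuation_le_one_of_mem v (inv_mem_of_not_mem_center v hR hdc)
    have hd0 : algebraMap R F (d : R) ≠ 0 := by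
      intro h0
      apply hdc
      have : (d : R) = 0 := (IsFractionRing.injective R F) (by rw [h0, map_zero])
      rw [this]; exact Ideal.zero_mem _
    rw [map_inv₀] at h2
    have hpos : 0 < v.adicValuation (algebraMap R F d) := (Valuation.pos_iff _).mpr hd0
    rw [inv_le_one₀ hpos] at h2
    exact le_antisymm h1 h2

/-- A place containing a Dedekind domain `R` (fraction field `F`) of finite type over `K` has finite
residue field. -/
theorem finiteResidue_of_dedekind [Algebra.FiniteType K R]
    (hR : ∀ r : R, algebraMap R F r ∈ v.toValuationSubring) : v.FiniteResidue := by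
  have h1 := ofHeightOneSpectrum_centerSpec v hR
  rw [← h1]
  set w := centerSpec v hR
  have hft : Algebra.FiniteType K (Place.ofHeightOneSpectrum (K := K) (F := F) w).ResidueField :=
    Algebra.FiniteType.of_surjective (toResidueHom (K := K) (F := F) w)
      (toResidueHom_surjective w)
  exact ⟨finite_of_finite_type_of_isJacobsonRing K _⟩

/-- Combined form: algebraically closed constants, `O_v ⊇ R` Dedekind of finite type. -/
theorem residueIsBase_of_dedekind [IsAlgClosed K] [Algebra.FiniteType K R]
    (hR : ∀ r : R, algebraMap R F r ∈ v.toValuationSubring) : ResidueIsBase v :=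
  haveI := finiteResidue_of_dedekind v hR
  residueIsBase_of_isAlgClosed v

end discharge

/-! ### Ready-to-use forms for the Hurwitz count (G5) -/

section final

open AlgebraicCurve KaehlerDifferential IsDedekindDomain

variable {K F : Type*} [Field K] [Field F] [Algebra K F] [CharZero K] [IsAlgClosed K]
  {v : Place K F} [v.DCoordGenerates] [Nontrivial Ω[F⁄K]]
  {R : Type*} [CommRing R] [IsDedekindDomain R] [Algebra R F] [IsFractionRing R F]
  [Algebra K R] [IsScalarTower K R F] [Algebra.FiniteType K R]

/-- Zeros: `ord_v (x - c) = e > 0 ⇒ ordDifferential_v (D x) = e - 1`. -/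
theorem ordDifferential_D_of_ord_sub_dedekind
    (hR : ∀ r : R, algebraMap R F r ∈ v.toValuationSubring)
    {x : F} {c : K} {e : ℤ} (he : 0 < e) (h : v.ord (x - algebraMap K F c) = e) :
    v.ordDifferential (D K F x) = e - 1 :=
  ordDifferential_D_of_ord_sub (residueIsBase_of_dedekind v hR) (locFG_of_dedekind v hR) he h

/-- Poles: `ord_v x = -e < 0 ⇒ ordDifferential_v (D x) = -e - 1`. -/
theorem ordDifferential_D_of_pole_dedekind
    (hR : ∀ r : R, algebraMap R F r ∈ v.toValuationSubring)
    {x : F} {e : ℤ} (he : 0 < e) (h : v.ord x = -e) :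
    v.ordDifferential (D K F x) = -e - 1 :=
  ordDifferential_D_of_pole (residueIsBase_of_dedekind v hR) (locFG_of_dedekind v hR) he h

/-- General form: `f ≠ 0`, `ord_v f ≠ 0 ⇒ ordDifferential_v (D f) = ord_v f - 1`. -/
theorem ordDifferential_D_eq_dedekind
    (hR : ∀ r : R, algebraMap R F r ∈ v.toValuationSubring)
    {f : F} (hf : f ≠ 0) (hn : v.ord f ≠ 0) :
    v.ordDifferential (D K F f) = v.ord f - 1 :=
  ordDifferential_D_eq (residueIsBase_of_dedekind v hR) (locFG_of_dedekind v hR) hf hn

/-- Integrality: `u ∈ O_v ⇒ differentialCoeff_v (D u) ∈ O_v`. -/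
theorem differentialCoeff_D_mem_dedekind
    (hR : ∀ r : R, algebraMap R F r ∈ v.toValuationSubring)
    {u : F} (hu : u ∈ v.toValuationSubring) :
    v.differentialCoeff (D K F u) ∈ v.toValuationSubring :=
  differentialCoeff_D_mem (residueIsBase_of_dedekind v hR) (locFG_of_dedekind v hR) hu

end final

end Fermat.Agent.S24.DerivBound
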