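/-
M2b / S24, task G3 (helper16): Kähler differentials of a function field of one variable in
characteristic zero.

Setting: `K ⊆ F` fields, `CharZero K`, `x : F` transcendental over `K` with `F` algebraic over
`K⟮x⟯`.  Then

* `kaehlerEquiv x hx : Ω[F⁄K] ≃ₗ[F] F` with `kaehlerEquiv x hx (D K F x) = 1`;
* `span_D_eq_top`, `D_ne_zero`, `finrank_kaehler`, `nontrivial_kaehler`;
* `isAlgebraic_adjoin_of_transcendental` (exchange: `F` is algebraic over `K⟮t⟯` for every
  transcendental `t`), hence `span_D_eq_top_of_transcendental`, `D_ne_zero_of_transcendental`,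
  `D_eq_zero_iff : D K F t = 0 ↔ IsAlgebraic K t`;
* `derivWrt x hx : Derivation K F F` (`d/dx`), `D_eq_derivWrt_smul`, `derivWrt_chain`;
* places: `transcendental_of_irreducible` (uniformizers are transcendental), `exists_dCoord_eq`,
  `dCoordGenerates : v.DCoordGenerates`, `dCoord_ne_zero`.
-/
import Mathlib
import Fermat.Prelude.Def_ModularCurve_CanonicalDivisor

set_option autoImplicit false

set_option linter.style.haveILetI false

namespace Fermat.Agent.S24.KaehlerFF

open Polynomial IntermediateField KaehlerDifferential TensorProduct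

universe u v

variable {K : Type u} {F : Type v} [Field K] [Field F] [Algebra K F]

/-- `F` as a `K[X]`-algebra via `X ↦ x`. -/
@[reducible] noncomputable def polyAlgebra (x : F) : Algebra K[X] F := (aeval x).toRingHom.toAlgebra

theorem formallyEtale_poly [CharZero K] (x : F) (hx : Transcendental K x)
    [Algebra.IsAlgebraic K⟮x⟯ F] :
    letI := polyAlgebra (K := K) x
    Algebra.FormallyEtale K[X] F := by
  letI := polyAlgebra (K := K) x
  letI : Algebra K[X] K⟮x⟯ := (aeval (AdjoinSimple.gen K x)).toRingHom.toAlgebra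
  have h1 : ∀ p : K[X], algebraMap K[X] F p = aeval x p := fun p => rfl
  have h2 : ∀ p : K[X], algebraMap K[X] K⟮x⟯ p = aeval (AdjoinSimple.gen K x) p := fun p => rfl
  have h3 : ∀ p : K[X], algebraMap K⟮x⟯ F (aeval (AdjoinSimple.gen K x) p) = aeval x p := by
    intro p
    rw [← aeval_algebraMap_apply, AdjoinSimple.algebraMap_gen]
  haveI : IsScalarTower K[X] K⟮x⟯ F := IsScalarTower.of_algebraMap_eq (fun p => by
    rw [h1, h2, h3])
  have hinj : Function.Injective (algebraMap K[X] K⟮x⟯) := by
    intro p q hpq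
    have := congrArg (algebraMap K⟮x⟯ F) hpq
    rw [h2, h2, h3, h3] at this
    exact (transcendental_iff_injective.mp hx) this
  haveI : FaithfulSMul K[X] K⟮x⟯ := (faithfulSMul_iff_algebraMap_injective _ _).mpr hinj
  haveI : IsFractionRing K[X] K⟮x⟯ := by
    apply IsFractionRing.of_field
    intro z
    obtain ⟨r, s, hrs⟩ := (mem_adjoin_simple_iff K (z : F)).mp z.2
    refine ⟨r, s, ?_⟩
    apply Subtype.ext
    rw [hrs]
    change _ = algebraMap K⟮x⟯ F (algebraMap K[X] K⟮x⟯ r / algebraMap K[X] K⟮x⟯ s)
    rw [map_div₀, h2, h2, h3, h3]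
  haveI : Algebra.FormallyEtale K[X] K⟮x⟯ :=
    Algebra.FormallyEtale.of_isLocalization (nonZeroDivisors K[X])
  haveI : Algebra.IsSeparable K⟮x⟯ F := Algebra.IsAlgebraic.isSeparable_of_perfectField
  haveI : Algebra.FormallyEtale K⟮x⟯ F := Algebra.FormallyEtale.of_isSeparable K⟮x⟯ F
  exact Algebra.FormallyEtale.comp K[X] K⟮x⟯ F

theorem isScalarTower_poly (x : F) :
    letI := polyAlgebra (K := K) x
    IsScalarTower K K[X] F := by
  letI := polyAlgebra (K := K) x
  exact IsScalarTower.of_algebraMap_eq (fun a => by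
    change algebraMap K F a = aeval x (C a)
    rw [aeval_C])

/-- `Ω[F⁄K] ≃ F`, sending `D x` to `1`. -/
noncomputable def kaehlerEquiv [CharZero K] (x : F) (hx : Transcendental K x)
    [Algebra.IsAlgebraic K⟮x⟯ F] : Ω[F⁄K] ≃ₗ[F] F :=
  letI := polyAlgebra (K := K) x
  haveI := isScalarTower_poly (K := K) x
  haveI := formallyEtale_poly x hx
  (tensorKaehlerEquivOfFormallyEtale K K[X] F).symm ≪≫ₗ
    (TensorProduct.AlgebraTensorModule.congr (LinearEquiv.refl F F) (polynomialEquiv K)) ≪≫ₗ
    (TensorProduct.AlgebraTensorModule.rid K[X] F F)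

theorem kaehlerEquiv_D [CharZero K] (x : F) (hx : Transcendental K x)
    [Algebra.IsAlgebraic K⟮x⟯ F] : kaehlerEquiv x hx (D K F x) = 1 := by
  letI := polyAlgebra (K := K) x
  haveI := isScalarTower_poly (K := K) x
  haveI := formallyEtale_poly x hx
  have hX : algebraMap K[X] F X = x := by
    change aeval x X = x
    rw [aeval_X]
  have h1 : (tensorKaehlerEquivOfFormallyEtale K K[X] F).symm (D K F x) =
      1 ⊗ₜ D K K[X] X := by
    conv_lhs => rw [← hX]
    exact tensorKaehlerEquivOfFormallyEtale_symm_D_algebraMap K K[X] F X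
  simp only [kaehlerEquiv, LinearEquiv.trans_apply]
  rw [h1]
  simp [polynomialEquiv_D]

section consequences

variable [CharZero K] (x : F) (hx : Transcendental K x) [Algebra.IsAlgebraic K⟮x⟯ F]
include hx

theorem eq_smul_D (ω : Ω[F⁄K]) : ω = kaehlerEquiv x hx ω • D K F x := by
  apply (kaehlerEquiv x hx).injective
  rw [map_smul, kaehlerEquiv_D, smul_eq_mul, mul_one]

theorem span_D_eq_top : Submodule.span F {D K F x} = ⊤ := by
  rw [eq_top_iff]
  intro ω _
  rw [Submodule.mem_span_singleton]
  exact ⟨kaehlerEquiv x hx ω, (eq_smul_D x hx ω).symm⟩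

theorem D_ne_zero : D K F x ≠ 0 := by
  intro h
  have := kaehlerEquiv_D x hx
  rw [h, map_zero] at this
  exact zero_ne_one this

theorem nontrivial_kaehler : Nontrivial Ω[F⁄K] :=
  ⟨⟨D K F x, 0, D_ne_zero x hx⟩⟩

theorem finrank_kaehler : Module.finrank F Ω[F⁄K] = 1 := by
  rw [(kaehlerEquiv x hx).finrank_eq, Module.finrank_self]

end consequences

section exchange

open IntermediateField.algebraAdjoinAdjoin

/-- `{x}` is a transcendence basis. -/
theorem isTranscendenceBasis (x : F) (hx : Transcendental K x) [Algebra.IsAlgebraic K⟮x⟯ F] :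
    IsTranscendenceBasis K (fun _ : PUnit.{v+1} => x) := by
  rw [isTranscendenceBasis_iff_algebraicIndependent_isAlgebraic]
  refine ⟨algebraicIndependent_unique_type_iff.mpr hx, ?_⟩
  have hr : Set.range (fun _ : PUnit.{v+1} => x) = {x} := by
    ext y; simp [eq_comm]
  rw [hr]
  exact IsFractionRing.comap_isAlgebraic_iff.mpr (inferInstance : Algebra.IsAlgebraic K⟮x⟯ F)

/-- Exchange: `F` is algebraic over `K(t)` for every transcendental `t`. -/
theorem isAlgebraic_adjoin_of_transcendental (x : F) (hx : Transcendental K x)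
    [Algebra.IsAlgebraic K⟮x⟯ F] {t : F} (ht : Transcendental K t) :
    Algebra.IsAlgebraic K⟮t⟯ F := by
  have hB := isTranscendenceBasis x hx
  have hcard : Algebra.trdeg K F = Cardinal.mk PUnit.{v+1} := (hB.cardinalMk_eq_trdeg).symm
  have hind : AlgebraicIndependent K (fun _ : PUnit.{v+1} => t) :=
    algebraicIndependent_unique_type_iff.mpr ht
  have hB' : IsTranscendenceBasis K (fun _ : PUnit.{v+1} => t) :=
    hind.isTranscendenceBasis_of_trdeg_le_of_finite hcard.le
  have := hB'.isAlgebraic_field
  have hr : Set.range (fun _ : PUnit.{v+1} => t) = {t} := by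
    ext y; simp [eq_comm]
  rwa [hr] at this

end exchange

section transcendental

variable [CharZero K] (x : F) (hx : Transcendental K x) [Algebra.IsAlgebraic K⟮x⟯ F]
include hx

/-- For every transcendental `t`, `D t` spans `Ω[F⁄K]`. -/
theorem span_D_eq_top_of_transcendental {t : F} (ht : Transcendental K t) :
    Submodule.span F {D K F t} = ⊤ :=
  haveI := isAlgebraic_adjoin_of_transcendental x hx ht
  span_D_eq_top t ht

theorem D_ne_zero_of_transcendental {t : F} (ht : Transcendental K t) : D K F t ≠ 0 :=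
  haveI := isAlgebraic_adjoin_of_transcendental x hx ht
  D_ne_zero t ht

omit hx [CharZero K] [Algebra.IsAlgebraic K⟮x⟯ F] in
/-- In characteristic zero, `D t = 0` for algebraic `t`. -/
theorem D_eq_zero_of_isAlgebraic [CharZero K] {t : F} (ht : IsAlgebraic K t) : D K F t = 0 := by
  have hint : IsIntegral K t := ht.isIntegral
  have h0 : aeval t (minpoly K t) = 0 := minpoly.aeval K t
  have h1 := (D K F).map_aeval (minpoly K t) t
  rw [h0, map_zero] at h1
  have hsep : (minpoly K t).Separable := (minpoly.irreducible hint).separable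
  have h2 : aeval t (derivative (minpoly K t)) ≠ 0 := hsep.aeval_derivative_ne_zero h0
  rcases smul_eq_zero.mp h1.symm with h | h
  · exact absurd h h2
  · exact h

theorem D_eq_zero_iff {t : F} : D K F t = 0 ↔ IsAlgebraic K t := by
  constructor
  · intro h
    by_contra hna
    exact D_ne_zero_of_transcendental x hx hna h
  · exact D_eq_zero_of_isAlgebraic

end transcendental

section derivWrt

variable [CharZero K] (x : F) (hx : Transcendental K x) [Algebra.IsAlgebraic K⟮x⟯ F]

/-- The derivation `d/dx` of `F` over `K`. -/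
noncomputable def derivWrt : Derivation K F F :=
  (kaehlerEquiv x hx).toLinearMap.compDer (D K F)

theorem derivWrt_apply (f : F) : derivWrt x hx f = kaehlerEquiv x hx (D K F f) := rfl

@[simp] theorem derivWrt_self : derivWrt x hx x = 1 := kaehlerEquiv_D x hx

/-- `df = (df/dx) dx`. -/
theorem D_eq_derivWrt_smul (f : F) : D K F f = derivWrt x hx f • D K F x :=
  eq_smul_D x hx (D K F f)

include hx in
/-- Any relation `ω = c • dx` determines `c`. -/
theorem eq_of_smul_D_eq {c c' : F} (h : c • D K F x = c' • D K F x) : c = c' := by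
  have := congrArg (kaehlerEquiv x hx) h
  simpa [kaehlerEquiv_D] using this

/-- Chain rule: `df/dx = (df/dt) (dt/dx)`. -/
theorem derivWrt_chain {t : F} (ht : Transcendental K t) [Algebra.IsAlgebraic K⟮t⟯ F] (f : F) :
    derivWrt x hx f = derivWrt t ht f * derivWrt x hx t := by
  apply eq_of_smul_D_eq x hx
  rw [← D_eq_derivWrt_smul, mul_smul, ← D_eq_derivWrt_smul, ← D_eq_derivWrt_smul]

end derivWrt

section places

open AlgebraicCurve

/-- A nonzero element of a place's valuation ring that is algebraic over `K` is a unit there. -/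
theorem isUnit_of_isAlgebraic (v : Place K F) {a : v.toValuationSubring} (ha0 : a ≠ 0)
    (ha : IsAlgebraic K (a : F)) : IsUnit a := by
  let S : Subalgebra K F :=
    { v.toValuationSubring.toSubring with algebraMap_mem' := v.algebraMap_mem' }
  have haF : (a : F) ≠ 0 := fun h => ha0 (Subtype.ext h)
  have h1 : (a : F)⁻¹ ∈ K⟮(a : F)⟯ := inv_mem (IntermediateField.mem_adjoin_simple_self K _)
  have h2 : (a : F)⁻¹ ∈ Algebra.adjoin K {(a : F)} := by
    rw [← IntermediateField.adjoin_simple_toSubalgebra_of_isAlgebraic ha]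
    exact h1
  have h3 : Algebra.adjoin K {(a : F)} ≤ S :=
    Algebra.adjoin_le (Set.singleton_subset_iff.mpr a.2)
  have h4 : (a : F)⁻¹ ∈ v.toValuationSubring := h3 h2
  refine IsUnit.of_mul_eq_one (b := ⟨(a : F)⁻¹, h4⟩) ?_
  apply Subtype.ext
  change (a : F) * (a : F)⁻¹ = 1
  exact mul_inv_cancel₀ haF

/-- Uniformizers are transcendental over `K`. -/
theorem transcendental_of_irreducible (v : Place K F) {π : v.toValuationSubring}
    (hπ : Irreducible π) : Transcendental K (π : F) := fun h =>
  hπ.not_isUnit (isUnit_of_isAlgebraic v hπ.ne_zero h)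

theorem exists_dCoord_eq (v : Place K F) : ∃ π : v.toValuationSubring, Irreducible π ∧
    v.dCoord = D K F (π : F) :=
  ⟨_, (IsDiscreteValuationRing.exists_irreducible v.toValuationSubring).choose_spec, rfl⟩

variable [CharZero K] (x : F) (hx : Transcendental K x) [Algebra.IsAlgebraic K⟮x⟯ F]
include hx

/-- Every place has `DCoordGenerates`. -/
theorem dCoordGenerates (v : Place K F) : v.DCoordGenerates := by
  obtain ⟨π, hπ, h⟩ := exists_dCoord_eq v
  refine ⟨?_⟩
  rw [h]
  exact span_D_eq_top_of_transcendental x hx (transcendental_of_irreducible v hπ)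

theorem dCoord_ne_zero (v : Place K F) : v.dCoord ≠ 0 := by
  obtain ⟨π, hπ, h⟩ := exists_dCoord_eq v
  rw [h]
  exact D_ne_zero_of_transcendental x hx (transcendental_of_irreducible v hπ)

end places

section interface

/-- (G3, exact `Interface.lean` shape) existence of a nonzero differential on a function field
`F/K` (finite over `K(x)`, `x` transcendental, characteristic zero). -/
theorem exists_differential_ne_zero [CharZero K] (x : F) (hx : Transcendental K x)
    [FiniteDimensional K⟮x⟯ F] : ∃ ω : Ω[F⁄K], ω ≠ 0 :=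
  ⟨D K F x, D_ne_zero x hx⟩

end interface

end Fermat.Agent.S24.KaehlerFF
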