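/-
M2b / S24, task G4 (part 1): power-series expansion at a place.

Let `O` be a domain and a `K`-algebra, `t : O` a nonzero element such that every element of
`O` is congruent to a constant modulo `t`, nonzero constants are not divisible by `t`, and
`⋂ t ^ n O = 0`.  Then there is an injective `K`-algebra homomorphism `O → K⟦X⟧`, `t ↦ X`,
compatible with the `t`-adic and `X`-adic filtrations.
-/
import Mathlib

set_option autoImplicit false

namespace Fermat.Agent.S24.LocalExp

open PowerSeries

/-- A local chart: the data allowing to expand elements of `O` as power series in `t`. -/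
structure Chart (K O : Type*) [Field K] [CommRing O] [Algebra K O] where
  /-- the local parameter -/
  t : O
  t_ne : t ≠ 0
  res : ∀ u : O, ∃ c : K, t ∣ u - algebraMap K O c
  const : ∀ c : K, t ∣ algebraMap K O c → c = 0
  sep : ∀ u : O, (∀ n : ℕ, t ^ n ∣ u) → u = 0

variable {K O : Type*} [Field K] [CommRing O] [Algebra K O] (ch : Chart K O)

namespace Chart

/-- The constant term of `u`. -/
noncomputable def c0 (u : O) : K := (ch.res u).choose

lemma c0_spec (u : O) : ch.t ∣ u - algebraMap K O (ch.c0 u) := (ch.res u).choose_spec

/-- The quotient `(u - c0 u) / t`. -/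
noncomputable def next (u : O) : O := (ch.c0_spec u).choose

lemma next_spec (u : O) : u = algebraMap K O (ch.c0 u) + ch.t * ch.next u := by
  have h : u - algebraMap K O (ch.c0 u) = ch.t * ch.next u := (ch.c0_spec u).choose_spec
  linear_combination h

lemma c0_unique {u : O} {c : K} (h : ch.t ∣ u - algebraMap K O c) : ch.c0 u = c := by
  have h1 := ch.c0_spec u
  have h2 : ch.t ∣ algebraMap K O (c - ch.c0 u) := by
    have := dvd_sub h1 h
    rw [map_sub]
    convert this using 1
    ring
  have := ch.const _ h2
  exact (sub_eq_zero.mp this).symm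

/-- The power series expansion of `u`. -/
noncomputable def expand (u : O) : K⟦X⟧ := PowerSeries.mk fun n => ch.c0 (ch.next^[n] u)

@[simp] lemma coeff_expand (u : O) (n : ℕ) :
    PowerSeries.coeff n (ch.expand u) = ch.c0 (ch.next^[n] u) := by
  simp [expand]

/-- `s` is an expansion of `u`: all truncations approximate `u` to the right order. -/
def IsExpansion (u : O) (s : K⟦X⟧) : Prop :=
  ∀ n : ℕ, ch.t ^ n ∣ u - Polynomial.aeval ch.t (trunc n s)

lemma expand_formula (u : O) (n : ℕ) :
    u = Polynomial.aeval ch.t (trunc n (ch.expand u)) + ch.t ^ n * ch.next^[n] u := by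
  induction n with
  | zero => simp
  | succ n ih =>
    rw [trunc_succ, map_add, Polynomial.aeval_monomial, coeff_expand, Function.iterate_succ_apply',
      pow_succ]
    have h := ch.next_spec (ch.next^[n] u)
    calc u = Polynomial.aeval ch.t (trunc n (ch.expand u)) + ch.t ^ n * ch.next^[n] u := ih
      _ = _ := by
        conv_lhs => rw [h]
        ring

lemma isExpansion_expand (u : O) : ch.IsExpansion u (ch.expand u) := by
  intro n
  refine ⟨ch.next^[n] u, ?_⟩
  have := ch.expand_formula u n
  linear_combination this


variable [IsDomain O]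

lemma IsExpansion.unique {u : O} {s s' : K⟦X⟧} (h : ch.IsExpansion u s)
    (h' : ch.IsExpansion u s') : s = s' := by
  ext k
  induction k using Nat.strong_induction_on with
  | _ k ih =>
    have hpoly : trunc (k + 1) s - trunc (k + 1) s' =
        Polynomial.monomial k (PowerSeries.coeff k s - PowerSeries.coeff k s') := by
      ext j
      rw [Polynomial.coeff_sub, coeff_trunc, coeff_trunc, Polynomial.coeff_monomial]
      by_cases hj : j < k + 1
      · rw [if_pos hj, if_pos hj]
        by_cases hjk : k = j
        · rw [if_pos hjk, hjk]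
        · rw [if_neg hjk, ih j (by omega), sub_self]
      · rw [if_neg hj, if_neg hj, sub_self, if_neg (by omega)]
    have hdvd : ch.t ^ (k + 1) ∣
        Polynomial.aeval ch.t (trunc (k + 1) s) - Polynomial.aeval ch.t (trunc (k + 1) s') := by
      have := dvd_sub (h' (k + 1)) (h (k + 1))
      convert this using 1
      ring
    rw [← map_sub, hpoly, Polynomial.aeval_monomial, pow_succ] at hdvd
    have h3 : ch.t ∣ algebraMap K O (PowerSeries.coeff k s - PowerSeries.coeff k s') := by
      rw [mul_comm (algebraMap K O _)] at hdvd
      exact (mul_dvd_mul_iff_left (pow_ne_zero k ch.t_ne)).mp hdvd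
    exact sub_eq_zero.mp (ch.const _ h3)

omit [IsDomain O] in
lemma aeval_sub_aeval_trunc (p : Polynomial K) (n : ℕ) :
    ch.t ^ n ∣ Polynomial.aeval ch.t p - Polynomial.aeval ch.t (trunc n (p : K⟦X⟧)) := by
  -- `p - trunc n p` is divisible by `X ^ n`
  have h : (Polynomial.X : Polynomial K) ^ n ∣ p - trunc n (p : K⟦X⟧) := by
    rw [Polynomial.X_pow_dvd_iff]
    intro d hd
    rw [Polynomial.coeff_sub, coeff_trunc, if_pos hd, Polynomial.coeff_coe, sub_self]
  obtain ⟨q, hq⟩ := h
  refine ⟨Polynomial.aeval ch.t q, ?_⟩
  rw [← map_sub, hq, map_mul, map_pow, Polynomial.aeval_X]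

omit [IsDomain O] in
lemma IsExpansion.add {u u' : O} {s s' : K⟦X⟧} (h : ch.IsExpansion u s)
    (h' : ch.IsExpansion u' s') : ch.IsExpansion (u + u') (s + s') := by
  intro n
  have := dvd_add (h n) (h' n)
  rw [map_add, map_add]
  convert this using 1
  ring

omit [IsDomain O] in
lemma IsExpansion.mul {u u' : O} {s s' : K⟦X⟧} (h : ch.IsExpansion u s)
    (h' : ch.IsExpansion u' s') : ch.IsExpansion (u * u') (s * s') := by
  intro n
  obtain ⟨a, ha⟩ := h n
  obtain ⟨b, hb⟩ := h' n
  have h1 := ch.aeval_sub_aeval_trunc (trunc n s * trunc n s') n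
  rw [Polynomial.coe_mul, trunc_trunc_mul_trunc, map_mul] at h1
  obtain ⟨c, hc⟩ := h1
  refine ⟨a * u' + Polynomial.aeval ch.t (trunc n s) * b + c, ?_⟩
  linear_combination u' * ha + Polynomial.aeval ch.t (trunc n s) * hb + hc

omit [IsDomain O] in
lemma isExpansion_algebraMap (c : K) : ch.IsExpansion (algebraMap K O c) (PowerSeries.C c) := by
  intro n
  cases n with
  | zero => simp
  | succ n =>
    rw [trunc_C, Polynomial.aeval_C, sub_self]
    exact dvd_zero _

omit [IsDomain O] in
lemma isExpansion_t : ch.IsExpansion ch.t PowerSeries.X := by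
  intro n
  match n with
  | 0 => simp
  | 1 => simp
  | n + 2 =>
    rw [trunc_X, Polynomial.aeval_X, sub_self]
    exact dvd_zero _

lemma expand_add (u u' : O) : ch.expand (u + u') = ch.expand u + ch.expand u' :=
  (ch.isExpansion_expand (u + u')).unique ch
    ((ch.isExpansion_expand u).add ch (ch.isExpansion_expand u'))

lemma expand_mul (u u' : O) : ch.expand (u * u') = ch.expand u * ch.expand u' :=
  (ch.isExpansion_expand (u * u')).unique ch
    ((ch.isExpansion_expand u).mul ch (ch.isExpansion_expand u'))

lemma expand_algebraMap (c : K) : ch.expand (algebraMap K O c) = PowerSeries.C c :=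
  (ch.isExpansion_expand _).unique ch (ch.isExpansion_algebraMap c)

lemma expand_t : ch.expand ch.t = PowerSeries.X :=
  (ch.isExpansion_expand _).unique ch ch.isExpansion_t

/-- The expansion as a `K`-algebra homomorphism. -/
noncomputable def expandHom : O →ₐ[K] K⟦X⟧ where
  toFun := ch.expand
  map_one' := by
    have := ch.expand_algebraMap 1
    rwa [map_one, map_one] at this
  map_mul' := ch.expand_mul
  map_zero' := by
    have := ch.expand_algebraMap 0
    rwa [map_zero, map_zero] at this
  map_add' := ch.expand_add
  commutes' c := ch.expand_algebraMap c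

@[simp] lemma expandHom_apply (u : O) : ch.expandHom u = ch.expand u := rfl

@[simp] lemma expandHom_t : ch.expandHom ch.t = PowerSeries.X := ch.expand_t

lemma expandHom_injective : Function.Injective ch.expandHom := by
  rw [injective_iff_map_eq_zero]
  intro u hu
  apply ch.sep
  intro n
  have h := ch.isExpansion_expand u n
  rw [expandHom_apply] at hu
  rwa [hu, map_zero, map_zero, sub_zero] at h

omit [IsDomain O] in
/-- Divisibility by `t` is detected by the constant coefficient. -/
lemma t_dvd_iff (u : O) : ch.t ∣ u ↔ PowerSeries.constantCoeff (ch.expand u) = 0 := by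
  have hc : PowerSeries.constantCoeff (ch.expand u) = ch.c0 u := by
    rw [← PowerSeries.coeff_zero_eq_constantCoeff_apply, coeff_expand]
    rfl
  rw [hc]
  constructor
  · intro h
    have : ch.t ∣ u - algebraMap K O 0 := by rwa [map_zero, sub_zero]
    exact ch.c0_unique this
  · intro h
    have := ch.c0_spec u
    rwa [h, map_zero, sub_zero] at this

/-- Units: `u` is not divisible by `t` iff its expansion is a unit. -/
lemma isUnit_expand_iff (u : O) : IsUnit (ch.expand u) ↔ ¬ ch.t ∣ u := by
  rw [ch.t_dvd_iff, PowerSeries.isUnit_iff_constantCoeff, isUnit_iff_ne_zero]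

end Chart

end Fermat.Agent.S24.LocalExp
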