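/-
M2b / S24, task G4 (part 2): the derivation `d/dt` preserves the local ring.

`O` a domain with a chart `ch : Chart K O` (power-series expansion `ι : O → K⟦X⟧`, `t ↦ X`),
`F` its fraction field.  If `D u = g • D t` in `Ω[F⁄K]` with `u ∈ O`, then `g ∈ O` and
`ι g = d/dX (ι u)`.  Moreover `D t ≠ 0`.
-/
import Mathlib
import Fermat.Agent.S24.LocalExpansion

set_option autoImplicit false

namespace Fermat.Agent.S24.LocalDeriv

open PowerSeries KaehlerDifferential
open Fermat.Agent.S24.LocalExp

variable {K O F : Type*} [Field K] [CommRing O] [IsDomain O] [Algebra K O]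
  [Field F] [Algebra O F] [IsFractionRing O F] [Algebra K F] [IsScalarTower K O F]
  (ch : Chart K O)

/-- The derivation `u ↦ d/dX (ι u)` from `O` to `K⟦X⟧` (an `O`-module through `ι`), packaged
through its effect on Kähler differentials: an additive map `φ : Ω[O⁄K] → K⟦X⟧` with
`φ (a • ω) = ι a * φ ω` and `φ (D u) = d/dX (ι u)`. -/
lemma exists_kaehler_map :
    ∃ φ : Ω[O⁄K] →+ K⟦X⟧, (∀ (a : O) (ω : Ω[O⁄K]), φ (a • ω) = ch.expandHom a * φ ω) ∧
      ∀ u : O, φ (D K O u) = PowerSeries.derivative K (ch.expandHom u) := by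
  let _ : Algebra O K⟦X⟧ := ch.expandHom.toRingHom.toAlgebra
  have : IsScalarTower K O K⟦X⟧ :=
    IsScalarTower.of_algebraMap_eq (fun c => (ch.expandHom.commutes c).symm)
  let δ : Derivation K O K⟦X⟧ := (PowerSeries.derivative K).compAlgebraMap O
  refine ⟨δ.liftKaehlerDifferential.toAddMonoidHom, fun a ω => ?_, fun u => ?_⟩
  · change δ.liftKaehlerDifferential (a • ω) = _
    rw [map_smul]
    rfl
  · change δ.liftKaehlerDifferential (D K O u) = _
    rw [Derivation.liftKaehlerDifferential_comp_D]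
    rfl

/-- Key relation: if `b • D u = a • D t` in `Ω[F⁄K]` (with `a b u ∈ O`), then
`ι a = ι b * d/dX (ι u)`. -/
lemma expand_eq_of_smul_D_eq {a b u : O}
    (h : algebraMap O F b • D K F (algebraMap O F u) =
      algebraMap O F a • D K F (algebraMap O F ch.t)) :
    ch.expandHom a = ch.expandHom b * PowerSeries.derivative K (ch.expandHom u) := by
  obtain ⟨φ, hφ, hφD⟩ := exists_kaehler_map ch
  -- the element of `Ω[O⁄K]` mapping to zero in `Ω[F⁄K]`
  set ω : Ω[O⁄K] := b • D K O u - a • D K O ch.t with hω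
  have hmap : KaehlerDifferential.map K K O F ω = 0 := by
    rw [hω, map_sub, map_smul, map_smul, KaehlerDifferential.map_D, KaehlerDifferential.map_D]
    rw [← algebraMap_smul F b, ← algebraMap_smul F a, h, sub_self]
  have hloc : IsLocalizedModule (nonZeroDivisors O) (KaehlerDifferential.map K K O F) :=
    KaehlerDifferential.isLocalizedModule_map (R := K) (S := O) (T := F) (nonZeroDivisors O)
  obtain ⟨m, hm⟩ := (IsLocalizedModule.eq_zero_iff (nonZeroDivisors O)
    (KaehlerDifferential.map K K O F)).mp hmap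
  have hm0 : (m : O) ≠ 0 := nonZeroDivisors.ne_zero m.2
  have h1 : φ ((m : O) • ω) = 0 := by
    have : (m : O) • ω = m • ω := rfl
    rw [this, hm, map_zero]
  rw [hφ, hω, map_sub, hφ, hφ, hφD, hφD, Chart.expandHom_t, PowerSeries.derivative_X, mul_one] at h1
  have h2 : ch.expandHom (m : O) ≠ 0 := fun h0 =>
    hm0 (ch.expandHom_injective (by rw [h0, map_zero]))
  have h3 := (mul_eq_zero.mp h1).resolve_left h2
  exact (sub_eq_zero.mp h3).symm

/-- `D t ≠ 0` in `Ω[F⁄K]`. -/
theorem D_t_ne_zero : D K F (algebraMap O F ch.t) ≠ 0 := by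
  intro h0
  have h : algebraMap O F 0 • D K F (algebraMap O F (0 : O)) =
      algebraMap O F 1 • D K F (algebraMap O F ch.t) := by
    rw [map_zero, zero_smul, h0, smul_zero]
  have := expand_eq_of_smul_D_eq ch h
  rw [map_one, map_zero, zero_mul] at this
  exact one_ne_zero this

/-- In a "DVR-like" chart, divisibility can be tested on expansions. -/
lemma dvd_of_expand_dvd
    (hdvr : ∀ u : O, u ≠ 0 → ∃ (n : ℕ) (w : O), IsUnit w ∧ u = ch.t ^ n * w)
    {a b : O} (hb : b ≠ 0) (h : ch.expandHom b ∣ ch.expandHom a) : b ∣ a := by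
  rcases eq_or_ne a 0 with rfl | ha
  · exact dvd_zero b
  obtain ⟨n, w, hw, rfl⟩ := hdvr a ha
  obtain ⟨m, w', hw', rfl⟩ := hdvr b hb
  obtain ⟨s, hs⟩ := h
  rcases le_or_gt m n with hmn | hmn
  · obtain ⟨w'', hw''⟩ := hw'.exists_right_inv
    refine ⟨ch.t ^ (n - m) * w * w'', ?_⟩
    have : ch.t ^ n = ch.t ^ m * ch.t ^ (n - m) := by rw [← pow_add]; congr 1; omega
    rw [this]
    linear_combination (ch.t ^ m * ch.t ^ (n - m) * w) * (-hw'')
  · exfalso
    -- compare constant coefficients after cancelling `X ^ n`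
    have hwu : IsUnit (ch.expandHom w) := hw.map ch.expandHom
    rw [map_mul, map_mul, map_pow, map_pow, Chart.expandHom_t] at hs
    have hpow : (PowerSeries.X : K⟦X⟧) ^ m = PowerSeries.X ^ n * PowerSeries.X ^ (m - n) := by
      rw [← pow_add]; congr 1; omega
    rw [hpow, mul_assoc, mul_assoc] at hs
    have hs' := mul_left_cancel₀ (pow_ne_zero n PowerSeries.X_ne_zero) hs
    have hc := congrArg PowerSeries.constantCoeff hs'
    have hmn' : m - n ≠ 0 := by omega
    rw [map_mul, map_pow, PowerSeries.constantCoeff_X, zero_pow hmn', zero_mul] at hc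
    exact ((PowerSeries.isUnit_iff_constantCoeff.mp hwu).ne_zero) hc

/-- **Main local statement**: if `D u = g • D t` with `u ∈ O`, then `g` comes from `O`, and its
expansion is the formal derivative of the expansion of `u`. -/
theorem exists_mem_of_D_eq_smul
    (hdvr : ∀ u : O, u ≠ 0 → ∃ (n : ℕ) (w : O), IsUnit w ∧ u = ch.t ^ n * w)
    {u : O} {g : F} (h : D K F (algebraMap O F u) = g • D K F (algebraMap O F ch.t)) :
    ∃ g' : O, algebraMap O F g' = g ∧
      ch.expandHom g' = PowerSeries.derivative K (ch.expandHom u) := by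
  obtain ⟨a, b, hb, rfl⟩ := IsFractionRing.div_surjective (A := O) g
  have hb0 : b ≠ 0 := nonZeroDivisors.ne_zero hb
  have hbF : algebraMap O F b ≠ 0 := by
    intro h0
    exact hb0 ((IsFractionRing.injective O F) (by rw [h0, map_zero]))
  have h1 : algebraMap O F b • D K F (algebraMap O F u) =
      algebraMap O F a • D K F (algebraMap O F ch.t) := by
    rw [h, smul_smul, mul_div_cancel₀ _ hbF]
  have h2 := expand_eq_of_smul_D_eq ch h1
  obtain ⟨g', rfl⟩ := dvd_of_expand_dvd ch hdvr hb0 ⟨_, h2⟩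
  refine ⟨g', ?_, ?_⟩
  · rw [map_mul, mul_div_cancel_left₀ _ hbF]
  · rw [map_mul] at h2
    have hιb : ch.expandHom b ≠ 0 := fun h0 =>
      hb0 (ch.expandHom_injective (by rw [h0, map_zero]))
    exact mul_left_cancel₀ hιb h2

end Fermat.Agent.S24.LocalDeriv
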