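/-
M2b / S24, task G4 (part 3): differentials at a place with residue field `K`, in the
language of the prelude (`AlgebraicCurve.Place`, `ord`, `dCoord`, `ordDifferential`).
-/
import Mathlib
import Fermat.Prelude.Def_ModularCurve_CanonicalDivisor
import Fermat.Agent.S24.LocalDeriv

set_option autoImplicit false

namespace Fermat.Agent.S24.PlaceDeriv

open PowerSeries KaehlerDifferential AlgebraicCurve IsLocalRing
open Fermat.Agent.S24.LocalExp Fermat.Agent.S24.LocalDeriv

variable {K F : Type*} [Field K] [Field F] [Algebra K F] (v : Place K F)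

/-- The residue field of `v` is `K`: every element of the valuation ring is congruent to a
constant modulo the maximal ideal. -/
def ResidueTrivial : Prop :=
  ∀ u : v.toValuationSubring, ∃ c : K,
    u - algebraMap K v.toValuationSubring c ∈ maximalIdeal v.toValuationSubring

variable {v}

lemma irreducible_not_dvd_unit {π w : v.toValuationSubring} (hπ : Irreducible π)
    (hw : IsUnit w) : ¬ π ∣ w := fun h => hπ.not_isUnit (isUnit_of_dvd_unit h hw)

/-- The chart attached to a uniformizer at a place with trivial residue extension. -/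
noncomputable def chart (hres : ResidueTrivial v) {π : v.toValuationSubring}
    (hπ : Irreducible π) : Chart K v.toValuationSubring where
  t := π
  t_ne := hπ.ne_zero
  res u := by
    obtain ⟨c, hc⟩ := hres u
    refine ⟨c, ?_⟩
    rw [hπ.maximalIdeal_eq, Ideal.mem_span_singleton] at hc
    exact hc
  const c hc := by
    by_contra hc0
    have hu : IsUnit (algebraMap K v.toValuationSubring c) :=
      (isUnit_iff_ne_zero.mpr hc0).map _
    exact irreducible_not_dvd_unit hπ hu hc
  sep u hu := by
    by_contra hu0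
    obtain ⟨n, w, rfl⟩ := IsDiscreteValuationRing.eq_unit_mul_pow_irreducible hu0 hπ
    have h := hu (n + 1)
    rw [pow_succ, mul_comm (w : v.toValuationSubring)] at h
    have h2 : π ∣ (w : v.toValuationSubring) :=
      (mul_dvd_mul_iff_left (pow_ne_zero n hπ.ne_zero)).mp h
    exact irreducible_not_dvd_unit hπ w.isUnit h2

@[simp] lemma chart_t (hres : ResidueTrivial v) {π : v.toValuationSubring}
    (hπ : Irreducible π) : (chart hres hπ).t = π := rfl

lemma chart_hdvr (hres : ResidueTrivial v) {π : v.toValuationSubring} (hπ : Irreducible π) :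
    ∀ u : v.toValuationSubring, u ≠ 0 →
      ∃ (n : ℕ) (w : v.toValuationSubring), IsUnit w ∧ u = (chart hres hπ).t ^ n * w := by
  intro u hu
  obtain ⟨n, w, rfl⟩ := IsDiscreteValuationRing.eq_unit_mul_pow_irreducible hu hπ
  exact ⟨n, w, w.isUnit, by rw [chart_t, mul_comm]⟩

/-- `D π ≠ 0` for a uniformizer at a place with trivial residue extension. -/
theorem D_uniformizer_ne_zero (hres : ResidueTrivial v) {π : v.toValuationSubring}
    (hπ : Irreducible π) : D K F (π : F) ≠ 0 :=
  D_t_ne_zero (F := F) (chart hres hπ)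

/-- The prelude's `dCoord` is `D` of some uniformizer. -/
lemma exists_dCoord_eq (v : Place K F) :
    ∃ π : v.toValuationSubring, Irreducible π ∧ v.dCoord = D K F (π : F) :=
  ⟨_, (IsDiscreteValuationRing.exists_irreducible v.toValuationSubring).choose_spec, rfl⟩

/-- If `X ^ m * a = X ^ n * b` with `a b` units of `K⟦X⟧`, then `m = n`. -/
lemma pow_mul_unit_inj {m n : ℕ} {a b : K⟦X⟧} (ha : IsUnit a) (hb : IsUnit b)
    (h : (PowerSeries.X : K⟦X⟧) ^ m * a = PowerSeries.X ^ n * b) : m = n := by
  have key : ∀ {m n : ℕ} {a b : K⟦X⟧}, IsUnit a → m < n →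
      (PowerSeries.X : K⟦X⟧) ^ m * a = PowerSeries.X ^ n * b → False := by
    intro m n a b ha hmn h
    have hpow : (PowerSeries.X : K⟦X⟧) ^ n = PowerSeries.X ^ m * PowerSeries.X ^ (n - m) := by
      rw [← pow_add]; congr 1; omega
    rw [hpow, mul_assoc] at h
    have h' := mul_left_cancel₀ (pow_ne_zero m PowerSeries.X_ne_zero) h
    have hc := congrArg PowerSeries.constantCoeff h'
    have hmn' : n - m ≠ 0 := by omega
    rw [map_mul, map_pow, PowerSeries.constantCoeff_X, zero_pow hmn', zero_mul] at hc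
    exact ((PowerSeries.isUnit_iff_constantCoeff.mp ha).ne_zero) hc
  rcases lt_trichotomy m n with h1 | h1 | h1
  · exact (key ha h1 h).elim
  · exact h1
  · exact (key hb h1 h.symm).elim

/-- The order of an element of the valuation ring is read off its expansion. -/
lemma ord_eq_of_expand (hres : ResidueTrivial v) {π : v.toValuationSubring} (hπ : Irreducible π)
    {g : v.toValuationSubring} {n : ℕ} {s : K⟦X⟧} (hs : IsUnit s)
    (h : (chart hres hπ).expandHom g = PowerSeries.X ^ n * s) : v.ord (g : F) = n := by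
  have hg0 : g ≠ 0 := by
    rintro rfl
    rw [map_zero] at h
    exact (mul_ne_zero (pow_ne_zero n PowerSeries.X_ne_zero) hs.ne_zero) h.symm
  obtain ⟨m, w, rfl⟩ := IsDiscreteValuationRing.eq_unit_mul_pow_irreducible hg0 hπ
  have hw : IsUnit ((chart hres hπ).expandHom (w : v.toValuationSubring)) :=
    w.isUnit.map _
  have h2 : (PowerSeries.X : K⟦X⟧) ^ m * (chart hres hπ).expandHom (w : v.toValuationSubring) =
      PowerSeries.X ^ n * s := by
    rw [← h, map_mul, map_pow]
    have : (chart hres hπ).expandHom π = PowerSeries.X := (chart hres hπ).expandHom_t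
    rw [this, mul_comm]
  have hmn := pow_mul_unit_inj hw hs h2
  subst hmn
  have := v.ord_unit_smul_zpow w hπ (m : ℤ)
  rw [zpow_natCast] at this
  simpa using this

/-- Expansion of an element of order `n ≥ 0`. -/
lemma exists_expand_of_ord (_hres : ResidueTrivial v) {π : v.toValuationSubring}
    (hπ : Irreducible π) {f : F} (hf : f ≠ 0) {n : ℕ} (hn : v.ord f = n) :
    ∃ (u : v.toValuationSubring) (w : v.toValuationSubringˣ), (u : F) = f ∧
      u = (w : v.toValuationSubring) * π ^ n := by
  obtain ⟨w, hw⟩ := v.exists_unit_mul_zpow hf hπ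
  rw [hn, zpow_natCast] at hw
  exact ⟨(w : v.toValuationSubring) * π ^ n, w, by rw [hw]; rfl, rfl⟩

/-- **Order of `dx` at a zero of `x - c` of order `e`** (with `e` invertible in `K`):
if `D x = g • D π` for a uniformizer `π`, then `ord g = e - 1`. -/
theorem ord_coeff_of_ord_sub (hres : ResidueTrivial v) {π : v.toValuationSubring}
    (hπ : Irreducible π) {x : F} {c : K} {e : ℕ} (he : 1 ≤ e) (heK : (e : K) ≠ 0)
    (hx : v.ord (x - algebraMap K F c) = e) (hx0 : x - algebraMap K F c ≠ 0) {g : F}
    (hg : D K F x = g • D K F (π : F)) : g ≠ 0 ∧ v.ord g = (e : ℤ) - 1 := by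
  obtain ⟨u, w, huF, hu⟩ := exists_expand_of_ord hres hπ hx0 hx
  have hD : D K F ((u : v.toValuationSubring) : F) = g • D K F (π : F) := by
    rw [huF, map_sub, Derivation.map_algebraMap, sub_zero, hg]
  obtain ⟨g', hg', hexp⟩ := exists_mem_of_D_eq_smul (F := F) (chart hres hπ)
    (chart_hdvr hres hπ) (u := u) (g := g) hD
  set ι := (chart hres hπ).expandHom with hι
  have hιπ : ι π = PowerSeries.X := (chart hres hπ).expandHom_t
  have hιw : IsUnit (ι (w : v.toValuationSubring)) := w.isUnit.map _
  -- compute the derivative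
  have hder : PowerSeries.derivative K (ι u) =
      PowerSeries.X ^ (e - 1) * (PowerSeries.X * PowerSeries.derivative K (ι w) +
        (e : K⟦X⟧) * ι w) := by
    rw [hu, map_mul, map_pow, hιπ, Derivation.leibniz, PowerSeries.derivative_pow,
      PowerSeries.derivative_X, smul_eq_mul, smul_eq_mul, mul_one]
    have hpow : (PowerSeries.X : K⟦X⟧) ^ e = PowerSeries.X ^ (e - 1) * PowerSeries.X := by
      rw [← pow_succ]; congr 1; omega
    rw [hpow]
    ring
  have hunit : IsUnit (PowerSeries.X * PowerSeries.derivative K (ι w) + (e : K⟦X⟧) * ι w) := by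
    rw [PowerSeries.isUnit_iff_constantCoeff, map_add, map_mul, map_mul,
      PowerSeries.constantCoeff_X, zero_mul, zero_add, isUnit_iff_ne_zero]
    have h1 : PowerSeries.constantCoeff (e : K⟦X⟧) = (e : K) := by
      rw [← map_natCast (PowerSeries.C (R := K)), PowerSeries.constantCoeff_C]
    rw [h1]
    exact mul_ne_zero heK (PowerSeries.isUnit_iff_constantCoeff.mp hιw).ne_zero
  have h3 : v.ord ((g' : v.toValuationSubring) : F) = ((e - 1 : ℕ) : ℤ) :=
    ord_eq_of_expand hres hπ hunit (by rw [← hι, hexp, hder])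
  have hg'' : ((g' : v.toValuationSubring) : F) = g := hg'
  have hg'0 : g' ≠ 0 := by
    rintro rfl
    rw [map_zero, hder] at hexp
    exact (mul_ne_zero (pow_ne_zero _ PowerSeries.X_ne_zero) hunit.ne_zero) hexp.symm
  refine ⟨?_, ?_⟩
  · rw [← hg'']
    exact fun h0 => hg'0 (Subtype.ext h0)
  · rw [← hg'', h3]
    omega

/-- **Order of `dx` at a pole of `x` of order `e`** (with `e` invertible in `K`):
if `D x = g • D π` for a uniformizer `π`, then `ord g = -e - 1`. -/
theorem ord_coeff_of_pole (hres : ResidueTrivial v) {π : v.toValuationSubring}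
    (hπ : Irreducible π) {x : F} {e : ℕ} (he : 1 ≤ e) (heK : (e : K) ≠ 0)
    (hx : v.ord x = -(e : ℤ)) {g : F} (hg : D K F x = g • D K F (π : F)) :
    g ≠ 0 ∧ v.ord g = -(e : ℤ) - 1 := by
  have hx0 : x ≠ 0 := by
    rintro rfl
    rw [v.ord_zero] at hx
    omega
  have hy : v.ord (x⁻¹ - algebraMap K F 0) = e := by
    rw [map_zero, sub_zero, v.ord_inv, hx, neg_neg]
  have hy0 : x⁻¹ - algebraMap K F 0 ≠ 0 := by
    rw [map_zero, sub_zero]
    exact inv_ne_zero hx0
  have hDy : D K F x⁻¹ = (-x⁻¹ ^ 2 * g) • D K F (π : F) := by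
    rw [Derivation.leibniz_inv, hg, smul_smul]
  obtain ⟨h0, h1⟩ := ord_coeff_of_ord_sub hres hπ he heK hy hy0 hDy
  have hg0 : g ≠ 0 := right_ne_zero_of_mul h0
  have hx2 : -x⁻¹ ^ 2 ≠ 0 := neg_ne_zero.mpr (pow_ne_zero 2 (inv_ne_zero hx0))
  rw [v.ord_mul hx2 hg0] at h1
  have h2 : v.ord (-x⁻¹ ^ 2) = 2 * (e : ℤ) := by
    have : -x⁻¹ ^ 2 = (-1 : F) * (x⁻¹ * x⁻¹) := by ring
    rw [this, v.ord_mul (neg_ne_zero.mpr one_ne_zero) (mul_ne_zero (inv_ne_zero hx0)
      (inv_ne_zero hx0)), v.ord_mul (inv_ne_zero hx0) (inv_ne_zero hx0), v.ord_inv, hx]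
    have hneg : v.ord (-1 : F) = 0 := by
      have h11 : v.ord ((-1 : F) * (-1 : F)) = v.ord (-1 : F) + v.ord (-1 : F) :=
        v.ord_mul (neg_ne_zero.mpr one_ne_zero) (neg_ne_zero.mpr one_ne_zero)
      rw [neg_one_mul, neg_neg, v.ord_one] at h11
      omega
    rw [hneg]
    ring
  exact ⟨hg0, by omega⟩

/-! ### Statements in terms of the prelude's `ordDifferential` -/

/-- `differentialCoeff` computes the coefficient with respect to `dCoord` as soon as one
exists. -/
lemma differentialCoeff_spec {ω : Ω[F⁄K]} (h : ∃ f : F, ω = f • v.dCoord) :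
    ω = v.differentialCoeff ω • v.dCoord := by
  rw [Place.differentialCoeff, dif_pos h]
  exact h.choose_spec

theorem ordDifferential_D_of_ord_sub (hres : ResidueTrivial v) {x : F} {c : K} {e : ℕ}
    (he : 1 ≤ e) (heK : (e : K) ≠ 0) (hx : v.ord (x - algebraMap K F c) = e)
    (hx0 : x - algebraMap K F c ≠ 0) (hspan : ∃ f : F, D K F x = f • v.dCoord) :
    v.ordDifferential (D K F x) = (e : ℤ) - 1 := by
  obtain ⟨π, hπ, hd⟩ := exists_dCoord_eq v
  have h := differentialCoeff_spec hspan
  rw [hd] at h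
  exact (ord_coeff_of_ord_sub hres hπ he heK hx hx0 h).2

theorem ordDifferential_D_of_pole (hres : ResidueTrivial v) {x : F} {e : ℕ}
    (he : 1 ≤ e) (heK : (e : K) ≠ 0) (hx : v.ord x = -(e : ℤ))
    (hspan : ∃ f : F, D K F x = f • v.dCoord) :
    v.ordDifferential (D K F x) = -(e : ℤ) - 1 := by
  obtain ⟨π, hπ, hd⟩ := exists_dCoord_eq v
  have h := differentialCoeff_spec hspan
  rw [hd] at h
  exact (ord_coeff_of_pole hres hπ he heK hx h).2

/-- `dCoord ≠ 0` at a place with trivial residue extension. -/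
theorem dCoord_ne_zero (hres : ResidueTrivial v) : v.dCoord ≠ 0 := by
  obtain ⟨π, hπ, hd⟩ := exists_dCoord_eq v
  rw [hd]
  exact D_uniformizer_ne_zero hres hπ

/-- If `Ω[F⁄K]` has rank at most one, every place with trivial residue extension satisfies the
prelude's `DCoordGenerates`. -/
theorem dCoordGenerates (hres : ResidueTrivial v)
    (hrank : ∀ ω ω' : Ω[F⁄K], ω' ≠ 0 → ∃ f : F, ω = f • ω') : v.DCoordGenerates where
  span_eq_top := by
    rw [eq_top_iff]
    intro ω _
    obtain ⟨f, hf⟩ := hrank ω v.dCoord (dCoord_ne_zero hres)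
    rw [hf]
    exact Submodule.smul_mem _ _ (Submodule.mem_span_singleton_self _)

end Fermat.Agent.S24.PlaceDeriv
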