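/-
M2b / S24, G2 glue: the statements of `PrincipalDegree.lean` in "set / finsum" form.

For `h` transcendental over `K` with `F / K(h)` finite separable:
* `finite_setOf_ord_pos` : `{v | 0 < v.ord h}` is finite;
* `finsum_ord_mul_deg` : `∑ᶠ v ∈ {v | 0 < v.ord h}, v.ord h * v.deg = [F : K(h)]`;
* `finsum_ord` : the same without `deg` when all places have degree one;
* variants for `x - c` and `x⁻¹` in terms of `[F : K(x)]`;
* `deg_eq_one` : over an algebraically closed constant field all places have degree one.
-/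
import Mathlib
import Fermat.Prelude.Def_AlgebraicCurve_IsCurveOver
import Fermat.Agent.S24.PrincipalDegree

namespace Fermat.Agent.S24

open AlgebraicCurve IntermediateField

section

variable {K F : Type*} [Field K] [Field F] [Algebra K F]

theorem support_eq_of_forall_eq_max {Z : Divisor K F} {h : F}
    (hZ : ∀ v : Place K F, Z v = max (v.ord h) 0) :
    (Z.support : Set (Place K F)) = {v : Place K F | 0 < v.ord h} := by
  ext v
  simp only [Finset.mem_coe, Finsupp.mem_support_iff, Set.mem_ofPred_eq, hZ v]
  constructor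
  · intro hne
    by_contra hle
    exact hne (max_eq_right (not_lt.mp hle))
  · intro hpos
    rw [max_eq_left hpos.le]
    exact hpos.ne'

theorem degree_eq_finsum_of_forall_eq_max {Z : Divisor K F} {h : F}
    (hZ : ∀ v : Place K F, Z v = max (v.ord h) 0) :
    Divisor.degree Z = ∑ᶠ v ∈ {v : Place K F | 0 < v.ord h}, v.ord h * (v.deg : ℤ) := by
  have hsupp := support_eq_of_forall_eq_max hZ
  rw [← hsupp, finsum_mem_coe_finset]
  have : Divisor.degree Z = ∑ v ∈ Z.support, Z v * (v.deg : ℤ) := by
    conv_lhs => rw [← Finsupp.sum_single Z]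
    rw [Finsupp.sum, map_sum]
    exact Finset.sum_congr rfl fun v _ => Divisor.degree_single v (Z v)
  rw [this]
  refine Finset.sum_congr rfl fun v hv => ?_
  have hv' : v ∈ (Z.support : Set (Place K F)) := hv
  rw [hsupp] at hv'
  rw [hZ v, max_eq_left (le_of_lt hv')]

variable {h : F} (htr : Transcendental K h) [FiniteDimensional K⟮h⟯ F] [Algebra.IsSeparable K⟮h⟯ F]

include htr

/-- The zero set of `h` is finite. -/
theorem finite_setOf_ord_pos : {v : Place K F | 0 < v.ord h}.Finite := by
  obtain ⟨Z, hZ, -⟩ := exists_zeroDivisor htr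
  rw [← support_eq_of_forall_eq_max hZ]
  exact Z.support.finite_toSet

/-- The zeros of `h`, counted with multiplicity and degree, number `[F : K(h)]`. -/
theorem finsum_ord_mul_deg :
    ∑ᶠ v ∈ {v : Place K F | 0 < v.ord h}, v.ord h * (v.deg : ℤ) =
      (Module.finrank K⟮h⟯ F : ℤ) := by
  obtain ⟨Z, hZ, hdeg⟩ := exists_zeroDivisor htr
  rw [← degree_eq_finsum_of_forall_eq_max hZ, hdeg]

theorem finsum_ord (hdeg : ∀ v : Place K F, v.deg = 1) :
    ∑ᶠ v ∈ {v : Place K F | 0 < v.ord h}, v.ord h = (Module.finrank K⟮h⟯ F : ℤ) := by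
  rw [← finsum_ord_mul_deg htr]
  refine finsum_congr fun v => ?_
  refine finsum_congr fun _ => ?_
  rw [hdeg v]; simp

/-- The pole set of `h` is finite. -/
theorem finite_setOf_ord_inv_pos : {v : Place K F | 0 < v.ord h⁻¹}.Finite := by
  have := finiteDimensional_of_eq (adjoin_simple_inv (K := K) h).symm
  have := isSeparable_of_eq (adjoin_simple_inv (K := K) h).symm
  exact finite_setOf_ord_pos (transcendental_inv htr)

theorem finsum_ord_inv_mul_deg :
    ∑ᶠ v ∈ {v : Place K F | 0 < v.ord h⁻¹}, v.ord h⁻¹ * (v.deg : ℤ) =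
      (Module.finrank K⟮h⟯ F : ℤ) := by
  have := finiteDimensional_of_eq (adjoin_simple_inv (K := K) h).symm
  have := isSeparable_of_eq (adjoin_simple_inv (K := K) h).symm
  rw [finsum_ord_mul_deg (transcendental_inv htr), finrank_of_eq (adjoin_simple_inv (K := K) h)]

theorem finsum_ord_inv (hdeg : ∀ v : Place K F, v.deg = 1) :
    ∑ᶠ v ∈ {v : Place K F | 0 < v.ord h⁻¹}, v.ord h⁻¹ = (Module.finrank K⟮h⟯ F : ℤ) := by
  rw [← finsum_ord_inv_mul_deg htr]
  refine finsum_congr fun v => ?_
  refine finsum_congr fun _ => ?_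
  rw [hdeg v]; simp

/-- The fibre of `h` over `c` is finite. -/
theorem finite_setOf_ord_sub_pos (c : K) :
    {v : Place K F | 0 < v.ord (h - algebraMap K F c)}.Finite := by
  have := finiteDimensional_of_eq (adjoin_simple_sub_algebraMap (K := K) h c).symm
  have := isSeparable_of_eq (adjoin_simple_sub_algebraMap (K := K) h c).symm
  exact finite_setOf_ord_pos (transcendental_sub_algebraMap htr c)

theorem finsum_ord_sub_mul_deg (c : K) :
    ∑ᶠ v ∈ {v : Place K F | 0 < v.ord (h - algebraMap K F c)},
        v.ord (h - algebraMap K F c) * (v.deg : ℤ) = (Module.finrank K⟮h⟯ F : ℤ) := by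
  have := finiteDimensional_of_eq (adjoin_simple_sub_algebraMap (K := K) h c).symm
  have := isSeparable_of_eq (adjoin_simple_sub_algebraMap (K := K) h c).symm
  rw [finsum_ord_mul_deg (transcendental_sub_algebraMap htr c),
    finrank_of_eq (adjoin_simple_sub_algebraMap (K := K) h c)]

theorem finsum_ord_sub (hdeg : ∀ v : Place K F, v.deg = 1) (c : K) :
    ∑ᶠ v ∈ {v : Place K F | 0 < v.ord (h - algebraMap K F c)}, v.ord (h - algebraMap K F c) =
      (Module.finrank K⟮h⟯ F : ℤ) := by
  rw [← finsum_ord_sub_mul_deg htr c]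
  refine finsum_congr fun v => ?_
  refine finsum_congr fun _ => ?_
  rw [hdeg v]; simp

/-- Over an algebraically closed constant field every place has degree one. -/
theorem deg_eq_one [IsAlgClosed K] (v : Place K F) : v.deg = 1 := by
  have := finite_residueField htr v
  exact v.deg_eq_one_of_isAlgClosed_of_finite

end

end Fermat.Agent.S24
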