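/-
M2b / S24, task G5 (helper7): Riemann–Hurwitz in the prelude language.

* place-level facts: orders vs membership, every place lies over exactly one point of `P¹`
  (`cover`, `eq_of_ord_sub_pos`, `not_ord_sub_pos_of_ord_inv_pos`), residue field `= K`,
  `deg v = 1`, local orders of `D x` (`ordDifferential_D_of_zero`, `ordDifferential_D_of_pole`);
* bookkeeping: `degree_eq_of_fibres` (regrouping over fibres), `degree_canonicalDivisorOf_smul`;
* `hurwitz_degree_aux` (G2 inputs as hypotheses) and `hurwitz_degree` (final, interface shape).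
-/
import Mathlib
import Fermat.Prelude.Def_AlgebraicCurve_CanonicalDivisor
import Fermat.Agent.S24.PlaceDict
import Fermat.Agent.S24.KaehlerFF
import Fermat.Agent.S24.PlaceDeriv
import Fermat.Agent.S24.DerivBound
import Fermat.Agent.S24.ZeroSets

set_option autoImplicit false

namespace Fermat.Agent.S24.Hurwitz

open AlgebraicCurve KaehlerDifferential IsLocalRing WithZero IntermediateField

variable {K F : Type*} [Field K] [Field F] [Algebra K F]

/-! ### Orders and membership -/

section ord

variable (v : Place K F)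

lemma ord_nonneg_iff {f : F} (hf : f ≠ 0) : 0 ≤ v.ord f ↔ f ∈ v.toValuationSubring := by
  rw [DerivBound.mem_iff_adicValuation_le_one, DerivBound.adicValuation_eq_exp_neg_ord v hf,
    ← WithZero.exp_zero, WithZero.exp_le_exp]
  omega

lemma ord_pos_iff {f : F} (hf : f ≠ 0) : 0 < v.ord f ↔ v.adicValuation f < 1 := by
  rw [DerivBound.adicValuation_eq_exp_neg_ord v hf, ← WithZero.exp_zero, WithZero.exp_lt_exp]
  omega

lemma ord_pos_iff_mem {f : v.toValuationSubring} (hf : f ≠ 0) :
    0 < v.ord (f : F) ↔ f ∈ maximalIdeal v.toValuationSubring := by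
  have hf' : (f : F) ≠ 0 := by simpa using hf
  rw [ord_pos_iff v hf', v.adicValuation_coe,
    IsDedekindDomain.HeightOneSpectrum.intValuation_lt_one_iff_mem]
  rfl

lemma ord_algebraMap {a : K} (ha : a ≠ 0) : v.ord (algebraMap K F a) = 0 := by
  apply DerivBound.ord_eq_of_adicValuation_eq
  rw [DerivBound.adicValuation_algebraMap_eq_one v ha]
  simp

lemma mem_of_ord_pos {f : F} (hf : 0 < v.ord f) : f ∈ v.toValuationSubring := by
  have hf0 : f ≠ 0 := by
    rintro rfl
    simp at hf
  exact (ord_nonneg_iff v hf0).mp hf.le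

lemma not_mem_of_ord_inv_pos {f : F} (hf : 0 < v.ord f⁻¹) : f ∉ v.toValuationSubring := by
  intro hmem
  have hf0 : f ≠ 0 := by
    rintro rfl
    simp at hf
  have := (ord_nonneg_iff v hf0).mpr hmem
  rw [v.ord_inv] at hf
  omega

/-- Two different constants cannot both be the value of `x` at `v`. -/
lemma eq_of_ord_sub_pos {x : F} {c c' : K} (h : 0 < v.ord (x - algebraMap K F c))
    (h' : 0 < v.ord (x - algebraMap K F c')) : c = c' := by
  by_contra hne
  have h0 : x - algebraMap K F c ≠ 0 := by
    intro h0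
    simp [h0] at h
  have h0' : x - algebraMap K F c' ≠ 0 := by
    intro h0
    simp [h0] at h'
  have h1 := (ord_pos_iff v h0).mp h
  have h1' := (ord_pos_iff v h0').mp h'
  have hsub : algebraMap K F (c' - c) = (x - algebraMap K F c) - (x - algebraMap K F c') := by
    rw [map_sub]; ring
  have hlt : v.adicValuation (algebraMap K F (c' - c)) < 1 := by
    rw [hsub]
    exact lt_of_le_of_lt (Valuation.map_sub _ _ _) (max_lt h1 h1')
  rw [DerivBound.adicValuation_algebraMap_eq_one v (sub_ne_zero.mpr (Ne.symm hne))] at hlt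
  exact lt_irrefl _ hlt

/-- A pole of `x` is not a zero of any `x - c`. -/
lemma not_ord_sub_pos_of_ord_inv_pos {x : F} (c : K) (h : 0 < v.ord x⁻¹) :
    ¬ 0 < v.ord (x - algebraMap K F c) := by
  intro h'
  have hmem := mem_of_ord_pos v h'
  apply not_mem_of_ord_inv_pos v h
  have : x = (x - algebraMap K F c) + algebraMap K F c := by ring
  rw [this]
  exact add_mem hmem (v.algebraMap_mem' c)

end ord

/-! ### Trivial residue extension -/

section residue

variable [IsAlgClosed K] (v : Place K F) [hfr : v.FiniteResidue]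

lemma algebraMap_residue_bijective : Function.Bijective (algebraMap K v.ResidueField) := by
  have : Module.Finite K v.ResidueField := hfr.finite
  exact IsAlgClosed.algebraMap_bijective_of_isIntegral (k := K) (K := v.ResidueField)

lemma residueTrivial : PlaceDeriv.ResidueTrivial v := by
  intro u
  obtain ⟨c, hc⟩ := (algebraMap_residue_bijective v).2 (IsLocalRing.residue v.toValuationSubring u)
  refine ⟨c, ?_⟩
  rw [← IsLocalRing.residue_eq_zero_iff, map_sub, ← hc, sub_eq_zero]
  rfl

lemma deg_eq_one : v.deg = 1 := by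
  have e : K ≃ₗ[K] v.ResidueField :=
    LinearEquiv.ofBijective (Algebra.linearMap K v.ResidueField) (algebraMap_residue_bijective v)
  rw [Place.deg, ← e.finrank_eq, Module.finrank_self]

end residue

section fibres

variable {x : F}

lemma sub_algebraMap_ne_zero (hx : Transcendental K x) (c : K) : x - algebraMap K F c ≠ 0 := by
  intro h
  apply hx
  rw [sub_eq_zero.mp h]
  exact isAlgebraic_algebraMap c

lemma inv_ne_zero_of_transcendental (hx : Transcendental K x) : x⁻¹ ≠ 0 := by
  apply inv_ne_zero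
  rintro rfl
  exact hx isAlgebraic_zero

/-- Every place lies over a point of `P¹`: either it is a pole of `x`, or `x` takes a value
`c ∈ K` there. -/
lemma cover [IsAlgClosed K] (hx : Transcendental K x) (v : Place K F) [v.FiniteResidue] :
    0 < v.ord x⁻¹ ∨ ∃ c : K, 0 < v.ord (x - algebraMap K F c) := by
  rcases mem_or_inv_mem_maximalIdeal v x with hmem | ⟨hm, hmax⟩
  · right
    obtain ⟨c, hc⟩ := residueTrivial v ⟨x, hmem⟩
    refine ⟨c, ?_⟩
    have hne : (⟨x, hmem⟩ - algebraMap K v.toValuationSubring c : v.toValuationSubring) ≠ 0 := by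
      intro h0
      apply sub_algebraMap_ne_zero hx c
      have := congrArg Subtype.val h0
      simpa using this
    have := (ord_pos_iff_mem v hne).mpr hc
    simpa using this
  · left
    have hne : (⟨x⁻¹, hm⟩ : v.toValuationSubring) ≠ 0 := by
      intro h0
      apply inv_ne_zero_of_transcendental hx
      exact congrArg Subtype.val h0
    exact (ord_pos_iff_mem v hne).mpr hmax

variable [IsAlgClosed K] [CharZero K] (hx : Transcendental K x) [Algebra.IsAlgebraic K⟮x⟯ F]

include hx in
/-- Local order of `D x` at a zero of `x - c`: `e - 1`. -/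
theorem ordDifferential_D_of_zero (v : Place K F) [v.FiniteResidue] {c : K}
    (h : 0 < v.ord (x - algebraMap K F c)) :
    v.ordDifferential (D K F x) = v.ord (x - algebraMap K F c) - 1 := by
  have := KaehlerFF.dCoordGenerates x hx v
  obtain ⟨e, he⟩ := Int.eq_ofNat_of_zero_le h.le
  have he1 : 1 ≤ e := by omega
  have heK : (e : K) ≠ 0 := by
    have : e ≠ 0 := by omega
    exact_mod_cast this
  rw [he]
  exact PlaceDeriv.ordDifferential_D_of_ord_sub (residueTrivial v) he1 heK he
    (sub_algebraMap_ne_zero hx c) (v.exists_eq_smul_dCoord _)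

include hx in
/-- Local order of `D x` at a pole of `x`: `-e - 1`. -/
theorem ordDifferential_D_of_pole (v : Place K F) [v.FiniteResidue]
    (h : 0 < v.ord x⁻¹) :
    v.ordDifferential (D K F x) = - v.ord x⁻¹ - 1 := by
  have := KaehlerFF.dCoordGenerates x hx v
  obtain ⟨e, he⟩ := Int.eq_ofNat_of_zero_le h.le
  have he1 : 1 ≤ e := by omega
  have heK : (e : K) ≠ 0 := by
    have : e ≠ 0 := by omega
    exact_mod_cast this
  have hx' : v.ord x = -(e : ℤ) := by
    rw [v.ord_inv] at he
    omega
  rw [he]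
  exact PlaceDeriv.ordDifferential_D_of_pole (residueTrivial v) he1 heK hx'
    (v.exists_eq_smul_dCoord _)

end fibres

/-! ### Bookkeeping: regrouping a degree over the fibres of `x` -/

section bookkeeping

/-- The degree of a divisor supported in a finset `T`, all of whose places have degree one. -/
lemma degree_eq_sum_of_support_subset (D : Divisor K F) (T : Finset (Place K F))
    (hT : D.support ⊆ T) (hdeg : ∀ v : Place K F, v.deg = 1) :
    Divisor.degree D = ∑ v ∈ T, D v := by
  have h1 : Divisor.degree D = D.sum fun v n => n * (v.deg : ℤ) := by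
    simp [Divisor.degree, Finsupp.liftAddHom_apply]
  rw [h1, Finsupp.sum_of_support_subset D hT _ (fun v _ => by simp)]
  refine Finset.sum_congr rfl fun v _ => ?_
  rw [hdeg v]; simp

/-- If `∑_{v ∈ Z} e_v = card Z` with all `e_v ≥ 1`, then all `e_v = 1`. -/
lemma eq_one_of_sum_eq_card {ι : Type*} (Z : Finset ι) (e : ι → ℤ) (he : ∀ v ∈ Z, 1 ≤ e v)
    (hsum : ∑ v ∈ Z, e v = Z.card) : ∀ v ∈ Z, e v = 1 := by
  by_contra hcon
  push Not at hcon
  obtain ⟨w, hw, hw1⟩ := hcon
  have hlt : ∑ v ∈ Z, (1 : ℤ) < ∑ v ∈ Z, e v :=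
    Finset.sum_lt_sum he ⟨w, hw, lt_of_le_of_ne (he w hw) (Ne.symm hw1)⟩
  simp at hlt
  omega

open Classical in
/-- **Fibre regrouping.**  -/
theorem degree_eq_of_fibres (D : Divisor K F) (x : F) (n : ℕ) (S : Finset K)
    (hdeg : ∀ v : Place K F, v.deg = 1)
    (Z : K → Finset (Place K F))
    (hZ : ∀ c v, v ∈ Z c ↔ 0 < v.ord (x - algebraMap K F c))
    (ZI : Finset (Place K F)) (hZI : ∀ v, v ∈ ZI ↔ 0 < v.ord x⁻¹)
    (hsum : ∀ c : K, ∑ v ∈ Z c, v.ord (x - algebraMap K F c) = n)
    (hsumI : ∑ v ∈ ZI, v.ord x⁻¹ = n)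
    (hcover : ∀ v : Place K F, 0 < v.ord x⁻¹ ∨ ∃ c : K, 0 < v.ord (x - algebraMap K F c))
    (hD : ∀ (v : Place K F) (c : K), 0 < v.ord (x - algebraMap K F c) →
      D v = v.ord (x - algebraMap K F c) - 1)
    (hDI : ∀ v : Place K F, 0 < v.ord x⁻¹ → D v = - v.ord x⁻¹ - 1)
    (hS : ∀ c : K, c ∉ S → (Z c).card = n) :
    Divisor.degree D = -2 * (n : ℤ) + ∑ c ∈ S, ((n : ℤ) - (Z c).card) + ((n : ℤ) - ZI.card) := by
  -- support
  have hsupp : D.support ⊆ S.biUnion Z ∪ ZI := by
    intro v hv
    rw [Finsupp.mem_support_iff] at hv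
    rw [Finset.mem_union, Finset.mem_biUnion]
    rcases hcover v with h | ⟨c, hc⟩
    · exact Or.inr ((hZI v).mpr h)
    · left
      by_contra hcon
      have hcS : c ∉ S := fun hcS => hcon ⟨c, hcS, (hZ c v).mpr hc⟩
      have hone := eq_one_of_sum_eq_card (Z c) (fun w => w.ord (x - algebraMap K F c))
        (fun w hw => by have := (hZ c w).mp hw; omega)
        (by rw [hsum c, hS c hcS]) v ((hZ c v).mpr hc)
      apply hv
      rw [hD v c hc]
      omega
  rw [degree_eq_sum_of_support_subset D _ hsupp hdeg]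
  -- disjointness
  have hdisj1 : Disjoint (S.biUnion Z) ZI := by
    rw [Finset.disjoint_left]
    intro v hv hvI
    obtain ⟨c, -, hc⟩ := Finset.mem_biUnion.mp hv
    exact not_ord_sub_pos_of_ord_inv_pos v c ((hZI v).mp hvI) ((hZ c v).mp hc)
  have hdisj2 : (S : Set K).PairwiseDisjoint Z := by
    intro c _ c' _ hne
    rw [Function.onFun, Finset.disjoint_left]
    intro v hv hv'
    exact hne (eq_of_ord_sub_pos v ((hZ c v).mp hv) ((hZ c' v).mp hv'))
  rw [Finset.sum_union hdisj1, Finset.sum_biUnion hdisj2]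
  have h1 : ∀ c ∈ S, ∑ v ∈ Z c, D v = (n : ℤ) - (Z c).card := by
    intro c _
    rw [Finset.sum_congr rfl (fun v hv => hD v c ((hZ c v).mp hv)), Finset.sum_sub_distrib,
      hsum c]
    simp
  have h2 : ∑ v ∈ ZI, D v = -(n : ℤ) - ZI.card := by
    rw [Finset.sum_congr rfl (fun v hv => hDI v ((hZI v).mp hv)), Finset.sum_sub_distrib,
      Finset.sum_neg_distrib, hsumI]
    simp
  rw [Finset.sum_congr rfl h1, h2]
  ring

end bookkeeping

/-! ### Field theory and scaling of differentials -/

section fieldtheory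

lemma adjoin_sub_algebraMap (x : F) (c : K) : K⟮x - algebraMap K F c⟯ = K⟮x⟯ := by
  apply le_antisymm
  · rw [adjoin_simple_le_iff]
    exact sub_mem (mem_adjoin_simple_self K x) (IntermediateField.algebraMap_mem _ c)
  · rw [adjoin_simple_le_iff]
    have h1 : x - algebraMap K F c ∈ K⟮x - algebraMap K F c⟯ := mem_adjoin_simple_self K _
    have h2 := add_mem h1 (IntermediateField.algebraMap_mem K⟮x - algebraMap K F c⟯ c)
    rwa [sub_add_cancel] at h2

lemma adjoin_inv_eq (x : F) : K⟮x⁻¹⟯ = K⟮x⟯ := by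
  apply le_antisymm
  · rw [adjoin_simple_le_iff]
    exact inv_mem (mem_adjoin_simple_self K x)
  · rw [adjoin_simple_le_iff]
    have h1 : x⁻¹ ∈ K⟮x⁻¹⟯ := mem_adjoin_simple_self K _
    have h2 := inv_mem h1
    rwa [inv_inv] at h2

lemma transcendental_sub_algebraMap {x : F} (hx : Transcendental K x) (c : K) :
    Transcendental K (x - algebraMap K F c) := by
  intro h
  apply hx
  have : x = (x - algebraMap K F c) + algebraMap K F c := by ring
  rw [this]
  exact h.add (isAlgebraic_algebraMap c)

lemma transcendental_inv {x : F} (hx : Transcendental K x) : Transcendental K x⁻¹ := by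
  intro h
  exact hx (IsAlgebraic.inv_iff.mp h)

lemma finiteDimensional_of_eq {E₁ E₂ : IntermediateField K F} (h : E₁ = E₂)
    [FiniteDimensional E₂ F] : FiniteDimensional E₁ F := by
  subst h; infer_instance

lemma finrank_of_eq {E₁ E₂ : IntermediateField K F} (h : E₁ = E₂) :
    Module.finrank E₁ F = Module.finrank E₂ F := by
  subst h; rfl

end fieldtheory

section smul

theorem degree_canonicalDivisorOf_smul [HasCanonicalDivisor (K := K) (F := F)]
    [Nontrivial Ω[F⁄K]]
    (hgen : ∀ v : Place K F, v.DCoordGenerates) {f : F} (hf : f ≠ 0) {ω : Ω[F⁄K]} (hω : ω ≠ 0)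
    (hfω : f • ω ≠ 0) (E : Divisor K F) (hE : ∀ v, E v = v.ord f)
    (hE0 : Divisor.degree E = 0) :
    Divisor.degree (canonicalDivisorOf hfω) = Divisor.degree (canonicalDivisorOf hω) := by
  have key : canonicalDivisorOf hfω = E + canonicalDivisorOf hω := by
    ext v
    rw [Finsupp.add_apply, canonicalDivisorOf_apply, canonicalDivisorOf_apply, hE]
    have := hgen v
    apply Place.ordDifferential_smul v hf
    intro h0
    apply hω
    rw [← v.differentialCoeff_smul_dCoord ω, h0, zero_smul]
  rw [key, map_add, hE0, zero_add]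

end smul

/-! ### Riemann–Hurwitz -/

section main

/-- **Riemann–Hurwitz**, with the inputs of G2 (principal divisors have degree zero, fibre sums,
finite residue fields) as explicit hypotheses. -/
theorem hurwitz_degree_aux [IsAlgClosed K] [CharZero K] [HasCanonicalDivisor (K := K) (F := F)]
    (x : F) (hx : Transcendental K x) [FiniteDimensional K⟮x⟯ F]
    (hres : ∀ v : Place K F, v.FiniteResidue)
    (hprin : ∀ f : F, f ≠ 0 → ∃ E : Divisor K F, (∀ v, E v = v.ord f) ∧ Divisor.degree E = 0)
    (hG2 : ∀ h : F, Transcendental K h → K⟮h⟯ = K⟮x⟯ →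
      ∃ Z : Finset (Place K F), (∀ v, v ∈ Z ↔ 0 < v.ord h) ∧
        ∑ v ∈ Z, v.ord h * (v.deg : ℤ) = Module.finrank K⟮x⟯ F)
    (S : Finset K)
    (hS : ∀ c : K, c ∉ S →
      Nat.card {v : Place K F // 0 < v.ord (x - algebraMap K F c)} = Module.finrank K⟮x⟯ F)
    {ω : Ω[F⁄K]} (hω : ω ≠ 0) :
    Divisor.degree (canonicalDivisorOf hω) =
      -2 * (Module.finrank K⟮x⟯ F : ℤ)
      + ∑ c ∈ S, ((Module.finrank K⟮x⟯ F : ℤ)
          - Nat.card {v : Place K F // 0 < v.ord (x - algebraMap K F c)})
      + ((Module.finrank K⟮x⟯ F : ℤ) - Nat.card {v : Place K F // 0 < v.ord x⁻¹}) := by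
  have hnt : Nontrivial Ω[F⁄K] := KaehlerFF.nontrivial_kaehler x hx
  have hgen : ∀ v : Place K F, v.DCoordGenerates := fun v => KaehlerFF.dCoordGenerates x hx v
  have hDx : D K F x ≠ 0 := KaehlerFF.D_ne_zero x hx
  -- reduction to `ω = D x`
  set f := KaehlerFF.kaehlerEquiv x hx ω with hf_def
  have hωf : ω = f • D K F x := KaehlerFF.eq_smul_D x hx ω
  have hf : f ≠ 0 := by
    intro h0
    apply hω
    rw [hωf, h0, zero_smul]
  obtain ⟨E, hE, hE0⟩ := hprin f hf
  have key : ∀ (ω' : Ω[F⁄K]) (h' : ω' ≠ 0), ω' = f • D K F x →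
      Divisor.degree (canonicalDivisorOf h') = Divisor.degree (canonicalDivisorOf hDx) := by
    rintro _ h' rfl
    exact degree_canonicalDivisorOf_smul hgen hf hDx h' E hE hE0
  rw [key ω hω hωf]
  -- fibres
  have hdeg : ∀ v : Place K F, v.deg = 1 := fun v => by
    have := hres v
    exact deg_eq_one v
  choose Z hZ hZsum using fun c : K => hG2 (x - algebraMap K F c)
    (transcendental_sub_algebraMap hx c) (adjoin_sub_algebraMap x c)
  obtain ⟨ZI, hZI, hZIsum⟩ := hG2 x⁻¹ (transcendental_inv hx) (adjoin_inv_eq x)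
  have hcard : ∀ c : K,
      Nat.card {v : Place K F // 0 < v.ord (x - algebraMap K F c)} = (Z c).card :=
    fun c => Nat.subtype_card (Z c) (hZ c)
  have hcardI : Nat.card {v : Place K F // 0 < v.ord x⁻¹} = ZI.card :=
    Nat.subtype_card ZI hZI
  have := degree_eq_of_fibres (canonicalDivisorOf hDx) x (Module.finrank K⟮x⟯ F) S hdeg Z hZ ZI hZI
    (fun c => by
      have := hZsum c
      simpa [hdeg] using this)
    (by simpa [hdeg] using hZIsum)
    (fun v => by
      have := hres v
      exact cover hx v)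
    (fun v c h => by
      have := hres v
      rw [canonicalDivisorOf_apply]
      exact ordDifferential_D_of_zero hx v h)
    (fun v h => by
      have := hres v
      rw [canonicalDivisorOf_apply]
      exact ordDifferential_D_of_pole hx v h)
    (fun c hc => by rw [← hcard c, hS c hc])
  rw [this, hcardI]
  simp only [hcard]

end main

/-! ### Final form (G2 inputs discharged by `PrincipalDegree` / `ZeroSets`) -/

section final

/-- **Riemann–Hurwitz** (G5), in the exact shape of the S24 interface: for `K` algebraically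
closed of characteristic zero, `x : F` transcendental with `[F : K(x)] = n` finite, `S` a finite
set of values outside of which `x` is unramified, and ANY nonzero differential `ω`,
`deg (ω) = -2n + ∑_{c ∈ S} (n - #x⁻¹(c)) + (n - #x⁻¹(∞))`. -/
theorem hurwitz_degree [IsAlgClosed K] [CharZero K] [HasCanonicalDivisor (K := K) (F := F)]
    (x : F) (hx : Transcendental K x) [FiniteDimensional K⟮x⟯ F]
    (S : Finset K)
    (hS : ∀ c : K, c ∉ S →
      Nat.card {v : Place K F // 0 < v.ord (x - algebraMap K F c)} = Module.finrank K⟮x⟯ F)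
    {ω : Ω[F⁄K]} (hω : ω ≠ 0) :
    Divisor.degree (canonicalDivisorOf hω) =
      -2 * (Module.finrank K⟮x⟯ F : ℤ)
      + ∑ c ∈ S, ((Module.finrank K⟮x⟯ F : ℤ)
          - Nat.card {v : Place K F // 0 < v.ord (x - algebraMap K F c)})
      + ((Module.finrank K⟮x⟯ F : ℤ) - Nat.card {v : Place K F // 0 < v.ord x⁻¹}) := by
  refine hurwitz_degree_aux x hx (fun v => ⟨Fermat.Agent.S24.finite_residueField hx v⟩)
    (fun f hf => (Fermat.Agent.S24.hasPrincipalDivisors (K := K) x).exists_divisor f hf)
    (fun h htr hE => ?_) S hS hω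
  have hfd : FiniteDimensional K⟮h⟯ F := finiteDimensional_of_eq hE
  refine ⟨(Fermat.Agent.S24.finite_setOf_ord_pos htr).toFinset, fun v => ?_, ?_⟩
  · rw [Set.Finite.mem_toFinset]; rfl
  · rw [← finsum_mem_eq_finite_toFinset_sum, Fermat.Agent.S24.finsum_ord_mul_deg htr,
      finrank_of_eq hE]

end final

end Fermat.Agent.S24.Hurwitz
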