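/-
M2b / S24, task B2 (half): extension of places under a constant field extension.

`K ⊂ L` fields, `F/K`, `F'/L` fields, `φ : F →ₐ[K] F'` with `L` and `φ F` linearly disjoint over
`K` and `F' = L(φ F)`.  A place `v` of `F/K` with residue field `K` has exactly one extension to a
place of `F'/L`; places of `F'/L` restrict to places of `F/K`; hence the places over `x = 0`
correspond bijectively.
-/
import Mathlib
import Fermat.Prelude.Def_AlgebraicCurve_DivisorClassGroup
import Fermat.Agent.S24.PlaceDeriv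

set_option autoImplicit false
set_option linter.unusedSectionVars false

namespace Fermat.Agent.S24.PlaceExtend

open AlgebraicCurve TensorProduct IsLocalRing
open Fermat.Agent.S24.PlaceDeriv (ResidueTrivial)

variable {K L F F' : Type*} [Field K] [Field L] [Field F] [Field F']
  [Algebra K L] [Algebra K F] [Algebra L F'] [Algebra K F'] [IsScalarTower K L F']

/-! ### Linear disjointness -/

/-- Linear disjointness of `L` and `φ F` over `K` (family form): `K`-linearly independent
finite families of `F` stay `L`-linearly independent in `F'`. -/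
def LinDisj (L : Type*) [Field L] [Algebra K L] [Algebra L F'] [IsScalarTower K L F']
    (φ : F →ₐ[K] F') : Prop :=
  ∀ (n : ℕ) (b : Fin n → F), LinearIndependent K b →
    LinearIndependent L (fun i : Fin n => (φ (b i) : F'))

/-- The symmetric form of linear disjointness: a `K`-linearly independent family of `L` is
linearly independent over `φ F`. -/
lemma LinDisj.eq_zero {φ : F →ₐ[K] F'} (hd : LinDisj L φ) {ι : Type*} {l : ι → L}
    (hl : LinearIndependent K l) (a : ι →₀ F)
    (h : a.sum (fun i f => algebraMap L F' (l i) * φ f) = 0) : a = 0 := by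
  classical
  set W : Submodule K F := Submodule.span K (Set.range a) with hW
  have : FiniteDimensional K W := FiniteDimensional.span_of_finite K a.finite_range
  let b := Module.finBasis K W
  have hmem : ∀ i, a i ∈ W := fun i => Submodule.subset_span ⟨i, rfl⟩
  let c : ι → Fin (Module.finrank K W) → K := fun i j => b.repr ⟨a i, hmem i⟩ j
  have ha : ∀ i, a i = ∑ j, c i j • (b j : F) := by
    intro i
    have h1 := congrArg Subtype.val (b.sum_repr ⟨a i, hmem i⟩)
    simp only [Submodule.coe_sum, Submodule.coe_smul] at h1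
    exact h1.symm
  have hbF : LinearIndependent K (fun j => (b j : F)) :=
    b.linearIndependent.map' W.subtype (Submodule.ker_subtype W)
  have hφb := hd _ _ hbF
  have h2 : ∑ j, (∑ i ∈ a.support, c i j • l i) • φ (b j : F) = 0 := by
    rw [← h, Finsupp.sum]
    simp_rw [Finset.sum_smul]
    rw [Finset.sum_comm]
    refine Finset.sum_congr rfl fun i _ => ?_
    conv_rhs => rw [ha i, map_sum, Finset.mul_sum]
    refine Finset.sum_congr rfl fun j _ => ?_
    rw [map_smul, smul_assoc, Algebra.smul_def (l i), mul_smul_comm]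
  have h3 : ∀ j, ∑ i ∈ a.support, c i j • l i = 0 := Fintype.linearIndependent_iff.1 hφb _ h2
  ext i
  by_cases hi : i ∈ a.support
  · have h4 : ∀ j, c i j = 0 := fun j => linearIndependent_iff'.1 hl a.support (fun i => c i j) (h3 j) i hi
    rw [ha i]
    simp [h4]
  · simpa using hi

/-! ### The ring `O_v ⊗[K] L` and its map to `F'` -/

section Core

variable (L) (φ : F →ₐ[K] F') (v : Place K F)

/-- The canonical ring homomorphism `O_v ⊗[K] L → F'`. -/
noncomputable def Psi : (v.toValuationSubring ⊗[K] L) →ₐ[K] F' :=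
  Algebra.TensorProduct.productMap (φ.comp (IsScalarTower.toAlgHom K v.toValuationSubring F))
    (IsScalarTower.toAlgHom K L F')

lemma Psi_tmul (a : v.toValuationSubring) (l : L) :
    Psi L φ v (a ⊗ₜ l) = φ (a : F) * algebraMap L F' l := by
  simp only [Psi, Algebra.TensorProduct.productMap_apply_tmul, AlgHom.coe_comp,
    Function.comp_apply, IsScalarTower.coe_toAlgHom']
  rfl

lemma Psi_smul (a : v.toValuationSubring) (t : v.toValuationSubring ⊗[K] L) :
    Psi L φ v (a • t) = φ (a : F) * Psi L φ v t := by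
  rw [Algebra.smul_def, map_mul, Algebra.TensorProduct.algebraMap_apply, Psi_tmul, map_one,
    mul_one]
  rfl

/-- A `K`-basis of `L`. -/
noncomputable def eL : Module.Basis (Module.Basis.ofVectorSpaceIndex K L) K L :=
  Module.Basis.ofVectorSpace K L

/-- The induced `O_v`-basis of `O_v ⊗[K] L`. -/
noncomputable def bT : Module.Basis (Module.Basis.ofVectorSpaceIndex K L) v.toValuationSubring
    (v.toValuationSubring ⊗[K] L) :=
  Algebra.TensorProduct.basis v.toValuationSubring (eL (K := K) L)

lemma Psi_bT (k : Module.Basis.ofVectorSpaceIndex K L) :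
    Psi L φ v (bT L v k) = algebraMap L F' (eL (K := K) L k) := by
  rw [bT, Algebra.TensorProduct.basis_apply, Psi_tmul]
  simp

lemma Psi_eq_sum (t : v.toValuationSubring ⊗[K] L) :
    Psi L φ v t = ((bT L v).repr t).sum
      (fun k a => algebraMap L F' (eL (K := K) L k) * φ (a : F)) := by
  conv_lhs => rw [← (bT L v).linearCombination_repr t]
  rw [Finsupp.linearCombination_apply, map_finsuppSum]
  refine Finsupp.sum_congr fun k _ => ?_
  rw [Psi_smul, Psi_bT, mul_comm]

lemma Psi_injective (hd : LinDisj L φ) : Function.Injective (Psi L φ v) := by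
  rw [injective_iff_map_eq_zero]
  intro t ht
  rw [Psi_eq_sum] at ht
  have h1 := hd.eq_zero (eL (K := K) L).linearIndependent
    (((bT L v).repr t).mapRange (fun a : v.toValuationSubring => (a : F)) rfl) (by
      rw [Finsupp.sum_mapRange_index (by simp)]
      exact ht)
  have h2 : (bT L v).repr t = 0 := by
    ext k
    have := DFunLike.congr_fun h1 k
    simpa using this
  exact (bT L v).repr.map_eq_zero_iff.1 h2

variable {L v}

/-- Normal form: a nonzero element of `O_v ⊗ L` is `π ^ n` times an element one of whose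
coordinates is not divisible by `π`. -/
lemma exists_normal_form {π : v.toValuationSubring} (hπ : Irreducible π)
    {t : v.toValuationSubring ⊗[K] L} (ht : t ≠ 0) :
    ∃ (n : ℕ) (u : v.toValuationSubring ⊗[K] L), t = (π ^ n) • u ∧
      ∃ k, ¬ π ∣ (bT L v).repr u k := by
  classical
  set c := (bT L v).repr t with hc
  have hc0 : c ≠ 0 := fun h => ht ((bT L v).repr.map_eq_zero_iff.1 h)
  obtain ⟨k0, hk0⟩ : ∃ k, c k ≠ 0 := by
    by_contra h
    exact hc0 (Finsupp.ext fun k => by_contra fun hk => h ⟨k, hk⟩)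
  have hfin : ∃ n, ∃ k, ¬ π ^ (n + 1) ∣ c k := by
    obtain ⟨n, hn⟩ := FiniteMultiplicity.of_not_isUnit hπ.not_isUnit hk0
    exact ⟨n, k0, hn⟩
  set n := Nat.find hfin with hn
  obtain ⟨k1, hk1⟩ := Nat.find_spec hfin
  have hall : ∀ k, π ^ n ∣ c k := by
    intro k
    rcases Nat.eq_zero_or_pos n with h0 | hpos
    · rw [h0, pow_zero]; exact one_dvd _
    · have := Nat.find_min hfin (m := n - 1) (by omega)
      have h2 : π ^ (n - 1 + 1) ∣ c k := by
        by_contra hk
        exact this ⟨k, hk⟩
      rwa [Nat.sub_add_cancel hpos] at h2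
  choose q hq using hall
  have hq0 : ∀ k, c k = 0 → q k = 0 := by
    intro k hk
    have := hq k
    rw [hk] at this
    exact (mul_eq_zero.1 this.symm).resolve_left (pow_ne_zero _ hπ.ne_zero)
  let qf : Module.Basis.ofVectorSpaceIndex K L →₀ v.toValuationSubring :=
    Finsupp.onFinset c.support q (fun k hk => by
      rw [Finsupp.mem_support_iff]
      exact fun h => hk (hq0 k h))
  refine ⟨n, (bT L v).repr.symm qf, ?_, k1, ?_⟩
  · apply (bT L v).repr.injective
    rw [map_smul, LinearEquiv.apply_symm_apply]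
    ext k
    rw [Finsupp.smul_apply, Finsupp.onFinset_apply, smul_eq_mul, ← hq k]
  · rw [LinearEquiv.apply_symm_apply, Finsupp.onFinset_apply]
    intro hdiv
    apply hk1
    rw [hq k1, pow_succ]
    exact mul_dvd_mul_left _ hdiv

/-- A "primitive" element of `O_v ⊗ L` maps to `ℓ + φ π * (element of the image)` with
`ℓ ∈ Lˣ`. -/
lemma exists_decomp (hres : ResidueTrivial v) {π : v.toValuationSubring} (hπ : Irreducible π)
    (u : v.toValuationSubring ⊗[K] L) (hu : ∃ k, ¬ π ∣ (bT L v).repr u k) :
    ∃ (l : L) (u' : v.toValuationSubring ⊗[K] L), l ≠ 0 ∧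
      Psi L φ v u = algebraMap L F' l + φ (π : F) * Psi L φ v u' := by
  classical
  have hdec : ∀ a : v.toValuationSubring, ∃ (r : K) (y : v.toValuationSubring),
      a = algebraMap K v.toValuationSubring r + π * y := by
    intro a
    obtain ⟨r, hr⟩ := hres a
    rw [hπ.maximalIdeal_eq, Ideal.mem_span_singleton] at hr
    obtain ⟨y, hy⟩ := hr
    exact ⟨r, y, by rw [← hy]; ring⟩
  choose r y hry using hdec
  set c := (bT L v).repr u with hc
  refine ⟨∑ k ∈ c.support, r (c k) • eL (K := K) L k,
    ∑ k ∈ c.support, y (c k) • bT L v k, ?_, ?_⟩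
  · intro h0
    obtain ⟨k, hk⟩ := hu
    apply hk
    by_cases hks : k ∈ c.support
    · have := linearIndependent_iff'.1 (eL (K := K) L).linearIndependent c.support
        (fun k => r (c k)) h0 k hks
      rw [hry (c k), this, map_zero, zero_add]
      exact dvd_mul_right _ _
    · rw [Finsupp.notMem_support_iff.1 hks]
      exact dvd_zero _
  · rw [Psi_eq_sum, Finsupp.sum, map_sum, map_sum, Finset.mul_sum, ← Finset.sum_add_distrib]
    refine Finset.sum_congr rfl fun k _ => ?_
    rw [Psi_smul, Psi_bT]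
    conv_lhs => rw [← hc, hry (c k)]
    rw [Subring.coe_add, Subring.coe_mul, map_add, map_mul, Algebra.smul_def, map_mul,
      ← IsScalarTower.algebraMap_apply K L F']
    have : φ ((algebraMap K v.toValuationSubring (r (c k)) : v.toValuationSubring) : F)
        = algebraMap K F' (r (c k)) := by
      rw [Place.coe_algebraMap, AlgHom.commutes]
    rw [this]
    ring

/-! ### Valuation subrings of `F'` above `v` -/

/-- The conditions on a valuation subring `V'` of `F'` making it an extension of `v`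
centred at `φ π`. -/
structure IsAbove (φ : F →ₐ[K] F') (v : Place K F) (π : v.toValuationSubring)
    (V' : ValuationSubring F') : Prop where
  algebraMap_mem : ∀ l : L, algebraMap L F' l ∈ V'
  map_mem : ∀ a : v.toValuationSubring, φ (a : F) ∈ V'
  lt_one : V'.valuation (φ (π : F)) < 1

variable {φ}

lemma IsAbove.Psi_mem {π : v.toValuationSubring} {V' : ValuationSubring F'}
    (h : IsAbove (L := L) φ v π V') (t : v.toValuationSubring ⊗[K] L) : Psi L φ v t ∈ V' := by
  induction t using TensorProduct.induction_on with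
  | zero => rw [map_zero]; exact V'.zero_mem
  | tmul a l => rw [Psi_tmul]; exact V'.mul_mem _ _ (h.map_mem a) (h.algebraMap_mem l)
  | add x y hx hy => rw [map_add]; exact V'.add_mem _ _ hx hy

lemma IsAbove.valuation_algebraMap {π : v.toValuationSubring} {V' : ValuationSubring F'}
    (h : IsAbove (L := L) φ v π V') {l : L} (hl : l ≠ 0) :
    V'.valuation (algebraMap L F' l) = 1 := by
  apply le_antisymm ((V'.valuation_le_one_iff _).2 (h.algebraMap_mem l))
  have h1 : V'.valuation (algebraMap L F' l⁻¹) ≤ 1 :=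
    (V'.valuation_le_one_iff _).2 (h.algebraMap_mem l⁻¹)
  rw [map_inv₀, map_inv₀] at h1
  have hne : V'.valuation (algebraMap L F' l) ≠ 0 := by
    rw [ne_eq, map_eq_zero, map_eq_zero_iff _ (algebraMap L F').injective]
    exact hl
  exact (inv_le_one₀ (zero_lt_iff.2 hne)).1 h1

lemma IsAbove.valuation_Psi_primitive (hres : ResidueTrivial v) {π : v.toValuationSubring}
    (hπ : Irreducible π) {V' : ValuationSubring F'} (h : IsAbove (L := L) φ v π V')
    (u : v.toValuationSubring ⊗[K] L) (hu : ∃ k, ¬ π ∣ (bT L v).repr u k) :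
    V'.valuation (Psi L φ v u) = 1 := by
  obtain ⟨l, u', hl, hdec⟩ := exists_decomp (L := L) φ hres hπ u hu
  rw [hdec]
  have h1 := h.valuation_algebraMap hl
  have h2 : V'.valuation (φ (π : F) * Psi L φ v u') < 1 := by
    rw [map_mul]
    calc V'.valuation (φ (π : F)) * V'.valuation (Psi L φ v u')
        ≤ V'.valuation (φ (π : F)) * 1 :=
          mul_le_mul_right ((V'.valuation_le_one_iff _).2 (h.Psi_mem u')) _
      _ < 1 := by rw [mul_one]; exact h.lt_one
  rw [Valuation.map_add_eq_of_lt_left _ (by rw [h1]; exact h2), h1]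

/-- The valuation of `Psi t` is a power of the valuation of `φ π`, with an exponent that does
not depend on the valuation subring. -/
lemma exists_pow_Psi (hres : ResidueTrivial v) {π : v.toValuationSubring}
    (hπ : Irreducible π) {t : v.toValuationSubring ⊗[K] L} (ht : t ≠ 0) :
    ∃ n : ℕ, ∀ V' : ValuationSubring F', IsAbove (L := L) φ v π V' →
      V'.valuation (Psi L φ v t) = V'.valuation (φ (π : F)) ^ n := by
  obtain ⟨n, u, rfl, hu⟩ := exists_normal_form hπ ht
  refine ⟨n, fun V' h => ?_⟩
  rw [Psi_smul, map_mul, h.valuation_Psi_primitive hres hπ u hu, mul_one, Subring.coe_pow,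
    map_pow, map_pow]

/-! ### Every element of `F'` is a quotient of elements of the image of `O_v ⊗ L` -/

lemma exists_mul_eq_Psi_of_mem_closure {y : F'}
    (hy : y ∈ Subring.closure (Set.range (algebraMap L F') ∪ Set.range φ)) :
    ∃ (t : v.toValuationSubring ⊗[K] L) (d : v.toValuationSubring), d ≠ 0 ∧
      y * φ (d : F) = Psi L φ v t := by
  induction hy using Subring.closure_induction with
  | mem y hy =>
    rcases hy with ⟨l, rfl⟩ | ⟨f, rfl⟩
    · exact ⟨1 ⊗ₜ l, 1, one_ne_zero, by rw [Psi_tmul]; simp⟩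
    · rcases v.toValuationSubring.mem_or_inv_mem f with hf | hf
      · exact ⟨⟨f, hf⟩ ⊗ₜ 1, 1, one_ne_zero, by rw [Psi_tmul]; simp⟩
      · by_cases hf0 : f = 0
        · exact ⟨0, 1, one_ne_zero, by simp [hf0]⟩
        · refine ⟨1, ⟨f⁻¹, hf⟩, fun h => hf0 (inv_eq_zero.1 (congrArg Subtype.val h)), ?_⟩
          rw [← map_mul, mul_inv_cancel₀ hf0, map_one, map_one]
  | zero => exact ⟨0, 1, one_ne_zero, by simp⟩
  | one => exact ⟨1, 1, one_ne_zero, by simp⟩
  | add x y _ _ hx hy =>
    obtain ⟨t, d, hd, h⟩ := hx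
    obtain ⟨t', d', hd', h'⟩ := hy
    refine ⟨d' • t + d • t', d * d', mul_ne_zero hd hd', ?_⟩
    rw [map_add, Psi_smul, Psi_smul, ← h, ← h', Subring.coe_mul, map_mul]
    ring
  | neg x _ hx =>
    obtain ⟨t, d, hd, h⟩ := hx
    exact ⟨-t, d, hd, by rw [map_neg, ← h]; ring⟩
  | mul x y _ _ hx hy =>
    obtain ⟨t, d, hd, h⟩ := hx
    obtain ⟨t', d', hd', h'⟩ := hy
    refine ⟨t * t', d * d', mul_ne_zero hd hd', ?_⟩
    rw [map_mul, ← h, ← h', Subring.coe_mul, map_mul]
    ring

lemma exists_quot (hgen : IntermediateField.adjoin L (Set.range φ) = ⊤) (x : F') :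
    ∃ t s : v.toValuationSubring ⊗[K] L, Psi L φ v s ≠ 0 ∧ x * Psi L φ v s = Psi L φ v t := by
  have hx : x ∈ (IntermediateField.adjoin L (Set.range φ)).toSubfield := by
    rw [hgen]; trivial
  rw [IntermediateField.adjoin_toSubfield, Subfield.mem_closure_iff] at hx
  obtain ⟨y, hy, z, hz, rfl⟩ := hx
  by_cases hz0 : z = 0
  · exact ⟨0, 1, by simp, by simp [hz0]⟩
  obtain ⟨t, d, hd, h⟩ := exists_mul_eq_Psi_of_mem_closure (v := v) hy
  obtain ⟨t', d', hd', h'⟩ := exists_mul_eq_Psi_of_mem_closure (v := v) hz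
  have hφd : φ (d : F) ≠ 0 := by
    rw [ne_eq, map_eq_zero]
    exact fun h => hd (Subtype.ext h)
  have hφd' : φ (d' : F) ≠ 0 := by
    rw [ne_eq, map_eq_zero]
    exact fun h => hd' (Subtype.ext h)
  refine ⟨d' • t, d • t', ?_, ?_⟩
  · rw [Psi_smul, ← h']
    exact mul_ne_zero hφd (mul_ne_zero hz0 hφd')
  · rw [Psi_smul, Psi_smul, ← h, ← h']
    field_simp

/-- The valuation of every nonzero element of `F'` is a power of the valuation of `φ π`, with
an exponent that does not depend on the valuation subring above `v`. -/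
lemma exists_zpow (hgen : IntermediateField.adjoin L (Set.range φ) = ⊤)
    (hres : ResidueTrivial v) {π : v.toValuationSubring} (hπ : Irreducible π)
    {x : F'} (hx : x ≠ 0) :
    ∃ m : ℤ, ∀ V' : ValuationSubring F', IsAbove (L := L) φ v π V' →
      V'.valuation x = V'.valuation (φ (π : F)) ^ m := by
  obtain ⟨t, s, hs, hts⟩ := exists_quot (v := v) hgen x
  have hs0 : s ≠ 0 := fun h => hs (by rw [h, map_zero])
  have ht0 : t ≠ 0 := fun h => by
    rw [h, map_zero] at hts
    exact (mul_ne_zero hx hs) hts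
  obtain ⟨n, hn⟩ := exists_pow_Psi (φ := φ) hres hπ ht0
  obtain ⟨n', hn'⟩ := exists_pow_Psi (φ := φ) hres hπ hs0
  refine ⟨(n : ℤ) - n', fun V' h => ?_⟩
  have hγ : V'.valuation (φ (π : F)) ≠ 0 := by
    rw [ne_eq, map_eq_zero, map_eq_zero]
    exact fun h => hπ.ne_zero (Subtype.ext h)
  have h1 := congrArg V'.valuation hts
  rw [map_mul, hn V' h, hn' V' h] at h1
  rw [zpow_sub₀ hγ, zpow_natCast, zpow_natCast, eq_div_iff (pow_ne_zero _ hγ)]
  exact h1

lemma IsAbove.valuation_pos {π : v.toValuationSubring} (hπ : Irreducible π)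
    {V' : ValuationSubring F'} (_h : IsAbove (L := L) φ v π V') :
    0 < V'.valuation (φ (π : F)) := by
  rw [zero_lt_iff, ne_eq, map_eq_zero, map_eq_zero]
  exact fun h => hπ.ne_zero (Subtype.ext h)

/-- **Uniqueness**: there is at most one valuation subring of `F'` above `v`. -/
theorem IsAbove.unique (hgen : IntermediateField.adjoin L (Set.range φ) = ⊤)
    (hres : ResidueTrivial v) {π : v.toValuationSubring} (hπ : Irreducible π)
    {V₁ V₂ : ValuationSubring F'} (h₁ : IsAbove (L := L) φ v π V₁)
    (h₂ : IsAbove (L := L) φ v π V₂) : V₁ = V₂ := by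
  ext x
  by_cases hx : x = 0
  · simp [hx, V₁.zero_mem, V₂.zero_mem]
  obtain ⟨m, hm⟩ := exists_zpow (L := L) (φ := φ) hgen hres hπ hx
  rw [← V₁.valuation_le_one_iff, ← V₂.valuation_le_one_iff, hm V₁ h₁, hm V₂ h₂,
    zpow_le_one_iff_right_of_lt_one₀ (h₁.valuation_pos hπ) h₁.lt_one,
    zpow_le_one_iff_right_of_lt_one₀ (h₂.valuation_pos hπ) h₂.lt_one]

/-- A valuation subring above `v` is a discrete valuation ring with uniformizer `φ π`. -/
theorem IsAbove.hasUnitMulPowIrreducibleFactorization
    (hgen : IntermediateField.adjoin L (Set.range φ) = ⊤)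
    (hres : ResidueTrivial v) {π : v.toValuationSubring} (hπ : Irreducible π)
    {V' : ValuationSubring F'} (h : IsAbove (L := L) φ v π V') :
    IsDiscreteValuationRing.HasUnitMulPowIrreducibleFactorization V' := by
  have hγ0 := h.valuation_pos hπ
  have hγ1 := h.lt_one
  set γ := V'.valuation (φ (π : F)) with hγ
  have hpmem : φ (π : F) ∈ V' := h.map_mem π
  -- every nonzero element of `V'` is a unit times a power of `p`
  have key : ∀ x : V', x ≠ 0 → ∃ n : ℕ, V'.valuation (x : F') = γ ^ n := by
    intro x hx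
    have hx' : (x : F') ≠ 0 := fun h0 => hx (Subtype.ext h0)
    obtain ⟨m, hm⟩ := exists_zpow (L := L) (φ := φ) hgen hres hπ hx'
    have h1 : V'.valuation (x : F') ≤ 1 := (V'.valuation_le_one_iff _).2 x.2
    rw [hm V' h, zpow_le_one_iff_right_of_lt_one₀ hγ0 hγ1] at h1
    refine ⟨m.toNat, ?_⟩
    rw [hm V' h, ← zpow_natCast, Int.toNat_of_nonneg h1]
  have hunit : ∀ x : V', V'.valuation (x : F') = 1 → IsUnit x :=
    fun x hx => (V'.valuation_eq_one_iff x).2 hx
  have hp0 : φ (π : F) ≠ 0 := by
    rw [ne_eq, map_eq_zero]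
    exact fun h => hπ.ne_zero (Subtype.ext h)
  have hp0' : (⟨φ (π : F), hpmem⟩ : V') ≠ 0 := fun h => hp0 (congrArg Subtype.val h)
  refine ⟨⟨φ (π : F), hpmem⟩, ?_, ?_⟩
  · rw [irreducible_iff]
    constructor
    · intro hu
      have := (V'.valuation_eq_one_iff _).1 hu
      exact absurd this hγ1.ne
    · intro a b hab
      have ha0 : a ≠ 0 := by
        rintro rfl
        exact hp0' (by rw [hab, zero_mul])
      have hb0 : b ≠ 0 := by
        rintro rfl
        exact hp0' (by rw [hab, mul_zero])
      obtain ⟨i, hi⟩ := key a ha0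
      obtain ⟨j, hj⟩ := key b hb0
      have h1 : γ ^ (1 : ℤ) = γ ^ ((i + j : ℕ) : ℤ) := by
        have := congrArg (fun x : V' => V'.valuation (x : F')) hab
        simp only [MulMemClass.coe_mul, map_mul] at this
        rw [zpow_one, zpow_natCast, pow_add, ← hi, ← hj]
        exact this
      have h2 : (1 : ℤ) = ((i + j : ℕ) : ℤ) := zpow_right_injective₀ hγ0 hγ1.ne h1
      have h3 : i + j = 1 := by exact_mod_cast h2.symm
      rcases Nat.eq_zero_or_pos i with hi0 | hi0
      · left
        apply hunit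
        rw [hi, hi0, pow_zero]
      · right
        apply hunit
        have : j = 0 := by omega
        rw [hj, this, pow_zero]
  · intro x hx
    obtain ⟨n, hn⟩ := key x hx
    have hy : V'.valuation ((x : F') / φ (π : F) ^ n) = 1 := by
      rw [map_div₀, map_pow, hn]
      exact div_self (pow_ne_zero _ hγ0.ne')
    have hymem : (x : F') / φ (π : F) ^ n ∈ V' := (V'.valuation_le_one_iff _).1 hy.le
    have hyu : IsUnit (⟨(x : F') / φ (π : F) ^ n, hymem⟩ : V') := hunit _ hy
    refine ⟨n, hyu.unit, ?_⟩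
    apply Subtype.ext
    simp only [IsUnit.unit_spec, MulMemClass.coe_mul, SubmonoidClass.coe_pow]
    field_simp

/-! ### Existence -/

lemma not_dvd_repr_one {π : v.toValuationSubring} (hπ : Irreducible π) :
    ∃ k, ¬ π ∣ (bT L v).repr (1 : v.toValuationSubring ⊗[K] L) k := by
  have h1 : (bT L v).repr (1 : v.toValuationSubring ⊗[K] L)
      = Finsupp.mapRange (algebraMap K v.toValuationSubring) (map_zero _)
          ((eL (K := K) L).repr 1) := by
    rw [Algebra.TensorProduct.one_def, bT, Algebra.TensorProduct.basis_repr_tmul, one_smul]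
  have h2 : (eL (K := K) L).repr 1 ≠ 0 := by
    rw [ne_eq, LinearEquiv.map_eq_zero_iff]
    exact one_ne_zero
  obtain ⟨k, hk⟩ : ∃ k, (eL (K := K) L).repr 1 k ≠ 0 := by
    by_contra h
    exact h2 (Finsupp.ext fun k => by_contra fun hk => h ⟨k, hk⟩)
  refine ⟨k, fun hdiv => ?_⟩
  rw [h1, Finsupp.mapRange_apply] at hdiv
  have hu : IsUnit (algebraMap K v.toValuationSubring ((eL (K := K) L).repr 1 k)) :=
    (isUnit_iff_ne_zero.2 hk).map _
  exact hπ.not_isUnit (isUnit_of_dvd_unit hdiv hu)

/-- **Existence**: under linear disjointness there is a valuation subring of `F'` above `v`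
(Chevalley's extension theorem). -/
theorem exists_isAbove (hd : LinDisj L φ) {π : v.toValuationSubring} (hπ : Irreducible π) :
    ∃ V' : ValuationSubring F', IsAbove (L := L) φ v π V' := by
  let A : Subring F' := (Psi L φ v).range.toSubring
  have hmemA : ∀ t, Psi L φ v t ∈ A := fun t => ⟨t, rfl⟩
  have hpA : φ (π : F) ∈ A := by
    have := hmemA (π ⊗ₜ 1)
    rwa [Psi_tmul, map_one, mul_one] at this
  let I : Ideal A := Ideal.span {⟨φ (π : F), hpA⟩}
  have hI : I ≠ ⊤ := by
    intro hI
    rw [Ideal.eq_top_iff_one, Ideal.mem_span_singleton'] at hI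
    obtain ⟨⟨r, t, rfl⟩, hr⟩ := hI
    have h1 : Psi L φ v (π • t) = Psi L φ v 1 := by
      rw [Psi_smul, map_one, mul_comm]
      exact congrArg Subtype.val hr
    have h2 := Psi_injective L φ v hd h1
    obtain ⟨k, hk⟩ := not_dvd_repr_one (L := L) hπ
    apply hk
    rw [← h2, map_smul, Finsupp.smul_apply, smul_eq_mul]
    exact dvd_mul_right _ _
  obtain ⟨B, hAB, hIB⟩ := Ideal.image_subset_nonunits_valuationSubring I hI
  refine ⟨B, ⟨fun l => ?_, fun a => ?_, ?_⟩⟩
  · have := hAB (hmemA (1 ⊗ₜ l))
    rwa [Psi_tmul, OneMemClass.coe_one, map_one, one_mul] at this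
  · have := hAB (hmemA (a ⊗ₜ 1))
    rwa [Psi_tmul, map_one, mul_one] at this
  · rw [← ValuationSubring.mem_nonunits_iff]
    exact hIB ⟨⟨φ (π : F), hpA⟩, Ideal.subset_span rfl, rfl⟩

end Core

/-! ### Places -/

section Places

variable (L) (φ : F →ₐ[K] F')

/-- `v'` extends `v` along `φ`: the valuation ring of `v'` contracts to that of `v`. -/
def Extends (v : Place K F) (v' : Place L F') : Prop :=
  ∀ f : F, φ f ∈ v'.toValuationSubring ↔ f ∈ v.toValuationSubring

variable {L φ}

lemma inv_not_mem_of_irreducible {v : Place K F} {π : v.toValuationSubring}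
    (hπ : Irreducible π) : (π : F)⁻¹ ∉ v.toValuationSubring := by
  intro h
  apply hπ.not_isUnit
  refine isUnit_iff_exists_inv.2 ⟨⟨(π : F)⁻¹, h⟩, Subtype.ext ?_⟩
  have h0 : (π : F) ≠ 0 := fun h0 => hπ.ne_zero (Subtype.ext h0)
  simp [mul_inv_cancel₀ h0]

lemma IsAbove.map_mem_iff {v : Place K F} {π : v.toValuationSubring} (hπ : Irreducible π)
    {V' : ValuationSubring F'} (h : IsAbove (L := L) φ v π V') (f : F) :
    φ f ∈ V' ↔ f ∈ v.toValuationSubring := by
  refine ⟨fun hf => ?_, fun hf => h.map_mem ⟨f, hf⟩⟩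
  by_contra hfO
  have hinv : f⁻¹ ∈ v.toValuationSubring :=
    (v.toValuationSubring.mem_or_inv_mem f).resolve_left hfO
  have hf0 : f ≠ 0 := fun h0 => hfO (h0 ▸ v.toValuationSubring.zero_mem)
  have hnu : ¬ IsUnit (⟨f⁻¹, hinv⟩ : v.toValuationSubring) := by
    intro hu
    obtain ⟨b, hb⟩ := isUnit_iff_exists_inv.1 hu
    have hb' : f⁻¹ * (b : F) = 1 := congrArg Subtype.val hb
    have : (b : F) = f := by
      field_simp at hb'
      exact hb'
    exact hfO (this ▸ b.2)
  have hmem : (⟨f⁻¹, hinv⟩ : v.toValuationSubring) ∈ maximalIdeal v.toValuationSubring :=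
    (mem_maximalIdeal _).2 hnu
  rw [hπ.maximalIdeal_eq, Ideal.mem_span_singleton] at hmem
  obtain ⟨a, ha⟩ := hmem
  have ha' : f⁻¹ = (π : F) * (a : F) := congrArg Subtype.val ha
  have h1 : V'.valuation (φ f⁻¹) < 1 := by
    rw [ha', map_mul, map_mul]
    calc V'.valuation (φ (π : F)) * V'.valuation (φ (a : F))
        ≤ V'.valuation (φ (π : F)) * 1 :=
          mul_le_mul_right ((V'.valuation_le_one_iff _).2 (h.map_mem a)) _
      _ < 1 := by rw [mul_one]; exact h.lt_one
  have h2 : V'.valuation (φ f) ≤ 1 := (V'.valuation_le_one_iff _).2 hf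
  have h3 : V'.valuation (φ f) * V'.valuation (φ f⁻¹) = 1 := by
    rw [← map_mul, ← map_mul, mul_inv_cancel₀ hf0, map_one, map_one]
  have h4 : V'.valuation (φ f) * V'.valuation (φ f⁻¹) < 1 :=
    calc V'.valuation (φ f) * V'.valuation (φ f⁻¹)
        ≤ 1 * V'.valuation (φ f⁻¹) := mul_le_mul_left h2 _
      _ < 1 := by rw [one_mul]; exact h1
  exact absurd h3 h4.ne

lemma Extends.isAbove {v : Place K F} {v' : Place L F'} (h : Extends L φ v v')
    {π : v.toValuationSubring} (hπ : Irreducible π) :
    IsAbove (L := L) φ v π v'.toValuationSubring where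
  algebraMap_mem := v'.algebraMap_mem'
  map_mem a := (h a).2 a.2
  lt_one := by
    have h0 : (π : F) ≠ 0 := fun h0 => hπ.ne_zero (Subtype.ext h0)
    have h1 : φ (π : F)⁻¹ ∉ v'.toValuationSubring := fun hm =>
      inv_not_mem_of_irreducible hπ ((h _).1 hm)
    rw [← ValuationSubring.valuation_le_one_iff, not_le, map_inv₀, map_inv₀] at h1
    exact (one_lt_inv₀ (zero_lt_iff.2 (by
      rw [ne_eq, map_eq_zero, map_eq_zero]; exact h0))).1 h1

/-- **Unique extension of a rational place under a constant field extension.** -/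
theorem existsUnique_extends (hd : LinDisj L φ)
    (hgen : IntermediateField.adjoin L (Set.range φ) = ⊤) {v : Place K F}
    (hres : ResidueTrivial v) : ∃! v' : Place L F', Extends L φ v v' := by
  obtain ⟨π, hπ⟩ := IsDiscreteValuationRing.exists_irreducible v.toValuationSubring
  obtain ⟨V', hV'⟩ := exists_isAbove (L := L) (φ := φ) hd hπ
  have hdvr : IsDiscreteValuationRing V' :=
    IsDiscreteValuationRing.ofHasUnitMulPowIrreducibleFactorization
      (hV'.hasUnitMulPowIrreducibleFactorization hgen hres hπ)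
  refine ⟨⟨V', hV'.algebraMap_mem, ?_, inferInstance⟩, fun f => hV'.map_mem_iff hπ f, ?_⟩
  · intro htop
    have h1 : (φ (π : F))⁻¹ ∈ V' := by rw [htop]; trivial
    rw [← ValuationSubring.valuation_le_one_iff, map_inv₀] at h1
    have h2 := hV'.lt_one
    have h3 := hV'.valuation_pos hπ
    exact absurd ((inv_le_one₀ h3).1 h1) (not_le.2 h2)
  · intro v'' h''
    apply Place.ext
    exact IsAbove.unique hgen hres hπ (h''.isAbove hπ) hV'

/-! ### Membership in terms of `ord` -/

lemma mem_iff_ord_nonneg (v : Place K F) {x : F} (hx : x ≠ 0) :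
    x ∈ v.toValuationSubring ↔ 0 ≤ v.ord x := by
  obtain ⟨π, hπ⟩ := IsDiscreteValuationRing.exists_irreducible v.toValuationSubring
  obtain ⟨u, hu⟩ := v.exists_unit_mul_zpow hx hπ
  have hπ0 : (π : F) ≠ 0 := fun h0 => hπ.ne_zero (Subtype.ext h0)
  constructor
  · intro hmem
    by_contra hneg
    rw [not_le] at hneg
    obtain ⟨k, hk⟩ : ∃ k : ℕ, v.ord x = -((k : ℤ) + 1) :=
      ⟨(-v.ord x - 1).toNat, by rw [Int.toNat_of_nonneg (by omega)]; ring⟩
    apply hπ.not_isUnit
    have h1 : (π : F) ^ (k + 1) * x = ((u : v.toValuationSubring) : F) := by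
      rw [hu, hk, zpow_neg, ← zpow_natCast]
      push_cast
      field_simp
    have h2 : π ^ (k + 1) * ⟨x, hmem⟩ = (u : v.toValuationSubring) := Subtype.ext (by
      simpa using h1)
    have h3 : π ∣ (u : v.toValuationSubring) := ⟨π ^ k * ⟨x, hmem⟩, by rw [← h2]; ring⟩
    exact isUnit_of_dvd_unit h3 u.isUnit
  · intro hnn
    rw [hu]
    obtain ⟨k, hk⟩ : ∃ k : ℕ, v.ord x = (k : ℤ) := ⟨(v.ord x).toNat, (Int.toNat_of_nonneg hnn).symm⟩
    rw [hk, zpow_natCast]
    exact v.toValuationSubring.mul_mem _ _ (u : v.toValuationSubring).2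
      (v.toValuationSubring.pow_mem π.2 k)

/-! ### Discreteness from an integer-valued order function -/

lemma hasUnitMulPow_of_ord (O : ValuationSubring F) (w : F → ℤ)
    (hmul : ∀ f g, f ≠ 0 → g ≠ 0 → w (f * g) = w f + w g)
    (hmem : ∀ f, f ≠ 0 → (f ∈ O ↔ 0 ≤ w f)) (hex : ∃ x, x ≠ 0 ∧ 0 < w x) :
    IsDiscreteValuationRing.HasUnitMulPowIrreducibleFactorization O := by
  classical
  have w1 : w 1 = 0 := by
    have := hmul 1 1 one_ne_zero one_ne_zero
    rw [mul_one] at this
    omega
  have winv : ∀ f, f ≠ 0 → w f⁻¹ = -w f := by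
    intro f hf
    have := hmul f f⁻¹ hf (inv_ne_zero hf)
    rw [mul_inv_cancel₀ hf, w1] at this
    omega
  have wpow : ∀ f, f ≠ 0 → ∀ n : ℕ, w (f ^ n) = n * w f := by
    intro f hf n
    induction n with
    | zero => simp [w1]
    | succ n ih =>
      rw [pow_succ, hmul _ _ (pow_ne_zero n hf) hf, ih]
      push_cast
      ring
  have hP : ∃ n : ℕ, 0 < n ∧ ∃ f, f ≠ 0 ∧ w f = n := by
    obtain ⟨x, hx0, hx⟩ := hex
    exact ⟨(w x).toNat, by omega, x, hx0, by rw [Int.toNat_of_nonneg hx.le]⟩
  set d := Nat.find hP with hd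
  obtain ⟨hd0, p, hp0, hpd⟩ := Nat.find_spec hP
  have hpO : p ∈ O := (hmem p hp0).2 (by rw [hpd]; positivity)
  have hunit : ∀ a : O, a ≠ 0 → w (a : F) = 0 → IsUnit a := by
    intro a ha hwa
    have ha0 : (a : F) ≠ 0 := fun h => ha (Subtype.ext h)
    have hinv : (a : F)⁻¹ ∈ O := (hmem _ (inv_ne_zero ha0)).2 (by rw [winv _ ha0, hwa, neg_zero])
    exact isUnit_iff_exists_inv.2 ⟨⟨(a : F)⁻¹, hinv⟩, Subtype.ext (by simp [mul_inv_cancel₀ ha0])⟩
  -- every nonzero element of `O` is `p ^ q` times a unit
  have key : ∀ a : O, a ≠ 0 → ∃ (q : ℕ) (g : O), IsUnit g ∧ a = ⟨p, hpO⟩ ^ q * g ∧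
      w (a : F) = q * d := by
    intro a ha
    have ha0 : (a : F) ≠ 0 := fun h => ha (Subtype.ext h)
    have hwa : 0 ≤ w (a : F) := (hmem _ ha0).1 a.2
    obtain ⟨n, hn⟩ : ∃ n : ℕ, w (a : F) = n := ⟨(w (a : F)).toNat, (Int.toNat_of_nonneg hwa).symm⟩
    set q := n / d
    set r := n % d
    have hnd : n = d * q + r := (Nat.div_add_mod n d).symm
    have hg0 : (a : F) / p ^ q ≠ 0 := div_ne_zero ha0 (pow_ne_zero _ hp0)
    have hwg : w ((a : F) / p ^ q) = r := by
      rw [div_eq_mul_inv, hmul _ _ ha0 (inv_ne_zero (pow_ne_zero _ hp0)),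
        winv _ (pow_ne_zero _ hp0), wpow _ hp0, hpd, hn]
      have : (n : ℤ) = d * q + r := by exact_mod_cast hnd
      rw [this]
      ring
    have hr0 : r = 0 := by
      by_contra hr
      have hrpos : 0 < r := Nat.pos_of_ne_zero hr
      have hlt : r < d := Nat.mod_lt _ hd0
      exact Nat.find_min hP hlt ⟨hrpos, _, hg0, hwg⟩
    have hgO : (a : F) / p ^ q ∈ O := (hmem _ hg0).2 (by rw [hwg]; positivity)
    refine ⟨q, ⟨(a : F) / p ^ q, hgO⟩, hunit _ (fun h => hg0 (congrArg Subtype.val h)) (by
      rw [hwg, hr0]; rfl), Subtype.ext ?_, ?_⟩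
    · simp only [MulMemClass.coe_mul, SubmonoidClass.coe_pow]
      field_simp
    · rw [hn]
      have : (n : ℤ) = d * q + r := by exact_mod_cast hnd
      rw [this, hr0]
      push_cast
      ring
  refine ⟨⟨p, hpO⟩, ?_, ?_⟩
  · rw [irreducible_iff]
    constructor
    · intro hu
      obtain ⟨b, hb⟩ := isUnit_iff_exists_inv.1 hu
      have hb' : p * (b : F) = 1 := congrArg Subtype.val hb
      have hb0 : (b : F) ≠ 0 := fun h => by rw [h, mul_zero] at hb'; exact zero_ne_one hb'
      have h1 := hmul p b hp0 hb0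
      rw [hb', w1, hpd] at h1
      have h2 : 0 ≤ w (b : F) := (hmem _ hb0).1 b.2
      omega
    · intro a b hab
      have hab' : p = (a : F) * (b : F) := congrArg Subtype.val hab
      have ha0 : a ≠ 0 := by
        rintro rfl
        exact hp0 (by rw [hab']; simp)
      have hb0 : b ≠ 0 := by
        rintro rfl
        exact hp0 (by rw [hab']; simp)
      obtain ⟨qa, ga, hga, -, hwa⟩ := key a ha0
      obtain ⟨qb, gb, hgb, -, hwb⟩ := key b hb0
      have h1 := hmul (a : F) (b : F) (fun h => ha0 (Subtype.ext h)) (fun h => hb0 (Subtype.ext h))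
      rw [← hab', hpd, hwa, hwb] at h1
      have h2 : (d : ℤ) * 1 = d * (qa + qb) := by rw [mul_one]; linarith
      have h3 : (1 : ℤ) = qa + qb := mul_left_cancel₀ (by exact_mod_cast hd0.ne') h2
      have h4 : qa + qb = 1 := by exact_mod_cast h3.symm
      rcases Nat.eq_zero_or_pos qa with h0 | h0
      · left
        exact hunit a ha0 (by rw [hwa, h0]; simp)
      · right
        have : qb = 0 := by omega
        exact hunit b hb0 (by rw [hwb, this]; simp)
  · intro a ha
    obtain ⟨q, g, hg, hag, -⟩ := key a ha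
    exact ⟨q, hg.unit, by rw [hag]; rfl⟩

/-! ### Restriction of places -/

lemma ord_pos_of_mem_nonunits (v : Place K F) {x : F} (hx0 : x ≠ 0)
    (hx : x ∈ v.toValuationSubring.nonunits) : 0 < v.ord x := by
  rw [ValuationSubring.mem_nonunits_iff] at hx
  have h1 : x ∈ v.toValuationSubring := (ValuationSubring.valuation_le_one_iff _ _).1 hx.le
  have h2 : 0 ≤ v.ord x := (mem_iff_ord_nonneg v hx0).1 h1
  rcases h2.lt_or_eq with h | h
  · exact h
  · exfalso
    have h3 : x⁻¹ ∈ v.toValuationSubring :=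
      (mem_iff_ord_nonneg v (inv_ne_zero hx0)).2 (by rw [v.ord_inv, ← h, neg_zero])
    rw [← ValuationSubring.valuation_le_one_iff, map_inv₀] at h3
    have h4 : 0 < v.toValuationSubring.valuation x := by
      rw [zero_lt_iff, ne_eq, map_eq_zero]; exact hx0
    exact absurd ((inv_le_one₀ h4).1 h3) (not_le.2 hx)

lemma mem_nonunits_of_ord_pos (v : Place K F) {x : F} (hx0 : x ≠ 0) (hx : 0 < v.ord x) :
    x ∈ v.toValuationSubring.nonunits := by
  rw [ValuationSubring.mem_nonunits_iff]
  by_contra hle
  rw [not_lt] at hle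
  have h4 : 0 < v.toValuationSubring.valuation x := by
    rw [zero_lt_iff, ne_eq, map_eq_zero]; exact hx0
  have h3 : x⁻¹ ∈ v.toValuationSubring := by
    rw [← ValuationSubring.valuation_le_one_iff, map_inv₀]
    exact (inv_le_one₀ h4).2 hle
  have := (mem_iff_ord_nonneg v (inv_ne_zero hx0)).1 h3
  rw [v.ord_inv] at this
  omega

variable (φ) in
/-- Restriction to `F` of a place of `F'/L` at which `φ x` vanishes. -/
noncomputable def restrict (v' : Place L F') (x : F) (hx0 : x ≠ 0)
    (hx : φ x ∈ v'.toValuationSubring.nonunits) : Place K F where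
  toValuationSubring := v'.toValuationSubring.comap (φ : F →+* F')
  algebraMap_mem' a := by
    rw [ValuationSubring.mem_comap]
    show φ (algebraMap K F a) ∈ v'.toValuationSubring
    rw [φ.commutes, IsScalarTower.algebraMap_apply K L F']
    exact v'.algebraMap_mem' _
  ne_top' := by
    intro htop
    have h1 : x⁻¹ ∈ v'.toValuationSubring.comap (φ : F →+* F') := by rw [htop]; trivial
    rw [ValuationSubring.mem_comap] at h1
    have h2 : (φ x)⁻¹ ∈ v'.toValuationSubring := by
      have : (φ : F →+* F') x⁻¹ = (φ x)⁻¹ := map_inv₀ φ x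
      rwa [this] at h1
    have hφx0 : φ x ≠ 0 := by rw [ne_eq, map_eq_zero]; exact hx0
    have h3 := ord_pos_of_mem_nonunits v' hφx0 hx
    have h4 := (mem_iff_ord_nonneg v' (inv_ne_zero hφx0)).1 h2
    rw [v'.ord_inv] at h4
    omega
  isPrincipalIdealRing' := by
    have hfac : IsDiscreteValuationRing.HasUnitMulPowIrreducibleFactorization
        (v'.toValuationSubring.comap (φ : F →+* F')) := by
      refine hasUnitMulPow_of_ord _ (fun f => v'.ord (φ f)) ?_ ?_ ?_
      · intro f g hf hg
        rw [map_mul]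
        exact v'.ord_mul (by rw [ne_eq, map_eq_zero]; exact hf) (by rw [ne_eq, map_eq_zero]; exact hg)
      · intro f hf
        rw [ValuationSubring.mem_comap]
        exact mem_iff_ord_nonneg v' (by rw [ne_eq, map_eq_zero]; exact hf)
      · exact ⟨x, hx0, ord_pos_of_mem_nonunits v' (by rw [ne_eq, map_eq_zero]; exact hx0) hx⟩
    have := IsDiscreteValuationRing.ofHasUnitMulPowIrreducibleFactorization hfac
    infer_instance

lemma mem_restrict_iff (v' : Place L F') (x : F) (hx0 : x ≠ 0)
    (hx : φ x ∈ v'.toValuationSubring.nonunits) (f : F) :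
    f ∈ (restrict φ v' x hx0 hx).toValuationSubring ↔ φ f ∈ v'.toValuationSubring :=
  ValuationSubring.mem_comap

lemma extends_restrict (v' : Place L F') (x : F) (hx0 : x ≠ 0)
    (hx : φ x ∈ v'.toValuationSubring.nonunits) : Extends L φ (restrict φ v' x hx0 hx) v' :=
  fun f => (mem_restrict_iff v' x hx0 hx f).symm

lemma Extends.mem_nonunits_iff {v : Place K F} {v' : Place L F'} (h : Extends L φ v v') (f : F) :
    φ f ∈ v'.toValuationSubring.nonunits ↔ f ∈ v.toValuationSubring.nonunits := by
  rw [ValuationSubring.mem_nonunits_iff_or, ValuationSubring.mem_nonunits_iff_or, map_eq_zero,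
    ← map_inv₀, h f⁻¹]

/-- **Transfer of the number of zeros** of `x` under a constant field extension. -/
theorem card_zeros_eq (hd : LinDisj L φ) (hgen : IntermediateField.adjoin L (Set.range φ) = ⊤)
    {x : F} (hx0 : x ≠ 0)
    (hres : ∀ v : Place K F, x ∈ v.toValuationSubring.nonunits → ResidueTrivial v) :
    Nat.card {v : Place K F // x ∈ v.toValuationSubring.nonunits} =
      Nat.card {v' : Place L F' // φ x ∈ v'.toValuationSubring.nonunits} := by
  refine Nat.card_congr
    { toFun := fun v => ⟨(existsUnique_extends hd hgen (hres v.1 v.2)).exists.choose, ?_⟩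
      invFun := fun v' => ⟨restrict φ v'.1 x hx0 v'.2, ?_⟩
      left_inv := ?_
      right_inv := ?_ }
  · exact ((existsUnique_extends hd hgen (hres v.1 v.2)).exists.choose_spec.mem_nonunits_iff x).2 v.2
  · exact ((extends_restrict v'.1 x hx0 v'.2).mem_nonunits_iff x).1 v'.2
  · rintro ⟨v, hv⟩
    apply Subtype.ext
    apply Place.ext
    ext f
    simp only
    rw [mem_restrict_iff]
    exact (existsUnique_extends hd hgen (hres v hv)).exists.choose_spec f
  · rintro ⟨v', hv'⟩
    apply Subtype.ext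
    simp only
    have hres' := hres (restrict φ v' x hx0 hv')
      (((extends_restrict v' x hx0 hv').mem_nonunits_iff x).1 hv')
    exact (existsUnique_extends hd hgen hres').unique
      (existsUnique_extends hd hgen hres').exists.choose_spec (extends_restrict v' x hx0 hv')

/-- The same count in the form "number of places with `0 < ord`". -/
theorem card_ord_pos_eq (hd : LinDisj L φ) (hgen : IntermediateField.adjoin L (Set.range φ) = ⊤)
    {x : F} (hx0 : x ≠ 0)
    (hres : ∀ v : Place K F, 0 < v.ord x → ResidueTrivial v) :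
    Nat.card {v : Place K F // 0 < v.ord x} = Nat.card {v' : Place L F' // 0 < v'.ord (φ x)} := by
  have hφx0 : φ x ≠ 0 := by rw [ne_eq, map_eq_zero]; exact hx0
  have e1 : {v : Place K F // 0 < v.ord x} ≃ {v : Place K F // x ∈ v.toValuationSubring.nonunits} :=
    Equiv.subtypeEquivRight fun v =>
      ⟨mem_nonunits_of_ord_pos v hx0, ord_pos_of_mem_nonunits v hx0⟩
  have e2 : {v' : Place L F' // 0 < v'.ord (φ x)} ≃
      {v' : Place L F' // φ x ∈ v'.toValuationSubring.nonunits} :=
    Equiv.subtypeEquivRight fun v' =>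
      ⟨mem_nonunits_of_ord_pos v' hφx0, ord_pos_of_mem_nonunits v' hφx0⟩
  rw [Nat.card_congr e1, Nat.card_congr e2]
  exact card_zeros_eq hd hgen hx0 fun v hv => hres v (ord_pos_of_mem_nonunits v hx0 hv)

/-- An extension has ramification index one: `ord` is preserved. -/
theorem Extends.ord_map (hgen : IntermediateField.adjoin L (Set.range φ) = ⊤)
    {v : Place K F} (hres : ResidueTrivial v) {v' : Place L F'} (h : Extends L φ v v') (f : F) :
    v'.ord (φ f) = v.ord f := by
  by_cases hf : f = 0
  · simp [hf]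
  obtain ⟨π, hπ⟩ := IsDiscreteValuationRing.exists_irreducible v.toValuationSubring
  have habove := h.isAbove hπ
  obtain ⟨p, hp, hfac⟩ := habove.hasUnitMulPowIrreducibleFactorization hgen hres hπ
  -- `φ π` is a uniformizer of `v'`
  have hφπ : v'.ord (φ (π : F)) = 1 := by
    have hφπ0 : φ (π : F) ≠ 0 := by
      rw [ne_eq, map_eq_zero]; exact fun h0 => hπ.ne_zero (Subtype.ext h0)
    have hmem : φ (π : F) ∈ v'.toValuationSubring := habove.map_mem π
    have hne : (⟨φ (π : F), hmem⟩ : v'.toValuationSubring) ≠ 0 :=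
      fun h0 => hφπ0 (congrArg Subtype.val h0)
    obtain ⟨n, u, hu⟩ := hfac hne
    have hval : v'.toValuationSubring.valuation (φ (π : F)) < 1 := habove.lt_one
    -- `p ^ n * u = φ π` with `n ≥ 1`; on the other hand `p` divides ... use `ord`
    have h1 : φ (π : F) = (p : F') ^ n * ((u : v'.toValuationSubring) : F') := by
      have := congrArg Subtype.val hu
      simpa using this.symm
    have hp0 : (p : F') ≠ 0 := fun h0 => hp.ne_zero (Subtype.ext h0)
    have hord : v'.ord (φ (π : F)) = n := by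
      rw [h1, mul_comm, ← zpow_natCast]
      exact v'.ord_unit_smul_zpow u hp n
    -- conversely `p` is `φ π ^ m` times a unit, from the normal form of valuations
    obtain ⟨m, hm⟩ := exists_zpow (L := L) (φ := φ) hgen hres hπ hp0
    have hpval := hm _ habove
    have hγ0 := habove.valuation_pos hπ
    have hπval : v'.toValuationSubring.valuation (φ (π : F))
        = v'.toValuationSubring.valuation (φ (π : F)) ^ ((m : ℤ) * n) := by
      conv_lhs => rw [h1, map_mul, map_pow, hpval,
        (ValuationSubring.valuation_eq_one_iff _ _).1 u.isUnit, mul_one]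
      rw [zpow_mul, zpow_natCast]
    have h2 : (1 : ℤ) = m * n := by
      apply zpow_right_injective₀ hγ0 hval.ne
      simpa using hπval
    have hn1 : (n : ℤ) = 1 ∨ (n : ℤ) = -1 := Int.isUnit_iff.1 (IsUnit.of_mul_eq_one _ (by rw [mul_comm]; exact h2.symm))
    rcases hn1 with hn1 | hn1
    · rw [hord, hn1]
    · omega
  obtain ⟨u, hu⟩ := v.exists_unit_mul_zpow hf hπ
  have hu' : φ f = φ ((u : v.toValuationSubring) : F) * φ (π : F) ^ v.ord f := by
    conv_lhs => rw [hu, map_mul, map_zpow₀]
  have hφu0 : φ ((u : v.toValuationSubring) : F) ≠ 0 := by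
    rw [ne_eq, map_eq_zero]
    exact fun h0 => u.ne_zero (Subtype.ext h0)
  have hφπ0 : φ (π : F) ≠ 0 := by
    rw [ne_eq, map_eq_zero]; exact fun h0 => hπ.ne_zero (Subtype.ext h0)
  have hordu : v'.ord (φ ((u : v.toValuationSubring) : F)) = 0 := by
    have h1 : 0 ≤ v'.ord (φ ((u : v.toValuationSubring) : F)) :=
      (mem_iff_ord_nonneg v' hφu0).1 ((h _).2 (u : v.toValuationSubring).2)
    have h2 : 0 ≤ v'.ord (φ ((u : v.toValuationSubring) : F))⁻¹ := by
      apply (mem_iff_ord_nonneg v' (inv_ne_zero hφu0)).1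
      rw [← map_inv₀]
      apply (h _).2
      have : ((u : v.toValuationSubring) : F)⁻¹ = ((u⁻¹ : v.toValuationSubringˣ) : v.toValuationSubring) := by
        rw [eq_comm, ← mul_eq_one_iff_eq_inv₀ (fun h0 => u.ne_zero (Subtype.ext h0))]
        have h3 : ((u⁻¹ : v.toValuationSubringˣ) : v.toValuationSubring) * (u : v.toValuationSubring) = 1 :=
          u.inv_mul
        exact congrArg Subtype.val h3
      rw [this]
      exact ((u⁻¹ : v.toValuationSubringˣ) : v.toValuationSubring).2
    rw [v'.ord_inv] at h2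
    omega
  rw [hu', v'.ord_mul hφu0 (zpow_ne_zero _ hφπ0), hordu, zero_add, v'.ord_zpow, hφπ, mul_one]

end Places

end Fermat.Agent.S24.PlaceExtend
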