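/-
M2b / S24, task B3f (helper12): formal-vs-analytic core of the `q`-expansion bridge.

Only Mathlib + the prelude are used.  Main results (namespace `Fermat.Agent.S24.QExpFormal`):

* `coeff_etaProd`, `hasSum_etaCoeff` : **(P)** for `‖q‖ < 1` the analytic Euler product
  `∏' n, (1 - q ^ (n + 1))` is the sum of the formal series `etaProd` (prelude) evaluated at `q`;
* `Conv A f` : the power series `A : ℂ⟦X⟧` converges to `f` on the open unit disc, with
  `Conv.mul`, `Conv.pow`, `Conv.one`, `Conv.X`, `conv_etaProd`;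
* `qExpansion_discriminant` : **(D)** `qExpansion 1 Δ = X * dedekindEtaUnit.map (Int.castRingHom ℂ)`;
* `qExpansion_E4` : **(E)** `qExpansion 1 E₄ = eisenstein4.map (Int.castRingHom ℂ)`;
* `jqModC_mul_qExpansion_discriminant` : **(J)** in `LaurentSeries ℂ`,
  `jqModC ℂ * ofPowerSeries (qExpansion 1 Δ) = ofPowerSeries (qExpansion 1 E₄) ^ 3`;
* `jqModC_eq_div` : `jqModC ℂ = ofPowerSeries (qExpansion 1 E₄) ^ 3 / ofPowerSeries (qExpansion 1 Δ)`.
-/
import Mathlib
import Fermat.Prelude.Def_ModularCurve_JqCoeff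

set_option autoImplicit false

open scoped PowerSeries.WithPiTopology
open PowerSeries ModularCurve Filter Topology UpperHalfPlane ModularForm

namespace Fermat.Agent.S24.QExpFormal

/-- weight of a finite set of indices: `∑_{i ∈ s} (i+1)`. -/
def wt (s : Finset ℕ) : ℕ := ∑ i ∈ s, (i + 1)

/-- the finitely many `s` of weight `m`. -/
def fiberSet (m : ℕ) : Finset (Finset ℕ) := (Finset.range m).powerset.filter (fun s => wt s = m)

theorem mem_fiberSet {m : ℕ} {s : Finset ℕ} : s ∈ fiberSet m ↔ wt s = m := by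
  unfold fiberSet
  rw [Finset.mem_filter, Finset.mem_powerset]
  refine ⟨fun h => h.2, fun h => ⟨fun i hi => ?_, h⟩⟩
  rw [Finset.mem_range, ← h]
  have : i + 1 ≤ wt s := Finset.single_le_sum (f := fun i => i + 1) (fun _ _ => Nat.zero_le _) hi
  omega

/-- the integer coefficient. -/
def etaCoeff (m : ℕ) : ℤ := ∑ s ∈ fiberSet m, (-1 : ℤ) ^ s.card

theorem prod_neg_pow {R : Type*} [CommRing R] (x : R) (s : Finset ℕ) :
    ∏ i ∈ s, -(x ^ (i + 1)) = (-1) ^ s.card * x ^ wt s := by
  rw [Finset.prod_neg, Finset.prod_pow_eq_pow_sum, wt]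

theorem coeff_etaProd (m : ℕ) : coeff m etaProd = etaCoeff m := by
  have hsum : Summable (fun s : Finset ℕ => ∏ i ∈ s, -((X : ℤ⟦X⟧) ^ (i + 1))) := by
    apply PowerSeries.WithPiTopology.summable_prod_of_tendsto_order_atTop_nhds_top
    refine ENat.tendsto_nhds_top_iff_natCast_lt.mpr (fun n ↦ Filter.eventually_atTop.mpr ⟨n, ?_⟩)
    intro k hk
    rw [order_neg, order_X_pow]
    norm_cast
    exact Nat.lt_add_one_iff.mpr hk
  have h1 : etaProd = ∑' s : Finset ℕ, ∏ i ∈ s, -((X : ℤ⟦X⟧) ^ (i + 1)) := by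
    rw [← tprod_one_add hsum, etaProd]
    simp_rw [sub_eq_add_neg]
  have h2 := ((PowerSeries.WithPiTopology.hasSum_iff_hasSum_coeff ℤ).1 hsum.hasSum) m
  rw [← h1] at h2
  rw [← h2.tsum_eq]
  rw [tsum_eq_sum (s := fiberSet m)]
  · unfold etaCoeff
    refine Finset.sum_congr rfl fun s hs => ?_
    rw [prod_neg_pow, mem_fiberSet.1 hs]
    rw [show ((-1 : ℤ⟦X⟧)) ^ s.card = C ((-1 : ℤ) ^ s.card) by simp]
    rw [coeff_C_mul, coeff_X_pow, if_pos rfl, mul_one]
  · intro s hs
    rw [mem_fiberSet] at hs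
    rw [prod_neg_pow]
    rw [show ((-1 : ℤ⟦X⟧)) ^ s.card = C ((-1 : ℤ) ^ s.card) by simp]
    rw [coeff_C_mul, coeff_X_pow, if_neg (Ne.symm hs), mul_zero]


/-- **(P)** formal vs analytic Euler product. -/
theorem hasSum_etaCoeff {q : ℂ} (hq : ‖q‖ < 1) :
    HasSum (fun m : ℕ => (etaCoeff m : ℂ) * q ^ m) (∏' n : ℕ, (1 - q ^ (n + 1))) := by
  have hn : Summable (fun i : ℕ => ‖-(q ^ (i + 1))‖) := by
    simpa using (summable_nat_add_iff 1).mpr (summable_geometric_of_lt_one (norm_nonneg _) hq)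
  have hsum : Summable (fun s : Finset ℕ => ∏ i ∈ s, -(q ^ (i + 1))) :=
    summable_finsetProd_of_summable_norm hn
  have h1 : ∏' n : ℕ, (1 - q ^ (n + 1)) = ∑' s : Finset ℕ, ∏ i ∈ s, -(q ^ (i + 1)) := by
    rw [← tprod_one_add hsum]
    simp_rw [sub_eq_add_neg]
  have h2 := hsum.hasSum.tsum_fiberwise wt
  rw [← h1] at h2
  have key : (fun m : ℕ => (etaCoeff m : ℂ) * q ^ m) =
      fun c => ∑' b : ↑(wt ⁻¹' {c}), ∏ i ∈ (b : Finset ℕ), -(q ^ (i + 1)) := by
    funext m
    symm
    rw [tsum_subtype (wt ⁻¹' {m}) (fun s => ∏ i ∈ s, -(q ^ (i + 1)))]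
    rw [tsum_eq_sum (s := fiberSet m)]
    · unfold etaCoeff
      push_cast
      rw [Finset.sum_mul]
      refine Finset.sum_congr rfl fun s hs => ?_
      rw [Set.indicator_of_mem (by simpa using mem_fiberSet.1 hs), prod_neg_pow,
        mem_fiberSet.1 hs]
    · intro s hs
      rw [Set.indicator_of_notMem]
      simpa using (fun h => hs (mem_fiberSet.2 h))
  rw [key]
  exact h2

/-- `A` converges to `f` on the open unit disc. -/
def Conv (A : ℂ⟦X⟧) (f : ℂ → ℂ) : Prop :=
  ∀ q : ℂ, ‖q‖ < 1 → HasSum (fun m => coeff m A * q ^ m) (f q)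

theorem Conv.mul {A B : ℂ⟦X⟧} {f g : ℂ → ℂ} (hA : Conv A f) (hB : Conv B g) :
    Conv (A * B) (fun q => f q * g q) := by
  intro q hq
  have ha := hA q hq
  have hb := hB q hq
  have hna : Summable (fun m => ‖coeff m A * q ^ m‖) := summable_norm_iff.2 ha.summable
  have hnb : Summable (fun m => ‖coeff m B * q ^ m‖) := summable_norm_iff.2 hb.summable
  have hs := summable_norm_sum_mul_antidiagonal_of_summable_norm hna hnb
  have ht := tsum_mul_tsum_eq_tsum_sum_antidiagonal_of_summable_norm hna hnb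
  have key : (fun m => coeff m (A * B) * q ^ m) =
      fun n => ∑ kl ∈ Finset.HasAntidiagonal.antidiagonal n,
        (coeff kl.1 A * q ^ kl.1) * (coeff kl.2 B * q ^ kl.2) := by
    funext n
    rw [coeff_mul, Finset.sum_mul]
    refine Finset.sum_congr rfl fun kl hkl => ?_
    rw [← Finset.HasAntidiagonal.mem_antidiagonal.1 hkl, pow_add]
    ring
  rw [key]
  show HasSum _ (f q * g q)
  rw [← ha.tsum_eq, ← hb.tsum_eq, ht]
  exact (summable_norm_iff.1 hs).hasSum

theorem Conv.one : Conv 1 (fun _ => 1) := by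
  intro q _
  have : (fun m => coeff m (1 : ℂ⟦X⟧) * q ^ m) = fun m => if m = 0 then 1 else 0 := by
    funext m
    rw [coeff_one]
    split_ifs with h
    · simp [h]
    · simp
  rw [this]
  exact hasSum_ite_eq 0 1

theorem Conv.X : Conv PowerSeries.X (fun q => q) := by
  intro q _
  have : (fun m => coeff m (PowerSeries.X : ℂ⟦X⟧) * q ^ m) = fun m => if m = 1 then q else 0 := by
    funext m
    rw [coeff_X]
    split_ifs with h
    · simp [h]
    · simp
  rw [this]
  exact hasSum_ite_eq 1 q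

theorem Conv.pow {A : ℂ⟦X⟧} {f : ℂ → ℂ} (hA : Conv A f) (n : ℕ) :
    Conv (A ^ n) (fun q => f q ^ n) := by
  induction n with
  | zero => simpa using Conv.one
  | succ n ih => simpa [pow_succ] using ih.mul hA


theorem conv_etaProd :
    Conv (etaProd.map (Int.castRingHom ℂ)) (fun q => ∏' n : ℕ, (1 - q ^ (n + 1))) := by
  intro q hq
  simpa [coeff_map, coeff_etaProd] using hasSum_etaCoeff hq

local notation "𝕢" => Function.Periodic.qParam

/-- **(D)** the `q`-expansion of Mathlib's `Δ` is `q · ∏ (1 - qⁿ)²⁴` formally. -/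
theorem qExpansion_discriminant :
    qExpansion 1 ModularForm.discriminant
      = PowerSeries.X * dedekindEtaUnit.map (Int.castRingHom ℂ) := by
  have hc : Conv (PowerSeries.X * dedekindEtaUnit.map (Int.castRingHom ℂ))
      (fun q => q * (∏' n : ℕ, (1 - q ^ (n + 1))) ^ 24) := by
    rw [dedekindEtaUnit, map_pow]
    exact Conv.X.mul (conv_etaProd.pow 24)
  ext m
  symm
  refine ModularFormClass.qExpansion_coeff_unique (f := CuspForm.discriminant)
    (c := fun m => coeff m (PowerSeries.X * dedekindEtaUnit.map (Int.castRingHom ℂ))) one_pos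
    one_mem_strictPeriods_SL ?_ m
  intro τ
  have hq : ‖𝕢 1 τ‖ < 1 := by simpa using norm_qParam_lt_one 1 τ
  have h := hc _ hq
  rw [CuspForm.coe_discriminant, discriminant_eq_q_prod]
  rw [(multipliable_one_sub_pow hq).tprod_pow 24]
  simpa [smul_eq_mul] using h

/-- **(E)** the `q`-expansion of Mathlib's `E₄` is the prelude's formal `eisenstein4`. -/
theorem qExpansion_E4 : qExpansion 1 E₄ = eisenstein4.map (Int.castRingHom ℂ) := by
  ext m
  rw [EisensteinSeries.E_qExpansion_coeff (by norm_num : 3 ≤ 4) (by decide : Even 4) m]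
  rw [coeff_map, eisenstein4, coeff_mk]
  have hb : bernoulli 4 = -1 / 30 := by
    rw [bernoulli_eq_bernoulli'_of_ne_one (by norm_num), bernoulli'_four]
  by_cases hm : m = 0
  · simp [hm]
  · rw [if_neg hm, if_neg hm, hb, ArithmeticFunction.sigma_apply]
    push_cast
    norm_num


/-- **(J)** the formal identity `j · Δ = E₄³` between the prelude's `jqModC ℂ` and the
`q`-expansions of Mathlib's `Δ` and `E₄`. -/
theorem jqModC_mul_qExpansion_discriminant :
    jqModC ℂ * HahnSeries.ofPowerSeries ℤ ℂ (qExpansion 1 ModularForm.discriminant)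
      = (HahnSeries.ofPowerSeries ℤ ℂ (qExpansion 1 E₄)) ^ 3 := by
  rw [qExpansion_discriminant, qExpansion_E4, jqModC, jNum]
  rw [map_mul (HahnSeries.ofPowerSeries ℤ ℂ), HahnSeries.ofPowerSeries_X]
  rw [map_mul (PowerSeries.map (Int.castRingHom ℂ)), map_mul (HahnSeries.ofPowerSeries ℤ ℂ)]
  have h1 : (HahnSeries.single (-1 : ℤ) (1 : ℂ)) * HahnSeries.single (1 : ℤ) (1 : ℂ) = 1 := by
    rw [HahnSeries.single_mul_single]
    simp
  have h2 : HahnSeries.ofPowerSeries ℤ ℂ (PowerSeries.map (Int.castRingHom ℂ) dedekindEtaUnitInv)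
      * HahnSeries.ofPowerSeries ℤ ℂ (PowerSeries.map (Int.castRingHom ℂ) dedekindEtaUnit) = 1 := by
    rw [← map_mul, ← map_mul, mul_comm, dedekindEtaUnit_mul_inv, map_one, map_one]
  rw [map_pow, map_pow]
  calc _ = (HahnSeries.single (-1 : ℤ) (1 : ℂ) * HahnSeries.single (1 : ℤ) (1 : ℂ)) *
        (HahnSeries.ofPowerSeries ℤ ℂ (PowerSeries.map (Int.castRingHom ℂ) eisenstein4)) ^ 3 *
        (HahnSeries.ofPowerSeries ℤ ℂ (PowerSeries.map (Int.castRingHom ℂ) dedekindEtaUnitInv)
          * HahnSeries.ofPowerSeries ℤ ℂ (PowerSeries.map (Int.castRingHom ℂ) dedekindEtaUnit)) := by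
        ring
    _ = _ := by rw [h1, h2, one_mul, mul_one]

theorem qExpansion_discriminant_ne_zero : qExpansion 1 ModularForm.discriminant ≠ 0 := by
  intro h
  have h1 := congrArg (coeff 1) h
  rw [discriminant_qExpansion_coeff_one] at h1
  simp at h1

theorem ofPowerSeries_qExpansion_discriminant_ne_zero :
    HahnSeries.ofPowerSeries ℤ ℂ (qExpansion 1 ModularForm.discriminant) ≠ 0 := by
  intro h
  apply qExpansion_discriminant_ne_zero
  exact HahnSeries.ofPowerSeries_injective (by rw [h, map_zero])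

/-- **(J')** `j = E₄³ / Δ` on the level of formal `q`-expansions. -/
theorem jqModC_eq_div :
    jqModC ℂ = (HahnSeries.ofPowerSeries ℤ ℂ (qExpansion 1 E₄)) ^ 3
      / HahnSeries.ofPowerSeries ℤ ℂ (qExpansion 1 ModularForm.discriminant) := by
  rw [eq_div_iff ofPowerSeries_qExpansion_discriminant_ne_zero]
  exact jqModC_mul_qExpansion_discriminant

end Fermat.Agent.S24.QExpFormal
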