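import Fermat.Agent.M2.CuspVal
import Fermat.Agent.M2.JN
import Fermat.Prelude.Def_ModularCurve_JqCoeff

/-!
# M2b / S24, B3a + B3c : the `q`-expansion homomorphism on weakly holomorphic modular functions

For `f : ℍ → ℂ` holomorphic, `1`-periodic and meromorphic at `i∞` (`CuspVal.IsPerMero 1 f`:
`f Δ^m` bounded at `i∞` for some `m`) we define the Laurent expansion
`qexpFun f = ofPowerSeries (qExpansion 1 (f Δ^m)) / ofPowerSeries (qExpansion 1 Δ)^m ∈ ℂ((q))`,
show that it is independent of `m`, additive, multiplicative, `ℂ`-linear, injective, agrees with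
`ofPowerSeries ∘ qExpansion 1` on functions bounded at `i∞`, and is compatible with `z ↦ d z`
(`q ↦ q^d`).
-/

set_option autoImplicit false

namespace Fermat.Agent.S24.QExpHom

open UpperHalfPlane ModularForm MatrixGroups Filter Function Complex CongruenceSubgroup
open Fermat.Agent.M2 Fermat.Agent.M2.CuspVal
open scoped Manifold Topology

local notation "Δ" => ModularForm.discriminant
local notation "𝕢" => Periodic.qParam

variable {f g : ℍ → ℂ}

/-! ### Preliminaries -/

lemma periodic_one (hf : IsPerMero 1 f) : Periodic (f ∘ ofComplex) ((1 : ℝ) : ℂ) := by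
  simpa using hf.periodic

lemma analyticAt_cusp (hf : IsPerMero 1 f) (hb : IsBoundedAtImInfty f) :
    AnalyticAt ℂ (cuspFunction 1 f) 0 :=
  analyticAt_cuspFunction_zero one_pos (periodic_one hf) hf.mdiff hb

/-- `f Δ^m`. -/
noncomputable def mulPow (f : ℍ → ℂ) (m : ℕ) : ℍ → ℂ := fun z => f z * Δ z ^ m

lemma mulPow_eq (f : ℍ → ℂ) (m : ℕ) : mulPow f m = f * fun z => Δ z ^ m := rfl

lemma isPerMero_mulPow (hf : IsPerMero 1 f) (m : ℕ) : IsPerMero 1 (mulPow f m) :=
  hf.mul (IsPerMero.discriminant_pow 1 m)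

lemma isPerMero_discriminant : IsPerMero 1 (Δ : ℍ → ℂ) := by
  have := IsPerMero.discriminant_pow 1 1
  simpa using this

lemma isBounded_discriminant : IsBoundedAtImInfty (Δ : ℍ → ℂ) := by
  have := isBoundedAtImInfty_discriminant_pow 1
  simpa using this

lemma analyticAt_cusp_discriminant_pow (m : ℕ) :
    AnalyticAt ℂ (cuspFunction 1 (fun z : ℍ => Δ z ^ m)) 0 :=
  analyticAt_cusp (IsPerMero.discriminant_pow 1 m) (isBoundedAtImInfty_discriminant_pow m)

lemma qExpansion_discriminant_pow (m : ℕ) :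
    qExpansion 1 (fun z : ℍ => Δ z ^ m) = qExpansion 1 (Δ : ℍ → ℂ) ^ m := by
  induction m with
  | zero =>
    have : (fun z : ℍ => Δ z ^ 0) = (1 : ℍ → ℂ) := by ext z; simp
    rw [this, qExpansion_one, pow_zero]
  | succ m ih =>
    have : (fun z : ℍ => Δ z ^ (m + 1)) = (fun z : ℍ => Δ z ^ m) * (Δ : ℍ → ℂ) := by
      ext z; simp [pow_succ]
    rw [this, qExpansion_mul (analyticAt_cusp_discriminant_pow m)
      (analyticAt_cusp isPerMero_discriminant isBounded_discriminant), ih, pow_succ]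

/-- The `q`-expansion of `Δ` as a Laurent series. -/
noncomputable def DL : LaurentSeries ℂ := HahnSeries.ofPowerSeries ℤ ℂ (qExpansion 1 (Δ : ℍ → ℂ))

lemma DL_ne_zero : DL ≠ 0 := by
  intro h
  have h1 : qExpansion 1 (Δ : ℍ → ℂ) = 0 := by
    apply HahnSeries.ofPowerSeries_injective (Γ := ℤ)
    rw [map_zero]; exact h
  rw [qExpansion_eq_zero_iff one_pos (periodic_one isPerMero_discriminant)
    isPerMero_discriminant.mdiff isBounded_discriminant] at h1
  have := congrFun h1 UpperHalfPlane.I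
  exact discriminant_ne_zero _ this

/-- The numerator `ofPowerSeries (qExpansion 1 (f Δ^m))`. -/
noncomputable def num (f : ℍ → ℂ) (m : ℕ) : LaurentSeries ℂ :=
  HahnSeries.ofPowerSeries ℤ ℂ (qExpansion 1 (mulPow f m))

/-- If `f Δ^m` is bounded then so is `f Δ^(m+k)`. -/
lemma isBounded_mulPow_add {m : ℕ} (hm : IsBoundedAtImInfty (mulPow f m)) (k : ℕ) :
    IsBoundedAtImInfty (mulPow f (m + k)) := by
  have := hm.mul (isBoundedAtImInfty_discriminant_pow k)
  have e : mulPow f (m + k) = mulPow f m * fun z => Δ z ^ k := by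
    ext z; simp only [mulPow, Pi.mul_apply, pow_add]; ring
  rw [e]; exact this

lemma num_add (hf : IsPerMero 1 f) {m : ℕ} (hm : IsBoundedAtImInfty (mulPow f m)) (k : ℕ) :
    num f (m + k) = num f m * DL ^ k := by
  have e : mulPow f (m + k) = mulPow f m * fun z => Δ z ^ k := by
    ext z; simp only [mulPow, Pi.mul_apply, pow_add]; ring
  rw [num, e, qExpansion_mul (analyticAt_cusp (isPerMero_mulPow hf m) hm)
    (analyticAt_cusp_discriminant_pow k), qExpansion_discriminant_pow, map_mul, map_pow]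
  rfl

/-! ### The Laurent expansion -/

open Classical in
/-- The Laurent `q`-expansion of a function which is holomorphic, `1`-periodic and meromorphic at
`i∞` (junk value `0` otherwise). -/
noncomputable def qexpFun (f : ℍ → ℂ) : LaurentSeries ℂ :=
  if h : ∃ m : ℕ, IsBoundedAtImInfty (mulPow f m) then
    num f (Classical.choose h) / DL ^ (Classical.choose h)
  else 0

/-- Key lemma: `qexpFun f` can be computed with ANY exponent `m` such that `f Δ^m` is bounded. -/
theorem qexpFun_mul_pow (hf : IsPerMero 1 f) {m : ℕ} (hm : IsBoundedAtImInfty (mulPow f m)) :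
    qexpFun f * DL ^ m = num f m := by
  have h : ∃ m : ℕ, IsBoundedAtImInfty (mulPow f m) := ⟨m, hm⟩
  rw [qexpFun, dif_pos h]
  set m₀ := Classical.choose h with hm₀
  have hb₀ : IsBoundedAtImInfty (mulPow f m₀) := Classical.choose_spec h
  have h1 := num_add hf hm m₀
  have h2 := num_add hf hb₀ m
  rw [add_comm] at h2
  rw [h2] at h1
  rw [div_mul_eq_mul_div, div_eq_iff (pow_ne_zero _ DL_ne_zero), h1]

theorem qexpFun_eq_div (hf : IsPerMero 1 f) {m : ℕ} (hm : IsBoundedAtImInfty (mulPow f m)) :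
    qexpFun f = num f m / DL ^ m := by
  rw [eq_div_iff (pow_ne_zero _ DL_ne_zero), qexpFun_mul_pow hf hm]

/-- On functions bounded at `i∞` the Laurent expansion is the usual `q`-expansion. -/
theorem qexpFun_of_bounded (hf : IsPerMero 1 f) (hb : IsBoundedAtImInfty f) :
    qexpFun f = HahnSeries.ofPowerSeries ℤ ℂ (qExpansion 1 f) := by
  have h0 : mulPow f 0 = f := by ext z; simp [mulPow]
  have hm : IsBoundedAtImInfty (mulPow f 0) := by rw [h0]; exact hb
  have := qexpFun_mul_pow hf hm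
  rwa [pow_zero, mul_one, num, h0] at this

theorem qexpFun_discriminant : qexpFun (Δ : ℍ → ℂ) = DL :=
  qexpFun_of_bounded isPerMero_discriminant isBounded_discriminant

theorem qexpFun_add (hf : IsPerMero 1 f) (hg : IsPerMero 1 g) :
    qexpFun (f + g) = qexpFun f + qexpFun g := by
  obtain ⟨m₁, h₁⟩ := hf.mero
  obtain ⟨m₂, h₂⟩ := hg.mero
  have hb₁ : IsBoundedAtImInfty (mulPow f (m₁ + m₂)) := isBounded_mulPow_add h₁ m₂
  have hb₂ : IsBoundedAtImInfty (mulPow g (m₁ + m₂)) := by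
    rw [add_comm]; exact isBounded_mulPow_add h₂ m₁
  have e : mulPow (f + g) (m₁ + m₂) = mulPow f (m₁ + m₂) + mulPow g (m₁ + m₂) := by
    ext z; simp only [mulPow, Pi.add_apply]; ring
  have hb : IsBoundedAtImInfty (mulPow (f + g) (m₁ + m₂)) := by
    rw [e]; exact hb₁.add hb₂
  have h1 := qexpFun_mul_pow (hf.add hg) hb
  rw [num, e, qExpansion_add (analyticAt_cusp (isPerMero_mulPow hf _) hb₁)
    (analyticAt_cusp (isPerMero_mulPow hg _) hb₂), map_add] at h1
  have h2 := qexpFun_mul_pow hf hb₁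
  have h3 := qexpFun_mul_pow hg hb₂
  rw [num] at h2 h3
  rw [← h2, ← h3, ← add_mul] at h1
  exact mul_right_cancel₀ (pow_ne_zero _ DL_ne_zero) h1

theorem qexpFun_mul (hf : IsPerMero 1 f) (hg : IsPerMero 1 g) :
    qexpFun (f * g) = qexpFun f * qexpFun g := by
  obtain ⟨m₁, h₁⟩ := hf.mero
  obtain ⟨m₂, h₂⟩ := hg.mero
  have h₁' : IsBoundedAtImInfty (mulPow f m₁) := h₁
  have h₂' : IsBoundedAtImInfty (mulPow g m₂) := h₂
  have e : mulPow (f * g) (m₁ + m₂) = mulPow f m₁ * mulPow g m₂ := by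
    ext z; simp only [mulPow, Pi.mul_apply, pow_add]; ring
  have hb : IsBoundedAtImInfty (mulPow (f * g) (m₁ + m₂)) := by
    rw [e]; exact h₁'.mul h₂'
  have h1 := qexpFun_mul_pow (hf.mul hg) hb
  rw [num, e, qExpansion_mul (analyticAt_cusp (isPerMero_mulPow hf _) h₁')
    (analyticAt_cusp (isPerMero_mulPow hg _) h₂'), map_mul] at h1
  have h2 := qexpFun_mul_pow hf h₁'
  have h3 := qexpFun_mul_pow hg h₂'
  rw [num] at h2 h3
  rw [← h2, ← h3, pow_add] at h1
  have h4 : qexpFun (f * g) * (DL ^ m₁ * DL ^ m₂) =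
      (qexpFun f * qexpFun g) * (DL ^ m₁ * DL ^ m₂) := by
    rw [h1]; ring
  exact mul_right_cancel₀ (mul_ne_zero (pow_ne_zero _ DL_ne_zero) (pow_ne_zero _ DL_ne_zero)) h4

theorem qexpFun_const (c : ℂ) :
    qexpFun (fun _ : ℍ => c) = algebraMap ℂ (LaurentSeries ℂ) c := by
  have hb : IsBoundedAtImInfty (fun _ : ℍ => c) := Filter.const_boundedAtFilter atImInfty c
  rw [qexpFun_of_bounded (IsPerMero.const 1 c) hb]
  have h1 : (fun _ : ℍ => c) = c • (1 : ℍ → ℂ) := by ext z; simp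
  have han : AnalyticAt ℂ (cuspFunction 1 (1 : ℍ → ℂ)) 0 := by
    have := analyticAt_cusp (IsPerMero.const 1 1)
      (Filter.const_boundedAtFilter atImInfty (1 : ℂ))
    exact this
  rw [h1, qExpansion_smul han, qExpansion_one]
  rw [HahnSeries.algebraMap_apply']
  congr 1
  rw [Algebra.algebraMap_eq_smul_one]

theorem qexpFun_eq_zero_iff (hf : IsPerMero 1 f) : qexpFun f = 0 ↔ f = 0 := by
  obtain ⟨m, hm⟩ := hf.mero
  have hm' : IsBoundedAtImInfty (mulPow f m) := hm
  have h1 := qexpFun_mul_pow hf hm'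
  constructor
  · intro h0
    rw [h0, zero_mul] at h1
    have h2 : qExpansion 1 (mulPow f m) = 0 := by
      apply HahnSeries.ofPowerSeries_injective (Γ := ℤ)
      rw [map_zero]; exact h1.symm
    rw [qExpansion_eq_zero_iff one_pos (periodic_one (isPerMero_mulPow hf m))
      (isPerMero_mulPow hf m).mdiff hm'] at h2
    ext z
    have := congrFun h2 z
    simp only [mulPow, Pi.zero_apply, mul_eq_zero] at this
    rcases this with h | h
    · exact h
    · exact absurd h (pow_ne_zero m (discriminant_ne_zero z))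
  · rintro rfl
    have : mulPow (0 : ℍ → ℂ) m = 0 := by ext z; simp [mulPow]
    rw [num, this, qExpansion_zero, map_zero] at h1
    exact (mul_eq_zero.mp h1).resolve_right (pow_ne_zero _ DL_ne_zero)

/-! ### The algebra homomorphism on `WH (Gamma0 N)` -/

section Hom

variable (N : ℕ)

lemma T_pow_one_mem_Gamma0 : ModularGroup.T ^ 1 ∈ Gamma0 N := by
  rw [pow_one, Gamma0_mem]
  simp [ModularGroup.T]

lemma isPerMero_coe (f : WH (Gamma0 N)) : IsPerMero 1 (f : ℍ → ℂ) :=
  WH.isPerMero (Gamma0 N) (T_pow_one_mem_Gamma0 N) f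

/-- **B3a**: the `q`-expansion homomorphism `WH (Γ₀(N)) → ℂ((q))`. -/
noncomputable def qexp : WH (Gamma0 N) →ₐ[ℂ] LaurentSeries ℂ where
  toFun f := qexpFun (f : ℍ → ℂ)
  map_one' := by
    have := qexpFun_const 1
    rw [map_one] at this
    exact this
  map_mul' f g := qexpFun_mul (isPerMero_coe N f) (isPerMero_coe N g)
  map_zero' := (qexpFun_eq_zero_iff (isPerMero_coe N 0)).mpr rfl
  map_add' f g := qexpFun_add (isPerMero_coe N f) (isPerMero_coe N g)
  commutes' c := qexpFun_const c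

lemma qexp_apply (f : WH (Gamma0 N)) : qexp N f = qexpFun (f : ℍ → ℂ) := rfl

theorem qexp_injective : Function.Injective (qexp N) := by
  rw [injective_iff_map_eq_zero]
  intro f hf
  rw [qexp_apply, qexpFun_eq_zero_iff (isPerMero_coe N f)] at hf
  exact Subtype.ext hf

end Hom

/-! ### Scaling `z ↦ d z`, i.e. `q ↦ q^d` -/

section Scale

open ModularCurve

variable (d : ℕ) [NeZero d]

/-- `g(d z)`. -/
noncomputable def scl (g : ℍ → ℂ) : ℍ → ℂ := fun z => g (JN.scaleH d z)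

lemma scl_apply (g : ℍ → ℂ) (z : ℍ) : scl d g z = g (JN.scaleH d z) := rfl

lemma scl_mul (g₁ g₂ : ℍ → ℂ) : scl d (g₁ * g₂) = scl d g₁ * scl d g₂ := rfl

lemma mdiff_scl {g : ℍ → ℂ} (hg : MDiff g) : MDiff (scl d g) := by
  rw [UpperHalfPlane.mdifferentiable_iff] at hg ⊢
  have hN : (0 : ℝ) < d := Nat.cast_pos.mpr (NeZero.pos d)
  have hmaps : Set.MapsTo (fun s : ℂ => (d : ℂ) * s) {s : ℂ | 0 < s.im} {s : ℂ | 0 < s.im} := by
    intro s hs
    simp only [Set.mem_ofPred_eq] at hs ⊢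
    have : ((d : ℂ) * s).im = d * s.im := by simp
    rw [this]
    exact mul_pos hN hs
  have hcomp : DifferentiableOn ℂ ((g ∘ ofComplex) ∘ fun s : ℂ => (d : ℂ) * s)
      {s : ℂ | 0 < s.im} :=
    hg.comp (by fun_prop) hmaps
  refine hcomp.congr ?_
  intro s hs
  simp only [Function.comp_apply, scl]
  congr 1
  apply UpperHalfPlane.ext
  rw [JN.coe_scaleH, ofComplex_apply_of_im_pos hs, ofComplex_apply_of_im_pos (hmaps hs)]

lemma scaleH_vadd_one (z : ℍ) :
    JN.scaleH d ((1 : ℝ) +ᵥ z) = ((d : ℝ)) +ᵥ JN.scaleH d z := by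
  apply UpperHalfPlane.ext
  simp only [JN.coe_scaleH, UpperHalfPlane.coe_vadd]
  push_cast
  ring

lemma periodic_scl {g : ℍ → ℂ} (hg : Periodic (g ∘ ofComplex) ((1 : ℝ) : ℂ)) :
    Periodic (scl d g ∘ ofComplex) ((1 : ℝ) : ℂ) := by
  apply periodic_of_vadd
  intro z
  rw [scl_apply, scl_apply, scaleH_vadd_one]
  have h2 : Periodic (g ∘ ofComplex) (((d : ℝ)) : ℂ) := by
    have := hg.nat_mul d
    simpa using this
  exact vadd_of_periodic h2 _

lemma tendsto_scaleH : Tendsto (JN.scaleH d) atImInfty atImInfty := by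
  rw [atImInfty, tendsto_comap_iff]
  have h1 : Tendsto (fun z : ℍ => z.im) atImInfty atTop := tendsto_comap
  refine tendsto_atTop_mono (fun z => ?_) h1
  have : (JN.scaleH d z).im = d * z.im := by
    show ((d : ℂ) * (z : ℂ)).im = _
    simp
  show z.im ≤ (JN.scaleH d z).im
  rw [this]
  have hd : (1 : ℝ) ≤ d := by exact_mod_cast NeZero.one_le
  nlinarith [z.im_pos]

lemma isBounded_scl {g : ℍ → ℂ} (hg : IsBoundedAtImInfty g) : IsBoundedAtImInfty (scl d g) :=
  hg.comp_tendsto (tendsto_scaleH d)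

/-- `g(d z)` is again holomorphic, `1`-periodic and bounded. -/
lemma isPerMero_scl_of_bounded {g : ℍ → ℂ} (hg : IsPerMero 1 g) (hb : IsBoundedAtImInfty g) :
    IsPerMero 1 (scl d g) := by
  refine IsPerMero.of_bounded (mdiff_scl d hg.mdiff) ?_ (isBounded_scl d hb)
  have := periodic_scl d (periodic_one hg)
  simpa using this

lemma qParam_scaleH (z : ℍ) : 𝕢 1 (JN.scaleH d z) = 𝕢 1 z ^ d := by
  rw [Periodic.qParam, Periodic.qParam, ← Complex.exp_nat_mul, JN.coe_scaleH]
  congr 1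
  push_cast
  ring

/-- Uniqueness of `q`-expansion coefficients, for plain functions. -/
lemma qExpansion_coeff_unique' {f : ℍ → ℂ} {c : ℕ → ℂ}
    (hfanalytic : AnalyticAt ℂ (cuspFunction 1 f) 0)
    (hf : ∀ τ : ℍ, HasSum (fun m ↦ c m • 𝕢 1 τ ^ m) (f τ)) (m : ℕ) :
    c m = (qExpansion 1 f).coeff m := by
  have h1 := (hasFPowerSeriesOnBall_cuspFunction one_pos hfanalytic hf).hasFPowerSeriesAt
  have h2 := hfanalytic.hasFPowerSeriesAt
  have h3 := congr_arg (FormalMultilinearSeries.coeff · m) (h1.eq_formalMultilinearSeries h2)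
  simp only [FormalMultilinearSeries.coeff_ofScalars] at h3
  rw [h3, qExpansion_coeff, div_eq_inv_mul]

/-- Coefficients of the `q`-expansion of `g(d z)` for bounded `g`. -/
theorem qExpansion_scl_coeff {g : ℍ → ℂ} (hg : IsPerMero 1 g) (hb : IsBoundedAtImInfty g)
    (n : ℕ) :
    (qExpansion 1 (scl d g)).coeff n =
      if d ∣ n then (qExpansion 1 g).coeff (n / d) else 0 := by
  set c : ℕ → ℂ := fun n => if d ∣ n then (qExpansion 1 g).coeff (n / d) else 0 with hc
  have hd : 0 < d := NeZero.pos d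
  have hsum : ∀ τ : ℍ, HasSum (fun m => c m • 𝕢 1 τ ^ m) (scl d g τ) := by
    intro τ
    have h1 := hasSum_qExpansion one_pos (periodic_one hg) hg.mdiff hb (JN.scaleH d τ)
    rw [qParam_scaleH] at h1
    have hinj : Function.Injective (fun m : ℕ => d * m) :=
      fun a b hab => Nat.eq_of_mul_eq_mul_left hd hab
    rw [← hinj.hasSum_iff]
    · have e : ((fun m => c m • 𝕢 1 (τ : ℂ) ^ m) ∘ fun m : ℕ => d * m) =
          fun m => (qExpansion 1 g).coeff m • (𝕢 1 (τ : ℂ) ^ d) ^ m := by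
        ext m
        simp only [Function.comp_apply, hc, dvd_mul_right, if_true, Nat.mul_div_cancel_left _ hd,
          pow_mul]
      rw [e]
      exact h1
    · intro x hx
      have : ¬ d ∣ x := fun ⟨k, hk⟩ => hx ⟨k, hk.symm⟩
      simp only [hc, if_neg this, zero_smul]
  exact (qExpansion_coeff_unique'
    (analyticAt_cusp (isPerMero_scl_of_bounded d hg hb) (isBounded_scl d hb)) hsum n).symm

/-- `q`-expansion of `g(d z)` for bounded `g`, as Laurent series. -/
theorem ofPowerSeries_qExpansion_scl {g : ℍ → ℂ} (hg : IsPerMero 1 g)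
    (hb : IsBoundedAtImInfty g) :
    HahnSeries.ofPowerSeries ℤ ℂ (qExpansion 1 (scl d g)) =
      qExpand ℂ d (HahnSeries.ofPowerSeries ℤ ℂ (qExpansion 1 g)) := by
  ext k
  by_cases hk : (d : ℤ) ∣ k
  · obtain ⟨k', rfl⟩ := hk
    rw [qExpand_coeff_mul]
    rcases le_or_gt 0 k' with hk' | hk'
    · lift k' to ℕ using hk'
      rw [HahnSeries.ofPowerSeries_apply_coeff, show (d : ℤ) * (k' : ℤ) = ((d * k' : ℕ) : ℤ) by
        push_cast; ring, HahnSeries.ofPowerSeries_apply_coeff, qExpansion_scl_coeff d hg hb,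
        if_pos (dvd_mul_right _ _), Nat.mul_div_cancel_left _ (NeZero.pos d)]
    · rw [ofPowerSeries_coeff_of_neg _ hk', ofPowerSeries_coeff_of_neg]
      have hd : (0 : ℤ) < d := by exact_mod_cast NeZero.pos d
      exact mul_neg_of_pos_of_neg hd hk'
  · rw [qExpand_coeff_of_not_dvd d _ hk]
    rcases le_or_gt 0 k with hk' | hk'
    · lift k to ℕ using hk'
      rw [HahnSeries.ofPowerSeries_apply_coeff, qExpansion_scl_coeff d hg hb, if_neg]
      intro h
      exact hk (Int.natCast_dvd_natCast.mpr h)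
    · exact ofPowerSeries_coeff_of_neg _ hk'

theorem qexpFun_scl_of_bounded {g : ℍ → ℂ} (hg : IsPerMero 1 g) (hb : IsBoundedAtImInfty g) :
    qexpFun (scl d g) = qExpand ℂ d (qexpFun g) := by
  rw [qexpFun_of_bounded (isPerMero_scl_of_bounded d hg hb) (isBounded_scl d hb),
    qexpFun_of_bounded hg hb, ofPowerSeries_qExpansion_scl d hg hb]

/-- **Scaling**: the Laurent expansion of `g(d z)` is obtained from that of `g` by `q ↦ q^d`. -/
theorem qexpFun_scl {g : ℍ → ℂ} (hg : IsPerMero 1 g) (hgd : IsPerMero 1 (scl d g)) :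
    qexpFun (scl d g) = qExpand ℂ d (qexpFun g) := by
  obtain ⟨m, hm⟩ := hg.mero
  have hm' : IsBoundedAtImInfty (mulPow g m) := hm
  have hP : IsPerMero 1 (fun z : ℍ => Δ z ^ m) := IsPerMero.discriminant_pow 1 m
  have hPb : IsBoundedAtImInfty (fun z : ℍ => Δ z ^ m) := isBoundedAtImInfty_discriminant_pow m
  have h1 : qexpFun (scl d (mulPow g m)) = qExpand ℂ d (qexpFun (mulPow g m)) :=
    qexpFun_scl_of_bounded d (isPerMero_mulPow hg m) hm'
  have h2 : qexpFun (scl d (fun z : ℍ => Δ z ^ m)) = qExpand ℂ d (qexpFun (fun z : ℍ => Δ z ^ m)) :=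
    qexpFun_scl_of_bounded d hP hPb
  have h3 : scl d (mulPow g m) = scl d g * scl d (fun z : ℍ => Δ z ^ m) := rfl
  have h4 : qexpFun (mulPow g m) = qexpFun g * qexpFun (fun z : ℍ => Δ z ^ m) := by
    rw [mulPow_eq, qexpFun_mul hg hP]
  rw [h3, qexpFun_mul hgd (isPerMero_scl_of_bounded d hP hPb), h2, h4, map_mul] at h1
  have hne : qExpand ℂ d (qexpFun (fun z : ℍ => Δ z ^ m)) ≠ 0 := by
    rw [Ne, ← map_zero (qExpand ℂ d), (qExpand_injective d).eq_iff,
      qexpFun_eq_zero_iff hP]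
    intro h
    have := congrFun h UpperHalfPlane.I
    exact pow_ne_zero m (discriminant_ne_zero _) this
  exact mul_right_cancel₀ hne h1

end Scale

/-! ### The `j`-function -/

section J

open ModularCurve

lemma isPerMero_E₄ : IsPerMero 1 (E₄ : ℍ → ℂ) := isPerMero_of_modularForm 1 E₄

lemma isBounded_E₄ : IsBoundedAtImInfty (E₄ : ℍ → ℂ) := ModularFormClass.bdd_at_infty E₄

/-- `qexp(j) · qexp(Δ) = qexp(E₄)^3` in `ℂ((q))`. -/
theorem qexpFun_jInv_mul_DL :
    qexpFun jInv * DL = HahnSeries.ofPowerSeries ℤ ℂ (qExpansion 1 (E₄ : ℍ → ℂ)) ^ 3 := by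
  have e : mulPow jInv 1 = (E₄ : ℍ → ℂ) * ((E₄ : ℍ → ℂ) * (E₄ : ℍ → ℂ)) := by
    ext z
    simp only [mulPow, pow_one, Pi.mul_apply, jInv_mul_discriminant]
    ring
  have hb2 : IsBoundedAtImInfty ((E₄ : ℍ → ℂ) * (E₄ : ℍ → ℂ)) := isBounded_E₄.mul isBounded_E₄
  have hb : IsBoundedAtImInfty (mulPow jInv 1) := by
    rw [e]; exact isBounded_E₄.mul hb2
  have h1 := qexpFun_mul_pow (isPerMero_jInv 1) hb
  have hE := analyticAt_cusp isPerMero_E₄ isBounded_E₄
  have hE2 := analyticAt_cusp (isPerMero_E₄.mul isPerMero_E₄) hb2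
  rw [pow_one, num, e, qExpansion_mul hE hE2, qExpansion_mul hE hE, map_mul, map_mul] at h1
  rw [h1]; ring

/-- **B3b hook**: if the prelude's formal `j(q)` satisfies `jq · qexp(Δ) = qexp(E₄)^3`, then the
Laurent expansion of the analytic `j` is the prelude's `jqModC ℂ`. -/
theorem qexpFun_jInv
    (hJ : jqModC ℂ * HahnSeries.ofPowerSeries ℤ ℂ (qExpansion 1 (Δ : ℍ → ℂ)) =
      HahnSeries.ofPowerSeries ℤ ℂ (qExpansion 1 (E₄ : ℍ → ℂ)) ^ 3) :
    qexpFun jInv = jqModC ℂ := by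
  have h := qexpFun_jInv_mul_DL
  rw [← hJ] at h
  exact mul_right_cancel₀ DL_ne_zero h

/-- **B3c**: `qexp(j(d z)) = qexp(j)(q^d)`. -/
theorem qexpFun_jN (d : ℕ) [NeZero d] : qexpFun (JN.jN d) = qExpand ℂ d (qexpFun jInv) := by
  have h : IsPerMero 1 (JN.jN d) :=
    IsPerMero.of_isWH (T_pow_one_mem_Gamma0 d) (JN.isWH_jN d)
  exact qexpFun_scl d (isPerMero_jInv 1) h

end J

/-! ### Final statements (interface of B3) -/

section Final

open ModularCurve

variable (N : ℕ)

theorem Gamma0_le_of_dvd {d : ℕ} (hd : d ∣ N) : Gamma0 N ≤ Gamma0 d := by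
  intro A hA
  rw [Gamma0_mem] at hA ⊢
  rw [ZMod.intCast_zmod_eq_zero_iff_dvd] at hA ⊢
  exact (Int.natCast_dvd_natCast.mpr hd).trans hA

theorem jN_mem_WH_of_dvd (d : ℕ) [NeZero d] (hd : d ∣ N) : JN.jN d ∈ WH (Gamma0 N) :=
  WH_le (Gamma0_le_of_dvd N hd) (JN.jN_mem_WH d)

theorem qexp_jWH_mul_DL :
    qexp N (jWH (Gamma0 N)) * DL =
      HahnSeries.ofPowerSeries ℤ ℂ (qExpansion 1 (E₄ : ℍ → ℂ)) ^ 3 :=
  qexpFun_jInv_mul_DL

theorem qexp_jWH_of
    (hJ : jqModC ℂ * HahnSeries.ofPowerSeries ℤ ℂ (qExpansion 1 (Δ : ℍ → ℂ)) =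
      HahnSeries.ofPowerSeries ℤ ℂ (qExpansion 1 (E₄ : ℍ → ℂ)) ^ 3) :
    qexp N (jWH (Gamma0 N)) = jqModC ℂ :=
  qexpFun_jInv hJ

theorem qexp_jN_of
    (hJ : jqModC ℂ * HahnSeries.ofPowerSeries ℤ ℂ (qExpansion 1 (Δ : ℍ → ℂ)) =
      HahnSeries.ofPowerSeries ℤ ℂ (qExpansion 1 (E₄ : ℍ → ℂ)) ^ 3)
    (d : ℕ) [NeZero d] (h : JN.jN d ∈ WH (Gamma0 N)) :
    qexp N ⟨JN.jN d, h⟩ = qExpand ℂ d (jqModC ℂ) := by
  rw [qexp_apply]
  show qexpFun (JN.jN d) = _
  rw [qexpFun_jN, qexpFun_jInv hJ]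

end Final

end Fermat.Agent.S24.QExpHom
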