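import Fermat.Agent.S24.FieldIso
import Fermat.Agent.S24.QExp

/-!
# M2b / S24, B4 (final): unconditional `q`-expansion isomorphism
`WHField (Γ₀(N)) ≃ₐ[ℂ] F_ℂ = laurentBaseChange ℂ (modularFunctionFieldFull N)`

`FieldIso.lean` proves everything from an abstract `q`-expansion homomorphism; here we plug in
helper25's `QExp.qexp`.
-/

set_option autoImplicit false

namespace Fermat.Agent.S24.FieldIso

open UpperHalfPlane ModularForm MatrixGroups Polynomial CongruenceSubgroup ModularCurve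
open Fermat.Agent.M2

variable (N : ℕ) [NeZero N]

/-- The `q`-expansion embedding of the field of modular functions of level `Γ₀(N)`. -/
noncomputable def qexpField : WHField (Gamma0 N) →ₐ[ℂ] LaurentSeries ℂ :=
  qexpK N (QExp.qexp N) (QExp.qexp_injective N)

omit [NeZero N] in
lemma qexpField_algebraMap (f : WH (Gamma0 N)) :
    qexpField N (algebraMap (WH (Gamma0 N)) (WHField (Gamma0 N)) f) = QExp.qexp N f :=
  qexpK_algebraMap N _ _ f

omit [NeZero N] in
lemma qexpField_jM : qexpField N (jM N) = jqModC ℂ :=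
  qexpK_jM N _ _ (QExp.qexp_jWH N)

lemma qexpField_jNM : qexpField N (jNM N) = jqNModC ℂ N :=
  qexpK_jNM N _ _ (fun d _ hd h => QExp.qexp_jN N d hd h)

/-- The range of `q`-expansion is `F_ℂ = ℂ(j(q^d) : d ∣ N)`. -/
theorem fieldRange_qexpField : (qexpField N).fieldRange = FC N :=
  fieldRange_qexpK N _ _ (QExp.qexp_jWH N) (fun d _ hd h => QExp.qexp_jN N d hd h)

/-- `F_ℂ = ℂ(j(q), j(q^N))`. -/
theorem FC_eq_modularFunctionFieldC : FC N = modularFunctionFieldC ℂ N := by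
  rw [← fieldRange_qexpField]
  exact fieldRange_qexpK_eq_modularFunctionFieldC N _ _ (QExp.qexp_jWH N)
    (fun d _ hd h => QExp.qexp_jN N d hd h)

/-- **B4**: `WHField (Γ₀(N)) ≃ₐ[ℂ] F_ℂ` via `q`-expansion. -/
noncomputable def fieldEquiv : WHField (Gamma0 N) ≃ₐ[ℂ] ↥(FC N) :=
  qexpEquiv N (QExp.qexp N) (QExp.qexp_injective N) (QExp.qexp_jWH N)
    (fun d _ hd h => QExp.qexp_jN N d hd h)

lemma coe_fieldEquiv (x : WHField (Gamma0 N)) :
    ((fieldEquiv N x : FC N) : LaurentSeries ℂ) = qexpField N x := rfl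

/-- `j ↦ j(q)`. -/
lemma fieldEquiv_jM : fieldEquiv N (jM N) = ⟨jqModC ℂ, jqModC_mem_FC N⟩ :=
  qexpEquiv_jM N _ _ _ _

lemma fieldEquiv_jNM :
    fieldEquiv N (jNM N) = ⟨qExpand ℂ N (jqModC ℂ), qExpand_jqModC_mem_FC N dvd_rfl⟩ :=
  qexpEquiv_jNM N _ _ _ _

lemma fieldEquiv_algebraMap_poly (P : ℂ[X]) :
    fieldEquiv N (algebraMap ℂ[X] (WHField (Gamma0 N)) P) =
      Polynomial.aeval (⟨jqModC ℂ, jqModC_mem_FC N⟩ : FC N) P :=
  qexpEquiv_algebraMap_poly N _ _ _ _ P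

/-- The generator `j(q)` of `F_ℂ`. -/
noncomputable def xC : FC N := ⟨jqModC ℂ, jqModC_mem_FC N⟩

lemma fieldEquiv_jM' : fieldEquiv N (jM N) = xC N := fieldEquiv_jM N

omit [NeZero N] in
/-- `jM N` is the image of `X` under `RatFunc ℂ → WHField (Γ₀(N))`. -/
lemma algebraMap_ratFunc_X :
    algebraMap (RatFunc ℂ) (WHField (Gamma0 N)) RatFunc.X = jM N := by
  rw [← RatFunc.algebraMap_X, ← IsScalarTower.algebraMap_apply ℂ[X] (RatFunc ℂ) (WHField (Gamma0 N)),
    algebraMap_poly_eq_aeval_jM, Polynomial.aeval_X]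

end Fermat.Agent.S24.FieldIso
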