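import Mathlib
import Fermat.Prelude.Def_ModularCurve_X0

/-!
# M2b / S24 / B3 (part 1): Taylor coefficients at `0` and the eta product

`taylor0 F` is the formal Taylor series at `0` of `F : ℂ → ℂ`; Mathlib's `qExpansion h f` is by
definition `taylor0 (cuspFunction h f)`.  We prove that `taylor0` is multiplicative on functions
analytic at `0`, commutes with locally uniform limits (coefficientwise), and deduce that the
Taylor series of the analytic product `∏ (1 - q^(n+1))` is the formal product `etaProd` of the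
prelude.
-/

set_option autoImplicit false

namespace Fermat.Agent.S24.QExp

open Filter Topology Polynomial
open scoped PowerSeries.WithPiTopology

/-- The formal Taylor series at `0`. -/
noncomputable def taylor0 (F : ℂ → ℂ) : PowerSeries ℂ :=
  PowerSeries.mk fun m => ((m.factorial : ℂ))⁻¹ * iteratedDeriv m F 0

lemma coeff_taylor0 (F : ℂ → ℂ) (m : ℕ) :
    (taylor0 F).coeff m = ((m.factorial : ℂ))⁻¹ * iteratedDeriv m F 0 := by
  simp [taylor0]

lemma qExpansion_eq_taylor0 (h : ℝ) (f : UpperHalfPlane → ℂ) :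
    UpperHalfPlane.qExpansion h f = taylor0 (UpperHalfPlane.cuspFunction h f) := rfl

lemma taylor0_congr {F G : ℂ → ℂ} (h : F =ᶠ[𝓝 0] G) : taylor0 F = taylor0 G := by
  ext m
  rw [coeff_taylor0, coeff_taylor0, h.iteratedDeriv_eq m]

lemma taylor0_mul {F G : ℂ → ℂ} (hF : AnalyticAt ℂ F 0) (hG : AnalyticAt ℂ G 0) :
    taylor0 (F * G) = taylor0 F * taylor0 G := by
  ext m
  simp only [coeff_taylor0, iteratedDeriv_mul hF.contDiffAt hG.contDiffAt, Finset.mul_sum,
    PowerSeries.coeff_mul, Finset.Nat.sum_antidiagonal_eq_sum_range_succ_mk, Nat.succ_eq_add_one]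
  refine Finset.sum_congr rfl fun i hi => ?_
  rw [Nat.cast_choose _ (by grind)]
  field_simp [Nat.factorial_ne_zero]

lemma taylor0_one : taylor0 (1 : ℂ → ℂ) = 1 := by
  ext m
  have h2 : iteratedDeriv m (1 : ℂ → ℂ) 0 = if m = 0 then 1 else 0 := by
    simpa [ite_apply] using! iteratedDeriv_const
  simp +contextual [coeff_taylor0, h2]

lemma taylor0_pow {F : ℂ → ℂ} (hF : AnalyticAt ℂ F 0) (n : ℕ) :
    taylor0 (F ^ n) = taylor0 F ^ n := by
  induction n with
  | zero => simpa using taylor0_one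
  | succ n ih =>
    rw [pow_succ, pow_succ, taylor0_mul (hF.pow n) hF, ih]

lemma iteratedDeriv_eval (P : ℂ[X]) (k : ℕ) :
    iteratedDeriv k (fun q : ℂ => P.eval q) = fun q => ((derivative^[k]) P).eval q := by
  induction k with
  | zero => simp
  | succ k ih =>
    rw [iteratedDeriv_succ, ih, Function.iterate_succ_apply']
    funext q
    exact Polynomial.deriv _

lemma taylor0_eval (P : ℂ[X]) : taylor0 (fun q : ℂ => P.eval q) = (P : PowerSeries ℂ) := by
  ext m
  rw [coeff_taylor0, iteratedDeriv_eval, Polynomial.coeff_coe]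
  have : ((derivative^[m]) P).eval 0 = ((derivative^[m]) P).coeff 0 := by
    rw [Polynomial.coeff_zero_eq_eval_zero]
  show ((m.factorial : ℂ))⁻¹ * ((derivative^[m]) P).eval 0 = P.coeff m
  rw [this, Polynomial.coeff_iterate_derivative, zero_add, Nat.descFactorial_self, nsmul_eq_mul]
  have hm : ((m.factorial : ℕ) : ℂ) ≠ 0 := Nat.cast_ne_zero.mpr (Nat.factorial_ne_zero m)
  field_simp

/-- Iterated derivatives commute with locally uniform limits of holomorphic functions. -/
lemma tendstoLocallyUniformlyOn_iteratedDeriv {ι : Type*} {φ : Filter ι} {F : ι → ℂ → ℂ}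
    {G : ℂ → ℂ} {U : Set ℂ} (hU : IsOpen U) (hF : ∀ᶠ i in φ, DifferentiableOn ℂ (F i) U)
    (h : TendstoLocallyUniformlyOn F G φ U) (k : ℕ) :
    TendstoLocallyUniformlyOn (fun i => iteratedDeriv k (F i)) (iteratedDeriv k G) φ U ∧
      ∀ᶠ i in φ, DifferentiableOn ℂ (iteratedDeriv k (F i)) U := by
  induction k with
  | zero =>
    simp only [iteratedDeriv_zero]
    exact ⟨h, hF⟩
  | succ k ih =>
    obtain ⟨h1, h2⟩ := ih
    constructor
    · have := h1.deriv h2 hU
      simp only [iteratedDeriv_succ]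
      exact this
    · filter_upwards [h2] with i hi
      rw [iteratedDeriv_succ]
      exact hi.deriv hU

lemma tendsto_coeff_taylor0 {ι : Type*} {φ : Filter ι} {F : ι → ℂ → ℂ}
    {G : ℂ → ℂ} {U : Set ℂ} (hU : IsOpen U) (h0 : (0 : ℂ) ∈ U)
    (hF : ∀ᶠ i in φ, DifferentiableOn ℂ (F i) U)
    (h : TendstoLocallyUniformlyOn F G φ U) (k : ℕ) :
    Tendsto (fun i => (taylor0 (F i)).coeff k) φ (𝓝 ((taylor0 G).coeff k)) := by
  have h1 := (tendstoLocallyUniformlyOn_iteratedDeriv hU hF h k).1.tendsto_at h0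
  simp only [coeff_taylor0]
  exact h1.const_mul _

/-- The finite partial products of the eta product, as polynomials. -/
noncomputable def etaPoly (s : Finset ℕ) : ℂ[X] := ∏ n ∈ s, (1 - X ^ (n + 1))

lemma etaPoly_eval (s : Finset ℕ) (q : ℂ) :
    (etaPoly s).eval q = ∏ n ∈ s, (1 - q ^ (n + 1)) := by
  simp [etaPoly, Polynomial.eval_prod]

lemma etaPoly_coe (s : Finset ℕ) :
    ((etaPoly s : ℂ[X]) : PowerSeries ℂ) =
      PowerSeries.map (Int.castRingHom ℂ) (∏ n ∈ s, (1 - PowerSeries.X ^ (n + 1))) := by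
  rw [etaPoly, map_prod]
  rw [← Polynomial.coeToPowerSeries.ringHom_apply, map_prod]
  refine Finset.prod_congr rfl fun n _ => ?_
  simp

theorem taylor0_tprod_one_sub_pow :
    taylor0 (fun q : ℂ => ∏' n : ℕ, (1 - q ^ (n + 1))) =
      PowerSeries.map (Int.castRingHom ℂ) ModularCurve.etaProd := by
  ext k
  -- analytic side
  have hA : TendstoLocallyUniformlyOn (fun (s : Finset ℕ) (q : ℂ) => (etaPoly s).eval q)
      (fun q : ℂ => ∏' n : ℕ, (1 - q ^ (n + 1))) atTop (Metric.ball (0 : ℂ) 1) := by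
    have := ModularForm.multipliableLocallyUniformlyOn_one_sub_pow.hasProdLocallyUniformlyOn
    rw [hasProdLocallyUniformlyOn_iff_tendstoLocallyUniformlyOn] at this
    refine this.congr fun s q _ => ?_
    rw [etaPoly_eval]
  have h1 := tendsto_coeff_taylor0 Metric.isOpen_ball (Metric.mem_ball_self one_pos)
    (Eventually.of_forall fun s => (etaPoly s).differentiable.differentiableOn) hA k
  simp only [taylor0_eval, etaPoly_coe, PowerSeries.coeff_map] at h1
  -- formal side
  have hB := (PowerSeries.WithPiTopology.multipliable_one_sub_X_pow ℤ).hasProd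
  have h2 : Tendsto (fun s : Finset ℕ =>
      (PowerSeries.coeff k) (∏ n ∈ s, ((1 : PowerSeries ℤ) - PowerSeries.X ^ (n + 1))))
      atTop (𝓝 (PowerSeries.coeff k ModularCurve.etaProd)) :=
    ((PowerSeries.WithPiTopology.continuous_coeff ℤ k).tendsto _).comp hB
  have h3 : Tendsto (fun s : Finset ℕ => (((PowerSeries.coeff k)
      (∏ n ∈ s, ((1 : PowerSeries ℤ) - PowerSeries.X ^ (n + 1))) : ℤ) : ℂ))
      atTop (𝓝 ((PowerSeries.coeff k ModularCurve.etaProd : ℤ) : ℂ)) :=
    ((continuous_of_discreteTopology (f := fun n : ℤ => (n : ℂ))).tendsto _).comp h2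
  rw [PowerSeries.coeff_map]
  exact tendsto_nhds_unique h1 h3

end Fermat.Agent.S24.QExp
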