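import Fermat.Agent.S24.QExpTaylor

/-!
# M2b / S24 / B3 (part 2): the `q`-expansions of `Δ` and `E₄` are the prelude's formal series

* `qExpansion_discriminant : qExpansion 1 Δ = X * dedekindEtaUnit` (coefficients cast to `ℂ`);
* `qExpansion_E₄ : qExpansion 1 E₄ = eisenstein4` (coefficients cast to `ℂ`).
-/

set_option autoImplicit false

namespace Fermat.Agent.S24.QExp

open Filter Topology Polynomial UpperHalfPlane ModularForm EisensteinSeries
open scoped PowerSeries.WithPiTopology ArithmeticFunction.sigma

local notation "Δ" => ModularForm.discriminant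

/-- The analytic eta product `∏ (1 - q^(n+1))`. -/
noncomputable def etaFun (q : ℂ) : ℂ := ∏' n : ℕ, (1 - q ^ (n + 1))

lemma analyticAt_etaFun : AnalyticAt ℂ etaFun 0 :=
  ModularForm.differentiableOn_tprod_one_sub_pow.analyticAt
    (Metric.ball_mem_nhds (0 : ℂ) one_pos)

lemma taylor0_id : taylor0 (fun q : ℂ => q) = PowerSeries.X := by
  have := taylor0_eval (X : ℂ[X])
  simpa using this

theorem qExpansion_discriminant :
    qExpansion 1 Δ =
      PowerSeries.X * PowerSeries.map (Int.castRingHom ℂ) ModularCurve.dedekindEtaUnit := by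
  rw [qExpansion_eq_taylor0]
  have h1 : cuspFunction 1 Δ =ᶠ[𝓝 0] (fun q : ℂ => q) * etaFun ^ 24 := by
    filter_upwards [Metric.ball_mem_nhds (0 : ℂ) one_pos] with q hq
    rw [ModularForm.discriminant_cuspFunction_eqOn hq]
    simp only [Pi.mul_apply, Pi.pow_apply, etaFun]
    rw [(ModularForm.multipliable_one_sub_pow (by simpa using hq)).tprod_pow 24]
  rw [taylor0_congr h1, taylor0_mul (F := fun q : ℂ => q) analyticAt_id (analyticAt_etaFun.pow 24),
    taylor0_pow analyticAt_etaFun, taylor0_id]
  have : taylor0 etaFun = PowerSeries.map (Int.castRingHom ℂ) ModularCurve.etaProd :=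
    taylor0_tprod_one_sub_pow
  rw [this, ModularCurve.dedekindEtaUnit, map_pow]

theorem qExpansion_E₄ :
    qExpansion 1 E₄ = PowerSeries.map (Int.castRingHom ℂ) ModularCurve.eisenstein4 := by
  ext m
  rw [EisensteinSeries.E_qExpansion_coeff _ ⟨2, rfl⟩, PowerSeries.coeff_map,
    ModularCurve.eisenstein4, PowerSeries.coeff_mk]
  by_cases hm : m = 0
  · simp [hm]
  · simp only [hm, if_false]
    rw [show _root_.bernoulli 4 = -1 / 30 by decide +kernel, ArithmeticFunction.sigma_apply]
    simp only [eq_intCast]
    push_cast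
    ring

end Fermat.Agent.S24.QExp
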