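import Fermat.Agent.S24.QExpHol
import Fermat.Prelude.Def_ModularCurve_JqCoeff

/-!
# M2b / S24 / B3 (part 4): `q`-expansion of `z ↦ f (d z)`

`qexpFun (f ∘ scaleH d) = qExpand ℂ d (qexpFun f)`.
-/

set_option autoImplicit false

namespace Fermat.Agent.S24.QExp

open UpperHalfPlane ModularForm MatrixGroups Filter Function
open Fermat.Agent.M2
open scoped Manifold Topology

local notation "Δ" => ModularForm.discriminant
local notation "ofPS" => HahnSeries.ofPowerSeries ℤ ℂ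

variable (d : ℕ) [NeZero d]

lemma im_scaleH (z : ℍ) : (JN.scaleH d z).im = d * z.im := by
  change ((d : ℂ) * (z : ℂ)).im = _
  simp

lemma tendsto_scaleH : Tendsto (JN.scaleH d) atImInfty atImInfty := by
  have hd : (0 : ℝ) < d := Nat.cast_pos.mpr (NeZero.pos d)
  rw [atImInfty, tendsto_comap_iff]
  have : (UpperHalfPlane.im ∘ JN.scaleH d) = fun z : ℍ => (d : ℝ) * z.im := by
    ext z
    exact im_scaleH d z
  rw [this]
  exact (tendsto_id.const_mul_atTop hd).comp tendsto_comap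

lemma mdiff_comp_scaleH {F : ℍ → ℂ} (hF : MDiff F) : MDiff (F ∘ JN.scaleH d) := by
  rw [UpperHalfPlane.mdifferentiable_iff] at hF ⊢
  have hN : (0 : ℝ) < d := Nat.cast_pos.mpr (NeZero.pos d)
  have hmaps : Set.MapsTo (fun s : ℂ => (d : ℂ) * s) {s : ℂ | 0 < s.im} {s : ℂ | 0 < s.im} := by
    intro s hs
    simp only [Set.mem_ofPred_eq] at hs ⊢
    have : ((d : ℂ) * s).im = d * s.im := by simp
    rw [this]
    exact mul_pos hN hs
  have hcomp : DifferentiableOn ℂ ((F ∘ ofComplex) ∘ fun s : ℂ => (d : ℂ) * s)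
      {s : ℂ | 0 < s.im} :=
    hF.comp (by fun_prop) hmaps
  refine hcomp.congr ?_
  intro s hs
  simp only [Function.comp_apply]
  congr 1
  apply UpperHalfPlane.ext
  rw [JN.coe_scaleH, ofComplex_apply_of_im_pos hs, ofComplex_apply_of_im_pos (hmaps hs)]

lemma scaleH_vadd (z : ℍ) : JN.scaleH d ((1 : ℝ) +ᵥ z) = (d : ℝ) +ᵥ JN.scaleH d z := by
  apply UpperHalfPlane.ext
  simp [JN.coe_scaleH, mul_add]

lemma IsHol.comp_scaleH {F : ℍ → ℂ} (hF : IsHol F) : IsHol (F ∘ JN.scaleH d) := by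
  refine ⟨mdiff_comp_scaleH d hF.mdiff, ?_, ?_⟩
  · apply CuspVal.periodic_of_vadd
    intro z
    simp only [comp_apply]
    rw [scaleH_vadd]
    apply CuspVal.vadd_of_periodic
    have := hF.periodic.nat_mul d
    simpa using this
  · exact hF.bdd.comp_tendsto (tendsto_scaleH d)

lemma qParam_scaleH (τ : ℍ) :
    Periodic.qParam 1 ((JN.scaleH d τ : ℍ) : ℂ) = Periodic.qParam 1 (τ : ℂ) ^ d := by
  rw [JN.coe_scaleH, Periodic.qParam, Periodic.qParam, ← Complex.exp_nat_mul]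
  congr 1
  push_cast
  ring

omit [NeZero d] in
/-- `UpperHalfPlane.qExpansion_coeff_unique` for plain functions. -/
lemma coeff_unique {G : ℍ → ℂ} {c : ℕ → ℂ} (hG : AnalyticAt ℂ (cuspFunction 1 G) 0)
    (hf : ∀ τ : ℍ, HasSum (fun m => c m • Periodic.qParam 1 (τ : ℂ) ^ m) (G τ)) (m : ℕ) :
    c m = (qExpansion 1 G).coeff m := by
  have h1 := (hasFPowerSeriesOnBall_cuspFunction one_pos hG hf).hasFPowerSeriesAt
  have h2 := hG.hasFPowerSeriesAt
  have h3 := congr_arg (FormalMultilinearSeries.coeff · m) (h1.eq_formalMultilinearSeries h2)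
  simp only [FormalMultilinearSeries.coeff_ofScalars] at h3
  rw [h3, qExpansion_coeff, div_eq_mul_inv, mul_comm]

theorem qExpansion_comp_scaleH_coeff {F : ℍ → ℂ} (hF : IsHol F) (n : ℕ) :
    (qExpansion 1 (F ∘ JN.scaleH d)).coeff n =
      if d ∣ n then (qExpansion 1 F).coeff (n / d) else 0 := by
  have hG : IsHol (F ∘ JN.scaleH d) := hF.comp_scaleH d
  have hd : 0 < d := NeZero.pos d
  set c : ℕ → ℂ := fun n => if d ∣ n then (qExpansion 1 F).coeff (n / d) else 0 with hc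
  refine (coeff_unique hG.analyticAt (c := c) ?_ n).symm
  intro τ
  have h1 := hasSum_qExpansion one_pos hF.periodic hF.mdiff hF.bdd (JN.scaleH d τ)
  rw [qParam_scaleH] at h1
  have hinj : Function.Injective (fun m : ℕ => d * m) :=
    fun a b h => Nat.eq_of_mul_eq_mul_left hd h
  have hzero : ∀ x ∉ Set.range (fun m : ℕ => d * m),
      c x • Periodic.qParam 1 (τ : ℂ) ^ x = 0 := by
    intro x hx
    have : ¬ d ∣ x := fun ⟨k, hk⟩ => hx ⟨k, hk.symm⟩
    simp [hc, this]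
  rw [← hinj.hasSum_iff hzero]
  refine h1.congr_fun ?_   -- placeholder
  intro m
  simp only [comp_apply, hc, Nat.mul_div_cancel_left m hd, dvd_mul_right, if_true, pow_mul]

/-- Laurent-series form of the scaling rule. -/
theorem ofPS_qExpansion_comp_scaleH {F : ℍ → ℂ} (hF : IsHol F) :
    ofPS (qExpansion 1 (F ∘ JN.scaleH d)) = ModularCurve.qExpand ℂ d (ofPS (qExpansion 1 F)) := by
  have hd : (d : ℤ) ≠ 0 := Int.natCast_ne_zero.mpr (NeZero.ne d)
  ext k
  by_cases hk : (d : ℤ) ∣ k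
  · obtain ⟨k', rfl⟩ := hk
    rw [ModularCurve.qExpand_coeff_mul]
    rcases le_or_gt 0 k' with h0 | h0
    · lift k' to ℕ using h0
      rw [show (d : ℤ) * (k' : ℤ) = ((d * k' : ℕ) : ℤ) by push_cast; ring,
        HahnSeries.ofPowerSeries_apply_coeff, HahnSeries.ofPowerSeries_apply_coeff,
        qExpansion_comp_scaleH_coeff d hF, if_pos (dvd_mul_right d k'),
        Nat.mul_div_cancel_left k' (NeZero.pos d)]
    · have hneg : (d : ℤ) * k' < 0 :=
        mul_neg_of_pos_of_neg (by exact_mod_cast NeZero.pos d) h0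
      rw [ModularCurve.ofPowerSeries_coeff_of_neg _ hneg,
        ModularCurve.ofPowerSeries_coeff_of_neg _ h0]
  · rw [ModularCurve.qExpand_coeff_of_not_dvd d _ hk]
    rcases le_or_gt 0 k with h0 | h0
    · lift k to ℕ using h0
      have hk' : ¬ d ∣ k := fun h => hk (by exact_mod_cast h)
      rw [HahnSeries.ofPowerSeries_apply_coeff, qExpansion_comp_scaleH_coeff d hF, if_neg hk']
    · exact ModularCurve.ofPowerSeries_coeff_of_neg _ h0

variable {f : ℍ → ℂ}

/-- The `q`-expansion of `z ↦ f (d z)` is obtained by `q ↦ q ^ d`. -/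
theorem qexpFun_comp_scaleH (hf : IsMer f) (hg : IsMer (f ∘ JN.scaleH d)) :
    qexpFun (f ∘ JN.scaleH d) = ModularCurve.qExpand ℂ d (qexpFun f) := by
  obtain ⟨m, hm⟩ := hf.mero
  have H : IsHol (f * Δ ^ m) := hf.isHol_mul hm
  have hu : IsHol (Δ ^ m) := IsHol.discriminant.pow m
  have hu' : IsHol ((Δ ^ m) ∘ JN.scaleH d) := hu.comp_scaleH d
  have e : (f ∘ JN.scaleH d) * ((Δ ^ m) ∘ JN.scaleH d) = (f * Δ ^ m) ∘ JN.scaleH d := rfl
  have H' : IsHol ((f ∘ JN.scaleH d) * ((Δ ^ m) ∘ JN.scaleH d)) := by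
    rw [e]; exact H.comp_scaleH d
  have hne : ((Δ ^ m) ∘ JN.scaleH d : ℍ → ℂ) ≠ 0 := by
    intro h
    have := congrFun h UpperHalfPlane.I
    simp only [comp_apply, Pi.pow_apply, Pi.zero_apply] at this
    exact pow_ne_zero m (discriminant_ne_zero _) this
  have hU : ofPS (qExpansion 1 ((Δ ^ m) ∘ JN.scaleH d)) ≠ 0 := hu'.ofPS_ne_zero hne
  apply mul_right_cancel₀ hU
  rw [qexpFun_mul_ofPS hg hu' H', e, ofPS_qExpansion_comp_scaleH d H,
    ofPS_qExpansion_comp_scaleH d hu, ← map_mul, qexpFun_mul_ofPS hf hu H]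

end Fermat.Agent.S24.QExp
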