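/-
M2b / S24, task B6: numerics.  With `ψ = dedekindPsi N` and `o_g` the number of orbits of `⟨g⟩` on
`SL(2, ℤ) ⧸ Γ₀(N)`, the integer `X = 2 + ψ - o_S - o_{ST} - o_T` is even and non-negative, and
`X / 2 = genusFormula N`; hence `((d + 2).toNat / 2 : ℕ) = genusFormula N` for
`d = ψ - o_S - o_{ST} - o_T` (the degree of a canonical divisor).

* parity: `sign (toPerm g) = (-1) ^ (card X + #orbits of ⟨g⟩)` for any action on a finite set
  (via `cycleType`), and `sign` is multiplicative;
* non-negativity: helper28's cohomological bound `ES.CohomBound.finrank_parabolicHoms_le`;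
* value: helper24's `P1.genusFormula_eq_orbits`.
-/
import Mathlib
import Fermat.Agent.M2.P1Hurwitz
import Fermat.Agent.M2.ES.CohomBound

set_option autoImplicit false

namespace Fermat.Agent.S24.Numerics

open Equiv Equiv.Perm

section PermOrbits

variable {α : Type*} [Fintype α] [DecidableEq α]

/-- classify a point by its cycle: a fixed point, or the cycle factor through it -/
def classify (f : Perm α) (x : α) :
    Function.fixedPoints f ⊕ {c : Perm α // c ∈ f.cycleFactorsFinset} :=
  if h : f x = x then Sum.inl ⟨x, h⟩
  else Sum.inr ⟨f.cycleOf x, cycleOf_mem_cycleFactorsFinset_iff.mpr (mem_support.mpr h)⟩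

theorem classify_eq_iff (f : Perm α) (x y : α) :
    classify f x = classify f y ↔ f.SameCycle x y := by
  unfold classify
  constructor
  · intro h
    by_cases hx : f x = x <;> by_cases hy : f y = y
    · rw [dif_pos hx, dif_pos hy] at h
      have := congrArg Subtype.val (Sum.inl.inj h)
      simp only at this
      rw [this]
    · rw [dif_pos hx, dif_neg hy] at h
      exact absurd h (by simp)
    · rw [dif_neg hx, dif_pos hy] at h
      exact absurd h (by simp)
    · rw [dif_neg hx, dif_neg hy] at h
      have := congrArg Subtype.val (Sum.inr.inj h)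
      simp only at this
      exact (sameCycle_iff_cycleOf_eq_of_mem_support (mem_support.mpr hx)
        (mem_support.mpr hy)).mpr this
  · intro h
    by_cases hx : f x = x
    · have hy : f y = y := h.apply_eq_self_iff.mp hx
      have hxy : x = y := h.eq_of_left hx
      subst hxy
      rfl
    · have hy : ¬ f y = y := fun hy => hx (h.apply_eq_self_iff.mpr hy)
      rw [dif_neg hx, dif_neg hy]
      congr 1
      exact Subtype.ext h.cycleOf_eq

theorem classify_surjective (f : Perm α) : Function.Surjective (classify f) := by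
  rintro (⟨x, hx⟩ | ⟨c, hc⟩)
  · refine ⟨x, ?_⟩
    have hx' : f x = x := hx
    unfold classify
    rw [dif_pos hx']
  · have hc' := mem_cycleFactorsFinset_iff.mp hc
    obtain ⟨a, ha⟩ := hc'.1.nonempty_support
    have hfa : ¬ f a = a := by
      rw [← hc'.2 a ha]
      exact mem_support.mp ha
    refine ⟨a, ?_⟩
    unfold classify
    rw [dif_neg hfa]
    congr 1
    exact Subtype.ext (cycle_is_cycleOf ha hc).symm

/-- number of cycles (orbits) of a permutation in terms of its cycle type -/
theorem card_quotient_sameCycle (f : Perm α) :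
    Nat.card (Quotient (SameCycle.setoid f)) + f.cycleType.sum =
      Fintype.card α + Multiset.card f.cycleType := by
  have hker : SameCycle.setoid f = Setoid.ker (classify f) := by
    ext x y
    exact (classify_eq_iff f x y).symm
  have e : Quotient (SameCycle.setoid f) ≃
      (Function.fixedPoints f ⊕ {c : Perm α // c ∈ f.cycleFactorsFinset}) := by
    rw [hker]
    exact Setoid.quotientKerEquivOfSurjective _ (classify_surjective f)
  have hsum := sum_cycleType_le f
  have hcard : Multiset.card f.cycleType = f.cycleFactorsFinset.card := by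
    rw [cycleType_def, Multiset.card_map]; rfl
  rw [Nat.card_congr e, Nat.card_eq_fintype_card, Fintype.card_sum, card_fixedPoints,
    Fintype.card_coe, hcard]
  omega

theorem neg_one_pow_eq_of_even {a b : ℕ} (h : Even (a + b)) : (-1 : ℤˣ) ^ a = (-1) ^ b := by
  have h1 : (-1 : ℤˣ) ^ a * (-1) ^ b = 1 := by rw [← pow_add]; exact h.neg_one_pow
  have h2 : (-1 : ℤˣ) ^ b * (-1) ^ b = 1 := by rw [← pow_add]; exact (Even.neg_one_pow ⟨b, rfl⟩)
  exact mul_right_cancel (h1.trans h2.symm)

theorem even_of_neg_one_pow_eq {a b : ℕ} (h : (-1 : ℤˣ) ^ a = (-1) ^ b) : Even (a + b) := by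
  have h2 : (-1 : ℤˣ) ^ b * (-1) ^ b = 1 := by rw [← pow_add]; exact (Even.neg_one_pow ⟨b, rfl⟩)
  have h1 : (-1 : ℤˣ) ^ (a + b) = 1 := by rw [pow_add, h]; exact h2
  exact (neg_one_pow_eq_one_iff_even (by decide)).mp h1

/-- the sign of a permutation from its number of cycles -/
theorem sign_eq_neg_one_pow (f : Perm α) :
    sign f = (-1) ^ (Fintype.card α + Nat.card (Quotient (SameCycle.setoid f))) := by
  rw [sign_of_cycleType]
  apply neg_one_pow_eq_of_even
  have := card_quotient_sameCycle f
  have h : f.cycleType.sum + Multiset.card f.cycleType +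
      (Fintype.card α + Nat.card (Quotient (SameCycle.setoid f))) =
      2 * (Fintype.card α + Multiset.card f.cycleType) := by omega
  rw [h]
  exact even_two_mul _

end PermOrbits

section Action

variable {G X : Type*} [Group G] [MulAction G X]

/-- number of orbits of the cyclic group generated by `g` -/
noncomputable def orbCount (X : Type*) [MulAction G X] (g : G) : ℕ :=
  Nat.card (MulAction.orbitRel.Quotient (Subgroup.zpowers g) X)

theorem orbitRel_zpowers_iff (g : G) (a b : X) :
    (MulAction.orbitRel (Subgroup.zpowers g) X).r a b ↔ (MulAction.toPerm g : Perm X).SameCycle b a := by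
  change a ∈ MulAction.orbit (Subgroup.zpowers g) b ↔ _
  have hmem : a ∈ MulAction.orbit (Subgroup.zpowers g) b ↔ ∃ n : ℤ, g ^ n • b = a := by
    constructor
    · rintro ⟨⟨h, hh⟩, rfl⟩
      obtain ⟨n, rfl⟩ := Subgroup.mem_zpowers_iff.1 hh
      exact ⟨n, rfl⟩
    · rintro ⟨n, rfl⟩
      exact ⟨⟨g ^ n, Subgroup.zpow_mem_zpowers g n⟩, rfl⟩
  rw [hmem]
  refine exists_congr fun n => ?_
  have : ((MulAction.toPerm g : Perm X) ^ n) b = g ^ n • b := by
    have h := map_zpow (MulAction.toPermHom G X) g n
    rw [MulAction.toPermHom_apply, MulAction.toPermHom_apply] at h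
    rw [← h]
    rfl
  rw [this]

theorem orbCount_eq (g : G) :
    orbCount X g = Nat.card (Quotient (SameCycle.setoid (MulAction.toPerm g : Perm X))) := by
  unfold orbCount MulAction.orbitRel.Quotient
  refine Nat.card_congr (Quotient.congrRight fun a b => ?_)
  rw [orbitRel_zpowers_iff]
  exact ⟨fun h => h.symm, fun h => h.symm⟩

variable [Finite X]

/-- **Parity of orbit counts**: for `g, h` acting on a finite set of size `n`,
`n + o_g + o_h + o_{gh}` is even. -/
theorem even_card_add_orbCount (g h : G) :
    Even (Nat.card X + orbCount X g + orbCount X h + orbCount X (g * h)) := by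
  classical
  haveI : Fintype X := Fintype.ofFinite X
  have hs : sign (MulAction.toPerm (g * h) : Perm X) =
      sign (MulAction.toPerm g : Perm X) * sign (MulAction.toPerm h : Perm X) := by
    rw [← Perm.sign_mul]
    congr 1
    exact map_mul (MulAction.toPermHom G X) g h
  rw [sign_eq_neg_one_pow, sign_eq_neg_one_pow, sign_eq_neg_one_pow, ← orbCount_eq, ← orbCount_eq,
    ← orbCount_eq, ← pow_add] at hs
  have := even_of_neg_one_pow_eq hs
  rw [Nat.card_eq_fintype_card]
  have h2 : Fintype.card X + orbCount X g + orbCount X h + orbCount X (g * h) +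
      2 * Fintype.card X =
      Fintype.card X + orbCount X (g * h) +
        (Fintype.card X + orbCount X g + (Fintype.card X + orbCount X h)) := by ring
  have h3 := h2 ▸ this
  exact (Nat.even_add.mp h3).mpr (even_two_mul _)

end Action

section Gamma0

open Matrix MatrixGroups ModularCurve ModularGroup
open Fermat.Agent.M2.P1 (orbitCount)

variable (N : ℕ) [NeZero N]

/-- `ψ + o_S + o_{ST} + o_T` is even. -/
theorem even_psi_add_orbits :
    Even (dedekindPsi N + orbitCount N S + orbitCount N (S * T) + orbitCount N T) := by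
  have : Finite (SL(2, ℤ) ⧸ CongruenceSubgroup.Gamma0 N) :=
    Subgroup.finite_quotient_of_finiteIndex
  have h := even_card_add_orbCount (X := SL(2, ℤ) ⧸ CongruenceSubgroup.Gamma0 N) S T
  rw [Fermat.Agent.M2.P1.card_coset_Gamma0 N (NeZero.ne N)] at h
  have e : dedekindPsi N + orbitCount N S + orbitCount N (S * T) + orbitCount N T =
      dedekindPsi N + orbitCount N S + orbitCount N T + orbitCount N (S * T) := by ring
  rw [e]
  exact h

/-- `o_S + o_{ST} + o_T ≤ ψ + 2` (cohomological bound). -/
theorem orbits_le : orbitCount N S + orbitCount N (S * T) + orbitCount N T ≤ dedekindPsi N + 2 := by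
  have h := Fermat.Agent.M2.ES.CohomBound.finrank_parabolicHoms_le (CongruenceSubgroup.Gamma0 N)
  rw [Fermat.Agent.M2.P1.index_Gamma0 N (NeZero.ne N)] at h
  have e : ∀ g, Fermat.Agent.M2.ES.CohomBound.orb (CongruenceSubgroup.Gamma0 N) g = orbitCount N g :=
    fun _ => rfl
  rw [e, e, e] at h
  omega

/-- **B6**: if `d = ψ - o_S - o_{ST} - o_T` (the degree of a canonical divisor of the function
field of `X₀(N)`), then `(d + 2).toNat / 2 = genusFormula N`. -/
theorem toNat_div_two_eq_genusFormula (d : ℤ)
    (hd : d = (dedekindPsi N : ℤ) - orbitCount N S - orbitCount N (S * T) - orbitCount N T) :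
    ((((d + 2).toNat / 2 : ℕ) : ℕ) : ℚ) = genusFormula N := by
  obtain ⟨k, hk⟩ := even_psi_add_orbits N
  have hle := orbits_le N
  apply Fermat.Agent.M2.P1.natCast_eq_genusFormula_of_orbits
  have h1 : (d + 2).toNat = dedekindPsi N + 2 - (orbitCount N S + orbitCount N (S * T) +
      orbitCount N T) := by
    rw [hd]; omega
  rw [h1]
  omega

end Gamma0

end Fermat.Agent.S24.Numerics
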