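/-
M2b / S24, B7 (Q̄-side half, helper12): from the degree `n = ψ(N)` and the four fibre counts of
`x : modularFunctionFieldBar N` over `Q̄` (in the `nonunits` shape) to
`genus = genusFormula N`, via `Hurwitz.hurwitz_degree` (helper7) and
`Numerics.toNat_div_two_eq_genusFormula` (helper17).
-/
import Fermat.Prelude.Def_ModularCurve_ArithmeticGalois
import Fermat.Prelude.Def_ModularCurve_GenusNumerics
import Fermat.Prelude.Def_AlgebraicCurve_CanonicalDivisor
import Fermat.Agent.S24.Hurwitz
import Fermat.Agent.S24.Numerics
import Fermat.Agent.S24.CountsC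

set_option autoImplicit false

open AlgebraicCurve ModularCurve KaehlerDifferential IntermediateField

namespace Fermat.Agent.S24.AssemblyQbar

open Fermat.Agent.M2.P1

/-- `Q̄`. -/
abbrev Qbar := AlgebraicClosure ℚ

/-- Q̄-side assembly: from the degree and the fibre counts (in the `nonunits` shape) to the genus. -/
theorem genus_eq_of_counts (N : ℕ) [NeZero N]
    [HasCanonicalDivisor (K := Qbar) (F := ↥(modularFunctionFieldBar N))]
    (x : ↥(modularFunctionFieldBar N)) (hx : Transcendental Qbar x)
    [FiniteDimensional Qbar⟮x⟯ ↥(modularFunctionFieldBar N)]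
    (hn : Module.finrank Qbar⟮x⟯ ↥(modularFunctionFieldBar N) = dedekindPsi N)
    (hc : ∀ c : Qbar, c ≠ 0 → c ≠ 1728 →
      Nat.card {v : Place Qbar ↥(modularFunctionFieldBar N) //
        x - algebraMap Qbar _ c ∈ v.toValuationSubring.nonunits} = dedekindPsi N)
    (h0 : Nat.card {v : Place Qbar ↥(modularFunctionFieldBar N) //
        x - algebraMap Qbar _ 0 ∈ v.toValuationSubring.nonunits}
          = orbitCount N (ModularGroup.S * ModularGroup.T))
    (h1728 : Nat.card {v : Place Qbar ↥(modularFunctionFieldBar N) //
        x - algebraMap Qbar _ 1728 ∈ v.toValuationSubring.nonunits}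
          = orbitCount N ModularGroup.S)
    (hinf : Nat.card {v : Place Qbar ↥(modularFunctionFieldBar N) //
        x⁻¹ ∈ v.toValuationSubring.nonunits} = orbitCount N ModularGroup.T) :
    (genus Qbar ↥(modularFunctionFieldBar N) : ℚ) = genusFormula N := by
  classical
  have hxK : ∀ c : Qbar, x - algebraMap Qbar _ c ≠ 0 := by
    intro c h
    apply hx
    rw [sub_eq_zero] at h
    rw [h]
    exact isAlgebraic_algebraMap c
  have hx0 : x ≠ 0 := by
    intro h
    apply hx
    rw [h]
    exact isAlgebraic_zero
  -- convert the counts to the `ord` shape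
  have conv : ∀ h : ↥(modularFunctionFieldBar N), h ≠ 0 →
      Nat.card {v : Place Qbar ↥(modularFunctionFieldBar N) // 0 < v.ord h}
        = Nat.card {v : Place Qbar ↥(modularFunctionFieldBar N) //
            h ∈ v.toValuationSubring.nonunits} := by
    intro h hh
    refine Nat.card_congr (Equiv.subtypeEquivRight fun v => ?_)
    exact (CountsC.mem_nonunits_iff_ord_pos v hh).symm
  have hex : ∃ ω : Ω[↥(modularFunctionFieldBar N)⁄Qbar], ω ≠ 0 :=
    KaehlerFF.exists_differential_ne_zero x hx
  have h1728' : (1728 : Qbar) ≠ 0 := by norm_num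
  have hdeg := Hurwitz.hurwitz_degree (K := Qbar) x hx {0, 1728}
    (fun c hcS => by
      simp only [Finset.mem_insert, Finset.mem_singleton, not_or] at hcS
      rw [conv _ (hxK c), hc c hcS.1 hcS.2, hn]) hex.choose_spec
  rw [Finset.sum_pair h1728'.symm, conv _ (hxK 0), conv _ (hxK 1728),
    conv _ (inv_ne_zero hx0), h0, h1728, hinf, hn] at hdeg
  unfold genus
  rw [dif_pos hex]
  apply Numerics.toNat_div_two_eq_genusFormula
  rw [hdeg]
  ring

end Fermat.Agent.S24.AssemblyQbar
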