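/-
M2b / S24, task B2 (a): the degree of a function field over `K(x)` is preserved by a linearly
disjoint extension of the constant field.  Pure algebra (Mathlib only), in ring-hom (semilinear)
form: `ι : K →+* L`, `φ : F →+* F'` with `φ (algebraMap K F c) = algebraMap L F' (ι c)`.

* `Disjoint' φ` : finite `K`-linearly independent families stay `L`-linearly independent;
* `transcendental_map` : `φ x` is transcendental over `L`;
* `linearIndependent_map` : `K(x)`-independent families stay `L(φ x)`-independent;
* `span_map_eq_top` : the image of a `K(x)`-basis spans `F'` over `L(φ x)` when `F' = L(φ F)`;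
* `finrank_map`, `finiteDimensional_map` : `[F' : L(φ x)] = [F : K(x)]`.
-/
import Mathlib

namespace Fermat.Agent.S24.DegreeTransfer

open IntermediateField Polynomial
open scoped IntermediateField.algebraAdjoinAdjoin

section

variable {K L F F' : Type*} [Field K] [Field L] [Field F] [Field F'] [Algebra K F] [Algebra L F']
variable (ι : K →+* L) (φ : F →+* F')

/-- Linear disjointness hypothesis: finite `K`-linearly independent families of `F` stay
`L`-linearly independent after `φ`. -/
def Disjoint' : Prop :=
  ∀ (n : ℕ) (b : Fin n → F), LinearIndependent K b → LinearIndependent L (φ ∘ b)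

variable {φ}

theorem Disjoint'.of_fintype (hdisj : Disjoint' (K := K) (L := L) φ) {κ : Type*} [Fintype κ]
    (b : κ → F) (hb : LinearIndependent K b) : LinearIndependent L (φ ∘ b) := by
  let e := Fintype.equivFin κ
  have h1 : LinearIndependent K (b ∘ e.symm) := (linearIndependent_equiv e.symm).mpr hb
  have h2 := hdisj _ _ h1
  have h3 : φ ∘ (b ∘ e.symm) = (φ ∘ b) ∘ e.symm := rfl
  rw [h3] at h2
  exact (linearIndependent_equiv e.symm).mp h2

/-- Powers of a transcendental element are linearly independent. -/
theorem linearIndependent_pow_of_transcendental {x : F} (hx : Transcendental K x) :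
    LinearIndependent K (fun k : ℕ => x ^ k) := by
  have hinj : Function.Injective (aeval (R := K) x) := transcendental_iff_injective.mp hx
  have h := (Polynomial.basisMonomials K).linearIndependent.map' (aeval (R := K) x).toLinearMap
    (LinearMap.ker_eq_bot.mpr hinj)
  have heq : (fun k : ℕ => x ^ k) = (aeval (R := K) x).toLinearMap ∘ (Polynomial.basisMonomials K) := by
    ext k
    simp [Polynomial.coe_basisMonomials]
  rw [heq]
  exact h

variable {x : F}

/-- `x^k * b_i` is `K`-linearly independent when `b` is `K(x)`-linearly independent. -/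
theorem linearIndependent_pow_mul (hx : Transcendental K x) {κ : Type*} (b : κ → F)
    (hb : LinearIndependent K⟮x⟯ b) :
    LinearIndependent K (fun p : ℕ × κ => x ^ p.1 * b p.2) := by
  have hgen : Transcendental K (AdjoinSimple.gen K x) := by
    intro halg
    apply hx
    have := halg.algebraMap (A := F)
    simpa using this
  have h1 := linearIndependent_pow_of_transcendental hgen
  have h2 := linearIndependent_smul h1 hb
  have heq : (fun p : ℕ × κ => x ^ p.1 * b p.2) =
      fun p : ℕ × κ => AdjoinSimple.gen K x ^ p.1 • b p.2 := by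
    ext p
    rw [IntermediateField.smul_def, smul_eq_mul]
    simp
  rw [heq]
  exact h2

/-- The image of a transcendental element is transcendental over the bigger constant field. -/
theorem transcendental_map (hdisj : Disjoint' (K := K) (L := L) φ) (hx : Transcendental K x) :
    Transcendental L (φ x) := by
  rintro ⟨p, hp0, hp⟩
  apply hp0
  set D := p.natDegree + 1 with hD
  have hc : LinearIndependent K (fun k : Fin D => x ^ (k : ℕ)) :=
    (linearIndependent_pow_of_transcendental hx).comp (fun k : Fin D => (k : ℕ)) Fin.val_injective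
  have hc' := hdisj.of_fintype _ hc
  rw [Fintype.linearIndependent_iff] at hc'
  have key := hc' (fun k => p.coeff k) (by
    rw [← hp, aeval_eq_sum_range' (Nat.lt_succ_self _), Finset.sum_range]
    refine Finset.sum_congr rfl fun k _ => ?_
    simp)
  ext k
  by_cases hk : k < D
  · simpa using key ⟨k, hk⟩
  · rw [coeff_zero, coeff_eq_zero_of_natDegree_lt (by omega)]

/-- A `K(x)`-linearly independent family of `F` stays `L(φ x)`-linearly independent. -/
theorem linearIndependent_map (hdisj : Disjoint' (K := K) (L := L) φ) (hx : Transcendental K x)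
    {κ : Type*} [Fintype κ] (b : κ → F) (hb : LinearIndependent K⟮x⟯ b) :
    LinearIndependent L⟮φ x⟯ (φ ∘ b) := by
  classical
  rw [← LinearIndependent.iff_fractionRing (Algebra.adjoin L {φ x}) L⟮φ x⟯,
    Fintype.linearIndependent_iff]
  intro g hg
  have hex : ∀ i, ∃ p : L[X], aeval (φ x) p = (g i : F') := by
    intro i
    have h1 : ∀ y ∈ Algebra.adjoin L {φ x}, ∃ p : L[X], aeval (φ x) p = y := by
      intro y hy
      rw [Algebra.adjoin_singleton_eq_range_aeval] at hy
      exact hy
    exact h1 _ (g i).2
  choose p hp using hex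
  set D := (Finset.univ.sup fun i => (p i).natDegree) + 1 with hDdef
  have hD : ∀ i, (p i).natDegree < D := fun i =>
    Nat.lt_succ_of_le (Finset.le_sup (f := fun i => (p i).natDegree) (Finset.mem_univ i))
  let c : Fin D × κ → F := fun q => x ^ (q.1 : ℕ) * b q.2
  have hc : LinearIndependent K c :=
    (linearIndependent_pow_mul hx b hb).comp (fun q : Fin D × κ => ((q.1 : ℕ), q.2))
      (fun q q' h => by
        simp only [Prod.mk.injEq] at h
        exact Prod.ext (Fin.val_injective h.1) h.2)
  have hc' := hdisj.of_fintype c hc
  rw [Fintype.linearIndependent_iff] at hc'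
  have key := hc' (fun q => (p q.2).coeff q.1) (by
    rw [Fintype.sum_prod_type_right]
    rw [← hg]
    refine Finset.sum_congr rfl fun i _ => ?_
    have h1 : (g i) • (φ ∘ b) i = (g i : F') * φ (b i) := rfl
    rw [h1, ← hp i, aeval_eq_sum_range' (hD i), Finset.sum_range, Finset.sum_mul]
    refine Finset.sum_congr rfl fun k _ => ?_
    simp only [Function.comp_apply, c, map_mul, map_pow, Algebra.smul_def]
    ring)
  intro i
  have hpi : p i = 0 := by
    ext k
    by_cases hk : k < D
    · simpa using key (⟨k, hk⟩, i)
    · rw [coeff_zero, coeff_eq_zero_of_natDegree_lt (by have := hD i; omega)]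
  apply Subtype.ext
  rw [← hp i, hpi]
  simp

variable {ι}

/-- `φ` maps `K(x)` into `L(φ x)`. -/
theorem map_mem_adjoin (hφ : ∀ c, φ (algebraMap K F c) = algebraMap L F' (ι c)) {e : F}
    (he : e ∈ K⟮x⟯) : φ e ∈ L⟮φ x⟯ := by
  let T : IntermediateField K F :=
    { carrier := {f | φ f ∈ L⟮φ x⟯}
      mul_mem' := fun {a c} ha hc => by
        show φ (a * c) ∈ L⟮φ x⟯
        rw [map_mul]; exact mul_mem ha hc
      one_mem' := by
        show φ 1 ∈ L⟮φ x⟯
        rw [map_one]; exact one_mem _
      add_mem' := fun {a c} ha hc => by
        show φ (a + c) ∈ L⟮φ x⟯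
        rw [map_add]; exact add_mem ha hc
      zero_mem' := by
        show φ 0 ∈ L⟮φ x⟯
        rw [map_zero]; exact zero_mem _
      algebraMap_mem' := fun c => by
        show φ (algebraMap K F c) ∈ L⟮φ x⟯
        rw [hφ]; exact IntermediateField.algebraMap_mem _ _
      inv_mem' := fun a ha => by
        show φ a⁻¹ ∈ L⟮φ x⟯
        rw [map_inv₀]; exact inv_mem ha }
  have hle : K⟮x⟯ ≤ T :=
    IntermediateField.adjoin_simple_le_iff.mpr (IntermediateField.mem_adjoin_simple_self L (φ x))
  exact hle he

/-- The images of a `K(x)`-basis of `F` span `F'` over `L(φ x)`. -/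
theorem span_map_eq_top (hφ : ∀ c, φ (algebraMap K F c) = algebraMap L F' (ι c))
    (hgen : IntermediateField.adjoin L (Set.range φ) = ⊤) {κ : Type*} [Fintype κ]
    (b : Module.Basis κ K⟮x⟯ F) :
    Submodule.span L⟮φ x⟯ (Set.range (φ ∘ b)) = ⊤ := by
  classical
  set M : Submodule L⟮φ x⟯ F' := Submodule.span L⟮φ x⟯ (Set.range (φ ∘ b)) with hM
  -- Step A: the image of `φ` lies in `M`
  have hA : ∀ f : F, φ f ∈ M := by
    intro f
    have hf : f = ∑ i, ((b.repr f i : K⟮x⟯) : F) * b i := by
      conv_lhs => rw [← b.sum_repr f]
      refine Finset.sum_congr rfl fun i _ => ?_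
      rw [IntermediateField.smul_def, smul_eq_mul]
    rw [hf, map_sum]
    refine Submodule.sum_mem _ fun i _ => ?_
    rw [map_mul]
    have h1 : φ ((b.repr f i : K⟮x⟯) : F) ∈ L⟮φ x⟯ := map_mem_adjoin hφ (b.repr f i).2
    have h2 : φ (b i) ∈ M := Submodule.subset_span ⟨i, rfl⟩
    have := M.smul_mem ⟨_, h1⟩ h2
    rwa [IntermediateField.smul_def, smul_eq_mul] at this
  -- Step B: `M` is closed under multiplication
  have hB : ∀ a c : F', a ∈ M → c ∈ M → a * c ∈ M := by
    intro a c ha hc
    induction ha using Submodule.span_induction with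
    | mem a ha =>
      obtain ⟨i, rfl⟩ := ha
      induction hc using Submodule.span_induction with
      | mem c hc =>
        obtain ⟨j, rfl⟩ := hc
        simp only [Function.comp_apply]
        rw [← map_mul]
        exact hA _
      | zero => simp
      | add c c' _ _ h1 h2 => rw [mul_add]; exact add_mem h1 h2
      | smul e c _ h1 => rw [mul_smul_comm]; exact M.smul_mem e h1
    | zero => simp
    | add a a' _ _ h1 h2 => rw [add_mul]; exact add_mem h1 h2
    | smul e a _ h1 => rw [smul_mul_assoc]; exact M.smul_mem e h1
  have h1M : (1 : F') ∈ M := by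
    have := hA 1
    rwa [map_one] at this
  -- Step C: `M` is a field containing `L`
  let S : Subalgebra L⟮φ x⟯ F' := M.toSubalgebra h1M hB
  have hSfg : S.toSubmodule.FG := by
    have : S.toSubmodule = M := rfl
    rw [this]
    exact Submodule.fg_span (Set.finite_range _)
  let T : IntermediateField L F' :=
    { carrier := M
      mul_mem' := fun {a c} ha hc => hB a c ha hc
      one_mem' := h1M
      add_mem' := fun {a c} ha hc => M.add_mem ha hc
      zero_mem' := M.zero_mem
      algebraMap_mem' := fun l => by
        have := M.smul_mem (algebraMap L L⟮φ x⟯ l) h1M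
        rwa [IntermediateField.smul_def, smul_eq_mul, mul_one] at this
      inv_mem' := fun a ha => by
        have hint : IsIntegral L⟮φ x⟯ a := IsIntegral.of_mem_of_fg S hSfg a ha
        exact S.inv_mem_of_algebraic (x := ⟨a, ha⟩) hint.isAlgebraic }
  have hle : IntermediateField.adjoin L (Set.range φ) ≤ T := by
    rw [IntermediateField.adjoin_le_iff]
    rintro _ ⟨f, rfl⟩
    exact hA f
  rw [hgen] at hle
  rw [eq_top_iff]
  intro a _
  exact hle (IntermediateField.mem_top (x := a))

/-- **Degree is preserved by constant field extension.** -/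
theorem finrank_map (hφ : ∀ c, φ (algebraMap K F c) = algebraMap L F' (ι c))
    (hdisj : Disjoint' (K := K) (L := L) φ)
    (hgen : IntermediateField.adjoin L (Set.range φ) = ⊤) (hx : Transcendental K x)
    [FiniteDimensional K⟮x⟯ F] :
    FiniteDimensional L⟮φ x⟯ F' ∧ Module.finrank L⟮φ x⟯ F' = Module.finrank K⟮x⟯ F := by
  let b := Module.finBasis K⟮x⟯ F
  have hli := linearIndependent_map hdisj hx b b.linearIndependent
  have hsp := span_map_eq_top hφ hgen b
  let b' := Module.Basis.mk hli hsp.ge
  exact ⟨Module.Finite.of_basis b', by rw [Module.finrank_eq_card_basis b', Fintype.card_fin]⟩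

theorem finiteDimensional_map (hφ : ∀ c, φ (algebraMap K F c) = algebraMap L F' (ι c))
    (hdisj : Disjoint' (K := K) (L := L) φ)
    (hgen : IntermediateField.adjoin L (Set.range φ) = ⊤) (hx : Transcendental K x)
    [FiniteDimensional K⟮x⟯ F] : FiniteDimensional L⟮φ x⟯ F' :=
  (finrank_map hφ hdisj hgen hx).1

end

end Fermat.Agent.S24.DegreeTransfer
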