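/-
M2b / S24, task B2d (descent direction of the degree transfer): in the setting of
`DegreeTransfer.lean` (`ι : K →+* L`, `φ : F →+* F'` semilinear and linearly disjoint),
WITHOUT any finiteness assumption on `F / K(x)` and without `F' = L(φ F)`:

* `linearIndependent_transfer` : `K(x)`-independent families (any index type) stay
  `L(φ x)`-independent;
* `transcendental_of_map` : `φ x` transcendental over `L` ⇒ `x` transcendental over `K`;
* `finiteDimensional_of_map` : `F' / L(φ x)` finite ⇒ `F / K(x)` finite, with `≤` of degrees;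
* `finrank_eq_of_map` : with `F' = L(φ F)` the degrees are equal;
* the same statements for `Transfer.LinDisj L φ` (`φ : F →ₐ[K] F'`).
-/
import Mathlib
import Fermat.Agent.S24.DegreeTransfer
import Fermat.Agent.S24.Transfer

namespace Fermat.Agent.S24.DescentDegree

open IntermediateField Polynomial Fermat.Agent.S24.DegreeTransfer

section ringhom

variable {K L F F' : Type*} [Field K] [Field L] [Field F] [Field F'] [Algebra K F] [Algebra L F']
variable {ι : K →+* L} {φ : F →+* F'} {x : F}

/-- (i) `K(x)`-linearly independent families stay `L(φ x)`-linearly independent. -/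
theorem linearIndependent_transfer (hdisj : Disjoint' (K := K) (L := L) φ)
    (hx : Transcendental K x) {κ : Type*} (b : κ → F) (hb : LinearIndependent K⟮x⟯ b) :
    LinearIndependent L⟮φ x⟯ (φ ∘ b) := by
  rw [linearIndependent_iff_finset_linearIndependent]
  intro s
  have h1 : LinearIndependent K⟮x⟯ (b ∘ (Subtype.val : s → κ)) :=
    hb.comp _ Subtype.val_injective
  exact linearIndependent_map hdisj hx _ h1

/-- (ii) transcendence descends. -/
theorem transcendental_of_map (hφ : ∀ c, φ (algebraMap K F c) = algebraMap L F' (ι c))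
    (h : Transcendental L (φ x)) : Transcendental K x := by
  rintro ⟨p, hp0, hp⟩
  apply h
  refine ⟨p.map ι, (Polynomial.map_ne_zero_iff ι.injective).mpr hp0, ?_⟩
  have hcomp : (algebraMap L F').comp ι = φ.comp (algebraMap K F) := by
    ext c
    simp [hφ c]
  rw [aeval_def, eval₂_map, hcomp, ← hom_eval₂, ← aeval_def, hp, map_zero]

/-- (iii) finiteness descends, with an inequality of degrees. -/
theorem finiteDimensional_of_map (hdisj : Disjoint' (K := K) (L := L) φ)
    (hx : Transcendental K x) [FiniteDimensional L⟮φ x⟯ F'] :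
    FiniteDimensional K⟮x⟯ F ∧ Module.finrank K⟮x⟯ F ≤ Module.finrank L⟮φ x⟯ F' := by
  have hrank : Module.rank K⟮x⟯ F ≤ (Module.finrank L⟮φ x⟯ F' : ℕ) := by
    apply rank_le
    intro s hs
    have h1 := linearIndependent_map hdisj hx (fun i : s => (i : F)) hs
    have h2 := h1.fintype_card_le_finrank
    simpa using h2
  have hfin : FiniteDimensional K⟮x⟯ F :=
    Module.rank_lt_aleph0_iff.mp (lt_of_le_of_lt hrank Cardinal.natCast_lt_aleph0)
  refine ⟨hfin, ?_⟩
  have := Module.finrank_eq_rank K⟮x⟯ F
  rw [← this] at hrank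
  exact_mod_cast hrank

/-- (iv) with `F' = L(φ F)` the degrees agree. -/
theorem finrank_eq_of_map (hφ : ∀ c, φ (algebraMap K F c) = algebraMap L F' (ι c))
    (hdisj : Disjoint' (K := K) (L := L) φ)
    (hgen : IntermediateField.adjoin L (Set.range φ) = ⊤) (hx : Transcendental K x)
    [FiniteDimensional L⟮φ x⟯ F'] :
    FiniteDimensional K⟮x⟯ F ∧ Module.finrank K⟮x⟯ F = Module.finrank L⟮φ x⟯ F' := by
  have hfin := (finiteDimensional_of_map hdisj hx).1
  exact ⟨hfin, (finrank_map hφ hdisj hgen hx).2.symm⟩

end ringhom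

section alghom

variable {K L F F' : Type*} [Field K] [Field L] [Field F] [Field F']
  [Algebra K L] [Algebra K F] [Algebra L F'] [Algebra K F'] [IsScalarTower K L F']
variable {φ : F →ₐ[K] F'} {x : F}

theorem disjoint'_of_linDisj (hφ : Transfer.LinDisj L φ) :
    Disjoint' (K := K) (L := L) (φ : F →+* F') :=
  fun _ _ hb => hφ.linearIndependent hb

theorem map_algebraMap (φ : F →ₐ[K] F') (c : K) :
    (φ : F →+* F') (algebraMap K F c) = algebraMap L F' (algebraMap K L c) := by
  rw [← IsScalarTower.algebraMap_apply K L F']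
  exact φ.commutes c

theorem transcendental_map_of_linDisj (hφ : Transfer.LinDisj L φ) (hx : Transcendental K x) :
    Transcendental L (φ x) :=
  transcendental_map (disjoint'_of_linDisj hφ) hx

theorem transcendental_of_map_algHom (h : Transcendental L (φ x)) : Transcendental K x :=
  transcendental_of_map (ι := algebraMap K L) (φ := (φ : F →+* F')) (map_algebraMap φ) h

theorem linearIndependent_transfer_of_linDisj (hφ : Transfer.LinDisj L φ)
    (hx : Transcendental K x) {κ : Type*} (b : κ → F) (hb : LinearIndependent K⟮x⟯ b) :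
    LinearIndependent L⟮φ x⟯ (φ ∘ b) :=
  linearIndependent_transfer (φ := (φ : F →+* F')) (disjoint'_of_linDisj hφ) hx b hb

theorem finiteDimensional_of_linDisj (hφ : Transfer.LinDisj L φ) (hx : Transcendental K x)
    [FiniteDimensional L⟮φ x⟯ F'] :
    FiniteDimensional K⟮x⟯ F ∧ Module.finrank K⟮x⟯ F ≤ Module.finrank L⟮φ x⟯ F' := by
  have h : FiniteDimensional L⟮(φ : F →+* F') x⟯ F' := ‹FiniteDimensional L⟮φ x⟯ F'›
  exact finiteDimensional_of_map (φ := (φ : F →+* F')) (disjoint'_of_linDisj hφ) hx

theorem finrank_eq_of_linDisj (hφ : Transfer.LinDisj L φ)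
    (hgen : IntermediateField.adjoin L (Set.range φ) = ⊤) (hx : Transcendental K x)
    [FiniteDimensional L⟮φ x⟯ F'] :
    FiniteDimensional K⟮x⟯ F ∧ Module.finrank K⟮x⟯ F = Module.finrank L⟮φ x⟯ F' := by
  have h : FiniteDimensional L⟮(φ : F →+* F') x⟯ F' := ‹FiniteDimensional L⟮φ x⟯ F'›
  exact finrank_eq_of_map (ι := algebraMap K L) (φ := (φ : F →+* F')) (map_algebraMap φ)
    (disjoint'_of_linDisj hφ) hgen hx

/-- Forward direction in `LinDisj` form (`= DegreeTransfer.finrank_map`). -/
theorem finrank_map_of_linDisj (hφ : Transfer.LinDisj L φ)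
    (hgen : IntermediateField.adjoin L (Set.range φ) = ⊤) (hx : Transcendental K x)
    [FiniteDimensional K⟮x⟯ F] :
    FiniteDimensional L⟮φ x⟯ F' ∧ Module.finrank L⟮φ x⟯ F' = Module.finrank K⟮x⟯ F :=
  finrank_map (ι := algebraMap K L) (φ := (φ : F →+* F')) (map_algebraMap φ)
    (disjoint'_of_linDisj hφ) hgen hx

end alghom

end Fermat.Agent.S24.DescentDegree
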