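/-
S24 / M2b, B5 (instantiation): counts of places of `K = WHField (Gamma0 N)` (over `ℂ`) at which
`j - c` resp. `1/j` vanishes, from the M2 dictionary (helper24 `DictCount`, helper20 `DictInf`),
and their transport to `F_ℂ = FC N ⊆ ℂ((q))` along the `q`-expansion isomorphism (helper23).
-/
import Fermat.Agent.S24.CountsC
import Fermat.Agent.S24.FieldIso
import Fermat.Agent.S24.QExp
import Fermat.Agent.M2.DictCount
import Fermat.Agent.M2.DictInf

set_option autoImplicit false

namespace Fermat.Agent.S24.CountsWH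

open UpperHalfPlane MatrixGroups Polynomial CongruenceSubgroup AlgebraicCurve ModularCurve
open Fermat.Agent.M2 Fermat.Agent.S24.CountsC Fermat.Agent.S24.FieldIso

variable (N : ℕ) [NeZero N]

omit [NeZero N] in
theorem algebraMap_X_eq_jM : algebraMap ℂ[X] (WHField (Gamma0 N)) X = jM N := by
  rw [algebraMap_poly_eq_aeval_jM, Polynomial.aeval_X]

omit [NeZero N] in
theorem algebraMap_poly_injective :
    Function.Injective (algebraMap ℂ[X] (integralClosure ℂ[X] (WHField (Gamma0 N)))) := by
  intro a b hab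
  apply algebraMap_poly_WHField_injective (Gamma0 N)
  rw [IsScalarTower.algebraMap_apply ℂ[X] (integralClosure ℂ[X] (WHField (Gamma0 N)))
    (WHField (Gamma0 N)), hab, ← IsScalarTower.algebraMap_apply]

/-- Places of `K = WHField (Gamma0 N)` at which `j - c` vanishes ↔ primes of `B` over `(X - c)`. -/
theorem card_zeros_jM_sub (c : ℂ) :
    Nat.card {v : Place ℂ (WHField (Gamma0 N)) //
      jM N - algebraMap ℂ (WHField (Gamma0 N)) c ∈ v.toValuationSubring.nonunits} =
    Nat.card ((Ideal.span {X - C c}).primesOver (integralClosure ℂ[X] (WHField (Gamma0 N)))) := by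
  rw [card_primesOver_span_X_sub_C (K := ℂ) (F := WHField (Gamma0 N))
    (R := integralClosure ℂ[X] (WHField (Gamma0 N))) (algebraMap_poly_injective N) c,
    algebraMap_X_eq_jM]

/-! ### Places at infinity -/

section Infinity

variable (Γ : Subgroup SL(2, ℤ))

/-- Shortcut instance: constants, the valuation ring at infinity, and the function field. -/
instance instIsScalarTowerComplexOinfWHField : IsScalarTower ℂ (DW.Oinf ℂ) (WHField Γ) :=
  IsScalarTower.of_algebraMap_eq fun c => by
    rw [CuspSqueeze.algebraMap_Oinf_apply, DW.coe_algebraMap_Oinf,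
      IsScalarTower.algebraMap_apply ℂ (RatFunc ℂ) (WHField Γ), RatFunc.algebraMap_eq_C]

omit [NeZero N] in
theorem algebraMap_ratFunc_X_eq_jM :
    algebraMap (RatFunc ℂ) (WHField (Gamma0 N)) RatFunc.X = jM N := by
  rw [← algebraMap_X_eq_jM, ← RatFunc.algebraMap_X,
    ← IsScalarTower.algebraMap_apply ℂ[X] (RatFunc ℂ) (WHField (Gamma0 N))]

omit [NeZero N] in
theorem algebraMap_Oinf_injective :
    Function.Injective
      (algebraMap (DW.Oinf ℂ) (integralClosure (DW.Oinf ℂ) (WHField (Gamma0 N)))) := by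
  intro a b hab
  have h1 : algebraMap (DW.Oinf ℂ) (WHField (Gamma0 N)) a =
      algebraMap (DW.Oinf ℂ) (WHField (Gamma0 N)) b := by
    rw [IsScalarTower.algebraMap_apply (DW.Oinf ℂ)
      (integralClosure (DW.Oinf ℂ) (WHField (Gamma0 N))) (WHField (Gamma0 N)), hab,
      ← IsScalarTower.algebraMap_apply]
  rw [CuspSqueeze.algebraMap_Oinf_apply, CuspSqueeze.algebraMap_Oinf_apply] at h1
  exact Subtype.ext ((algebraMap (RatFunc ℂ) (WHField (Gamma0 N))).injective h1)

/-- Places of `K = WHField (Gamma0 N)` at which `1/j` vanishes ↔ primes of `Binf`. -/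
theorem card_zeros_jM_inv :
    Nat.card {v : Place ℂ (WHField (Gamma0 N)) // (jM N)⁻¹ ∈ v.toValuationSubring.nonunits} =
    Nat.card ((IsLocalRing.maximalIdeal (DW.Oinf ℂ)).primesOver
      (integralClosure (DW.Oinf ℂ) (WHField (Gamma0 N)))) := by
  have h := @card_primesOver_maximalIdeal_Oinf ℂ (WHField (Gamma0 N)) _ _ _ _ _
    (inferInstance : Algebra (DW.Oinf ℂ) (WHField (Gamma0 N)))
    (integralClosure (DW.Oinf ℂ) (WHField (Gamma0 N))) _
    (inferInstanceAs (IsDedekindDomain (integralClosure (DW.Oinf ℂ) (WHField (Gamma0 N))))) _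
    (inferInstanceAs (IsFractionRing (integralClosure (DW.Oinf ℂ) (WHField (Gamma0 N)))
      (WHField (Gamma0 N)))) _ _
    (inferInstance : Algebra (DW.Oinf ℂ) (integralClosure (DW.Oinf ℂ) (WHField (Gamma0 N))))
    (inferInstanceAs (IsScalarTower (DW.Oinf ℂ) (integralClosure (DW.Oinf ℂ) (WHField (Gamma0 N)))
      (WHField (Gamma0 N))))
    (inferInstanceAs (Algebra.IsIntegral (DW.Oinf ℂ)
      (integralClosure (DW.Oinf ℂ) (WHField (Gamma0 N)))))
    (algebraMap_Oinf_injective N)
    (fun a => CuspSqueeze.algebraMap_Oinf_apply (Gamma0 N) a)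
  rw [algebraMap_ratFunc_X_eq_jM] at h
  exact h.symm

end Infinity

/-! ### Degrees -/

section Degree

open IntermediateField

/-- Transport of the degree over `K(x)` along an isomorphism of function fields. -/
theorem finrank_adjoin_congr {K F F' : Type*} [Field K] [Field F] [Field F'] [Algebra K F]
    [Algebra K F'] (e : F ≃ₐ[K] F') (x : F) :
    Module.finrank K⟮e x⟯ F' = Module.finrank K⟮x⟯ F := by
  have hmap : (K⟮x⟯).map (e : F →ₐ[K] F') = K⟮e x⟯ := by
    rw [IntermediateField.adjoin_map, Set.image_singleton]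
    rfl
  let i : K⟮x⟯ ≃+* K⟮e x⟯ :=
    ((IntermediateField.equivMap K⟮x⟯ (e : F →ₐ[K] F')).trans
      (IntermediateField.equivOfEq hmap)).toRingEquiv
  symm
  refine Algebra.finrank_eq_of_equiv_equiv i e.toRingEquiv ?_
  ext a
  rfl

/-- If `F` is an extension of `K(X)`, the degree over the subfield `K(x)` generated by the image
`x` of `X` is the degree over `K(X)`. -/
theorem finrank_adjoin_eq_finrank_ratFunc {K F : Type*} [Field K] [Field F] [Algebra K F]
    [Algebra (RatFunc K) F] [IsScalarTower K (RatFunc K) F] :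
    Module.finrank K⟮algebraMap (RatFunc K) F RatFunc.X⟯ F = Module.finrank (RatFunc K) F := by
  let g : RatFunc K →ₐ[K] F := IsScalarTower.toAlgHom K (RatFunc K) F
  have hrange : g.fieldRange = K⟮algebraMap (RatFunc K) F RatFunc.X⟯ := by
    rw [AlgHom.fieldRange_eq_map, ← RatFunc.adjoin_X, IntermediateField.adjoin_map,
      Set.image_singleton]
    rfl
  let i : RatFunc K ≃+* K⟮algebraMap (RatFunc K) F RatFunc.X⟯ :=
    ((AlgEquiv.ofInjectiveField g).trans (IntermediateField.equivOfEq hrange)).toRingEquiv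
  symm
  refine Algebra.finrank_eq_of_equiv_equiv i (RingEquiv.refl F) ?_
  ext a
  rfl

end Degree

/-! ### The five numbers for `K = WHField (Gamma0 N)` -/

section Numbers

open IntermediateField

theorem card_zeros_jM_sub_of_ne {c : ℂ} (h0 : c ≠ 0) (h1 : c ≠ 1728) :
    Nat.card {v : Place ℂ (WHField (Gamma0 N)) //
      jM N - algebraMap ℂ (WHField (Gamma0 N)) c ∈ v.toValuationSubring.nonunits} =
    dedekindPsi N := by
  rw [card_zeros_jM_sub, Dict.card_primesOver_of_ne N h0 h1]

theorem card_zeros_jM_sub_zero :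
    Nat.card {v : Place ℂ (WHField (Gamma0 N)) //
      jM N - algebraMap ℂ (WHField (Gamma0 N)) 0 ∈ v.toValuationSubring.nonunits} =
    P1.orbitCount N (ModularGroup.S * ModularGroup.T) := by
  rw [card_zeros_jM_sub, Dict.card_primesOver_zero]

theorem card_zeros_jM_sub_1728 :
    Nat.card {v : Place ℂ (WHField (Gamma0 N)) //
      jM N - algebraMap ℂ (WHField (Gamma0 N)) 1728 ∈ v.toValuationSubring.nonunits} =
    P1.orbitCount N ModularGroup.S := by
  rw [card_zeros_jM_sub, Dict.card_primesOver_1728]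

theorem card_zeros_jM_inv_eq :
    Nat.card {v : Place ℂ (WHField (Gamma0 N)) // (jM N)⁻¹ ∈ v.toValuationSubring.nonunits} =
    P1.orbitCount N ModularGroup.T := by
  rw [card_zeros_jM_inv, DictInf.card_primesOver_inf]

theorem finrank_adjoin_jM :
    Module.finrank ℂ⟮jM N⟯ (WHField (Gamma0 N)) = dedekindPsi N := by
  rw [← algebraMap_ratFunc_X_eq_jM, finrank_adjoin_eq_finrank_ratFunc, Dict.finrank_K]

end Numbers

/-! ### Transport to `F_ℂ = FC N ⊆ ℂ((q))` -/

section FC

open IntermediateField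

/-- The `q`-expansion isomorphism `WHField (Gamma0 N) ≃ F_ℂ` (helper23 B4 + helper25 B3). -/
noncomputable def eFC : WHField (Gamma0 N) ≃ₐ[ℂ] ↥(FC N) :=
  qexpEquiv N (QExp.qexp N) (QExp.qexp_injective N) (QExp.qexp_jWH N)
    (fun d _ hd h => QExp.qexp_jN N d hd h)

/-- `j(q)` as an element of `F_ℂ`. -/
noncomputable def xC (N : ℕ) : ↥(FC N) := ⟨jqModC ℂ, jqModC_mem_FC N⟩

theorem eFC_jM : eFC N (jM N) = xC N :=
  qexpEquiv_jM N _ _ _ _

theorem card_zeros_xC_sub_of_ne {c : ℂ} (h0 : c ≠ 0) (h1 : c ≠ 1728) :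
    Nat.card {v : Place ℂ ↥(FC N) //
      xC N - algebraMap ℂ ↥(FC N) c ∈ v.toValuationSubring.nonunits} = dedekindPsi N := by
  rw [← card_zeros_jM_sub_of_ne N h0 h1, card_nonunits_congr (eFC N), map_sub, eFC_jM,
    AlgEquiv.commutes]

theorem card_zeros_xC_sub_zero :
    Nat.card {v : Place ℂ ↥(FC N) //
      xC N - algebraMap ℂ ↥(FC N) 0 ∈ v.toValuationSubring.nonunits} =
    P1.orbitCount N (ModularGroup.S * ModularGroup.T) := by
  rw [← card_zeros_jM_sub_zero N, card_nonunits_congr (eFC N), map_sub, eFC_jM,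
    AlgEquiv.commutes]

theorem card_zeros_xC_sub_1728 :
    Nat.card {v : Place ℂ ↥(FC N) //
      xC N - algebraMap ℂ ↥(FC N) 1728 ∈ v.toValuationSubring.nonunits} =
    P1.orbitCount N ModularGroup.S := by
  rw [← card_zeros_jM_sub_1728 N, card_nonunits_congr (eFC N), map_sub, eFC_jM,
    AlgEquiv.commutes]

theorem card_zeros_xC_inv :
    Nat.card {v : Place ℂ ↥(FC N) // (xC N)⁻¹ ∈ v.toValuationSubring.nonunits} =
    P1.orbitCount N ModularGroup.T := by
  rw [← card_zeros_jM_inv_eq N, card_nonunits_congr (eFC N), map_inv₀, eFC_jM]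

theorem finrank_adjoin_xC : Module.finrank ℂ⟮xC N⟯ ↥(FC N) = dedekindPsi N := by
  rw [← eFC_jM, finrank_adjoin_congr, finrank_adjoin_jM]

end FC

end Fermat.Agent.S24.CountsWH
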