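/-
M2b / S24, B7 glue: the degree of `F = Q̄(j(q^d) : d ∣ N)` over `Q̄(j(q))` is `ψ(N)`.

`finrank_xj` : for `x = ⟨coeffEmb Q̄ jq, h⟩`, `finrank Q̄⟮x⟯ (modularFunctionFieldBar N) = dedekindPsi N`,
from the `ℂ`-side degree (`CountsFC.finrank_FC`), the comparison map `BarToC.phi` (linearly disjoint,
generating, `φ x = x_ℂ`), and the degree transfer (`DescentDegree.finrank_map_of_linDisj`).
-/
import Mathlib
import Fermat.Agent.S24.BarToC
import Fermat.Agent.S24.CountsFC
import Fermat.Agent.S24.FFBasicsC
import Fermat.Agent.S24.DescentDegree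

set_option autoImplicit false
set_option linter.style.haveILetI false

namespace Fermat.Agent.S24.DegreeQbar

open ModularCurve IntermediateField Fermat.Agent.S24.FieldIso Fermat.Agent.M2

variable (N : ℕ) [NeZero N]

/-- **The degree of `X₀(N) → X(1)` over `Q̄`.** -/
theorem finrank_xj (h : coeffEmb (AlgebraicClosure ℚ) jq ∈ modularFunctionFieldBar N) :
    Module.finrank
      (IntermediateField.adjoin (AlgebraicClosure ℚ)
        {(⟨coeffEmb (AlgebraicClosure ℚ) jq, h⟩ : modularFunctionFieldBar N)})
      (modularFunctionFieldBar N) = dedekindPsi N := by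
  letI := BarToC.algQC BarToC.iota
  letI := BarToC.algQFC N BarToC.iota
  haveI := BarToC.isScalarTower N BarToC.iota
  haveI := FFBasics.finiteDimensional_xj' N h
  have htr := FFBasics.transcendental_xj N h
  obtain ⟨-, hrank⟩ := DescentDegree.finrank_map_of_linDisj (BarToC.linDisj N BarToC.iota)
    (BarToC.adjoin_range_phi N BarToC.iota) htr
  rw [← hrank, BarToC.phi_jq N BarToC.iota h]
  exact CountsFC.finrank_FC N

end Fermat.Agent.S24.DegreeQbar
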