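import Mathlib
import Fermat.Prelude.Def_AlgebraicCurve_DivisorClassGroup
import Fermat.Agent.S24.CountsC

/-!
# S24 / B2: uniqueness of the extension of a place under a constant field extension

`K ⊆ L` fields, `F / K` and `F' / L` fields, `φ : F →ₐ[K] F'` with `F' = L(φ F)`.
Let `v` be a place of `F / K` whose residue field is `K` (automatic when `K` is algebraically
closed).  Then there is **at most one** valuation subring `O'` of `F'` containing `L` with
`φ⁻¹(O') = O_v`, and a uniformizer of `v` stays a uniformizer: `ord_{v'} (φ f) = ord_v f`.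

No tensor product of rings / localisation / normality is needed: only the expansion of an
element of `L[φ F]` along a `K`-basis of `L`.

Namespace `Fermat.Agent.S24.ExtUnique`.
-/

set_option autoImplicit false
set_option linter.unusedSectionVars false

namespace Fermat.Agent.S24.ExtUnique

open AlgebraicCurve TensorProduct

variable {K L F F' : Type*} [Field K] [Field L] [Field F] [Field F']
  [Algebra K L] [Algebra K F] [Algebra L F'] [Algebra K F'] [IsScalarTower K L F']

/-! ### Elements of `L[φ F]` as sums along a `K`-basis of `L` -/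

/-- Every element of `L[φ F]` is `∑ ℬ i * φ (b i)` for a finitely supported `b`, where `ℬ` is a
`K`-basis of `L`. -/
theorem exists_finsupp_of_mem_adjoin (φ : F →ₐ[K] F') {ι : Type*} (ℬ : Module.Basis ι K L)
    {a : F'} (ha : a ∈ Algebra.adjoin L (Set.range φ)) :
    ∃ b : ι →₀ F, a = b.sum fun i f => algebraMap L F' (ℬ i) * φ f := by
  classical
  let μ : L ⊗[K] F →ₐ[L] F' := Algebra.TensorProduct.productLeftAlgHom (Algebra.ofId L F') φ
  have hμ : ∀ (l : L) (f : F), μ (l ⊗ₜ f) = algebraMap L F' l * φ f := fun l f => by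
    simp [μ, Algebra.ofId_apply]
  have hrange : a ∈ μ.range := by
    have hle : Algebra.adjoin L (Set.range φ) ≤ μ.range := by
      apply Algebra.adjoin_le
      rintro _ ⟨f, rfl⟩
      exact ⟨1 ⊗ₜ f, by show μ (1 ⊗ₜ f) = φ f; rw [hμ]; simp⟩
    exact hle ha
  obtain ⟨t, rfl⟩ := hrange
  obtain ⟨b, rfl⟩ := TensorProduct.eq_repr_basis_left ℬ t
  refine ⟨b, ?_⟩
  rw [Finsupp.sum, map_sum, Finsupp.sum]
  exact Finset.sum_congr rfl fun i _ => hμ _ _

/-! ### Valuation subrings above a place -/

/-- `O'` is a valuation subring of `F'` containing the constants `L` and restricting to the place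
`v` of `F`. -/
structure IsAbove (φ : F →ₐ[K] F') (v : Place K F) (O' : ValuationSubring F') : Prop where
  const_mem : ∀ l : L, algebraMap L F' l ∈ O'
  map_mem_iff : ∀ f : F, φ f ∈ O' ↔ f ∈ v.toValuationSubring

namespace IsAbove

variable {φ : F →ₐ[K] F'} {v : Place K F} {O' : ValuationSubring F'}

theorem valuation_const (h : IsAbove (L := L) φ v O') {l : L} (hl : l ≠ 0) :
    O'.valuation (algebraMap L F' l) = 1 := by
  have h1 : O'.valuation (algebraMap L F' l) ≤ 1 :=
    (ValuationSubring.valuation_le_one_iff _ _).mpr (h.const_mem l)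
  have h2 : O'.valuation (algebraMap L F' l⁻¹) ≤ 1 :=
    (ValuationSubring.valuation_le_one_iff _ _).mpr (h.const_mem l⁻¹)
  rw [map_inv₀, map_inv₀] at h2
  have h0 : O'.valuation (algebraMap L F' l) ≠ 0 := by
    rw [Valuation.ne_zero_iff]
    exact (map_ne_zero _).mpr hl
  have h3 : 1 ≤ O'.valuation (algebraMap L F' l) := by
    rwa [inv_le_one₀ (zero_lt_iff.mpr h0)] at h2
  exact le_antisymm h1 h3

theorem valuation_const_le (h : IsAbove (L := L) φ v O') (l : L) :
    O'.valuation (algebraMap L F' l) ≤ 1 :=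
  (ValuationSubring.valuation_le_one_iff _ _).mpr (h.const_mem l)

theorem valuation_map_le (h : IsAbove (L := L) φ v O') {f : F} (hf : f ∈ v.toValuationSubring) :
    O'.valuation (φ f) ≤ 1 :=
  (ValuationSubring.valuation_le_one_iff _ _).mpr ((h.map_mem_iff f).mpr hf)

/-- Elements of `m_v` go to elements of valuation `< 1`. -/
theorem valuation_map_lt (h : IsAbove (L := L) φ v O') {f : F}
    (hf : f ∈ v.toValuationSubring.nonunits) : O'.valuation (φ f) < 1 := by
  rcases eq_or_ne f 0 with rfl | h0
  · simp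
  · have hinv : f⁻¹ ∉ v.toValuationSubring := by
      intro hmem
      have hfm : f ∈ v.toValuationSubring := v.toValuationSubring.nonunits_subset hf
      rw [ValuationSubring.mem_nonunits_iff_exists_mem_maximalIdeal] at hf
      obtain ⟨hfm', hmax⟩ := hf
      rw [IsLocalRing.mem_maximalIdeal, mem_nonunits_iff] at hmax
      apply hmax
      refine IsUnit.of_mul_eq_one (⟨f⁻¹, hmem⟩ : v.toValuationSubring) ?_
      ext
      simp [mul_inv_cancel₀ h0]
    have h1 : ¬ O'.valuation (φ f⁻¹) ≤ 1 := by
      rw [ValuationSubring.valuation_le_one_iff, h.map_mem_iff]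
      exact hinv
    rw [map_inv₀, map_inv₀, not_le] at h1
    have hpos : 0 < O'.valuation (φ f) := by
      rw [zero_lt_iff, Valuation.ne_zero_iff]
      exact (map_ne_zero _).mpr h0
    exact (one_lt_inv₀ hpos).mp h1

end IsAbove

/-! ### The key lemma -/

variable {φ : F →ₐ[K] F'} {v : Place K F}

/-- `π ^ n ∈ O_v` for `n ≥ 0`. -/
theorem zpow_mem_of_nonneg (π : v.toValuationSubring) {n : ℤ} (hn : 0 ≤ n) :
    ((π : F) ^ n) ∈ v.toValuationSubring := by
  obtain ⟨k, rfl⟩ := Int.eq_ofNat_of_zero_le hn
  rw [zpow_natCast]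
  exact pow_mem π.2 k

/-- **Key lemma.** A nonzero sum `∑ ℬ i * φ (b i)` along a `K`-basis `ℬ` of `L` is
`φ(π)^k * y` where `y` is a unit of EVERY valuation subring above `v`. -/
theorem exists_zpow_mul_unit
    (hres : ∀ u : v.toValuationSubring, ∃ c : K,
      u - algebraMap K v.toValuationSubring c ∈ IsLocalRing.maximalIdeal v.toValuationSubring)
    {π : v.toValuationSubring} (hπ : Irreducible π)
    {ι : Type*} (ℬ : Module.Basis ι K L) (b : ι →₀ F) (hb : b ≠ 0) :
    ∃ (k : ℤ) (y : F'),
      (b.sum fun i f => algebraMap L F' (ℬ i) * φ f) = φ (π : F) ^ k * y ∧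
      ∀ O' : ValuationSubring F', IsAbove (L := L) φ v O' → O'.valuation y = 1 := by
  classical
  have hπ0 : (π : F) ≠ 0 := by
    simpa [ne_eq, ZeroMemClass.coe_eq_zero] using hπ.ne_zero
  have hsupp : b.support.Nonempty := Finsupp.support_nonempty_iff.mpr hb
  -- the minimal order
  obtain ⟨i0, hi0, hmin⟩ := Finset.exists_min_image b.support (fun i => v.ord (b i)) hsupp
  set m : ℤ := v.ord (b i0) with hm
  -- the normalised coefficients
  have hdec : ∀ i, b i ≠ 0 → ∃ u : v.toValuationSubringˣ,
      b i = ((u : v.toValuationSubring) : F) * ((π : F) ^ (v.ord (b i))) :=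
    fun i hi => v.exists_unit_mul_zpow hi hπ
  have hgmem : ∀ i, b i * (π : F) ^ (-m) ∈ v.toValuationSubring := by
    intro i
    by_cases hi : b i = 0
    · rw [hi, zero_mul]; exact zero_mem _
    · obtain ⟨u, hu⟩ := hdec i hi
      have hle : m ≤ v.ord (b i) := hmin i (Finsupp.mem_support_iff.mpr hi)
      have : b i * (π : F) ^ (-m) =
          ((u : v.toValuationSubring) : F) * (π : F) ^ (v.ord (b i) - m) := by
        conv_lhs => rw [hu]
        rw [mul_assoc, ← zpow_add₀ hπ0, sub_eq_add_neg]
      rw [this]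
      exact mul_mem (u : v.toValuationSubring).2 (zpow_mem_of_nonneg π (by omega))
  let g : ι → v.toValuationSubring := fun i => ⟨b i * (π : F) ^ (-m), hgmem i⟩
  have hg : ∀ i, b i = (g i : F) * (π : F) ^ m := by
    intro i
    show b i = b i * (π : F) ^ (-m) * (π : F) ^ m
    rw [mul_assoc, ← zpow_add₀ hπ0, neg_add_cancel, zpow_zero, mul_one]
  choose c hc using fun i => hres (g i)
  -- `g i0` is a unit, so `c i0 ≠ 0`
  have hi0' : b i0 ≠ 0 := Finsupp.mem_support_iff.mp hi0
  have hgi0 : IsUnit (g i0) := by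
    obtain ⟨u, hu⟩ := hdec i0 hi0'
    have : g i0 = (u : v.toValuationSubring) := by
      ext
      show b i0 * (π : F) ^ (-m) = _
      conv_lhs => rw [hu]
      rw [mul_assoc, ← zpow_add₀ hπ0, ← hm, add_neg_cancel, zpow_zero, mul_one]
    rw [this]; exact u.isUnit
  have hci0 : c i0 ≠ 0 := by
    intro h0
    have := hc i0
    rw [h0, map_zero, sub_zero, IsLocalRing.mem_maximalIdeal, mem_nonunits_iff] at this
    exact this hgi0
  -- the constant part
  set lam0 : L := ∑ i ∈ b.support, c i • ℬ i with hlam0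
  have hlam0_ne : lam0 ≠ 0 := by
    intro h0
    have := (linearIndependent_iff'.mp ℬ.linearIndependent) b.support c h0 i0 hi0
    exact hci0 this
  refine ⟨m, ∑ i ∈ b.support, algebraMap L F' (ℬ i) * φ (g i : F), ?_, ?_⟩
  · rw [Finsupp.sum, Finset.mul_sum]
    refine Finset.sum_congr rfl fun i _ => ?_
    conv_lhs => rw [hg i]
    rw [map_mul, map_zpow₀]
    ring
  · intro O' hO'
    have hsplit : ∑ i ∈ b.support, algebraMap L F' (ℬ i) * φ (g i : F) =
        algebraMap L F' lam0 +
          ∑ i ∈ b.support, algebraMap L F' (ℬ i) * φ ((g i : F) - algebraMap K F (c i)) := by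
      rw [hlam0, map_sum, ← Finset.sum_add_distrib]
      refine Finset.sum_congr rfl fun i _ => ?_
      have hsm : algebraMap L F' (c i • ℬ i) = algebraMap K F' (c i) * algebraMap L F' (ℬ i) := by
        rw [Algebra.smul_def, map_mul, ← IsScalarTower.algebraMap_apply K L F']
      rw [hsm, map_sub, AlgHom.commutes]
      ring
    rw [hsplit]
    have h1 : O'.valuation (algebraMap L F' lam0) = 1 := hO'.valuation_const hlam0_ne
    have h2 : O'.valuation (∑ i ∈ b.support,
        algebraMap L F' (ℬ i) * φ ((g i : F) - algebraMap K F (c i))) < 1 := by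
      apply Valuation.map_sum_lt _ one_ne_zero
      intro i _
      rw [map_mul]
      have hnu : (g i : F) - algebraMap K F (c i) ∈ v.toValuationSubring.nonunits := by
        have := hc i
        rw [← ValuationSubring.coe_mem_nonunits_iff] at this
        simpa using this
      calc O'.valuation (algebraMap L F' (ℬ i)) *
            O'.valuation (φ ((g i : F) - algebraMap K F (c i)))
          ≤ 1 * O'.valuation (φ ((g i : F) - algebraMap K F (c i))) := by
            gcongr
            exact hO'.valuation_const_le _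
        _ = O'.valuation (φ ((g i : F) - algebraMap K F (c i))) := one_mul _
        _ < 1 := hO'.valuation_map_lt hnu
    rw [Valuation.map_add_eq_of_lt_left _ (by rw [h1]; exact h2), h1]

/-- Every nonzero element of `F' = L(φ F)` is `φ(π)^k * y` with `y` a unit of every valuation
subring above `v`. -/
theorem exists_zpow_mul_unit_of_ne_zero
    (hgen : IntermediateField.adjoin L (Set.range φ) = ⊤)
    (hres : ∀ u : v.toValuationSubring, ∃ c : K,
      u - algebraMap K v.toValuationSubring c ∈ IsLocalRing.maximalIdeal v.toValuationSubring)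
    {π : v.toValuationSubring} (hπ : Irreducible π) {u : F'} (hu : u ≠ 0) :
    ∃ (k : ℤ) (y : F'), u = φ (π : F) ^ k * y ∧
      ∀ O' : ValuationSubring F', IsAbove (L := L) φ v O' → O'.valuation y = 1 := by
  classical
  have hπ0 : φ (π : F) ≠ 0 := by
    rw [map_ne_zero]
    simpa [ne_eq, ZeroMemClass.coe_eq_zero] using hπ.ne_zero
  have hmem : u ∈ IntermediateField.adjoin L (Set.range φ) := by rw [hgen]; trivial
  obtain ⟨r, hr, s, hs, rfl⟩ := IntermediateField.mem_adjoin_iff_div.mp hmem
  have hr0 : r ≠ 0 := fun h => hu (by rw [h, zero_div])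
  have hs0 : s ≠ 0 := fun h => hu (by rw [h, div_zero])
  let ℬ := Module.Basis.ofVectorSpace K L
  obtain ⟨br, hbr⟩ := exists_finsupp_of_mem_adjoin φ ℬ hr
  obtain ⟨bs, hbs⟩ := exists_finsupp_of_mem_adjoin φ ℬ hs
  have hbr0 : br ≠ 0 := by
    rintro rfl
    exact hr0 (by rw [hbr, Finsupp.sum_zero_index])
  have hbs0 : bs ≠ 0 := by
    rintro rfl
    exact hs0 (by rw [hbs, Finsupp.sum_zero_index])
  obtain ⟨kr, yr, hyr, hyr1⟩ := exists_zpow_mul_unit (φ := φ) hres hπ ℬ br hbr0
  obtain ⟨ks, ys, hys, hys1⟩ := exists_zpow_mul_unit (φ := φ) hres hπ ℬ bs hbs0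
  refine ⟨kr - ks, yr / ys, ?_, ?_⟩
  · rw [hbr, hbs, hyr, hys, zpow_sub₀ hπ0]
    have hys0 : ys ≠ 0 := by
      intro h0
      rw [hbs, hys, h0, mul_zero] at hs0
      exact hs0 rfl
    field_simp
  · intro O' hO'
    rw [map_div₀, hyr1 O' hO', hys1 O' hO', div_one]

/-- **Uniqueness, inclusion form**: two valuation subrings of `F' = L(φ F)` above the same place
`v` of `F` (with residue field `K`) are comparable, hence equal. -/
theorem le_of_isAbove
    (hgen : IntermediateField.adjoin L (Set.range φ) = ⊤)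
    (hres : ∀ u : v.toValuationSubring, ∃ c : K,
      u - algebraMap K v.toValuationSubring c ∈ IsLocalRing.maximalIdeal v.toValuationSubring)
    {O₁ O₂ : ValuationSubring F'} (h₁ : IsAbove (L := L) φ v O₁) (h₂ : IsAbove (L := L) φ v O₂) :
    O₁ ≤ O₂ := by
  intro u hu
  rcases eq_or_ne u 0 with rfl | hu0
  · exact zero_mem _
  obtain ⟨π, hπ⟩ := IsDiscreteValuationRing.exists_irreducible v.toValuationSubring
  obtain ⟨k, y, rfl, hy⟩ := exists_zpow_mul_unit_of_ne_zero (φ := φ) hgen hres hπ hu0
  -- `φ(π)^k = φ(π^k)` lies in `O₁`, hence `π^k ∈ O_v`, hence `φ(π^k) ∈ O₂`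
  have h1 : O₁.valuation (φ ((π : F) ^ k)) ≤ 1 := by
    have := (ValuationSubring.valuation_le_one_iff _ _).mpr hu
    rwa [map_mul, hy O₁ h₁, mul_one, ← map_zpow₀] at this
  have h2 : (π : F) ^ k ∈ v.toValuationSubring :=
    (h₁.map_mem_iff _).mp ((ValuationSubring.valuation_le_one_iff _ _).mp h1)
  have h3 : O₂.valuation (φ ((π : F) ^ k)) ≤ 1 := h₂.valuation_map_le h2
  rw [← ValuationSubring.valuation_le_one_iff, map_mul, hy O₂ h₂, mul_one, ← map_zpow₀]
  exact h3

/-- **Uniqueness**: at most one valuation subring of `F' = L(φ F)` containing `L` restricts to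
the place `v` of `F` (with residue field `K`). -/
theorem eq_of_isAbove
    (hgen : IntermediateField.adjoin L (Set.range φ) = ⊤)
    (hres : ∀ u : v.toValuationSubring, ∃ c : K,
      u - algebraMap K v.toValuationSubring c ∈ IsLocalRing.maximalIdeal v.toValuationSubring)
    {O₁ O₂ : ValuationSubring F'} (h₁ : IsAbove (L := L) φ v O₁) (h₂ : IsAbove (L := L) φ v O₂) :
    O₁ = O₂ :=
  le_antisymm (le_of_isAbove hgen hres h₁ h₂) (le_of_isAbove hgen hres h₂ h₁)

/-! ### Statements for places -/

/-- The place `v'` of `F' / L` lies above the place `v` of `F / K`. -/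
def PlaceAbove (φ : F →ₐ[K] F') (v : Place K F) (v' : Place L F') : Prop :=
  ∀ f : F, φ f ∈ v'.toValuationSubring ↔ f ∈ v.toValuationSubring

theorem PlaceAbove.isAbove {v' : Place L F'} (h : PlaceAbove φ v v') :
    IsAbove (L := L) φ v v'.toValuationSubring :=
  ⟨v'.algebraMap_mem', h⟩

/-- **Uniqueness for places.** -/
theorem place_ext_unique
    (hgen : IntermediateField.adjoin L (Set.range φ) = ⊤)
    (hres : ∀ u : v.toValuationSubring, ∃ c : K,
      u - algebraMap K v.toValuationSubring c ∈ IsLocalRing.maximalIdeal v.toValuationSubring)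
    {v₁ v₂ : Place L F'} (h₁ : PlaceAbove φ v v₁) (h₂ : PlaceAbove φ v v₂) : v₁ = v₂ :=
  Place.ext (eq_of_isAbove hgen hres h₁.isAbove h₂.isAbove)

/-- An element of valuation `1` at a place has order `0`. -/
theorem ord_eq_zero_of_valuation_eq_one {K₀ F₀ : Type*} [Field K₀] [Field F₀] [Algebra K₀ F₀]
    (w : Place K₀ F₀) {y : F₀} (hy : w.toValuationSubring.valuation y = 1) : w.ord y = 0 := by
  have hmem : y ∈ w.toValuationSubring :=
    (ValuationSubring.valuation_le_one_iff _ _).mp hy.le
  have hunit : IsUnit (⟨y, hmem⟩ : w.toValuationSubring) :=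
    (ValuationSubring.valuation_eq_one_iff _ _).mpr hy
  exact w.ord_coe_unit hunit.unit

/-- **`e = 1`**: a uniformizer of `v` stays a uniformizer above, i.e. orders are preserved. -/
theorem ord_map_eq
    (hgen : IntermediateField.adjoin L (Set.range φ) = ⊤)
    (hres : ∀ u : v.toValuationSubring, ∃ c : K,
      u - algebraMap K v.toValuationSubring c ∈ IsLocalRing.maximalIdeal v.toValuationSubring)
    {v' : Place L F'} (h : PlaceAbove φ v v') (f : F) : v'.ord (φ f) = v.ord f := by
  have hab := h.isAbove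
  obtain ⟨π, hπ⟩ := IsDiscreteValuationRing.exists_irreducible v.toValuationSubring
  obtain ⟨t, ht⟩ := IsDiscreteValuationRing.exists_irreducible v'.toValuationSubring
  have hπ0 : (π : F) ≠ 0 := by
    simpa [ne_eq, ZeroMemClass.coe_eq_zero] using hπ.ne_zero
  have hφπ0 : φ (π : F) ≠ 0 := (map_ne_zero _).mpr hπ0
  have ht0 : (t : F') ≠ 0 := by
    simpa [ne_eq, ZeroMemClass.coe_eq_zero] using ht.ne_zero
  -- `ord' (φ π) = 1`
  have hone : v'.ord (φ (π : F)) = 1 := by
    obtain ⟨k, y, hty, hy⟩ := exists_zpow_mul_unit_of_ne_zero (φ := φ) hgen hres hπ ht0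
    have hy0 : y ≠ 0 := by
      intro h0; rw [h0, mul_zero] at hty; exact ht0 hty
    have h1 : v'.ord (t : F') = 1 := v'.ord_coe_irreducible ht
    rw [hty, v'.ord_mul (zpow_ne_zero k hφπ0) hy0, v'.ord_zpow,
      ord_eq_zero_of_valuation_eq_one v' (hy _ hab), add_zero] at h1
    have hpos : 0 < v'.ord (φ (π : F)) := by
      rw [← CountsC.mem_nonunits_iff_ord_pos v' hφπ0, ValuationSubring.mem_nonunits_iff]
      apply hab.valuation_map_lt
      rw [ValuationSubring.coe_mem_nonunits_iff, hπ.maximalIdeal_eq]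
      exact Ideal.mem_span_singleton_self π
    rcases Int.eq_one_or_neg_one_of_mul_eq_one' h1 with ⟨_, h2⟩ | ⟨_, h2⟩
    · exact h2
    · omega
  rcases eq_or_ne f 0 with rfl | hf
  · simp
  obtain ⟨u, hu⟩ := v.exists_unit_mul_zpow hf hπ
  have hφu : v'.toValuationSubring.valuation (φ ((u : v.toValuationSubring) : F)) = 1 := by
    have h1 : v'.toValuationSubring.valuation (φ ((u : v.toValuationSubring) : F)) ≤ 1 :=
      hab.valuation_map_le (u : v.toValuationSubring).2
    have h2 : v'.toValuationSubring.valuation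
        (φ (((u⁻¹ : v.toValuationSubringˣ) : v.toValuationSubring) : F)) ≤ 1 :=
      hab.valuation_map_le ((u⁻¹ : v.toValuationSubringˣ) : v.toValuationSubring).2
    have h3 : φ ((u : v.toValuationSubring) : F) *
        φ (((u⁻¹ : v.toValuationSubringˣ) : v.toValuationSubring) : F) = 1 := by
      rw [← map_mul, ← MulMemClass.coe_mul, Units.mul_inv, OneMemClass.coe_one, map_one]
    have h4 := congrArg v'.toValuationSubring.valuation h3
    rw [map_mul, map_one] at h4
    refine le_antisymm h1 ?_
    by_contra hlt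
    rw [not_le] at hlt
    have : v'.toValuationSubring.valuation (φ ((u : v.toValuationSubring) : F)) *
        v'.toValuationSubring.valuation
          (φ (((u⁻¹ : v.toValuationSubringˣ) : v.toValuationSubring) : F)) < 1 :=
      mul_lt_one_of_lt_of_le hlt h2
    exact absurd h4 this.ne
  have hφu0 : φ ((u : v.toValuationSubring) : F) ≠ 0 := by
    intro h0; rw [h0, map_zero] at hφu; exact zero_ne_one hφu
  conv_lhs => rw [hu]
  rw [map_mul, map_zpow₀, v'.ord_mul hφu0 (zpow_ne_zero _ hφπ0), v'.ord_zpow, hone,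
    ord_eq_zero_of_valuation_eq_one v' hφu]
  ring

end Fermat.Agent.S24.ExtUnique
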