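/-
M2b / S24, task B1 (helper1): coefficientwise base change of Laurent series preserves linear
independence (linear disjointness of `L` and `K((q))` over `K` inside `L((q))`).
-/
import Mathlib
import Fermat.Prelude.Def_ModularCurve_LaurentCoeff
import Fermat.Prelude.Def_ModularCurve_JqCoeff

set_option autoImplicit false

open ModularCurve

namespace Fermat.Agent.S24.LaurentDisjoint

variable {K L : Type*} [Field K] [Field L] [Algebra K L]

/-- Coefficientwise base change `K((q)) → L((q))`. -/
noncomputable abbrev mapL (K L : Type*) [Field K] [Field L] [Algebra K L] :
    LaurentSeries K →+* LaurentSeries L :=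
  coeffMap (algebraMap K L)

theorem mapL_coeff (x : LaurentSeries K) (k : ℤ) :
    (mapL K L x).coeff k = algebraMap K L (x.coeff k) := rfl

theorem mapL_injective : Function.Injective (mapL K L) := (mapL K L).injective

theorem mapL_algebraMap (c : K) :
    mapL K L (algebraMap K (LaurentSeries K) c) =
      algebraMap L (LaurentSeries L) (algebraMap K L c) := by
  rw [algebraMap_laurentSeries_eq_single, algebraMap_laurentSeries_eq_single, coeffMap_single]

/-- `mapL` is `K`-linear when `L((q))` is regarded as a `K`-module through `L`. -/
theorem mapL_smul (c : K) (x : LaurentSeries K) :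
    mapL K L (c • x) = (algebraMap K L c) • mapL K L x := by
  ext k
  rw [HahnSeries.coeff_smul, mapL_coeff, HahnSeries.coeff_smul, mapL_coeff, smul_eq_mul, map_mul,
    smul_eq_mul]

/-- Linear disjointness: a `K`-linearly independent family of Laurent series stays
`L`-linearly independent after coefficientwise base change. -/
theorem linearIndependent_mapL {ι : Type*} (b : ι → LaurentSeries K)
    (hb : LinearIndependent K b) :
    LinearIndependent L (fun i => mapL K L (b i)) := by
  classical
  rw [linearIndependent_iff']
  intro s g hg i hi
  -- a `K`-basis of `L`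
  let e := Module.Basis.ofVectorSpace K L
  -- it suffices to show that all coordinates of `g i` vanish
  apply e.repr.injective
  ext j
  rw [map_zero, Finsupp.zero_apply]
  -- the `j`-th coordinates give a `K`-linear relation between the `b i`
  have hrel : ∑ i ∈ s, (e.repr (g i) j) • b i = 0 := by
    ext k
    rw [HahnSeries.coeff_zero]
    have hk : ∑ i ∈ s, g i * algebraMap K L ((b i).coeff k) = 0 := by
      have := congrArg (fun x : LaurentSeries L => x.coeff k) hg
      simpa [HahnSeries.coeff_sum, mapL_coeff] using this
    have hk' := congrArg (fun y => e.repr y j) hk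
    simp only [map_sum, Finsupp.coe_finsetSum, Finset.sum_apply, map_zero,
      Finsupp.zero_apply] at hk'
    rw [HahnSeries.coeff_sum]
    rw [← hk']
    refine Finset.sum_congr rfl fun i _ => ?_
    rw [HahnSeries.coeff_smul, mul_comm (g i), ← Algebra.smul_def, map_smul,
      Finsupp.smul_apply, smul_eq_mul, smul_eq_mul, mul_comm]
  exact (linearIndependent_iff'.mp hb) s (fun i => e.repr (g i) j) hrel i hi

/-- Set form of `linearIndependent_mapL`. -/
theorem linearIndepOn_mapL (s : Set (LaurentSeries K))
    (hs : LinearIndependent K ((↑) : s → LaurentSeries K)) :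
    LinearIndependent L (fun x : s => mapL K L (x : LaurentSeries K)) :=
  linearIndependent_mapL _ hs

theorem mapL_jqModC : mapL K L (jqModC K) = jqModC L := map_jqModC (algebraMap K L)

end Fermat.Agent.S24.LaurentDisjoint
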