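/-
M2b / S24, task B2(b), final form (file PlaceCount.lean; was CardTransfer.lean before that path was reused): the number of zeros of `x` is invariant under a linearly
disjoint extension of the (algebraically closed) constant field.

Glue between `PlaceExtend` (bijection of places), `Transfer.LinDisj` (helper1's definition of
linear disjointness), `Hurwitz.residueTrivial` and `PrincipalDegree.finite_residueField`.
-/
import Mathlib
import Fermat.Agent.S24.PlaceExtend
import Fermat.Agent.S24.Transfer
import Fermat.Agent.S24.Hurwitz
import Fermat.Agent.S24.PrincipalDegree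

set_option autoImplicit false

namespace Fermat.Agent.S24.PlaceCount

open AlgebraicCurve IntermediateField

variable {K L F F' : Type*} [Field K] [Field L] [Field F] [Field F']
  [Algebra K L] [Algebra K F] [Algebra L F'] [Algebra K F'] [IsScalarTower K L F']
  {φ : F →ₐ[K] F'}

/-- helper1's set form of linear disjointness implies the finite-family form used in
`PlaceExtend`. -/
theorem linDisj_of_transfer (hφ : Transfer.LinDisj L φ) : PlaceExtend.LinDisj L φ :=
  fun _ _ hb => hφ.linearIndependent hb

/-- **B2(b)**, `nonunits` form, with finiteness of the residue fields as a hypothesis. -/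
theorem card_transfer [IsAlgClosed K] (hφ : Transfer.LinDisj L φ)
    (hgen : IntermediateField.adjoin L (Set.range φ) = ⊤)
    (hfin : ∀ v : Place K F, Module.Finite K v.ResidueField) {x : F} (hx0 : x ≠ 0) :
    Nat.card {v : Place K F // x ∈ v.toValuationSubring.nonunits} =
      Nat.card {v' : Place L F' // φ x ∈ v'.toValuationSubring.nonunits} :=
  PlaceExtend.card_zeros_eq (linDisj_of_transfer hφ) hgen hx0 fun v _ =>
    haveI : v.FiniteResidue := ⟨hfin v⟩
    Hurwitz.residueTrivial v

/-- **B2(b)**, `0 < ord` form (the `zeroCard` of the S24 interface). -/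
theorem card_transfer_ord [IsAlgClosed K] (hφ : Transfer.LinDisj L φ)
    (hgen : IntermediateField.adjoin L (Set.range φ) = ⊤)
    (hfin : ∀ v : Place K F, Module.Finite K v.ResidueField) {x : F} (hx0 : x ≠ 0) :
    Nat.card {v : Place K F // 0 < v.ord x} =
      Nat.card {v' : Place L F' // 0 < v'.ord (φ x)} :=
  PlaceExtend.card_ord_pos_eq (linDisj_of_transfer hφ) hgen hx0 fun v _ =>
    haveI : v.FiniteResidue := ⟨hfin v⟩
    Hurwitz.residueTrivial v

/-- **B2(b)** for a function field of one variable over an algebraically closed field of
characteristic zero: `F / K(h)` finite, `h` transcendental. -/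
theorem card_transfer_of_transcendental [IsAlgClosed K] [CharZero K]
    (hφ : Transfer.LinDisj L φ) (hgen : IntermediateField.adjoin L (Set.range φ) = ⊤)
    {h : F} (htr : Transcendental K h) [FiniteDimensional K⟮h⟯ F] {x : F} (hx0 : x ≠ 0) :
    Nat.card {v : Place K F // x ∈ v.toValuationSubring.nonunits} =
      Nat.card {v' : Place L F' // φ x ∈ v'.toValuationSubring.nonunits} :=
  card_transfer hφ hgen (fun v => Fermat.Agent.S24.finite_residueField htr v) hx0

/-- The `0 < ord` form of `card_transfer_of_transcendental`. -/
theorem card_transfer_ord_of_transcendental [IsAlgClosed K] [CharZero K]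
    (hφ : Transfer.LinDisj L φ) (hgen : IntermediateField.adjoin L (Set.range φ) = ⊤)
    {h : F} (htr : Transcendental K h) [FiniteDimensional K⟮h⟯ F] {x : F} (hx0 : x ≠ 0) :
    Nat.card {v : Place K F // 0 < v.ord x} =
      Nat.card {v' : Place L F' // 0 < v'.ord (φ x)} :=
  card_transfer_ord hφ hgen (fun v => Fermat.Agent.S24.finite_residueField htr v) hx0

/-- Extensions preserve `ord` (ramification index one). -/
theorem ord_map_of_extends [IsAlgClosed K]
    (hgen : IntermediateField.adjoin L (Set.range φ) = ⊤)
    {v : Place K F} (hfin : Module.Finite K v.ResidueField) {v' : Place L F'}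
    (h : PlaceExtend.Extends L φ v v') (f : F) : v'.ord (φ f) = v.ord f :=
  haveI : v.FiniteResidue := ⟨hfin⟩
  PlaceExtend.Extends.ord_map hgen (Hurwitz.residueTrivial v) h f

end Fermat.Agent.S24.PlaceCount
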