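import Fermat.Agent.S24.QExpDelta
import Fermat.Agent.M2.CuspVal
import Fermat.Agent.M2.JN

/-!
# M2b / S24 / B3 (part 3): `q`-expansions of holomorphic / meromorphic-at-`i∞` periodic functions

* `IsHol F` : `F : ℍ → ℂ` is holomorphic, `1`-periodic and bounded at `i∞`;
* `IsMer f` : holomorphic, `1`-periodic, and `f * Δ ^ m` bounded at `i∞` for some `m`;
* `qexpFun f : LaurentSeries ℂ`, the Laurent `q`-expansion; the key property is
  `qexpFun_mul_ofPS : qexpFun f * ofPS (qExpansion 1 u) = ofPS (qExpansion 1 (f * u))`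
  for every holomorphic bounded multiplier `u` with `f * u` bounded;
* additivity, multiplicativity, constants, injectivity;
* behaviour under `z ↦ d z` : `qexpFun (f ∘ scaleH d) = qExpand ℂ d (qexpFun f)`.
-/

set_option autoImplicit false

namespace Fermat.Agent.S24.QExp

open UpperHalfPlane ModularForm MatrixGroups Filter Function
open Fermat.Agent.M2
open scoped Manifold Topology

local notation "Δ" => ModularForm.discriminant
local notation "ofPS" => HahnSeries.ofPowerSeries ℤ ℂ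

/-- Holomorphic on `ℍ`, `1`-periodic, bounded at `i∞`. -/
structure IsHol (F : ℍ → ℂ) : Prop where
  mdiff : MDiff F
  periodic : Periodic (F ∘ ofComplex) ((1 : ℝ) : ℂ)
  bdd : IsBoundedAtImInfty F

namespace IsHol

variable {F G : ℍ → ℂ}

lemma analyticAt (hF : IsHol F) : AnalyticAt ℂ (cuspFunction 1 F) 0 :=
  analyticAt_cuspFunction_zero one_pos hF.periodic hF.mdiff hF.bdd

lemma mul (hF : IsHol F) (hG : IsHol G) : IsHol (F * G) := by
  refine ⟨hF.mdiff.mul hG.mdiff, fun w => ?_, hF.bdd.mul hG.bdd⟩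
  have h1 := hF.periodic w
  have h2 := hG.periodic w
  simp only [comp_apply, Pi.mul_apply] at h1 h2 ⊢
  rw [h1, h2]

lemma add (hF : IsHol F) (hG : IsHol G) : IsHol (F + G) := by
  refine ⟨hF.mdiff.add hG.mdiff, fun w => ?_, hF.bdd.add hG.bdd⟩
  have h1 := hF.periodic w
  have h2 := hG.periodic w
  simp only [comp_apply, Pi.add_apply] at h1 h2 ⊢
  rw [h1, h2]

lemma const (c : ℂ) : IsHol (fun _ : ℍ => c) :=
  ⟨mdifferentiable_const, fun _ => rfl, Filter.const_boundedAtFilter atImInfty c⟩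

lemma one : IsHol (1 : ℍ → ℂ) := const 1

lemma pow (hF : IsHol F) (n : ℕ) : IsHol (F ^ n) := by
  induction n with
  | zero => simpa using one
  | succ n ih => rw [pow_succ]; exact ih.mul hF

lemma qExpansion_mul (hF : IsHol F) (hG : IsHol G) :
    qExpansion 1 (F * G) = qExpansion 1 F * qExpansion 1 G :=
  UpperHalfPlane.qExpansion_mul hF.analyticAt hG.analyticAt

lemma qExpansion_add (hF : IsHol F) (hG : IsHol G) :
    qExpansion 1 (F + G) = qExpansion 1 F + qExpansion 1 G :=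
  UpperHalfPlane.qExpansion_add hF.analyticAt hG.analyticAt

lemma qExpansion_pow (hF : IsHol F) (n : ℕ) : qExpansion 1 (F ^ n) = qExpansion 1 F ^ n := by
  induction n with
  | zero => simpa using qExpansion_one 1
  | succ n ih => rw [pow_succ, pow_succ, (hF.pow n).qExpansion_mul hF, ih]

lemma qExpansion_eq_zero_iff (hF : IsHol F) : qExpansion 1 F = 0 ↔ F = 0 :=
  UpperHalfPlane.qExpansion_eq_zero_iff one_pos hF.periodic hF.mdiff hF.bdd

lemma ofPS_ne_zero (hF : IsHol F) (h0 : F ≠ 0) : ofPS (qExpansion 1 F) ≠ 0 := by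
  intro h
  apply h0
  rw [← hF.qExpansion_eq_zero_iff]
  exact HahnSeries.ofPowerSeries_injective (by rw [h, map_zero])

lemma qExpansion_const (c : ℂ) : qExpansion 1 (fun _ : ℍ => c) = PowerSeries.C c := by
  have h : (fun _ : ℍ => c) = c • (1 : ℍ → ℂ) := by
    funext z; simp
  rw [h, qExpansion_smul one.analyticAt, qExpansion_one]
  ext n
  simp [PowerSeries.coeff_C, PowerSeries.coeff_one]

lemma ofModularForm {k : ℤ} (f : ModularForm 𝒮ℒ k) : IsHol (f : ℍ → ℂ) :=
  ⟨f.holo', SlashInvariantFormClass.periodic_comp_ofComplex f (by simp),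
    ModularFormClass.bdd_at_infty f⟩

lemma discriminant : IsHol (Δ : ℍ → ℂ) :=
  ⟨mdiff_discriminant,
    SlashInvariantFormClass.periodic_comp_ofComplex CuspForm.discriminant (by simp),
    discriminant_isZeroAtImInfty.boundedAtFilter⟩

end IsHol

lemma discriminant_pow_ne_zero (m : ℕ) : (Δ ^ m : ℍ → ℂ) ≠ 0 := by
  intro h
  have := congrFun h UpperHalfPlane.I
  simp only [Pi.pow_apply, Pi.zero_apply] at this
  exact pow_ne_zero m (discriminant_ne_zero _) this

/-- Holomorphic on `ℍ`, `1`-periodic, meromorphic at `i∞`. -/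
structure IsMer (f : ℍ → ℂ) : Prop where
  mdiff : MDiff f
  periodic : Periodic (f ∘ ofComplex) ((1 : ℝ) : ℂ)
  mero : ∃ m : ℕ, IsBoundedAtImInfty (f * Δ ^ m)

namespace IsMer

variable {f g : ℍ → ℂ}

lemma isHol_mul (hf : IsMer f) {m : ℕ} (hm : IsBoundedAtImInfty (f * Δ ^ m)) :
    IsHol (f * Δ ^ m) := by
  refine ⟨hf.mdiff.mul (IsHol.discriminant.pow m).mdiff, fun w => ?_, hm⟩
  have h1 := hf.periodic w
  have h2 := (IsHol.discriminant.pow m).periodic w
  simp only [comp_apply, Pi.mul_apply] at h1 h2 ⊢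
  rw [h1, h2]

lemma isHol_mul_add (hf : IsMer f) {m : ℕ} (hm : IsBoundedAtImInfty (f * Δ ^ m)) (k : ℕ) :
    IsHol (f * Δ ^ (m + k)) := by
  have := (hf.isHol_mul hm).mul (IsHol.discriminant.pow k)
  rwa [mul_assoc, ← pow_add] at this

lemma of_isHol {F : ℍ → ℂ} (hF : IsHol F) : IsMer F :=
  ⟨hF.mdiff, hF.periodic, ⟨0, by simpa using hF.bdd⟩⟩

lemma of_isWH {Γ : Subgroup SL(2, ℤ)} (hT : ModularGroup.T ∈ Γ) (hf : IsWH Γ f) : IsMer f := by
  refine ⟨hf.1, ?_, ?_⟩
  · have : ∀ z : ℍ, f ((1 : ℝ) +ᵥ z) = f z := by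
      intro z
      have h1 := hf.2.1 _ hT z
      rwa [UpperHalfPlane.modular_T_smul] at h1
    exact CuspVal.periodic_of_vadd this
  · obtain ⟨m, hm⟩ := hf.2.2 1
    refine ⟨m, ?_⟩
    have e : (f * Δ ^ m) = fun z : ℍ => f ((1 : SL(2, ℤ)) • z) * Δ z ^ m := by
      funext z; simp
    rw [e]; exact hm

end IsMer

/-- The `q`-expansion of `Δ` as a Laurent series. -/
noncomputable def qD : LaurentSeries ℂ := ofPS (qExpansion 1 Δ)

lemma qD_ne_zero : qD ≠ 0 :=
  IsHol.discriminant.ofPS_ne_zero (by simpa using discriminant_pow_ne_zero 1)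

open scoped Classical in
/-- The Laurent `q`-expansion at `i∞` (junk unless `IsMer f`). -/
noncomputable def qexpFun (f : ℍ → ℂ) : LaurentSeries ℂ :=
  if h : ∃ m : ℕ, IsBoundedAtImInfty (f * Δ ^ m) then
    ofPS (qExpansion 1 (f * Δ ^ (Classical.choose h))) * (qD⁻¹) ^ (Classical.choose h)
  else 0

variable {f g u : ℍ → ℂ}

/-- Key property: the Laurent expansion can be computed with any bounded multiplier. -/
theorem qexpFun_mul_ofPS (hf : IsMer f) (hu : IsHol u) (hfu : IsHol (f * u)) :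
    qexpFun f * ofPS (qExpansion 1 u) = ofPS (qExpansion 1 (f * u)) := by
  have h := hf.mero
  rw [qexpFun, dif_pos h]
  set m := Classical.choose h with hm
  have hb : IsBoundedAtImInfty (f * Δ ^ m) := Classical.choose_spec h
  have H0 : IsHol (f * Δ ^ m) := hf.isHol_mul hb
  have e : (f * Δ ^ m) * u = (f * u) * Δ ^ m := mul_right_comm _ _ _
  have e2 : qExpansion 1 (f * Δ ^ m) * qExpansion 1 u =
      qExpansion 1 (f * u) * qExpansion 1 Δ ^ m := by
    rw [← H0.qExpansion_mul hu, e, hfu.qExpansion_mul (IsHol.discriminant.pow m),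
      IsHol.discriminant.qExpansion_pow]
  have e3 := congrArg (fun p => ofPS p) e2
  simp only [map_mul, map_pow] at e3
  have hq : qD ^ m ≠ 0 := pow_ne_zero m qD_ne_zero
  calc ofPS (qExpansion 1 (f * Δ ^ m)) * qD⁻¹ ^ m * ofPS (qExpansion 1 u)
      = (ofPS (qExpansion 1 (f * Δ ^ m)) * ofPS (qExpansion 1 u)) * qD⁻¹ ^ m := by ring
    _ = ofPS (qExpansion 1 (f * u)) * qD ^ m * qD⁻¹ ^ m := by rw [e3]; rfl
    _ = ofPS (qExpansion 1 (f * u)) := by
        rw [inv_pow, mul_assoc, mul_inv_cancel₀ hq, mul_one]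

theorem qexpFun_of_isHol {F : ℍ → ℂ} (hF : IsHol F) : qexpFun F = ofPS (qExpansion 1 F) := by
  have := qexpFun_mul_ofPS (IsMer.of_isHol hF) IsHol.one (by simpa using hF)
  simpa [qExpansion_one] using this

theorem qexpFun_const (c : ℂ) : qexpFun (fun _ : ℍ => c) = HahnSeries.C c := by
  rw [qexpFun_of_isHol (IsHol.const c), IsHol.qExpansion_const, HahnSeries.ofPowerSeries_C]

theorem qexpFun_add (hf : IsMer f) (hg : IsMer g) (hfg : IsMer (f + g)) :
    qexpFun (f + g) = qexpFun f + qexpFun g := by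
  obtain ⟨m₁, h₁⟩ := hf.mero
  obtain ⟨m₂, h₂⟩ := hg.mero
  have H1 : IsHol (f * Δ ^ (m₁ + m₂)) := hf.isHol_mul_add h₁ m₂
  have H2 : IsHol (g * Δ ^ (m₁ + m₂)) := by
    have := hg.isHol_mul_add h₂ m₁
    rwa [add_comm] at this
  have H3 : IsHol ((f + g) * Δ ^ (m₁ + m₂)) := by
    rw [add_mul]; exact H1.add H2
  have hu := IsHol.discriminant.pow (m₁ + m₂)
  have hU : ofPS (qExpansion 1 (Δ ^ (m₁ + m₂))) ≠ 0 :=
    hu.ofPS_ne_zero (discriminant_pow_ne_zero _)
  apply mul_right_cancel₀ hU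
  have e : (f + g) * Δ ^ (m₁ + m₂) = f * Δ ^ (m₁ + m₂) + g * Δ ^ (m₁ + m₂) := add_mul _ _ _
  rw [qexpFun_mul_ofPS hfg hu H3, add_mul (qexpFun f), qexpFun_mul_ofPS hf hu H1,
    qexpFun_mul_ofPS hg hu H2, e, H1.qExpansion_add H2, map_add]

theorem qexpFun_mul (hf : IsMer f) (hg : IsMer g) (hfg : IsMer (f * g)) :
    qexpFun (f * g) = qexpFun f * qexpFun g := by
  obtain ⟨m₁, h₁⟩ := hf.mero
  obtain ⟨m₂, h₂⟩ := hg.mero
  have H1 : IsHol (f * Δ ^ m₁) := hf.isHol_mul h₁
  have H2 : IsHol (g * Δ ^ m₂) := hg.isHol_mul h₂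
  have hu1 := IsHol.discriminant.pow m₁
  have hu2 := IsHol.discriminant.pow m₂
  have e : (f * g) * (Δ ^ m₁ * Δ ^ m₂) = (f * Δ ^ m₁) * (g * Δ ^ m₂) := mul_mul_mul_comm _ _ _ _
  have H3 : IsHol ((f * g) * (Δ ^ m₁ * Δ ^ m₂)) := by rw [e]; exact H1.mul H2
  have hU : ofPS (qExpansion 1 (Δ ^ m₁ * Δ ^ m₂)) ≠ 0 := by
    refine (hu1.mul hu2).ofPS_ne_zero ?_
    rw [← pow_add]; exact discriminant_pow_ne_zero _
  apply mul_right_cancel₀ hU
  rw [qexpFun_mul_ofPS hfg (hu1.mul hu2) H3, e, H1.qExpansion_mul H2, map_mul,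
    ← qexpFun_mul_ofPS hf hu1 H1, ← qexpFun_mul_ofPS hg hu2 H2, hu1.qExpansion_mul hu2, map_mul]
  ring

theorem eq_zero_of_qexpFun_eq_zero (hf : IsMer f) (h : qexpFun f = 0) : f = 0 := by
  obtain ⟨m, hm⟩ := hf.mero
  have H := hf.isHol_mul hm
  have h1 := qexpFun_mul_ofPS hf (IsHol.discriminant.pow m) H
  rw [h, zero_mul] at h1
  have h2 : qExpansion 1 (f * Δ ^ m) = 0 :=
    HahnSeries.ofPowerSeries_injective (by rw [← h1, map_zero])
  have h3 := H.qExpansion_eq_zero_iff.mp h2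
  funext z
  have := congrFun h3 z
  simp only [Pi.mul_apply, Pi.pow_apply, Pi.zero_apply] at this
  exact (mul_eq_zero.mp this).resolve_right (pow_ne_zero m (discriminant_ne_zero z))

end Fermat.Agent.S24.QExp
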